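import Mathlib

/-!
# Additive maps from a finite field with a twisted Frobenius symmetry

An additive map `T : k → κ` with `T (ρ b) = r * T b` and `T (γ b) = c * T b ^ (p ^ m)`, where the
exponents `i` with `ρ ^ (p ^ i) = r` form one class modulo `m`, is determined by one coefficient,
which satisfies an equation of degree `#k`; so there are at most `#k` of them (`card_twisted_le`,
using the expansion `exists_coeff_addMonoidHom` in `p`-power maps).
-/

set_option autoImplicit false

noncomputable section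

namespace FLTAgent.LocP

open Polynomial

variable {k κ : Type} [Field k] [Finite k] [Field κ] {p : ℕ} [Fact p.Prime] [CharP k p]
  [CharP κ p]

theorem exists_card_eq_pow (k : Type) [Field k] [Finite k] (p : ℕ) [CharP k p] :
    ∃ f, 0 < f ∧ Nat.card k = p ^ f := by
  have := Fintype.ofFinite k
  obtain ⟨n, -, hn⟩ := FiniteField.card k p
  exact ⟨n, n.pos, by rw [Nat.card_eq_fintype_card, hn]⟩

theorem linearIndependent_frobPow (emb : k →+* κ) {f : ℕ} (hf : Nat.card k = p ^ f) :
    LinearIndependent κ fun (i : Fin f) (b : k) => emb b ^ p ^ (i : ℕ) := by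
  have key : ∀ i j : Fin f, (i : ℕ) < j →
      ¬ ∀ b : k, emb b ^ p ^ (i : ℕ) = emb b ^ p ^ (j : ℕ) := by
    intro i j hij h
    classical
    have := Fintype.ofFinite k
    set d := (j : ℕ) - i with hd
    have hroot : ∀ b : k, b ^ p ^ d = b := fun b => by
      refine (iterateFrobenius_inj k p i ?_).symm
      rw [iterateFrobenius_def, iterateFrobenius_def, ← pow_mul, ← pow_add]
      apply emb.injective
      rw [map_pow, map_pow, hd, Nat.sub_add_cancel hij.le, h b]
    have h1 : (1 : ℕ) < p ^ d :=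
      Nat.one_lt_pow (by omega) (Fact.out : p.Prime).one_lt
    have hne : (X ^ p ^ d - X : k[X]) ≠ 0 := FiniteField.X_pow_card_sub_X_ne_zero k h1
    have hsub : (Finset.univ : Finset k) ⊆ (X ^ p ^ d - X : k[X]).roots.toFinset := fun b _ => by
      rw [Multiset.mem_toFinset, mem_roots hne, IsRoot.def, eval_sub, eval_pow, eval_X, hroot,
        sub_self]
    have h2 := ((Finset.card_le_card hsub).trans (Multiset.toFinset_card_le _)).trans
      (card_roots' _)
    rw [FiniteField.X_pow_card_sub_X_natDegree_eq k h1, Finset.card_univ,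
      ← Nat.card_eq_fintype_card, hf, Nat.pow_le_pow_iff_right (Fact.out : p.Prime).one_lt] at h2
    have := j.2
    omega
  have hψ : Function.Injective fun i : Fin f => ((iterateFrobenius κ p i).comp emb).toMonoidHom := by
    intro i j hij
    have h : ∀ b : k, emb b ^ p ^ (i : ℕ) = emb b ^ p ^ (j : ℕ) := fun b => by
      simpa [iterateFrobenius_def] using DFunLike.congr_fun hij b
    rcases lt_trichotomy (i : ℕ) j with hlt | he | hgt
    · exact absurd h (key i j hlt)
    · exact Fin.ext he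
    · exact absurd (fun b => (h b).symm) (key j i hgt)
  have he : (fun (i : Fin f) (b : k) => emb b ^ p ^ (i : ℕ)) =
      fun (i : Fin f) => ⇑((iterateFrobenius κ p i).comp emb).toMonoidHom := by
    funext i b
    simp [iterateFrobenius_def]
  rw [he]
  exact (linearIndependent_monoidHom k κ).comp _ hψ

/-- Every additive map is a `p`-polynomial in a given embedding. -/
theorem exists_coeff_addMonoidHom (emb : k →+* κ) {f : ℕ} (hf : Nat.card k = p ^ f)
    (T : k →+ κ) : ∃ a : Fin f → κ, ∀ b, T b = ∑ i, a i * emb b ^ p ^ (i : ℕ) := by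
  let : Algebra (ZMod p) k := ZMod.algebra _ p
  let : Algebra (ZMod p) κ := ZMod.algebra _ p
  have : Module.Finite (ZMod p) k := Module.Finite.of_finite
  have hrank : Module.finrank (ZMod p) k = f := by
    refine Nat.pow_right_injective (Fact.out : p.Prime).two_le (?_ : p ^ _ = p ^ _)
    rw [← hf, Module.natCard_eq_pow_finrank (K := ZMod p), Nat.card_zmod]
  rcases Nat.eq_zero_or_pos f with rfl | hfpos
  · exact absurd hf (by simpa using (Finite.one_lt_card (α := k)).ne')
  have : Nonempty (Fin f) := ⟨⟨0, hfpos⟩⟩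
  let e : Fin f → (k →ₗ[ZMod p] κ) := fun i =>
    ((iterateFrobenius κ p i).comp emb).toAddMonoidHom.toZModLinearMap p
  have hli : LinearIndependent κ e := by
    refine LinearIndependent.of_comp
      ({ toFun := fun l => (l : k → κ), map_add' := fun _ _ => rfl,
         map_smul' := fun _ _ => rfl } : (k →ₗ[ZMod p] κ) →ₗ[κ] (k → κ)) ?_
    convert linearIndependent_frobPow emb hf using 1
    funext i b
    simp [e, iterateFrobenius_def]
  have htop := hli.span_eq_top_of_card_eq_finrank (by
    rw [Fintype.card_fin, Module.finrank_linearMap, hrank, Module.finrank_self, mul_one])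
  obtain ⟨a, ha⟩ := (Submodule.mem_span_range_iff_exists_fun κ).mp
    (htop ▸ Submodule.mem_top (x := T.toZModLinearMap p))
  refine ⟨a, fun b => ?_⟩
  have := DFunLike.congr_fun ha b
  simpa [e, iterateFrobenius_def, LinearMap.sum_apply] using this.symm

/-- The maps with the twisted symmetry. -/
def twisted (ρ γ : k) (r c : κ) (p m : ℕ) : Set (k →+ κ) :=
  {T | ∀ b, T (ρ * b) = r * T b ∧ T (γ * b) = c * T b ^ p ^ m}

theorem card_twisted_le (emb : k →+* κ) {ρ γ : k} {r c : κ} {m : ℕ} (hγ : γ ≠ 0)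
    (hr : ∀ i j : ℕ, emb ρ ^ p ^ i = r → emb ρ ^ p ^ j = r → i ≡ j [MOD m]) :
    (twisted ρ γ r c p m).Finite ∧ Nat.card (twisted ρ γ r c p m) ≤ Nat.card k := by
  classical
  obtain ⟨f, hfpos, hf⟩ := exists_card_eq_pow k p
  have hperf : ∀ (x : k) (n t : ℕ), emb x ^ p ^ (n + f * t) = emb x ^ p ^ n := fun x n t => by
    have := Fintype.ofFinite k
    rw [← map_pow, ← map_pow, add_comm n, pow_add p, pow_mul p, pow_mul x, ← hf,
      Nat.card_eq_fintype_card, FiniteField.pow_card_pow]
  have hper : ∀ (x : k) (n : ℕ), emb x ^ p ^ (n % f) = emb x ^ p ^ n := fun x n => by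
    conv_rhs => rw [← Nat.mod_add_div n f, hperf]
  have huniq : ∀ a a' : Fin f → κ,
      (∀ b, ∑ i, a i * emb b ^ p ^ (i : ℕ) = ∑ i, a' i * emb b ^ p ^ (i : ℕ)) → a = a' := by
    intro a a' h
    funext i
    refine sub_eq_zero.mp (Fintype.linearIndependent_iff.mp (linearIndependent_frobPow emb hf)
      (fun i => a i - a' i) ?_ i)
    funext b
    simp [Finset.sum_apply, sub_mul, Finset.sum_sub_distrib, h b]
  choose a ha using fun T : k →+ κ => exists_coeff_addMonoidHom emb hf T
  -- the coefficient relations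
  have hρ : ∀ T ∈ twisted ρ γ r c p m, ∀ i : Fin f, a T i ≠ 0 → emb ρ ^ p ^ (i : ℕ) = r := by
    intro T hT i hne
    have h1 : (fun i : Fin f => a T i * emb ρ ^ p ^ (i : ℕ)) = fun i => r * a T i :=
      huniq _ _ fun b => by
        calc ∑ i : Fin f, a T i * emb ρ ^ p ^ (i : ℕ) * emb b ^ p ^ (i : ℕ) = T (ρ * b) := by
              rw [ha T (ρ * b)]
              exact Finset.sum_congr rfl fun i _ => by rw [map_mul, mul_pow, mul_assoc]
          _ = ∑ i : Fin f, r * a T i * emb b ^ p ^ (i : ℕ) := by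
              rw [(hT b).1, ha T b, Finset.mul_sum]
              exact Finset.sum_congr rfl fun i _ => (mul_assoc _ _ _).symm
    exact mul_left_cancel₀ hne ((congrFun h1 i).trans (mul_comm _ _))
  let sh : Fin f → Fin f := fun i => ⟨((i : ℕ) + m) % f, Nat.mod_lt _ hfpos⟩
  have hshb : Function.Bijective sh := by
    refine Finite.injective_iff_bijective.mp fun i j h => Fin.ext ?_
    have h' : ((i : ℕ) + m) ≡ ((j : ℕ) + m) [MOD f] := congrArg Fin.val h
    exact Nat.ModEq.eq_of_lt_of_lt (Nat.ModEq.add_right_cancel' m h') i.2 j.2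
  have hγrel : ∀ T ∈ twisted ρ γ r c p m, ∀ i : Fin f,
      a T (sh i) * emb γ ^ p ^ ((sh i : Fin f) : ℕ) = c * a T i ^ p ^ m := by
    intro T hT
    let σ : Fin f ≃ Fin f := Equiv.ofBijective sh hshb
    have h1 : (fun i : Fin f => a T i * emb γ ^ p ^ (i : ℕ)) =
        fun i => c * a T (σ.symm i) ^ p ^ m :=
      huniq _ _ fun b => by
        calc ∑ i : Fin f, a T i * emb γ ^ p ^ (i : ℕ) * emb b ^ p ^ (i : ℕ) = T (γ * b) := by
              rw [ha T (γ * b)]
              exact Finset.sum_congr rfl fun i _ => by rw [map_mul, mul_pow, mul_assoc]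
          _ = c * (∑ i : Fin f, a T i * emb b ^ p ^ (i : ℕ)) ^ p ^ m := by rw [(hT b).2, ha T b]
          _ = ∑ i : Fin f, c * a T (σ.symm i) ^ p ^ m * emb b ^ p ^ (i : ℕ) := by
              rw [sum_pow_char_pow, Finset.mul_sum]
              refine Fintype.sum_equiv σ _ _ fun i => ?_
              rw [Equiv.symm_apply_apply, mul_pow, ← pow_mul, ← pow_add, mul_assoc]
              show _ = c * (a T i ^ p ^ m * emb b ^ p ^ (((i : ℕ) + m) % f))
              rw [hper]
    intro i
    rw [congrFun h1 (sh i), show σ.symm (sh i) = i from σ.symm_apply_apply i]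
  rcases isEmpty_or_nonempty {i : Fin f // emb ρ ^ p ^ (i : ℕ) = r} with hemp | ⟨⟨i0, hi0⟩⟩
  · have h0 : twisted ρ γ r c p m ⊆ {0} := fun T hT => by
      refine Set.mem_singleton_iff.mpr (AddMonoidHom.ext fun b => ?_)
      rw [ha T b]
      refine Finset.sum_eq_zero fun i _ => ?_
      rw [show a T i = 0 from not_not.mp fun hne => hemp.false ⟨i, hρ T hT i hne⟩, zero_mul]
    refine ⟨(Set.finite_singleton _).subset h0, ?_⟩
    refine (Nat.card_mono (Set.finite_singleton _) h0).trans ?_
    rw [Nat.card_unique]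
    exact Nat.card_pos
  -- every relevant index is an iterate of `sh` at `i0`
  have hsh : ∀ t : ℕ, ((sh^[t] i0 : Fin f) : ℕ) = ((i0 : ℕ) + t * m) % f := by
    intro t
    induction t with
    | zero => simp [Nat.mod_eq_of_lt i0.2]
    | succ t ih =>
      rw [Function.iterate_succ_apply']
      show ((sh^[t] i0 : Fin f) + m : ℕ) % f = _
      rw [ih, Nat.mod_add_mod, Nat.succ_mul, add_assoc]
  have hmf : m ∣ f := by
    have h1 : (i0 : ℕ) + f * 1 ≡ (i0 : ℕ) + 0 [MOD m] := hr _ _ (by rw [hperf]; exact hi0) hi0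
    simpa using Nat.modEq_zero_iff_dvd.mp (h1.add_left_cancel' (i0 : ℕ))
  have hreach : ∀ i : Fin f, emb ρ ^ p ^ (i : ℕ) = r → ∃ t, sh^[t] i0 = i := by
    intro i hi
    obtain ⟨u, hu⟩ : m ∣ (i : ℕ) + f - i0 := by
      have h1 : (i0 : ℕ) ≡ (i : ℕ) + f [MOD m] := by
        refine (hr _ _ hi0 hi).trans ?_
        simpa using (Nat.ModEq.refl (i : ℕ)).add (Nat.modEq_zero_iff_dvd.mpr hmf).symm
      exact (Nat.modEq_iff_dvd' (by omega)).mp h1
    refine ⟨u, Fin.ext ?_⟩
    rw [hsh, mul_comm, ← hu, show (i0 : ℕ) + ((i : ℕ) + f - i0) = i + f by omega, Nat.add_mod_right,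
      Nat.mod_eq_of_lt i.2]
  -- the coefficient at `sh^[t] i0` is a monomial in the one at `i0`
  have hmono : ∀ t : ℕ, ∃ C : κ, ∀ T ∈ twisted ρ γ r c p m,
      a T (sh^[t] i0) = C * a T i0 ^ p ^ (t * m) := by
    intro t
    induction t with
    | zero => exact ⟨1, fun T _ => by simp⟩
    | succ t ih =>
      obtain ⟨C, hC⟩ := ih
      refine ⟨c * C ^ p ^ m / emb γ ^ p ^ ((sh (sh^[t] i0) : Fin f) : ℕ), fun T hT => ?_⟩
      rw [Function.iterate_succ_apply', Nat.succ_mul, pow_add, pow_mul, div_mul_eq_mul_div,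
        eq_div_iff (pow_ne_zero _ (by simpa using hγ)), hγrel T hT, hC T hT, mul_pow, mul_assoc]
  obtain ⟨u, hu⟩ := hmf
  obtain ⟨C, hC⟩ := hmono u
  have hcyc : sh^[u] i0 = i0 := Fin.ext (by
    rw [hsh, mul_comm, ← hu, Nat.add_mod_right, Nat.mod_eq_of_lt i0.2])
  rw [hcyc, mul_comm u, ← hu] at hC
  have hdeg : 1 < p ^ f := Nat.one_lt_pow hfpos.ne' (Fact.out : p.Prime).one_lt
  set Φ : κ[X] := Polynomial.C C * X ^ p ^ f - X with hΦ
  have hΦ0 : Φ ≠ 0 := fun h => by
    have := congrArg (fun q => q.coeff 1) h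
    simp [hΦ, coeff_X_pow, hdeg.ne] at this
  have hmem : ∀ T ∈ twisted ρ γ r c p m, a T i0 ∈ Φ.roots.toFinset := fun T hT => by
    rw [Multiset.mem_toFinset, mem_roots hΦ0, IsRoot.def]
    simp [hΦ, ← hC T hT]
  have hinj : Set.InjOn (fun T => a T i0) (twisted ρ γ r c p m) := by
    intro T hT T' hT' h
    refine AddMonoidHom.ext fun b => ?_
    rw [ha T b, ha T' b]
    refine Finset.sum_congr rfl fun i _ => ?_
    congr 1
    by_cases hi : emb ρ ^ p ^ (i : ℕ) = r
    · obtain ⟨t, rfl⟩ := hreach i hi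
      obtain ⟨C', hC'⟩ := hmono t
      rw [hC' T hT, hC' T' hT', show a T i0 = a T' i0 from h]
    · rw [not_not.mp fun hne => hi (hρ T hT i hne), not_not.mp fun hne => hi (hρ T' hT' i hne)]
  have hfin : ((fun T => a T i0) '' twisted ρ γ r c p m).Finite :=
    (Φ.roots.toFinset.finite_toSet).subset (Set.image_subset_iff.mpr hmem)
  refine ⟨hfin.of_finite_image hinj, ?_⟩
  rw [← Nat.card_image_of_injOn hinj]
  refine (Nat.card_mono Φ.roots.toFinset.finite_toSet (Set.image_subset_iff.mpr hmem)).trans ?_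
  rw [Nat.card_coe_set_eq, Set.ncard_coe_finset, hf]
  refine ((Multiset.toFinset_card_le _).trans (card_roots' _)).trans ?_
  refine (natDegree_sub_le _ _).trans (max_le ?_ ?_)
  · exact natDegree_C_mul_X_pow_le _ _
  · rw [natDegree_X]; exact hdeg.le

end FLTAgent.LocP
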