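import Fermat.Agent.LocP.Levels
import Fermat.Agent.LocP.Count

/-!
# Characters with values in a finite field

A homomorphism `φ : GF → k` gives the classes `ψ (b * φ σ)` for `b : k` (`fam`) and, at each level,
the additive map of their leading coefficients (`Tame.coefHom`), with its symmetry under the
decomposition group (`Tame.coefHom_rel`).  Levels are climbed when the coefficients vanish
(`Tame.DeepAll.climb`), and a twisted character deep of the top level vanishes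
(`Tame.DeepAll.eq_zero_of_top`).
-/

set_option autoImplicit false
set_option linter.unusedSectionVars false

noncomputable section

namespace FLTAgent.LocP

open IsLocalRing
open scoped Pointwise

local notation "Qb" => AlgebraicClosure ℚ
local notation "GQ" => (AlgebraicClosure ℚ ≃ₐ[ℚ] AlgebraicClosure ℚ)

variable {P : ValuationSubring Qb} {p : ℕ} [Fact p.Prime] {k : Type} [Field k] [Finite k]
  [CharP k p]

local notation "D" => P.decompositionSubgroup ℚ
local notation "Ine" => P.inertiaSubgroupIn ℚ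

/-- A `k`-valued homomorphism on `GF` of finite level. -/
structure Tame.IsKChar (S : Tame P p) (φ : GQ → k) : Prop where
  map_mul : ∀ σ ∈ S.GF, ∀ τ ∈ S.GF, φ (σ * τ) = φ σ + φ τ
  exists_level : ∃ L : IntermediateField ℚ Qb, FiniteDimensional ℚ L ∧
    ∀ σ ∈ S.GF, (∀ x ∈ L, σ x = x) → φ σ = 0

variable {S : Tame P p} (ψ : k →+ ZMod p) {φ φ' : GQ → k}

/-- The class of the functional `x ↦ ψ (b * x)`. -/
def fam (φ : GQ → k) (b : k) : GQ → ZMod p := fun σ => ψ (b * φ σ)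

theorem fam_add_left (φ : GQ → k) (b b' : k) : fam ψ φ (b + b') = fam ψ φ b + fam ψ φ b' := by
  funext σ; simp [fam, add_mul]

theorem fam_add_right (φ φ' : GQ → k) (b : k) : fam ψ (φ + φ') b = fam ψ φ b + fam ψ φ' b := by
  funext σ; simp [fam, mul_add]

theorem Tame.IsKChar.isChar (h : S.IsKChar φ) (b : k) : S.IsChar (fam ψ φ b) where
  map_mul σ hσ τ hτ := by simp [fam, h.map_mul σ hσ τ hτ, mul_add]
  exists_level := h.exists_level.imp fun L hL =>
    ⟨hL.1, fun σ hσ hx => by simp [fam, hL.2 σ hσ hx]⟩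

theorem Tame.IsKChar.add (h : S.IsKChar φ) (h' : S.IsKChar φ') : S.IsKChar (φ + φ') where
  map_mul σ hσ τ hτ := by simp [h.map_mul σ hσ τ hτ, h'.map_mul σ hσ τ hτ]; abel
  exists_level := by
    obtain ⟨L, hL, h1⟩ := h.exists_level
    obtain ⟨L', hL', h2⟩ := h'.exists_level
    exact ⟨L ⊔ L', inferInstance, fun σ hσ hx => by
      simp [h1 σ hσ fun x hx' => hx x ((le_sup_left : L ≤ L ⊔ L') hx'),
        h2 σ hσ fun x hx' => hx x ((le_sup_right : L' ≤ L ⊔ L') hx')]⟩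

theorem Tame.IsKChar.neg (h : S.IsKChar φ) : S.IsKChar (-φ) where
  map_mul σ hσ τ hτ := by simp [h.map_mul σ hσ τ hτ]; abel
  exists_level := h.exists_level.imp fun L hL =>
    ⟨hL.1, fun σ hσ hx => by simp [hL.2 σ hσ hx]⟩

variable {ψ}

theorem exists_addMonoidHom_ne_zero (k : Type) [Field k] (p : ℕ) [Fact p.Prime] [CharP k p] :
    ∃ ψ : k →+ ZMod p, ψ 1 = 1 := by
  let : Algebra (ZMod p) k := ZMod.algebra _ p
  obtain ⟨f, hf⟩ := LinearMap.exists_leftInverse_of_injective (Algebra.linearMap (ZMod p) k)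
    (LinearMap.ker_eq_bot.mpr (algebraMap (ZMod p) k).injective)
  exact ⟨f.toAddMonoidHom, by simpa using DFunLike.congr_fun hf 1⟩

theorem eq_zero_of_forall_psi (hψ : ψ 1 = 1) {x : k} (h : ∀ b : k, ψ (b * x) = 0) : x = 0 := by
  by_contra hx
  have := h x⁻¹
  rw [inv_mul_cancel₀ hx, hψ] at this
  exact one_ne_zero this

variable (S ψ)

/-- All the classes of `φ` are deep of level `m`. -/
def Tame.DeepAll (φ : GQ → k) (m : ℤ) : Prop := ∀ b, S.Deep (fam ψ φ b) m

open Classical in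
/-- The leading coefficients at level `m`. -/
def Tame.coefHom (φ : GQ → k) (m : ℕ) : k →+ ResidueField P :=
  if h : P.LiesOverPrime p ∧ 0 < m ∧ (m : ℤ) < p * S.E ∧ ¬ p ∣ m ∧ S.DeepAll ψ φ m then
    AddMonoidHom.mk' (fun b => S.coef (fam ψ φ b) m) fun b b' => by
      rw [fam_add_left]
      exact Tame.coef_add h.1 h.2.1 h.2.2.1 h.2.2.2.1 (h.2.2.2.2 b) (h.2.2.2.2 b')
  else 0

variable {S ψ} (hP : P.LiesOverPrime p)
include hP

theorem Tame.coefHom_apply {m : ℕ} (hm : 0 < m) (hmtop : (m : ℤ) < p * S.E) (hndvd : ¬ p ∣ m)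
    (h : S.DeepAll ψ φ m) (b : k) : S.coefHom ψ φ m b = S.coef (fam ψ φ b) m := by
  rw [Tame.coefHom, dif_pos ⟨hP, hm, hmtop, hndvd, h⟩]
  rfl

theorem Tame.DeepAll.add {m : ℕ} (h : S.DeepAll ψ φ m) (h' : S.DeepAll ψ φ' m) :
    S.DeepAll ψ (φ + φ') m := fun b => by
  rw [fam_add_right]; exact (h b).add hP (h' b)

theorem Tame.coefHom_add {m : ℕ} (hm : 0 < m) (hmtop : (m : ℤ) < p * S.E) (hndvd : ¬ p ∣ m)
    (h : S.DeepAll ψ φ m) (h' : S.DeepAll ψ φ' m) :
    S.coefHom ψ (φ + φ') m = S.coefHom ψ φ m + S.coefHom ψ φ' m := by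
  refine AddMonoidHom.ext fun b => ?_
  rw [AddMonoidHom.add_apply, Tame.coefHom_apply hP hm hmtop hndvd (h.add hP h'),
    Tame.coefHom_apply hP hm hmtop hndvd h, Tame.coefHom_apply hP hm hmtop hndvd h', fam_add_right,
    Tame.coef_add hP hm hmtop hndvd (h b) (h' b)]

omit hP in
theorem fam_conj {a : ℕ} {g : GQ} (hg : g ∈ D) {χ : k} (hχ : χ ≠ 0)
    (hrel : ∀ σ ∈ S.GF, φ (g * σ * g⁻¹) = χ * φ σ) (b : k) {σ : GQ} (hσ : σ ∈ S.GF) :
    fam ψ φ ((a : k) * χ⁻¹ * b) σ = (a : ZMod p) * fam ψ φ b (g⁻¹ * σ * g) := by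
  have hmem : g⁻¹ * σ * g ∈ S.GF := by simpa using S.conj_mem g⁻¹ (inv_mem hg) σ hσ
  have h := hrel _ hmem
  rw [show g * (g⁻¹ * σ * g) * g⁻¹ = σ by group] at h
  rw [fam, fam, ← nsmul_eq_mul a (ψ _), ← map_nsmul, h, nsmul_eq_mul]
  congr 1
  field_simp

/-- The symmetry of the coefficients under the decomposition group. -/
theorem Tame.coefHom_rel {m : ℕ} (hm : 0 < m) (hmtop : (m : ℤ) < p * S.E) (hndvd : ¬ p ∣ m)
    (h : S.DeepAll ψ φ m) {g : GQ} (hg : g ∈ D) {χ : k} (hχ : χ ≠ 0)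
    (hrel : ∀ σ ∈ S.GF, φ (g * σ * g⁻¹) = χ * φ σ) {a : ℕ} (ha : g S.ζ = S.ζ ^ a) (b : k) :
    S.coefHom ψ φ m ((a : k) * χ⁻¹ * b) =
      ((⟨g, hg⟩ : P.decompositionSubgroup ℚ) • S.coefHom ψ φ m b) * res P (theta S.ϖ g) ^ m := by
  rw [Tame.coefHom_apply hP hm hmtop hndvd h, Tame.coefHom_apply hP hm hmtop hndvd h]
  exact (Tame.coef_conj hP hm hmtop hndvd (h b) hg ha
    fun σ hσ => fam_conj hg hχ hrel b hσ).2

theorem Tame.coefHom_rel_inertia {m : ℕ} (hm : 0 < m) (hmtop : (m : ℤ) < p * S.E)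
    (hndvd : ¬ p ∣ m) (h : S.DeepAll ψ φ m) {g : GQ} (hg : g ∈ Ine) {χ : k} (hχ : χ ≠ 0)
    (hrel : ∀ σ ∈ S.GF, φ (g * σ * g⁻¹) = χ * φ σ) {a : ℕ} (ha : g S.ζ = S.ζ ^ a) (b : k) :
    S.coefHom ψ φ m ((a : k) * χ⁻¹ * b) =
      res P (theta S.ϖ g) ^ m * S.coefHom ψ φ m b := by
  rw [Tame.coefHom_rel hP hm hmtop hndvd h (inertia_le_decomposition hg) hχ hrel ha, mul_comm]
  congr 1
  obtain ⟨x, hx, hx'⟩ := res_surjective (S.coefHom ψ φ m b)
  rw [← hx', ← res_map (inertia_le_decomposition hg) hx, res_map_inertia hg hx]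

/-- A symmetry by a root of a quadratic polynomial over the prime field. -/
theorem coefHom_eq_zero_of_quadratic {T : k →+ ResidueField P} {ρ : k} {r : ResidueField P}
    (hT : ∀ b, T (ρ * b) = r * T b) {A B : ℕ} (hρ : ρ ^ 2 = A * ρ + B)
    (hr : r ^ 2 ≠ A * r + B) : T = 0 := by
  refine AddMonoidHom.ext fun b => ?_
  have h1 : T (ρ ^ 2 * b) = r ^ 2 * T b := by rw [sq, sq, mul_assoc, hT, hT, mul_assoc]
  have h2 : T (ρ ^ 2 * b) = (A * r + B) * T b := by
    rw [hρ, add_mul, map_add, mul_assoc, ← nsmul_eq_mul A, map_nsmul, hT, ← nsmul_eq_mul B,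
      map_nsmul, nsmul_eq_mul, nsmul_eq_mul, add_mul, mul_assoc]
  exact not_not.mp fun hne => hr (mul_right_cancel₀ hne (h1.symm.trans h2))

/-- Climbing through levels without nonzero coefficients. -/
theorem Tame.DeepAll.climb {m₀ m₁ : ℕ} (h : S.DeepAll ψ φ m₀) (hm₀ : 0 < m₀) (hle : m₀ ≤ m₁)
    (htop : (m₁ : ℤ) ≤ p * S.E)
    (hzero : ∀ m, m₀ ≤ m → m < m₁ → ¬ p ∣ m → S.DeepAll ψ φ m → S.coefHom ψ φ m = 0) :
    S.DeepAll ψ φ m₁ := by
  induction m₁, hle using Nat.le_induction with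
  | base => exact h
  | succ m hm ih =>
    push_cast at htop ⊢
    have hd := ih (by omega) fun m' h1 h2 => hzero m' h1 (by omega)
    intro b
    by_cases hdvd : p ∣ m
    · exact (hd b).succ_of_dvd hP (by omega) (by omega) (Int.natCast_dvd_natCast.mpr hdvd)
    · refine (hd b).succ_of_coef_eq_zero hP ?_
      rw [← Tame.coefHom_apply hP (by omega : 0 < m) (by omega) hdvd hd,
        hzero m hm (by omega) hdvd hd]
      rfl

/-- At the top level a twisted character vanishes. -/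
theorem Tame.DeepAll.eq_zero_of_top (hψ : ψ 1 = 1) (hφ : S.IsKChar φ)
    (h : S.DeepAll ψ φ (p * S.E)) {g : GQ} (hg : g ∈ D) {χ : k}
    (hrel : ∀ σ ∈ S.GF, φ (g * σ * g⁻¹) = χ * φ σ) (hne : χ ≠ 1) {σ : GQ} (hσ : σ ∈ S.GF) :
    φ σ = 0 := by
  have hgσ := S.conj_mem g hg σ hσ
  have hmem : g * σ * g⁻¹ * σ⁻¹ ∈ S.GF := mul_mem hgσ (inv_mem hσ)
  have hI := commutator_mem_inertia hP hg (S.le_D σ hσ)
  have h0 : φ (g * σ * g⁻¹ * σ⁻¹) = 0 :=
    eq_zero_of_forall_psi hψ fun b => (h b).inertia_eq_zero hP hmem hI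
  have h1 : φ (g * σ * g⁻¹) = φ (g * σ * g⁻¹ * σ⁻¹) + φ σ := by
    rw [← hφ.map_mul _ hmem σ hσ, inv_mul_cancel_right]
  rw [h0, zero_add, hrel σ hσ] at h1
  by_contra hne'
  exact hne (mul_right_cancel₀ hne' (h1.trans (one_mul _).symm))

omit hP in
/-- Counting bounds dimensions. -/
theorem finrank_le_of_injective {V α : Type} [AddCommGroup V] [Module k V] (f : V → α)
    (hf : Function.Injective f) {s : Set α} (hs : s.Finite) (hfs : ∀ x, f x ∈ s) {n : ℕ}
    (hcard : Nat.card s ≤ Nat.card k ^ n) : Module.Finite k V ∧ Module.finrank k V ≤ n := by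
  have : Finite s := hs.to_subtype
  let g : V → s := fun x => ⟨f x, hfs x⟩
  have hg : Function.Injective g := fun x y hxy => hf (congrArg Subtype.val hxy)
  have : Finite V := Finite.of_injective g hg
  have : Module.Finite k V := Module.Finite.of_finite
  refine ⟨inferInstance, (Nat.pow_le_pow_iff_right (Finite.one_lt_card (α := k))).mp ?_⟩
  rw [← Module.natCard_eq_pow_finrank]
  exact (Nat.card_le_card_of_injective g hg).trans hcard

end FLTAgent.LocP
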