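import Fermat.Agent.LocP.IrreducibleDeep

/-!
# The flat tangent bound at `p`

`tangentBound_flat_of_noLine`: without a stable line the flat cocycles at `p` span at most a
four-dimensional space (a cocycle trivial on the base field is a coboundary, and the others are
counted by one twisted coefficient of the upper right entry).  `tangentBound_flat` combines this
with the case of a stable line from `FlatReducible` into the flat local tangent bound.
-/

set_option autoImplicit false
set_option linter.unusedSectionVars false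

noncomputable section

namespace FLTAgent.LocP

open Matrix FLTAgent.TW FLTAgent.Deform FLTAgent.FlatHopf IsLocalRing
open scoped Pointwise

local notation "Qb" => AlgebraicClosure ℚ

variable {k : Type} [Field k] [Finite k] {P : ValuationSubring (AlgebraicClosure ℚ)} {p : ℕ}
  [Fact p.Prime] [CharP k p]

local notation "v" => P.valuation
local notation "D" => P.decompositionSubgroup ℚ
local notation "Ine" => P.inertiaSubgroupIn ℚ
local notation "𝕄" => Matrix (Fin 2) (Fin 2) k

variable {M : MatRep k} {ϖ ζ z : Qb} {τ φ : GQ} {c : GQ → Matrix (Fin 2) (Fin 2) k}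
  (hdet : DetCyclotomic M p) (hP : P.LiesOverPrime p) (hN : IrrNormal M P p ϖ ζ z τ φ)
include hdet hP hN

/-- The diagonal of a flat cocycle vanishes on the base field with its upper right entry. -/
theorem IrrNormal.c00_eq_zero (hp2 : p ≠ 2) (h : Fl p M c) {ψ : k →+ ZMod p} (hψ : ψ 1 = 1)
    (h01 : ∀ σ ∈ (hN.tame hP).GF, c σ 0 1 = 0) {σ₁ : GQ} (hσ₁ : σ₁ ∈ (hN.tame hP).GF) :
    c σ₁ 0 0 = 0 := by
  have hpp : p.Prime := Fact.out
  have := charP_res hP
  have h3 : 3 ≤ p := by have := hpp.two_le; omega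
  set S := hN.tame hP with hSdef
  have hdeep := hN.deep_entry hdet hP hp2 h hψ 0
  have hres := h.residual
  obtain ⟨hc, hflat⟩ := h
  have hm0 : 0 < p + 1 := Nat.succ_pos p
  have htop : ((p + 1 : ℕ) : ℤ) < p * S.E := by
    show ((p + 1 : ℕ) : ℤ) < (p : ℤ) * ((p + 1 : ℕ) : ℤ)
    exact_mod_cast (lt_mul_iff_one_lt_left hm0).mpr hpp.one_lt
  have hnd : ¬ p ∣ p + 1 := fun hd => hpp.ne_one (Nat.dvd_one.mp ((Nat.dvd_add_right dvd_rfl).mp hd))
  set T := S.coefHom ψ (fun σ => c σ 0 0) (p + 1) with hT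
  have hTap : ∀ b, T b = S.coef (fam ψ (fun σ => c σ 0 0) b) (p + 1) :=
    fun b => Tame.coefHom_apply hP hm0 htop hnd hdeep b
  have hkill : ∀ b, T b = 0 → ∀ σ ∈ S.GF, ψ (b * c σ 0 0) = 0 := fun b hb σ hσ =>
    hN.fam00_eq_zero hdet hP hp2 hres hc (hdeep b) ((hTap b).symm.trans hb) hσ
  suffices hT0 : ∀ b, T b = 0 from eq_zero_of_forall_psi hψ fun b => hkill b (hT0 b) σ₁ hσ₁
  by_contra hcon
  push Not at hcon
  obtain ⟨b₀, hb₀⟩ := hcon
  -- the coefficients lie on a line over the prime field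
  have hφD := hN.frob.mem_decompositionSubgroup
  obtain ⟨a, ha, -⟩ := exists_zeta_exponent hN.prim φ
  have hrel : ∀ b, -((a : ResidueField P) * T b) = T b ^ p * res P (theta S.ϖ φ) ^ (p + 1) := by
    intro b
    have h1 := Tame.coefHom_rel hP hm0 htop hnd hdeep hφD (χ := -1) (neg_ne_zero.mpr one_ne_zero)
      (fun σ hσ => hN.c00_conj hP hc hσ) ha b
    rw [hN.frob.smul_residue_eq] at h1
    rw [← h1, inv_neg, inv_one, show (a : k) * -1 * b = -(a • b) by rw [nsmul_eq_mul]; ring,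
      map_neg, map_nsmul, nsmul_eq_mul]
  have ha0 : (a : ResidueField P) ≠ 0 := fun h0 => det_ne_zero M φ (by
    rw [det_eq_natCast hN.prim hdet ha]
    refine (CharP.cast_eq_zero_iff k p a).mpr ((CharP.cast_eq_zero_iff (ResidueField P) p a).mp h0))
  have hline : ∀ b, ∃ j : ℕ, T (b - j • b₀) = 0 := by
    intro b
    have h1 := hrel b
    have h2 := hrel b₀
    have hc0 : res P (theta S.ϖ φ) ^ (p + 1) ≠ 0 := fun h0 => by
      rw [h0, mul_zero, neg_eq_zero] at h2
      exact mul_ne_zero ha0 hb₀ h2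
    have h3 : (T b / T b₀) ^ p = T b / T b₀ := by
      rw [div_pow, div_eq_div_iff (pow_ne_zero _ hb₀) hb₀]
      refine mul_right_cancel₀ hc0 ?_
      linear_combination (-T b₀) * h1 + T b * h2
    obtain ⟨j, hj⟩ := exists_natCast_of_pow_eq' (p := p) h3
    refine ⟨j, ?_⟩
    rw [map_sub, map_nsmul, nsmul_eq_mul, hj, div_mul_cancel₀ _ hb₀, sub_self]
  have hker : ∀ σ ∈ S.GF, ψ (b₀ * c σ 0 0) = 0 → c σ 0 0 = 0 := fun σ hσ h0 =>
    eq_zero_of_forall_psi hψ fun b => by
      obtain ⟨j, hj⟩ := hline b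
      have h1 := hkill _ hj σ hσ
      rw [sub_mul, map_sub, smul_mul_assoc, map_nsmul, h0, smul_zero, sub_zero] at h1
      exact h1
  by_cases hall : ∀ σ ∈ S.GF, fam ψ (fun σ => c σ 0 0) b₀ σ = 0
  · refine hb₀ ?_
    obtain ⟨h1, h2⟩ := S.coef_natCast_mul hP hm0 htop hnd (hdeep b₀) 0
    rw [hTap, Tame.coef_congr hP hm0 htop hnd h1 fun σ hσ => by simp [hall σ hσ], h2,
      Nat.cast_zero, zero_mul]
  push Not at hall
  obtain ⟨σ, hσ, hne⟩ := hall
  obtain ⟨H, hH⟩ := hasFlatModel_iff_hasOrder.mp hflat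
  have hA := algebraMap_ratLocalized_mem (P := P) hP
  have hinj : Function.Injective (inrHom k) := fun x y hxy => (Prod.ext_iff.mp hxy).2
  have hresH := isOrder_restrict hH (act' := resAct M) (inrHom k) hinj
    fun σ x => (liftAct_inr hc σ x).symm
  set g : VPair k := (![1, 0], 0) with hg
  set w : Vec k := fun i => c σ i 0 with hw
  have hmove : ∀ σ' ∈ S.GF,
      liftAct M c hc σ' g = g + ((0 : Vec k), fun i => c σ' i 0) := by
    intro σ' hσ'
    rw [liftAct_apply, hN.gf_trivial hP hσ', mul_one, one_mulVec, one_mulVec]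
    refine Prod.ext ?_ ?_
    · simp [g]
    · funext i
      fin_cases i <;> simp [g]
  obtain ⟨f, hf, hfx⟩ := exists_translate_eq hH hA g ((0 : Vec k), w)
  have hw0 : w ≠ 0 := fun h0 => hne (by
    show ψ (b₀ * c σ 0 0) = 0
    rw [show c σ 0 0 = 0 from congrFun h0 0, mul_zero, map_zero])
  have hge : v ϖ ≤ nrm hH hA ((0 : Vec k), w) := by
    rw [← (hN.nrm_eq_and_root hdet hP hp2 hresH hw0).1]
    obtain ⟨f', ⟨f'', hf'', rfl⟩, he⟩ := exists_eq_nrm hresH hA w
    rw [← he]
    exact val_diff_le_nrm hH hA ((0 : Vec k), w) hf''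
  have hdeep2 : S.Deep (fam ψ (fun σ => c σ 0 0) b₀) ((p + 2 : ℕ) : ℤ) := by
    refine Tame.deep_of_move hP ((hN.isKChar hP hc 0 0).isChar ψ b₀) (z := f g)
      (fun σ' hσ' h0 => ?_) (val_order_apply_le hH hA hf g) hσ (B := (p : ℤ) + 1) ?_ ?_
      (p + 2) ?_ ?_ (by omega)
    · rw [← apply_act hH σ' hf, hmove σ' hσ']
      have e0 : c σ' 0 0 = 0 := hker σ' hσ' h0
      have e1 : c σ' 1 0 = 0 := hN.c10_eq_zero hP hc h01 hσ'
      congr 1
      rw [show ((0 : Vec k), fun i => c σ' i 0) = (0 : VPair k) from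
        Prod.ext rfl (funext fun i => by fin_cases i <;> simp [e0, e1]), add_zero]
    · show (p : ℤ) + 1 ≤ 1 + (p : ℤ) * ((p + 1 : ℕ) : ℤ)
      push_cast; nlinarith
    · show v ϖ ^ ((p : ℤ) + 1) < v (σ (f g) - f g) ^ p
      rw [← apply_act hH σ hf, hmove σ hσ]
      refine lt_of_lt_of_le ?_ (pow_le_pow_left' (hge.trans hfx.ge) p)
      rw [← zpow_natCast]
      exact (S.pi_zpow_lt hP).mpr (by omega)
    · show ((p + 2 : ℕ) : ℤ) ≤ (p : ℤ) * ((p + 1 : ℕ) : ℤ)
      push_cast; nlinarith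
    · show ((p + 2 : ℕ) : ℤ) ≤ 2 + (p : ℤ) * ((p + 1 : ℕ) : ℤ) - ((p : ℤ) + 1)
      push_cast; nlinarith
  refine hb₀ ((hTap b₀).trans (S.coef_eq_zero_of_succ hP hm0 htop hnd ?_))
  push_cast at hdeep2 ⊢
  rwa [add_assoc]

/-- A cocycle which vanishes on the base field is a coboundary on the decomposition group. -/
theorem IrrNormal.exists_coboundary (hp2 : p ≠ 2) (hM : FactorsFinite M)
    (hc : IsTangentCocycle M c) (h0 : ∀ σ ∈ (hN.tame hP).GF, c σ = 0) :
    ∃ X : 𝕄, X.trace = 0 ∧ ∀ σ ∈ D, c σ = coboundary M X σ := by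
  have h2 := two_ne_zero' (k := k) hp2
  have hsh := hN.toIrrShape
  set α := M τ 0 0
  set β := M τ 1 1
  obtain ⟨hα1, hβ1, -⟩ := hN.tau_entries
  have hα0 : α ≠ 0 := fun h => det_ne_zero M τ (by
    rw [Matrix.det_fin_two, (hN.diag τ hN.tau_mem).1]; show α * β - _ = 0; rw [h]; ring)
  have hβ0 : β ≠ 0 := fun h => det_ne_zero M τ (by
    rw [Matrix.det_fin_two, (hN.diag τ hN.tau_mem).1]; show α * β - _ = 0; rw [h]; ring)
  have hab : α * β⁻¹ - 1 ≠ 0 := sub_ne_zero.mpr fun h => hN.tau_ne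
    (show α = β from (mul_inv_eq_one₀ hβ0).mp h)
  have hba : β * α⁻¹ - 1 ≠ 0 := sub_ne_zero.mpr fun h => hN.tau_ne
    (show α = β from ((mul_inv_eq_one₀ hα0).mp h).symm)
  set X : 𝕄 := !![-(c φ 0 0) / 2, c τ 0 1 / (α * β⁻¹ - 1);
    c τ 1 0 / (β * α⁻¹ - 1), -(-(c φ 0 0) / 2)] with hX
  have hXt : X.trace = 0 := by rw [Matrix.trace_fin_two]; simp [hX]
  refine ⟨X, hXt, fun σ hσ => sub_eq_zero.mp ?_⟩
  have hc' : IsTangentCocycle M (c - coboundary M X) :=
    (tangentCocycles M).sub_mem hc (isTangentCocycle_coboundary hM hXt)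
  have hgf' : ∀ σ ∈ (hN.tame hP).GF, (c - coboundary M X) σ = 0 := fun σ hσ => by
    show c σ - (adAct M σ X - X) = 0
    rw [h0 σ hσ, adAct, hN.gf_trivial hP hσ, hN.gf_trivial hP (inv_mem hσ), one_mul, mul_one,
      sub_self, sub_zero]
  obtain ⟨a00, -, a01, a10⟩ := hsh.adAct_inertia hN.tau_mem X
  have e01 : (c - coboundary M X) τ 0 1 = 0 := by
    show c τ 0 1 - (adAct M τ X 0 1 - X 0 1) = 0
    rw [a01, show ∀ u : k, u * X 0 1 - X 0 1 = (u - 1) * X 0 1 from fun u => by ring,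
      show X 0 1 = c τ 0 1 / (α * β⁻¹ - 1) from rfl]
    exact sub_eq_zero.mpr (mul_div_cancel₀ _ hab).symm
  have e10 : (c - coboundary M X) τ 1 0 = 0 := by
    show c τ 1 0 - (adAct M τ X 1 0 - X 1 0) = 0
    rw [a10, show ∀ u : k, u * X 1 0 - X 1 0 = (u - 1) * X 1 0 from fun u => by ring,
      show X 1 0 = c τ 1 0 / (β * α⁻¹ - 1) from rfl]
    exact sub_eq_zero.mpr (mul_div_cancel₀ _ hba).symm
  have eφ : (c - coboundary M X) φ 0 0 = 0 := by
    show c φ 0 0 - (adAct M φ X 0 0 - X 0 0) = 0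
    rw [(hsh.adAct_frob X).1]; simp [hX]; field_simp; ring
  set d := c - coboundary M X with hd
  have hd11 : ∀ σ, d σ 1 1 = -d σ 0 0 := fun σ => by
    have h := hc'.trace_eq_zero σ
    rw [Matrix.trace_fin_two] at h
    linear_combination h
  -- the value at the generator of inertia
  have hpow : ∀ n : ℕ, d (τ ^ n) 0 0 = n * d τ 0 0 := by
    intro n
    induction n with
    | zero => rw [pow_zero, cocycle_one hc']; simp
    | succ n ih =>
      rw [pow_succ, hc'.map_mul, Matrix.add_apply,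
        (hsh.adAct_inertia (pow_mem hN.tau_mem n) _).1, ih]
      push_cast; ring
  have hτ00 : d τ 0 0 = 0 := by
    have h1 := hpow (p ^ 2 - 1)
    rw [hgf' _ (hN.gf_mem_of_inertia hP (pow_mem hN.tau_mem _) (by
      rw [theta_pow_of_mem hP hN.pow_eq sq_pred_pos not_dvd_sq_pred hN.tau_mem, hN.tau_theta,
        hN.prim_z.pow_eq_one]))] at h1
    refine (mul_eq_zero.mp h1.symm).resolve_left ?_
    rw [CharP.cast_eq_zero_iff k p]
    exact not_dvd_sq_pred
  have hdτ : d τ = 0 := by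
    ext i j
    fin_cases i <;> fin_cases j
    exacts [hτ00, e01, e10, (hd11 τ).trans (by rw [hτ00, neg_zero]; rfl)]
  have hdpow : ∀ n : ℕ, d (τ ^ n) = 0 := by
    intro n
    induction n with
    | zero => rw [pow_zero, cocycle_one hc']
    | succ n ih => rw [pow_succ, hc'.map_mul, ih, hdτ, adAct, mul_zero, zero_mul, add_zero]
  have hI : ∀ ι ∈ Ine, d ι = 0 := by
    intro ι hι
    obtain ⟨j, hj, -⟩ := eq_tau_pow hP hN.pow_eq hN.prim_z hN.tau_mem hN.tau_theta hN.ker hι
    have hτj := pow_mem hN.tau_mem j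
    have hh : theta ϖ (ι * (τ ^ j)⁻¹) = 1 := by
      have h := theta_mul hP hN.pow_eq sq_pred_pos not_dvd_sq_pred
        (mul_mem hι (inv_mem hτj)) (τ ^ j)
      rw [inv_mul_cancel_right, hj, theta_pow_of_mem hP hN.pow_eq sq_pred_pos not_dvd_sq_pred
        hN.tau_mem, hN.tau_theta] at h
      exact mul_right_cancel₀ (pow_ne_zero j (hN.prim_z.ne_zero (sq_pred_pos (p := p)).ne'))
        (h.symm.trans (one_mul _).symm)
    rw [← inv_mul_cancel_right ι (τ ^ j), hc'.map_mul,
      hgf' _ (hN.gf_mem_of_inertia hP (mul_mem hι (inv_mem hτj)) hh), hdpow, adAct, mul_zero,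
      zero_mul, add_zero]
  have hoff : ∀ σ ∈ D, d σ 0 1 = 0 ∧ d σ 1 0 = 0 := by
    intro σ hσ
    set s := σ * τ * σ⁻¹ with hs
    have hsI : s ∈ Ine := conj_mem_inertia hσ hN.tau_mem
    have h1 : d (σ * τ) = d σ := by rw [hc'.map_mul, hdτ, adAct, mul_zero, zero_mul, add_zero]
    rw [show σ * τ = s * σ by rw [hs, inv_mul_cancel_right], hc'.map_mul, hI s hsI, zero_add] at h1
    have hne : M s 0 0 ≠ M s 1 1 := fun heq => hN.tau_ne (by
      have hscal : M s = M s 0 0 • (1 : 𝕄) := by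
        rw [hsh.eq_of_diag hsI, ← heq]
        ext i j; fin_cases i <;> fin_cases j <;> simp
      have h2 : M τ = M σ⁻¹ * M s * M σ := by
        rw [← map_mul, ← map_mul, hs]
        congr 1; group
      rw [h2, hscal, mul_smul_comm, mul_one, smul_mul_assoc, TW.inv_mul_eq_one]
      simp)
    obtain ⟨-, -, b01, b10⟩ := hsh.adAct_inertia hsI (d σ)
    rw [h1] at b01 b10
    have hs0 := hN.swap s hsI
    have n1 : M s 1 1 ≠ 0 := fun h => hne (by rw [h, ← hs0.2, h, zero_pow (Fact.out : p.Prime).ne_zero])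
    have n0 : M s 0 0 ≠ 0 := fun h => hne (by rw [h, ← hs0.1, h, zero_pow (Fact.out : p.Prime).ne_zero])
    constructor
    · refine (mul_eq_zero.mp (show (M s 0 0 - M s 1 1) * d σ 0 1 = 0 from ?_)).resolve_left
        (sub_ne_zero.mpr hne)
      field_simp at b01
      linear_combination -b01
    · refine (mul_eq_zero.mp (show (M s 1 1 - M s 0 0) * d σ 1 0 = 0 from ?_)).resolve_left
        (sub_ne_zero.mpr (Ne.symm hne))
      field_simp at b10
      linear_combination -b10
  have hφD := hN.frob.mem_decompositionSubgroup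
  have hdφ : d φ = 0 := by
    ext i j
    fin_cases i <;> fin_cases j
    exacts [eφ, (hoff φ hφD).1, (hoff φ hφD).2, (hd11 φ).trans (by rw [eφ, neg_zero]; rfl)]
  obtain ⟨L, hL, hlev⟩ := hc'.exists_level
  have := hL
  obtain ⟨i, ι, hι, hx⟩ := exists_eq_frob_pow_mul hP hN.frob hσ L
  have h1 : d ((φ ^ i * ι)⁻¹ * σ) = 0 := hlev _ fun x hxL => by
    rw [AlgEquiv.mul_apply, hx x hxL, ← AlgEquiv.mul_apply, inv_mul_cancel, AlgEquiv.one_apply]
  have h2 : ∀ j : ℕ, d (φ ^ j) = 0 := by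
    intro j
    induction j with
    | zero => rw [pow_zero, cocycle_one hc']
    | succ j ih => rw [pow_succ, hc'.map_mul, ih, hdφ, adAct, mul_zero, zero_mul, add_zero]
  show d σ = 0
  rw [← mul_inv_cancel_left (φ ^ i * ι) σ, hc'.map_mul, h1, hc'.map_mul, h2, hI ι hι, adAct,
    adAct, mul_zero, zero_mul, mul_zero, zero_mul, add_zero, add_zero]

/-- The flat tangent bound in normal form. -/
theorem IrrNormal.tangentBound_flat (hp2 : p ≠ 2) (hM : FactorsFinite M)
    (hres : HasFlatModel p (resAct M)) : LocalTangentBound M D (Fl p M) 4 := by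
  have hpp : p.Prime := Fact.out
  have := charP_res hP
  set Z : Submodule k (GQ → 𝕄) := Submodule.span k {c | Fl p M c} with hZ
  have hB : ∀ X : 𝕄, X.trace = 0 → coboundary M X ∈ Z := fun X hX =>
    Submodule.subset_span ((fl_zero_of_residual hres).coboundary hM hX)
  have hcoc : Z ≤ tangentCocycles M := Submodule.span_le.mpr fun c hc => Fl.cocycle hc
  obtain ⟨ψ, hψ⟩ := exists_addMonoidHom_ne_zero k p
  set S := hN.tame hP with hSdef
  set m₁ := p ^ 2 + 1 with hm₁
  have h3 : 3 ≤ p := by have := hpp.two_le; omega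
  have hppp : 3 * p ≤ p * p := Nat.mul_le_mul_right p h3
  have hm₁0 : 0 < m₁ := Nat.succ_pos _
  have hm₁lt : m₁ < p * (p + 1) := by rw [hm₁, sq, mul_add, mul_one]; omega
  have hnd : ¬ p ∣ m₁ := fun hd =>
    hpp.ne_one (Nat.dvd_one.mp ((Nat.dvd_add_right (dvd_pow_self p two_ne_zero)).mp hd))
  have htop : (m₁ : ℤ) < p * S.E := by
    show (m₁ : ℤ) < (p : ℤ) * ((p + 1 : ℕ) : ℤ)
    exact_mod_cast hm₁lt
  have hdeep : ∀ c ∈ Z, S.DeepAll ψ (fun σ => c σ 0 1) m₁ := by
    intro c hc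
    rcases eq_zero_or_fl_of_mem_span hc with rfl | h
    · intro b; exact S.deep_of_eq_zero (fun σ _ => by simp [fam]) _
    · exact Tame.DeepAll.climb hP (hN.deep_entry hdet hP hp2 h hψ 1) (Nat.succ_pos p)
        (by rw [hm₁, sq]; omega) htop.le fun m h1 h2 h4 h5 =>
          hN.coef01_eq_zero hdet hP hp2 hres h.cocycle h1 (h2.trans hm₁lt) h4 h2.ne h5
  set R := Z.map (restrictTo (k := k) (D : Subgroup GQ))
  let ev : R →ₗ[k] (S.GF → k) :=
    { toFun := fun r σ => r.1 ⟨σ, S.le_D σ σ.2⟩ 0 1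
      map_add' := fun _ _ => rfl
      map_smul' := fun _ _ => rfl }
  -- the kernel consists of coboundaries
  have hkerle : ∀ r : LinearMap.ker ev, r.1.1 ∈ coboundaryRange M D := by
    rintro ⟨⟨_, c, hc, rfl⟩, h0⟩
    have h01 : ∀ σ ∈ S.GF, c σ 0 1 = 0 := fun σ hσ =>
      congrFun (show ev ⟨_, c, hc, rfl⟩ = 0 from h0) ⟨σ, hσ⟩
    have hcc := hcoc hc
    have hzero : ∀ σ ∈ S.GF, c σ = 0 := by
      intro σ hσ
      have h00 : c σ 0 0 = 0 := by
        rcases eq_zero_or_fl_of_mem_span hc with rfl | h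
        · rfl
        · exact hN.c00_eq_zero hdet hP hp2 h hψ h01 hσ
      have h11 := hcc.trace_eq_zero σ
      rw [Matrix.trace_fin_two, h00, zero_add] at h11
      ext i j
      fin_cases i <;> fin_cases j
      exacts [h00, h01 σ hσ, hN.c10_eq_zero hP hcc h01 hσ, h11]
    obtain ⟨X, hX, heq⟩ := hN.exists_coboundary hdet hP hp2 hM hcc hzero
    show restrictTo D c ∈ _
    rw [show restrictTo (k := k) D c = restrictTo D (coboundary M X) from
      funext fun σ => heq σ σ.2]
    exact restrict_coboundary_mem M D hX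
  have : Module.Finite k (coboundaryRange M D) := Module.Finite.map _ _
  let incl : LinearMap.ker ev →ₗ[k] coboundaryRange M D :=
    LinearMap.codRestrict _ (R.subtype.comp (LinearMap.ker ev).subtype) hkerle
  have hincl : Function.Injective incl := fun r r' h =>
    Subtype.ext (Subtype.ext (show r.1.1 = r'.1.1 from congrArg (fun x : coboundaryRange M D => x.1) h))
  have : Module.Finite k (LinearMap.ker ev) := Module.Finite.of_injective incl hincl
  have hker : Module.finrank k (LinearMap.ker ev) ≤ 3 :=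
    (LinearMap.finrank_le_finrank_of_injective hincl).trans (finrank_coboundaryRange_le M D)
  -- the image is counted by twisted coefficients
  obtain ⟨a, ha, hak⟩ := hN.tau_zeta hdet hP
  obtain ⟨b, hb, -⟩ := exists_zeta_exponent hN.prim (φ * φ)
  have hs := hN.swap τ hN.tau_mem
  set α := M τ 0 0
  set β := M τ 1 1
  have hα0 : α ≠ 0 := fun h => hN.tau_ne (show α = β by rw [← hs.1, h, zero_pow hpp.ne_zero])
  have hβ0 : β ≠ 0 := fun h => hN.tau_ne (show α = β by rw [← hs.2, h, zero_pow hpp.ne_zero])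
  have hφD := hN.frob.mem_decompositionSubgroup
  set ρ : k := (a : k) * (α * β⁻¹)⁻¹ with hρ
  have hρ2 : ρ = β ^ 2 := by rw [hρ, hak]; field_simp
  let : Algebra (ZMod p) k := ZMod.algebra _ p
  let : Algebra (ZMod p) (ResidueField P) := ZMod.algebra _ p
  have := GalCommon.isAlgClosed_residueField P hpp hP
  have : Algebra.IsAlgebraic (ZMod p) k := Algebra.IsAlgebraic.of_finite _ _
  set emb := (IsAlgClosed.lift (R := ZMod p) (S := k) (M := ResidueField P)).toRingHom with hemb
  have hb0 : (b : k) * (1 : k)⁻¹ ≠ 0 := by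
    rw [inv_one, mul_one, ← det_eq_natCast hN.prim hdet hb]
    exact det_ne_zero M _
  obtain ⟨hfin, hcard⟩ := card_twisted_le emb (ρ := ρ) (γ := (b : k) * (1 : k)⁻¹)
    (r := res P (theta S.ϖ τ) ^ m₁) (c := res P (theta S.ϖ (φ * φ)) ^ m₁) (m := 2) hb0 (by
      intro i j hi hj
      have h : ρ ^ p ^ i = ρ ^ p ^ j := emb.injective (by rw [map_pow, map_pow, hi, hj])
      have hval : ∀ n : ℕ, ρ ^ p ^ n = if n % 2 = 0 then β ^ 2 else α ^ 2 := by
        intro n
        induction n with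
        | zero => rw [pow_zero, pow_one, hρ2]; rfl
        | succ n ih =>
          rw [pow_succ, pow_mul, ih]
          rcases Nat.mod_two_eq_zero_or_one n with h | h
          · rw [if_pos h, if_neg (by omega), ← pow_mul, mul_comm, pow_mul, hs.2]
          · rw [if_neg (by omega), if_pos (by omega), ← pow_mul, mul_comm, pow_mul, hs.1]
      rw [hval, hval] at h
      have hne := hN.sq_ne hdet hP hp2 hres
      show i % 2 = j % 2
      rcases Nat.mod_two_eq_zero_or_one i with h1 | h1 <;>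
        rcases Nat.mod_two_eq_zero_or_one j with h2 | h2 <;> simp [h1, h2] at h ⊢
      · exact hne h.symm
      · exact hne h)
  choose rep hrep using fun y : LinearMap.range ev => y.2
  choose lift hlift using fun r : R => r.2
  let C : LinearMap.range ev → (GQ → 𝕄) := fun y => lift (rep y)
  have hCZ : ∀ y, C y ∈ Z := fun y => (hlift (rep y)).1
  have hCval : ∀ (y : LinearMap.range ev) (σ : S.GF), C y σ 0 1 = y.1 σ := fun y σ => by
    have h1 : restrictTo D (C y) = (rep y).1 := (hlift (rep y)).2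
    rw [← hrep y]
    exact congrFun (congrFun (congrFun h1 ⟨σ, S.le_D σ σ.2⟩) 0) 1
  have hmaps : ∀ y, S.coefHom ψ (fun σ => C y σ 0 1) m₁ ∈ twisted ρ ((b : k) * (1 : k)⁻¹)
      (res P (theta S.ϖ τ) ^ m₁) (res P (theta S.ϖ (φ * φ)) ^ m₁) p 2 := by
    intro y x
    have hd := hdeep _ (hCZ y)
    have hcc := hcoc (hCZ y)
    refine ⟨Tame.coefHom_rel_inertia hP hm₁0 htop hnd hd hN.tau_mem
      (mul_ne_zero hα0 (inv_ne_zero hβ0)) (fun σ hσ => ?_) ha x, ?_⟩
    · show C y (τ * σ * τ⁻¹) 0 1 = _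
      rw [hN.cocycle_conj hP hcc τ hσ]
      exact (hN.toIrrShape.adAct_inertia hN.tau_mem _).2.2.1
    rw [Tame.coefHom_rel hP hm₁0 htop hnd hd (mul_mem hφD hφD) one_ne_zero (fun σ hσ => ?_) hb x,
      mul_comm]
    · congr 1
      rw [show (⟨φ * φ, mul_mem hφD hφD⟩ : P.decompositionSubgroup ℚ) =
          ⟨φ, hφD⟩ * ⟨φ, hφD⟩ from rfl, mul_smul, hN.frob.smul_residue_eq,
        hN.frob.smul_residue_eq, ← pow_mul, sq]
    · show C y (φ * φ * σ * (φ * φ)⁻¹) 0 1 = _
      have hmem := S.conj_mem φ hφD σ hσ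
      rw [show φ * φ * σ * (φ * φ)⁻¹ = φ * (φ * σ * φ⁻¹) * φ⁻¹ by group,
        hN.cocycle_conj hP hcc φ hmem, (hN.toIrrShape.adAct_frob _).2.2.1,
        hN.cocycle_conj hP hcc φ hσ, (hN.toIrrShape.adAct_frob _).2.2.2, one_mul, ← mul_assoc,
        div_mul_div_comm, mul_comm (M φ 1 0), div_self (mul_ne_zero hN.frob_ne.1 hN.frob_ne.2),
        one_mul]
  have hY : Module.Finite k (LinearMap.range ev) ∧ Module.finrank k (LinearMap.range ev) ≤ 1 := by
    refine finrank_le_of_injective (fun y => S.coefHom ψ (fun σ => C y σ 0 1) m₁) ?_ hfin hmaps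
      (by rw [pow_one]; exact hcard)
    intro y y' hyy
    set c := C y - C y' with hc
    have hcZ : c ∈ Z := Z.sub_mem (hCZ y) (hCZ y')
    have hd := hdeep c hcZ
    have hT0 : S.coefHom ψ (fun σ => c σ 0 1) m₁ = 0 := by
      have h := Tame.coefHom_add hP hm₁0 htop hnd hd (hdeep _ (hCZ y'))
      have e : ((fun σ => c σ 0 1) + fun σ => C y' σ 0 1) = fun σ => C y σ 0 1 := by
        funext σ; simp [hc]
      rw [e] at h
      exact left_eq_add.mp ((hyy.symm.trans h).trans (add_comm _ _))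
    have htop2 : S.DeepAll ψ (fun σ => c σ 0 1) (p * S.E) := by
      have h1 : S.DeepAll ψ (fun σ => c σ 0 1) ((p * (p + 1) : ℕ) : ℤ) :=
        Tame.DeepAll.climb hP hd hm₁0 hm₁lt.le (by
          show ((p * (p + 1) : ℕ) : ℤ) ≤ (p : ℤ) * ((p + 1 : ℕ) : ℤ)
          push_cast; rfl) fun m h1 h2 h4 h5 => by
          rcases eq_or_lt_of_le h1 with rfl | h6
          · exact hT0
          · exact hN.coef01_eq_zero hdet hP hp2 hres (hcoc hcZ) (by rw [hm₁, sq] at h6; omega)
              h2 h4 h6.ne' h5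
      show S.DeepAll ψ _ ((p : ℤ) * ((p + 1 : ℕ) : ℤ))
      rwa [← Nat.cast_mul]
    have hzero : ∀ σ ∈ S.GF, c σ 0 1 = 0 := fun σ hσ =>
      Tame.DeepAll.eq_zero_of_top hP hψ (hN.isKChar hP (hcoc hcZ) 0 1) htop2
        (inertia_le_decomposition hN.tau_mem) (χ := α * β⁻¹) (fun σ hσ => by
          show c (τ * σ * τ⁻¹) 0 1 = _
          rw [hN.cocycle_conj hP (hcoc hcZ) τ hσ]
          exact (hN.toIrrShape.adAct_inertia hN.tau_mem _).2.2.1)
        (fun h => hN.tau_ne ((mul_inv_eq_one₀ hβ0).mp h)) hσ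
    refine Subtype.ext (funext fun σ => ?_)
    rw [← hCval y σ, ← hCval y' σ]
    have h := hzero σ σ.2
    rw [hc, Pi.sub_apply, Matrix.sub_apply, sub_eq_zero] at h
    exact h
  have := hY.1
  have : Module.Finite k R := by
    have : Module.Finite k (↥R ⧸ LinearMap.ker ev) :=
      Module.Finite.equiv ev.quotKerEquivRange.symm
    exact Module.Finite.of_submodule_quotient (LinearMap.ker ev)
  refine ⟨R, inferInstance, ?_, fun X hX => Submodule.mem_map_of_mem (hB X hX),
    fun c _ hc => Submodule.mem_map_of_mem (Submodule.subset_span hc)⟩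
  have h := LinearMap.finrank_range_add_finrank_ker ev
  have := hY.2
  omega

omit hN
/-- The flat tangent bound without a stable line. -/
theorem tangentBound_flat_of_noLine (hp2 : p ≠ 2) (hM : FactorsFinite M)
    (hsplit : CharpolySplits M) (hres : HasFlatModel p (resAct M)) (hno : NoLine M P) :
    LocalTangentBound M D (Fl p M) 4 := by
  obtain ⟨H, hH⟩ := hasFlatModel_iff_hasOrder.mp hres
  obtain ⟨g, φ, hS⟩ := exists_irrShape hP hH hM hsplit hno
  have hres' := ((fl_zero_of_residual hres).conj g).residual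
  obtain ⟨H', hH'⟩ := hasFlatModel_iff_hasOrder.mp hres'
  obtain ⟨ϖ, ζ, z, τ, hN⟩ := exists_irrNormal hP hS hH'
  exact localTangentBound_of_conj D g (hN.tangentBound_flat (detCyclotomic_conjRep g hdet) hP hp2
    (factorsFinite_conjRep g hM) hres') fun c _ h => h.conj g

end FLTAgent.LocP

namespace FLTAgent.LocP

open Matrix FLTAgent.TW FLTAgent.Deform FLTAgent.FlatHopf
open scoped Pointwise

variable {k : Type} [Field k] [Finite k] {P : ValuationSubring (AlgebraicClosure ℚ)} {p : ℕ}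
  [Fact p.Prime] [CharP k p]

/-- The flat local tangent bound. -/
theorem tangentBound_flat (hp2 : p ≠ 2) (M : MatRep k) (hM : FactorsFinite M)
    (hdet : DetCyclotomic M p) (hsplit : CharpolySplits M) (hP : P.LiesOverPrime p) :
    LocalTangentBound M (P.decompositionSubgroup ℚ)
      (fun c => ∀ hc : IsTangentCocycle M c, (liftRep hM hc).IsFlatAt p) 4 := by
  by_cases hres : HasFlatModel p (resAct M)
  swap
  · have : Module.Finite k (coboundaryRange M (P.decompositionSubgroup ℚ)) :=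
      Module.Finite.map _ _
    exact ⟨coboundaryRange M _, inferInstance,
      (finrank_coboundaryRange_le M _).trans (by norm_num),
      fun X hX => restrict_coboundary_mem M _ hX,
      fun c hc h => absurd (fl_of_isFlatAt hM hc (h hc)).residual hres⟩
  obtain ⟨S, hfin, hd, hB, hS⟩ : LocalTangentBound M (P.decompositionSubgroup ℚ) (Fl p M) 4 := by
    by_cases hno : NoLine M P
    · exact tangentBound_flat_of_noLine hdet hP hp2 hM hsplit hres hno
    · rw [NoLine] at hno
      push Not at hno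
      obtain ⟨d, hd, hlow⟩ := hno
      exact tangentBound_flat_of_line hdet hP hp2 hM hres hd hlow
  exact ⟨S, hfin, hd, hB, fun c hc h => hS c hc (fl_of_isFlatAt hM hc (h hc))⟩

end FLTAgent.LocP
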