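import Fermat.Agent.LocP.Normalised

/-!
# Stable lines in a residual representation with an order at `p`

Inertia elements with trivial tame character of level `e` lower the norm of every point whose
stabiliser contains the kernel of a character of exponent `e` (`nrm_act_sub_lt_of_character`).
A stable line either carries the norm one, or inertia is trivial modulo it (`line_dichotomy`);
so the stable line can be chosen with inertia trivial on the quotient (`exists_good_line`).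
-/

set_option autoImplicit false
set_option linter.unusedSectionVars false

noncomputable section

namespace FLTAgent.LocP

open Matrix FLTAgent.TW FLTAgent.Deform FLTAgent.FlatHopf IsLocalRing
open scoped Pointwise

local notation "Qb" => AlgebraicClosure ℚ

variable {k : Type} [Field k] [Finite k] {P : ValuationSubring (AlgebraicClosure ℚ)} {p : ℕ}
  [Fact p.Prime]

local notation "v" => P.valuation
local notation "D" => P.decompositionSubgroup ℚ
local notation "Ine" => P.inertiaSubgroupIn ℚ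
local notation "𝕄" => Matrix (Fin 2) (Fin 2) k

/-- An element fixed by the kernel of a character of exponent `n` of inertia. -/
theorem exists_val_pow_of_character (hP : P.LiesOverPrime p) {α : GQ → k} {n : ℕ}
  (hmul : ∀ σ ∈ Ine, ∀ τ ∈ Ine, α (σ * τ) = α σ * α τ) (hpow : ∀ σ ∈ Ine, α σ ^ n = 1)
  (hn : 0 < n)
    {y : Qb} (hy0 : y ≠ 0)
    (hy : ∀ σ ∈ Ine, α σ = 1 → σ y = y) : ∃ j : ℤ, v y ^ n = v (p : Qb) ^ j := by
  classical
  let Φ : Ine →* kˣ := MonoidHom.mk' (fun σ => Units.ofPowEqOne (α σ) n (hpow σ σ.2) hn.ne')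
    fun σ τ => Units.ext (by simpa using hmul σ σ.2 τ τ.2)
  have : Finite kˣ := Finite.of_injective _ Units.val_injective
  have : Fintype Φ.range := Fintype.ofFinite _
  choose r hr using fun x : Φ.range => x.2
  have hfix : ∀ σ τ : Ine, Φ σ = Φ τ → (σ : GQ) y = (τ : GQ) y := by
    intro σ τ h
    have h1 : Φ (τ⁻¹ * σ) = 1 := by rw [map_mul, map_inv, h, inv_mul_cancel]
    have h2 : α ((τ⁻¹ * σ : Ine) : GQ) = 1 := congrArg Units.val h1
    have h3 := congrArg (τ : GQ) (hy _ (τ⁻¹ * σ).2 h2)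
    simpa [← AlgEquiv.mul_apply] using h3
  have hQ : ∀ σ ∈ Ine, σ (∏ x, (r x : GQ) y) = ∏ x, (r x : GQ) y := by
    intro σ hσ
    rw [map_prod]
    refine Fintype.prod_equiv (Equiv.mulLeft (⟨Φ ⟨σ, hσ⟩, _, rfl⟩ : Φ.range)) _ _ fun x => ?_
    rw [← AlgEquiv.mul_apply]
    refine hfix (⟨σ, hσ⟩ * r x) (r _) ?_
    rw [map_mul, hr, hr]
    rfl
  have hne : ∏ x, (r x : GQ) y ≠ 0 :=
    Finset.prod_ne_zero_iff.mpr fun x _ => by simpa using hy0
  obtain ⟨j, hj⟩ := exists_val_eq_zpow hP hne hQ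
  rw [map_prod, Finset.prod_congr rfl (g := fun _ => v y) fun x _ =>
    val_map (inertia_le_decomposition (r x).2) y, Finset.prod_const, Finset.card_univ] at hj
  have hdvd : Fintype.card Φ.range ∣ n := by
    rw [← Nat.card_eq_fintype_card, ← IsCyclic.exponent_eq_card (α := Φ.range)]
    refine Monoid.exponent_dvd_of_forall_pow_eq_one fun x => Subtype.ext ?_
    obtain ⟨σ, hσ⟩ := x.2
    rw [SubmonoidClass.coe_pow, ← hσ]
    exact Units.ext (by simpa [Φ] using hpow σ σ.2)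
  obtain ⟨m, hm⟩ := hdvd
  exact ⟨j * m, by rw [hm, pow_mul, hj, ← zpow_natCast (_ ^ j), ← _root_.zpow_mul]⟩

/-- Such points are moved deeper by inertia elements with trivial tame character. -/
theorem nrm_act_sub_lt_of_character (hP : P.LiesOverPrime p) {α : GQ → k} {n : ℕ}
  (hmul : ∀ σ ∈ Ine, ∀ τ ∈ Ine, α (σ * τ) = α σ * α τ) (hpow : ∀ σ ∈ Ine, α σ ^ n = 1)
  (hn : 0 < n)
    {G : Type} [AddCommGroup G] [Finite G]
    {act : GQ →* AddMonoid.End G} {H : Subalgebra (GaloisRep.ratLocalizedAt p) (G → Qb)}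
    (hH : IsOrder (galR p) act H) {ϖ : Qb} (hϖ : ϖ ^ n = -(p : Qb)) {σ : GQ} (hσ : σ ∈ Ine)
    (hθ : theta ϖ σ = 1) {x : G} (hx : x ≠ 0)
    (hstab : ∀ τ ∈ Ine, α τ = 1 → act τ x = x) :
    nrm hH (algebraMap_ratLocalized_mem hP) (act σ x - x) <
      nrm hH (algebraMap_ratLocalized_mem hP) x := by
  refine nrm_act_sub_lt hH hP hx fun a ha hne => ?_
  obtain ⟨j, hj⟩ := exists_val_pow_of_character hP hmul hpow hn hne fun τ hτ h => by
    rw [map_sub, ← apply_act hH τ ha, hstab τ hτ h, apply_zero_fixed hH τ ha]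
  exact val_inertia_sub_lt hP hϖ hn hσ (apply_uniformizer_eq hϖ hn hθ) hne (s := 0) (j := j)
    (by rw [pow_zero, one_mul]; exact hj)

theorem nrm_nsmul_le {G : Type} [AddCommGroup G] [Finite G] {act : GQ →* AddMonoid.End G}
    {H : Subalgebra (GaloisRep.ratLocalizedAt p) (G → Qb)} (hH : IsOrder (galR p) act H)
    (hP : P.LiesOverPrime p) (x : G) (m : ℕ) :
    nrm hH (algebraMap_ratLocalized_mem (P := P) hP) (m • x) ≤
      nrm hH (algebraMap_ratLocalized_mem (P := P) hP) x := by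
  induction m with
  | zero => rw [zero_smul, nrm_zero]; exact zero_le
  | succ m ih => rw [succ_nsmul]; exact (nrm_add_le hH _ _ _).trans (max_le ih le_rfl)

/-- The leading coefficient is additive on multiples. -/
theorem lead_nsmul {G : Type} [AddCommGroup G] [Finite G] {act : GQ →* AddMonoid.End G}
    {H : Subalgebra (GaloisRep.ratLocalizedAt p) (G → Qb)} (hH : IsOrder (galR p) act H)
    (hP : P.LiesOverPrime p) {ϖ : Qb} {e : ℕ} (hϖ : ϖ ^ e = -(p : Qb)) (he : 0 < e) {h : G → Qb}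
    (hh : h ∈ H) {n : ℕ} (hn : 0 < n) {x : G}
    (hx : nrm hH (algebraMap_ratLocalized_mem hP) x ≤ v ϖ ^ n) (m : ℕ) :
    lead P ϖ h n (m • x) = m * lead P ϖ h n x := by
  induction m with
  | zero => simp [lead]
  | succ m ih =>
    rw [succ_nsmul, lead_add hH hP hϖ he hh hn ((nrm_nsmul_le hH hP x m).trans hx) hx, ih]
    push_cast
    ring

variable [CharP k p]

theorem exists_natCast_of_pow_eq {x : k} (h : x ^ p = x) : ∃ m : ℕ, (m : k) = x := by
  obtain ⟨m, hm⟩ := (mem_bot_iff_intCast p k).mp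
    ((Subfield.mem_bot_iff_pow_eq_self (F := k) (p := p)).mpr h)
  refine ⟨((m : ZMod p)).val, ?_⟩
  rw [← hm, ← map_intCast (ZMod.castHom (dvd_refl p) k), ZMod.natCast_val, ZMod.castHom_apply]

theorem exists_smul_of_det2 {d y : Vec k} (hd : d ≠ 0) (h : det2 d y = 0) : ∃ a : k, y = a • d := by
  obtain ⟨w, hw⟩ := exists_det2_ne_zero hd
  simp only [det2] at h hw
  refine ⟨y 0 * w 1 - y 1 * w 0, funext fun i => ?_⟩
  rw [Pi.smul_apply, smul_eq_mul]
  fin_cases i
  · show y 0 = (y 0 * w 1 - y 1 * w 0) * d 0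
    linear_combination -y 0 * hw + w 0 * h
  · show y 1 = (y 0 * w 1 - y 1 * w 0) * d 1
    linear_combination -y 1 * hw + w 1 * h

theorem det2_smul_left (a : k) (d x : Vec k) : det2 (a • d) x = a * det2 d x := by
  simp [det2]; ring

theorem det2_sub_right (d x y : Vec k) : det2 d (x - y) = det2 d x - det2 d y := by
  simp [det2]; ring

theorem det2_smul_right (a : k) (d x : Vec k) : det2 d (a • x) = a * det2 d x := by
  simp [det2]; ring

variable {M : MatRep k} {H : Subalgebra (GaloisRep.ratLocalizedAt p) (Vec k → Qb)}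
  (hH : IsOrder (galR p) (resAct M) H) (hP : P.LiesOverPrime p) (hdet : DetCyclotomic M p)

local notation "N" => nrm hH (algebraMap_ratLocalized_mem (P := P) hP)

include hH hP in
/-- No scalar except `0` lowers the norm of a whole line. -/
theorem eq_zero_of_line_lt {d : Vec k} (hd : d ≠ 0) {a : k}
    (h : ∀ t : k, t ≠ 0 → N (a • t • d) < N (t • d)) : a = 0 := by
  by_contra ha
  have : Nonempty {t : k // t ≠ 0} := ⟨⟨1, one_ne_zero⟩⟩
  obtain ⟨t, ht⟩ := Finite.exists_min fun t : {t : k // t ≠ 0} => N (t.1 • d)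
  have h1 := h t.1 t.2
  rw [smul_smul] at h1
  exact not_lt.mpr (ht ⟨a * t.1, mul_ne_zero ha t.2⟩) h1

include hH hP hdet in
/-- A stable line has norm one, or inertia acts trivially modulo it. -/
theorem line_dichotomy {d : Vec k} (hd : d ≠ 0) (hlow : ∀ σ ∈ D, det2 d (M σ *ᵥ d) = 0) :
    (∀ t : k, t ≠ 0 → N (t • d) = 1) ∨
      ∀ σ ∈ Ine, ∀ x, det2 d (M σ *ᵥ x - x) = 0 := by
  have hpp : p.Prime := Fact.out
  refine or_iff_not_imp_left.mpr fun hne => ?_
  push Not at hne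
  obtain ⟨t₀, ht₀, hne⟩ := hne
  have hlt : N (t₀ • d) < 1 := lt_of_le_of_ne (nrm_le_one hH _ _) hne
  choose a ha using fun σ hσ => exists_smul_of_det2 hd (hlow σ hσ)
  classical
  set χ : GQ → k := fun σ => if hσ : σ ∈ D then a σ hσ else 1 with hχ
  have hχd : ∀ σ ∈ D, M σ *ᵥ d = χ σ • d := fun σ hσ => by rw [hχ]; dsimp only; rw [dif_pos hσ]; exact ha σ hσ
  have hmul : ∀ σ ∈ D, ∀ τ ∈ D, χ (σ * τ) = χ σ * χ τ := fun σ hσ τ hτ => by
    refine smul_left_injective k hd ?_
    dsimp only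
    rw [← hχd _ (mul_mem hσ hτ), map_mul, ← mulVec_mulVec, hχd τ hτ, mulVec_smul, hχd σ hσ,
      smul_smul, mul_comm]
  have hne0 : ∀ σ ∈ D, χ σ ≠ 0 := fun σ hσ h0 => by
    have h1 := hχd σ hσ
    rw [h0, zero_smul] at h1
    have h2 : M σ⁻¹ *ᵥ (M σ *ᵥ d) = M σ⁻¹ *ᵥ 0 := congrArg _ h1
    rw [mulVec_mulVec, TW.inv_mul_eq_one, one_mulVec, mulVec_zero] at h2
    exact hd h2
  have hsub : ∀ σ ∈ D, ∀ t : k,
      resAct M σ (t • d) - t • d = (χ σ - 1) • t • d := fun σ hσ t => by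
    rw [resAct_apply, mulVec_smul, hχd σ hσ, sub_smul, one_smul, smul_comm]
  have hwild : ∀ σ, IsWild P p σ → χ σ = 1 := fun σ hσ => sub_eq_zero.mp
    (eq_zero_of_line_lt hH hP hd fun t ht => by
      rw [← hsub σ (inertia_le_decomposition hσ.1)]
      exact hσ.nrm_lt hH hP (smul_ne_zero ht hd))
  obtain ⟨φ, hφ⟩ := GalCommon.exists_isFrobeniusAt hpp hP
  have hφD := hφ.mem_decompositionSubgroup
  have hfix : ∀ σ ∈ Ine, χ σ ^ p = χ σ := by
    intro σ hσ
    have hσD := inertia_le_decomposition hσ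
    have hpow : ∀ i : ℕ, χ (σ ^ i) = χ σ ^ i := by
      intro i
      induction i with
      | zero =>
        have h1 := hmul 1 (one_mem _) 1 (one_mem _)
        rw [mul_one] at h1
        rw [pow_zero, pow_zero]
        exact (mul_eq_left₀ (hne0 1 (one_mem _))).mp h1.symm
      | succ i ih => rw [pow_succ, hmul _ (pow_mem hσD i) σ hσD, ih, pow_succ]
    have hc : φ * σ * φ⁻¹ ∈ D := mul_mem (mul_mem hφD hσD) (inv_mem hφD)
    have h1 : χ (φ * σ * φ⁻¹) = χ σ := by
      refine mul_right_cancel₀ (hne0 φ hφD) ?_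
      rw [← hmul _ hc φ hφD, inv_mul_cancel_right, hmul φ hφD σ hσD, mul_comm]
    have h2 := hwild _ (frobenius_conj_isWild hP hφ hσ)
    have h3 := hmul _ (inertia_le_decomposition (frobenius_conj_isWild hP hφ hσ).1) _
      (pow_mem hσD p)
    rw [inv_mul_cancel_right, h1, h2, hpow, one_mul] at h3
    exact h3.symm
  have hpow1 : ∀ σ ∈ Ine, χ σ ^ (p - 1) = 1 := fun σ hσ => by
    refine mul_right_cancel₀ (hne0 σ (inertia_le_decomposition hσ)) ?_
    rw [← pow_succ, Nat.sub_add_cancel hpp.pos, hfix σ hσ, one_mul]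
  obtain ⟨ϖ, hϖ⟩ := IsAlgClosed.exists_pow_nat_eq (-(p : Qb)) (pred_pos (p := p))
  obtain ⟨ζ, hζ⟩ := exists_primitive p hpp.pos
  have htame : ∀ σ ∈ Ine, theta ϖ σ = 1 → χ σ = 1 := fun σ hσ hθ => sub_eq_zero.mp
    (eq_zero_of_line_lt hH hP hd fun t ht => by
      rw [← hsub σ (inertia_le_decomposition hσ)]
      refine nrm_act_sub_lt_of_character hP (fun σ hσ τ hτ =>
        hmul σ (inertia_le_decomposition hσ) τ (inertia_le_decomposition hτ)) hpow1 pred_pos hH hϖ
        hσ hθ (smul_ne_zero ht hd) fun τ hτ h => ?_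
      rw [← sub_eq_zero, hsub τ (inertia_le_decomposition hτ), h, sub_self, zero_smul])
  set x₀ := t₀ • d with hx₀
  have hx₀0 : x₀ ≠ 0 := smul_ne_zero ht₀ hd
  obtain ⟨n, hn, hn1, hn2⟩ := exists_nrm_eq_pow hH hP hϖ pred_pos not_dvd_pred (x := x₀)
    (fun σ hσ hθ => by
      rw [← sub_eq_zero, hsub σ (inertia_le_decomposition hσ), htame σ hσ hθ, sub_self, zero_smul])
    (by rw [← Nat.cast_smul_eq_nsmul k, CharP.cast_eq_zero, zero_smul]) hx₀0 hlt
  obtain rfl : n = 1 := le_antisymm (Nat.le_of_mul_le_mul_right (by simpa using hn2) pred_pos) hn1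
  obtain ⟨h, hh, hhx⟩ := exists_eq_nrm hH (algebraMap_ratLocalized_mem hP) x₀
  have hlead := lead_ne_zero hH hP hϖ pred_pos hh hn.le (hhx.trans hn)
  have := charP_res hP
  intro σ hσ x
  have hσD := inertia_le_decomposition hσ
  obtain ⟨m, hm⟩ := exists_natCast_of_pow_eq (p := p) (hfix σ hσ)
  obtain ⟨b, hb, -⟩ := exists_zeta_exponent hζ σ
  have h1 := lead_act_inertia hH hP hϖ pred_pos hh hσ hn.le
  rw [show resAct M σ x₀ = m • x₀ by
    rw [resAct_apply, hx₀, mulVec_smul, hχd σ hσD, ← Nat.cast_smul_eq_nsmul k, hm, smul_comm],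
    lead_nsmul hH hP hϖ pred_pos hh Nat.one_pos hn.le, pow_one] at h1
  have h2 := mul_right_cancel₀ hlead h1
  have hv : v (theta ϖ σ) ≤ 1 := ((pow_eq_one_iff_of_nonneg zero_le pred_pos.ne').mp
    (by rw [← map_pow, theta_pow hϖ pred_pos, map_one])).le
  have h3 := res_theta_pow_eq hP hϖ hζ (mul_one _).symm pred_pos hσ hb
  rw [pow_one, ← h2, CharP.natCast_eq_natCast (ResidueField P) p] at h3
  have hχdet : χ σ = (M σ).det := by
    rw [← hm, det_eq_natCast hζ hdet hb]
    exact (CharP.natCast_eq_natCast k p).mpr h3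
  have h4 := det2_mulVec (M σ) d x
  rw [hχd σ hσD, det2_smul_left, hχdet] at h4
  rw [det2_sub_right, mul_left_cancel₀ (det_ne_zero M σ) h4, sub_self]

include hH hdet hP in
/-- A stable line can be chosen with inertia trivial modulo it. -/
theorem exists_good_line (hp2 : p ≠ 2) {d : Vec k} (hd : d ≠ 0)
    (hlow : ∀ σ ∈ D, det2 d (M σ *ᵥ d) = 0) :
    ∃ d' : Vec k, d' ≠ 0 ∧ (∀ σ ∈ D, det2 d' (M σ *ᵥ d') = 0) ∧
      ∀ σ ∈ Ine, ∀ x, det2 d' (M σ *ᵥ x - x) = 0 := by
  have h2 := two_ne_zero' (k := k) hp2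
  rcases line_dichotomy hH hP hdet hd hlow with h | h
  swap
  · exact ⟨d, hd, hlow, h⟩
  have hlt : ∀ σ ∈ Ine, ∀ x : Vec k, N (M σ *ᵥ x - x) < 1 := fun σ hσ x =>
    nrm_act_sub_lt_one hH _ (act := resAct M)
      (fun b hb => val_map_sub_lt hσ ((P.valuation_le_one_iff _).mpr hb)) x
  have hdline : ∀ t : k, N (t • d) < 1 → t = 0 := fun t ht => not_not.mp fun h0 =>
    ht.ne (h t h0)
  have hID : ∀ σ ∈ Ine, M σ *ᵥ d = d := fun σ hσ => by
    obtain ⟨a, ha⟩ := exists_smul_of_det2 hd (hlow σ (inertia_le_decomposition hσ))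
    have h1 := hlt σ hσ d
    rw [ha, show a • d - d = (a - 1) • d by rw [sub_smul, one_smul]] at h1
    rw [ha, sub_eq_zero.mp (hdline _ h1), one_smul]
  -- an inertia element of determinant `-1`
  obtain ⟨ζ, hζ⟩ := exists_primitive p (Fact.out : p.Prime).pos
  obtain ⟨ϖ, hϖ⟩ := IsAlgClosed.exists_pow_nat_eq (-(p : Qb)) (pred_pos (p := p))
  obtain ⟨z, hz⟩ := exists_primitive (p - 1) (pred_pos (p := p))
  obtain ⟨τ, hτ, hθ⟩ := exists_inertia_theta_eq hP hϖ pred_pos not_dvd_pred hz.pow_eq_one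
  have hdetτ : (M τ).det ≠ 1 := by
    obtain ⟨a, ha, -⟩ := exists_zeta_exponent hζ τ
    intro hcon
    rw [det_eq_natCast hζ hdet ha, ← Nat.cast_one, CharP.natCast_eq_natCast k p] at hcon
    have := charP_res hP
    have h1 := res_theta_pow_eq hP hϖ hζ (mul_one _).symm pred_pos hτ ha
    rw [hθ, pow_one, (CharP.natCast_eq_natCast (ResidueField P) p).mpr hcon, Nat.cast_one,
      ← res_one (P := P)] at h1
    have h3 := res_root_injective hP not_dvd_pred hz.pow_eq_one (one_pow _) h1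
    have h4 := hz.dvd_of_pow_eq_one 1 (by rw [pow_one, h3])
    have := Nat.le_of_dvd Nat.one_pos h4
    have := (Fact.out : p.Prime).two_le
    omega
  obtain ⟨w, hw⟩ := exists_det2_ne_zero hd
  set e₁ := M τ *ᵥ w - w with he₁
  have hδ : det2 d e₁ ≠ 0 := by
    have h1 := det2_mulVec (M τ) d w
    rw [hID τ hτ, hw, mul_one] at h1
    rw [he₁, det2_sub_right, h1, hw]
    exact sub_ne_zero.mpr hdetτ
  have he0 : e₁ ≠ 0 := fun h0 => hδ (by rw [h0]; simp [det2])
  have hsmall : ∀ t : k, N (t • e₁) < 1 := fun t => by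
    rw [he₁, smul_sub, ← mulVec_smul]
    exact hlt τ hτ _
  have hU : ∀ x, N x < 1 → det2 e₁ x = 0 := by
    intro x hx
    obtain ⟨a, ha⟩ := exists_smul_of_det2 hd
      (show det2 d (x - (det2 d x / det2 d e₁) • e₁) = 0 by
        rw [det2_sub_right, det2_smul_right, div_mul_cancel₀ _ hδ, sub_self])
    have h1 : a = 0 := hdline a (by
      rw [← ha]
      exact (nrm_sub_le hH _ _ _).trans_lt (max_lt hx (hsmall _)))
    rw [h1, zero_smul, sub_eq_zero] at ha
    rw [ha, det2_smul_right]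
    simp [det2, mul_comm]
  have hlow' : ∀ σ ∈ D, det2 e₁ (M σ *ᵥ e₁) = 0 := fun σ hσ => hU _ (by
    have h1 : N (resAct M σ e₁) = N e₁ :=
      nrm_act hH _ (fun b => val_map hσ b) e₁
    rw [← resAct_apply, h1, ← one_smul k e₁]
    exact hsmall 1)
  refine ⟨e₁, he0, hlow', (line_dichotomy hH hP hdet he0 hlow').resolve_left fun h' => ?_⟩
  exact (hsmall 1).ne (h' 1 one_ne_zero)

end FLTAgent.LocP
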