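import Fermat.Agent.LocP.FlatReducible

/-!
# The flat and strictly ordinary tangent bound at `p`

`tangentBound_flat_strictOrdinary`: cocycles both flat and strictly ordinary at `p` satisfy the
local tangent bound `3`.  In normal form the normalised classes have trivial diagonal and an upper
right entry which is deep of level one; so they form at most a line.
-/

set_option autoImplicit false
set_option linter.unusedSectionVars false

noncomputable section

namespace FLTAgent.LocP

open Matrix FLTAgent.TW FLTAgent.Deform FLTAgent.FlatHopf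
open scoped Pointwise

local notation "Qb" => AlgebraicClosure ℚ

variable {k : Type} [Field k] [Finite k] {P : ValuationSubring (AlgebraicClosure ℚ)} {p : ℕ}
  [Fact p.Prime] [CharP k p]

local notation "D" => P.decompositionSubgroup ℚ
local notation "Ine" => P.inertiaSubgroupIn ℚ
local notation "𝕄" => Matrix (Fin 2) (Fin 2) k

/-- The flat and strictly ordinary local tangent bound. -/
theorem tangentBound_flat_strictOrdinary (hp2 : p ≠ 2) (M : MatRep k) (hM : FactorsFinite M)
    (hdet : DetCyclotomic M p) (hP : P.LiesOverPrime p) :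
    LocalTangentBound M (P.decompositionSubgroup ℚ)
      (fun c => ∀ hc : IsTangentCocycle M c,
        (liftRep hM hc).IsFlatAt p ∧ (liftRep hM hc).IsStrictOrdinaryAt p) 3 := by
  by_cases hex : ∃ c, IsTangentCocycle M c ∧ IsSO P M c ∧ Fl p M c
  swap
  · have : Module.Finite k (coboundaryRange M D) := Module.Finite.map _ _
    exact ⟨coboundaryRange M D, inferInstance, finrank_coboundaryRange_le M D,
      fun X hX => restrict_coboundary_mem M D hX,
      fun c hc h => absurd ⟨c, hc, isSO_of_isStrictOrdinaryAt hM hdet hP hp2 hc (h hc).2,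
        fl_of_isFlatAt hM hc (h hc).1⟩ hex⟩
  obtain ⟨c₀, -, ⟨hc0, d, hd, hI, hD⟩, hfl0⟩ := hex
  have hfirst : ∀ x, InLine d x → det2 d.1 x.1 = 0 := by
    rintro x ⟨s, t, rfl⟩
    simp [det2]
    ring
  obtain ⟨g, ϖ, ζ, τ₀, hN⟩ := exists_redNormal hdet hP hp2 hd
    (fun σ hσ => hfirst _ (hD σ hσ).1) (fun σ hσ x => hfirst _ (hI σ hσ (x, 0)))
  have hM' := factorsFinite_conjRep g hM
  have hdet' := detCyclotomic_conjRep g hdet
  have hres' : HasFlatModel p (resAct (conjRep g M)) := (hfl0.conj g).residual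
  refine localTangentBound_of_conj D g
    (cond' := fun c => IsSO P (conjRep g M) c ∧ Fl p (conjRep g M) c) ?_
    fun c hc h => ⟨(isSO_of_isStrictOrdinaryAt hM hdet hP hp2 hc (h hc).2).conj g,
      (fl_of_isFlatAt hM hc (h hc).1).conj g⟩
  set M' := conjRep g M
  set Z : Submodule k (GQ → 𝕄) := Submodule.span k ({c | IsSO P M' c ∧ Fl p M' c} ∪
    coboundary M' '' {X : 𝕄 | X.trace = 0}) with hZ
  have hB : ∀ X : 𝕄, X.trace = 0 → coboundary M' X ∈ Z := fun X hX =>
    Submodule.subset_span (Or.inr ⟨X, hX, rfl⟩)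
  have hZfl : Z ≤ Submodule.span k {c | Fl p M' c} := Submodule.span_mono (by
    rintro c (⟨-, h⟩ | ⟨X, hX, rfl⟩)
    exacts [h, (fl_zero_of_residual hres').coboundary hM' hX])
  have hcoc : Z ≤ tangentCocycles M' :=
    hZfl.trans (Submodule.span_le.mpr fun c hc => Fl.cocycle hc)
  have hgood : ∀ c ∈ Z, ∀ σ ∈ D,
      normPart M' τ₀ c σ 1 0 = 0 ∧ normPart M' τ₀ c σ 0 0 = 0 := by
    intro c hc
    induction hc using Submodule.span_induction with
    | mem c hc =>
      intro σ hσ
      rcases hc with ⟨hso, -⟩ | ⟨X, hX, rfl⟩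
      · exact IsSO.good hN hp2 (hso.sub_coboundary hM' (trace_offPart τ₀ c))
          (hN.normPart_mem_diagAt hp2 c) hσ
      · have hd := hN.normPart_mem_diagAt hp2 (coboundary M' X)
        have e : normPart M' τ₀ (coboundary M' X) =
            coboundary M' (X - offPart τ₀ (coboundary M' X)) := by
          rw [map_sub]; rfl
        rw [e] at hd ⊢
        refine hN.coboundary_upper ?_ hσ
        have h1 := hd.2
        rw [hN.coboundary_tau] at h1
        simp at h1
        rcases h1 with h1 | h1
        · exact absurd h1 (two_ne_zero' hp2)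
        · exact h1
    | zero => simp
    | add a b _ _ iha ihb =>
      intro σ hσ
      simp [iha σ hσ, ihb σ hσ]
    | smul r a _ iha =>
      intro σ hσ
      simp [iha σ hσ]
  have hfix : ∀ c ∈ diagAt (k := k) τ₀, normPart M' τ₀ c = c := by
    intro c hc
    have h0 : offPart τ₀ c = 0 := by
      ext i j; fin_cases i <;> fin_cases j <;> simp [offPart, hc.1, hc.2]
    show c - coboundary M' (offPart τ₀ c) = c
    rw [h0, map_zero, sub_zero]
  obtain ⟨ψ, hψ⟩ := exists_addMonoidHom_ne_zero k p
  set R' := (Z ⊓ diagAt τ₀).map (restrictTo (k := k) (D : Subgroup GQ))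
  obtain ⟨hfin, hcard⟩ := hN.card_deep_le hdet' hP hp2 hψ
  have hR : Module.Finite k R' ∧ Module.finrank k R' ≤ 1 := by
    refine finrank_le_of_injective (fun r : R' => fun σ : D => r.1 σ 0 1) ?_ hfin ?_
      (by rw [pow_one]; exact hcard)
    · rintro ⟨_, c, ⟨hc, hcd⟩, rfl⟩ ⟨_, c', ⟨hc', hcd'⟩, rfl⟩ h
      refine Subtype.ext (funext fun σ => ?_)
      have h01 : c σ 0 1 = c' σ 0 1 := congrFun h σ
      have g1 := hgood c hc σ σ.2
      have g2 := hgood c' hc' σ σ.2
      rw [hfix c hcd] at g1
      rw [hfix c' hcd'] at g2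
      have t1 := (hcoc hc).trace_eq_zero σ
      have t2 := (hcoc hc').trace_eq_zero σ
      rw [Matrix.trace_fin_two, g1.2, zero_add] at t1
      rw [Matrix.trace_fin_two, g2.2, zero_add] at t2
      show c σ = c' σ
      ext i j
      fin_cases i <;> fin_cases j
      exacts [g1.2.trans g2.2.symm, h01, g1.1.trans g2.1.symm, t1.trans t2.symm]
    · rintro ⟨_, c, ⟨hc, hcd⟩, rfl⟩
      have h10 : ∀ σ ∈ D, c σ 1 0 = 0 := fun σ hσ => by
        have g1 := hgood c hc σ hσ; rw [hfix c hcd] at g1; exact g1.1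
      have h00 : ∀ σ ∈ D, c σ 0 0 = 0 := fun σ hσ => by
        have g1 := hgood c hc σ hσ; rw [hfix c hcd] at g1; exact g1.2
      refine ⟨fun σ => c σ 0 1, hN.isBCocycle_of_good (hcoc hc) hcd.1 h10 h00, ?_, rfl⟩
      rcases eq_zero_or_fl_of_mem_span (hZfl hc) with rfl | h
      · intro b
        exact (hN.tame hdet' hP).deep_of_eq_zero (fun σ _ => by simp [fam]) _
      · exact h.deep_one hN hdet' hP hψ hcd.1 h10 h00
  obtain ⟨hZfin, hZrank⟩ := hN.bound_of_normalised hp2 Z hB hR
  exact ⟨_, hZfin, hZrank, fun X hX => Submodule.mem_map_of_mem (hB X hX),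
    fun c _ hc => Submodule.mem_map_of_mem (Submodule.subset_span (Or.inl hc))⟩

end FLTAgent.LocP
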