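import Fermat.Agent.LocP.Normalised

/-!
# The strictly ordinary tangent bound at `p`

`tangentBound_strictOrdinary`: strictly ordinary cocycles satisfy the local tangent bound `4` at
`p`.  An adapted line gives the normal form (`exists_redNormal`); there a normalised strictly
ordinary cocycle is upper triangular with trivial diagonal (`IsSO.good`), and the upper right
classes are counted by Kummer theory.
-/

set_option autoImplicit false
set_option linter.unusedSectionVars false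

noncomputable section

namespace FLTAgent.LocP

open Matrix FLTAgent.TW FLTAgent.Deform
open scoped Pointwise DualNumber

local notation "Qb" => AlgebraicClosure ℚ

variable {k : Type} [Field k] [Finite k] {P : ValuationSubring (AlgebraicClosure ℚ)} {p : ℕ}
  [Fact p.Prime] [CharP k p]

local notation "D" => P.decompositionSubgroup ℚ
local notation "Ine" => P.inertiaSubgroupIn ℚ
local notation "𝕄" => Matrix (Fin 2) (Fin 2) k

/-- The `k[ε]`-multiples of `d`. -/
def InLine (d x : VPair k) : Prop := ∃ s t : k, x = (s • d.1, s • d.2 + t • d.1)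

theorem InLine.refl (d : VPair k) : InLine d d := ⟨1, 0, by simp⟩

/-- Strictly ordinary first order deformations, in terms of pairs of vectors. -/
def IsSO (P : ValuationSubring (AlgebraicClosure ℚ)) (M : MatRep k)
    (c : GQ → Matrix (Fin 2) (Fin 2) k) : Prop :=
  ∃ hc : IsTangentCocycle M c, ∃ d : VPair k, d.1 ≠ 0 ∧
    (∀ σ ∈ P.inertiaSubgroupIn ℚ, ∀ x, InLine d (liftAct M c hc σ x - x)) ∧
    ∀ σ ∈ P.decompositionSubgroup ℚ, InLine d (liftAct M c hc σ d) ∧
      ∃ z : k, ∀ x, InLine d (liftAct M c hc σ x - z • x)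

theorem det_liftMat {M : MatRep k} {c : GQ → 𝕄} (hc : IsTangentCocycle M c) (σ : GQ) :
    (liftMat M c hc σ).det = TrivSqZeroExt.inl (M σ).det := by
  have h : c σ 1 1 = -c σ 0 0 := by
    have := hc.trace_eq_zero σ
    rw [Matrix.trace_fin_two] at this
    linear_combination this
  rw [liftMat_apply, Matrix.det_fin_two, Matrix.det_fin_two]
  refine TrivSqZeroExt.ext ?_ ?_
  · simp [epsMat, Matrix.mul_apply, Fin.sum_univ_two]
  · simp [epsMat, Matrix.mul_apply, Fin.sum_univ_two, h]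
    ring

theorem splitEquiv_smul (r : DualNumber k) (x : Fin 2 → DualNumber k) :
    splitEquiv k (r • x) = (r.fst • (splitEquiv k x).1,
      r.fst • (splitEquiv k x).2 + r.snd • (splitEquiv k x).1) := by
  refine Prod.ext (funext fun i => ?_) (funext fun i => ?_)
  · show (r * x i).fst = r.fst * (x i).fst
    simp
  · show (r * x i).snd = r.fst * (x i).snd + r.snd * (x i).fst
    simp

theorem isSO_of_isStrictOrdinaryAt {M : MatRep k} (hM : FactorsFinite M) (hdet : DetCyclotomic M p)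
    (hP : P.LiesOverPrime p) (hp2 : p ≠ 2) {c : GQ → 𝕄} (hc : IsTangentCocycle M c)
    (h : (liftRep hM hc).IsStrictOrdinaryAt p) : IsSO P M c := by
  obtain ⟨L, ⟨b, rfl⟩, hD, hI, hZ⟩ := h.2 P hP
  let Ψ : (liftRep hM hc).V ≃+ VPair k := splitEquiv k
  have hΨsmul : ∀ (r : DualNumber k) (x : (liftRep hM hc).V),
      Ψ (r • x) = (r.fst • (Ψ x).1, r.fst • (Ψ x).2 + r.snd • (Ψ x).1) :=
    fun r x => splitEquiv_smul r x
  have hΨact : ∀ (σ : GQ) (x : (liftRep hM hc).V),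
      Ψ ((liftRep hM hc).ρ σ x) = liftAct M c hc σ (Ψ x) := fun σ x =>
    splitEquiv_liftRep hM hc σ x
  have hline : ∀ x : (liftRep hM hc).V, x ∈ (DualNumber k) ∙ b 0 →
      InLine (Ψ (b 0)) (Ψ x) := fun x hx => by
    obtain ⟨r, rfl⟩ := Submodule.mem_span_singleton.mp hx
    exact ⟨r.fst, r.snd, hΨsmul r _⟩
  refine ⟨hc, Ψ (b 0), fun h0 => ?_, fun σ hσ x => ?_, fun σ hσ => ⟨?_, ?_⟩⟩
  · -- a basis vector is not divisible by `ε`
    have h1 : (DualNumber.eps : DualNumber k) • b 0 = 0 := by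
      apply Ψ.injective
      rw [hΨsmul, h0, smul_zero, smul_zero, DualNumber.fst_eps, zero_smul, add_zero, map_zero]
      rfl
    have h2 := congrArg (fun v => b.repr v 0) h1
    simp only [map_smul, Module.Basis.repr_self, Finsupp.smul_apply, Finsupp.single_eq_same,
      smul_eq_mul, mul_one, map_zero, Finsupp.coe_zero, Pi.zero_apply] at h2
    exact one_ne_zero (congrArg TrivSqZeroExt.snd h2 : (1 : k) = 0)
  · obtain ⟨y, rfl⟩ := Ψ.surjective x
    rw [← hΨact σ y, ← map_sub]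
    exact hline _ (hI σ hσ y)
  · rw [← hΨact σ]
    exact hline _ (hD σ hσ _ (Submodule.mem_span_singleton_self _))
  obtain ⟨x, z, hx, hz, hcy⟩ := hZ σ hσ
  obtain ⟨ζ, hζ⟩ := exists_primitive p (Fact.out : p.Prime).pos
  obtain ⟨a, ha, ha'⟩ := exists_zeta_exponent hζ σ
  have hxa : x = (a : DualNumber k) * z := by
    have h1 := hcy 1 a (by simpa using ha')
    rw [pow_one, show ((p : ℕ) : DualNumber k) = 0 by
      rw [← map_natCast (TrivSqZeroExt.inlHom k k), CharP.cast_eq_zero, map_zero],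
      Ideal.span_singleton_eq_bot.mpr rfl, Ideal.mem_bot, sub_eq_zero] at h1
    exact h1
  -- the determinant in the adapted basis
  have hdetb : x * z = TrivSqZeroExt.inl (M σ).det := by
    rw [← det_liftMat hc σ]
    obtain ⟨y, hy⟩ := Submodule.mem_span_singleton.mp (hz (b 1))
    have h1 : (liftRep hM hc).ρ σ (b 1) = y • b 0 + z • b 1 := by rw [hy, sub_add_cancel]
    have h0 : (liftRep hM hc).ρ σ (b 0) = x • b 0 :=
      hx _ (Submodule.mem_span_singleton_self _)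
    have e1 : LinearMap.det ((liftRep hM hc).ρ σ) = (liftMat M c hc σ).det :=
      LinearMap.det_toLin' _
    rw [← e1, ← LinearMap.det_toMatrix b, Matrix.det_fin_two, LinearMap.toMatrix_apply,
      LinearMap.toMatrix_apply, LinearMap.toMatrix_apply, LinearMap.toMatrix_apply, h0, h1]
    simp
  have haD : (a : DualNumber k) = TrivSqZeroExt.inl (M σ).det := by
    rw [hdet σ a ha', ← map_natCast (TrivSqZeroExt.inlHom k k)]
    rfl
  have hfst : z.fst * z.fst = 1 := by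
    have h1 := congrArg TrivSqZeroExt.fst hdetb
    rw [hxa, haD] at h1
    simp only [TrivSqZeroExt.fst_mul, TrivSqZeroExt.fst_inl, mul_assoc] at h1
    exact mul_left_cancel₀ (det_ne_zero M σ) (h1.trans (mul_one _).symm)
  have hsnd : z.snd = 0 := by
    have h1 := congrArg TrivSqZeroExt.snd hdetb
    rw [hxa, haD] at h1
    simp only [TrivSqZeroExt.snd_mul, TrivSqZeroExt.snd_inl, TrivSqZeroExt.fst_mul,
      TrivSqZeroExt.fst_inl, smul_eq_mul, MulOpposite.smul_eq_mul_unop, MulOpposite.unop_op] at h1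
    have h2 : (M σ).det * ((2 : k) * z.fst) * z.snd = 0 := by linear_combination h1
    refine (mul_eq_zero.mp h2).resolve_left (mul_ne_zero (det_ne_zero M σ)
      (mul_ne_zero (two_ne_zero' hp2) fun h0 => ?_))
    rw [h0, zero_mul] at hfst
    exact zero_ne_one hfst
  refine ⟨z.fst, fun x => ?_⟩
  obtain ⟨y, rfl⟩ := Ψ.surjective x
  have h1 := hline _ (hz y)
  rw [map_sub, hΨact σ y, hΨsmul, hsnd, zero_smul, add_zero] at h1
  exact h1

theorem IsSO.conj {M : MatRep k} {c : GQ → 𝕄} (g : 𝕄ˣ) (h : IsSO P M c) :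
    IsSO P (conjRep g M) (conjFun g GQ c) := by
  obtain ⟨hc, d, hd, hI, hD⟩ := h
  let Φ : VPair k →+ VPair k := AddMonoidHom.mk' (fun x => (g.val *ᵥ x.1, g.val *ᵥ x.2))
    fun x y => Prod.ext (show g.val *ᵥ (x.1 + y.1) = _ from mulVec_add _ _ _)
      (show g.val *ᵥ (x.2 + y.2) = _ from mulVec_add _ _ _)
  have hΦact : ∀ σ x, Φ (liftAct M c hc σ x) =
      liftAct (conjRep g M) (conjFun g GQ c) (isTangentCocycle_conj g hc) σ (Φ x) := by
    intro σ x
    show (g.val *ᵥ (M σ *ᵥ x.1), g.val *ᵥ (M σ *ᵥ x.2 + (c σ * M σ) *ᵥ x.1)) =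
      ((g.val * M σ * (g⁻¹).val) *ᵥ (g.val *ᵥ x.1), (g.val * M σ * (g⁻¹).val) *ᵥ (g.val *ᵥ x.2) +
        ((g.val * c σ * (g⁻¹).val) * (g.val * M σ * (g⁻¹).val)) *ᵥ (g.val *ᵥ x.1))
    simp only [mulVec_add, mulVec_mulVec, mul_assoc, g.inv_mul, mul_one]
    rw [← mul_assoc (g⁻¹).val g.val, g.inv_mul, one_mul]
  have hΦline : ∀ x, InLine d x → InLine (Φ d) (Φ x) := by
    rintro x ⟨s, t, rfl⟩
    exact ⟨s, t, Prod.ext (show g.val *ᵥ (s • d.1) = _ from mulVec_smul _ _ _)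
      (show g.val *ᵥ (s • d.2 + t • d.1) = s • (g.val *ᵥ d.2) + t • (g.val *ᵥ d.1) by
        rw [mulVec_add, mulVec_smul, mulVec_smul])⟩
  have hsurj : ∀ y, ∃ x, Φ x = y := fun y =>
    ⟨((g⁻¹).val *ᵥ y.1, (g⁻¹).val *ᵥ y.2), Prod.ext
      (by show g.val *ᵥ ((g⁻¹).val *ᵥ y.1) = y.1; rw [mulVec_mulVec, g.mul_inv, one_mulVec])
      (by show g.val *ᵥ ((g⁻¹).val *ᵥ y.2) = y.2; rw [mulVec_mulVec, g.mul_inv, one_mulVec])⟩
  have hsm : ∀ (z : k) x, Φ (z • x) = z • Φ x := fun z x =>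
    Prod.ext (show g.val *ᵥ (z • x.1) = _ from mulVec_smul _ _ _)
      (show g.val *ᵥ (z • x.2) = _ from mulVec_smul _ _ _)
  refine ⟨isTangentCocycle_conj g hc, Φ d, fun h0 => hd ?_, fun σ hσ y => ?_,
    fun σ hσ => ⟨?_, ?_⟩⟩
  · have h1 : (g⁻¹).val *ᵥ (g.val *ᵥ d.1) = (g⁻¹).val *ᵥ 0 := congrArg _ h0
    rwa [mulVec_mulVec, g.inv_mul, one_mulVec, mulVec_zero] at h1
  · obtain ⟨x, rfl⟩ := hsurj y
    rw [← hΦact, ← map_sub]
    exact hΦline _ (hI σ hσ x)
  · rw [← hΦact]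
    exact hΦline _ (hD σ hσ).1
  · obtain ⟨z, hz⟩ := (hD σ hσ).2
    refine ⟨z, fun y => ?_⟩
    obtain ⟨x, rfl⟩ := hsurj y
    rw [← hΦact, ← hsm, ← map_sub]
    exact hΦline _ (hz x)

/-- Conjugation by `1 + ε X`. -/
theorem IsSO.sub_coboundary {M : MatRep k} {c : GQ → 𝕄} (hM : FactorsFinite M) (h : IsSO P M c)
    {X : 𝕄} (hX : X.trace = 0) : IsSO P M (c - coboundary M X) := by
  obtain ⟨hc, d, hd, hI, hD⟩ := h
  have hc' := (tangentCocycles M).sub_mem hc (isTangentCocycle_coboundary hM hX)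
  let Φ : VPair k →+ VPair k := AddMonoidHom.mk' (fun x => (x.1, x.2 + X *ᵥ x.1)) fun x y => by
    simp only [Prod.fst_add, Prod.snd_add, mulVec_add, Prod.mk_add_mk]
    refine Prod.ext rfl ?_
    abel
  have hΦact : ∀ σ x, Φ (liftAct M c hc σ x) = liftAct M _ hc' σ (Φ x) := by
    intro σ x
    show (M σ *ᵥ x.1, M σ *ᵥ x.2 + (c σ * M σ) *ᵥ x.1 + X *ᵥ (M σ *ᵥ x.1)) =
      (M σ *ᵥ x.1, M σ *ᵥ (x.2 + X *ᵥ x.1) + ((c σ - (adAct M σ X - X)) * M σ) *ᵥ x.1)
    rw [adAct, sub_mul, sub_mul, mul_assoc (M σ * X), TW.inv_mul_eq_one, mul_one, mulVec_add,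
      mulVec_mulVec, mulVec_mulVec, sub_mulVec, sub_mulVec, Prod.mk.injEq]
    exact ⟨rfl, by abel⟩
  have hΦline : ∀ x, InLine d x → InLine (Φ d) (Φ x) := by
    rintro x ⟨s, t, rfl⟩
    refine ⟨s, t, Prod.ext rfl ?_⟩
    show s • d.2 + t • d.1 + X *ᵥ (s • d.1) = s • (d.2 + X *ᵥ d.1) + t • d.1
    rw [mulVec_smul, smul_add]
    abel
  have hsurj : ∀ y, ∃ x, Φ x = y := fun y =>
    ⟨(y.1, y.2 - X *ᵥ y.1), Prod.ext rfl (sub_add_cancel _ _)⟩
  have hsm : ∀ (z : k) x, Φ (z • x) = z • Φ x := fun z x =>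
    Prod.ext rfl (show z • x.2 + X *ᵥ (z • x.1) = z • (x.2 + X *ᵥ x.1) by
      rw [mulVec_smul, smul_add])
  refine ⟨hc', Φ d, hd, fun σ hσ y => ?_, fun σ hσ => ⟨?_, ?_⟩⟩
  · obtain ⟨x, rfl⟩ := hsurj y
    rw [← hΦact, ← map_sub]
    exact hΦline _ (hI σ hσ x)
  · rw [← hΦact]
    exact hΦline _ (hD σ hσ).1
  · obtain ⟨z, hz⟩ := (hD σ hσ).2
    refine ⟨z, fun y => ?_⟩
    obtain ⟨x, rfl⟩ := hsurj y
    rw [← hΦact, ← hsm, ← map_sub]
    exact hΦline _ (hz x)

variable {M : MatRep k} {ϖ ζ : Qb} {τ₀ : GQ}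

/-- A normalised strictly ordinary cocycle is upper triangular with trivial diagonal. -/
theorem IsSO.good (hN : RedNormal M P p ϖ ζ τ₀) (hp2 : p ≠ 2) {c : GQ → 𝕄} (h : IsSO P M c)
    (hd0 : c ∈ diagAt (k := k) τ₀) {σ : GQ} (hσ : σ ∈ D) : c σ 1 0 = 0 ∧ c σ 0 0 = 0 := by
  obtain ⟨hc, d, hd, hI, hD⟩ := h
  have h2 := two_ne_zero' (k := k) hp2
  have hγ : c τ₀ 1 1 = -c τ₀ 0 0 := by
    have := hc.trace_eq_zero τ₀
    rw [Matrix.trace_fin_two] at this
    linear_combination this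
  obtain ⟨s, t, hst⟩ := hI τ₀ hN.tau_mem (![1, 0], 0)
  rw [liftAct_apply] at hst
  simp only [Prod.ext_iff, Prod.fst_sub, Prod.snd_sub] at hst
  obtain ⟨hst1, hst2⟩ := hst
  have t00 : M τ₀ 0 0 = -1 := by rw [hN.tau]; rfl
  have t01 : M τ₀ 0 1 = 0 := by rw [hN.tau]; rfl
  have t10 : M τ₀ 1 0 = 0 := by rw [hN.tau]; rfl
  have t11 : M τ₀ 1 1 = 1 := by rw [hN.tau]; rfl
  have hd11 : d.1 1 = 0 := by
    have a0 := congrFun hst1 0
    have a1 := congrFun hst1 1
    simp [t00, t01, t10, t11] at a0 a1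
    rcases a1 with hs | hd1
    · rw [hs, zero_mul] at a0
      exact absurd (by linear_combination -a0 : (2 : k) = 0) h2
    · exact hd1
  have hd10 : d.1 0 ≠ 0 := fun h0 => hd (funext fun i => by fin_cases i <;> assumption)
  have hline : ∀ x, InLine d x → x.1 1 = 0 ∧
      x.2 1 * d.1 0 = x.1 0 * d.2 1 := by
    rintro x ⟨s, t, rfl⟩
    refine ⟨by simp [hd11], ?_⟩
    simp [hd11]
    ring
  have hτ10 := (hline _ (hI τ₀ hN.tau_mem (![1, 0], 0))).2
  have hτ01 := (hline _ (hI τ₀ hN.tau_mem (![0, 1], 0))).2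
  rw [liftAct_apply] at hτ10 hτ01
  simp [t00, t01, t10, t11, Fin.sum_univ_two, Matrix.mul_apply, hd0.1, hd0.2, hγ]
    at hτ10 hτ01
  have hd21 : d.2 1 = 0 := by
    rcases hτ10 with h' | h'
    · exact absurd (by linear_combination -h' : (2 : k) = 0) h2
    · exact h'
  have hl : ∀ x, InLine d x → x.1 1 = 0 ∧ x.2 1 = 0 := fun x hx => by
    obtain ⟨h1, h2'⟩ := hline x hx
    rw [hd21, mul_zero] at h2'
    exact ⟨h1, (mul_eq_zero.mp h2').resolve_right hd10⟩
  have hlow := hN.lower σ hσ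
  obtain ⟨e1, e2⟩ := hl _ (hD σ hσ).1
  rw [liftAct_apply] at e1 e2
  simp [Fin.sum_univ_two, Matrix.mul_apply, hd11, hd21, hlow] at e2
  have h10 : c σ 1 0 = 0 := by
    rcases e2 with (h' | h') | h'
    · exact h'
    · exact absurd h' (hN.diag_ne_zero hσ).1
    · exact absurd h' hd10
  refine ⟨h10, ?_⟩
  obtain ⟨z, hz⟩ := (hD σ hσ).2
  obtain ⟨f1, f2⟩ := hl _ (hz (![0, 1], 0))
  rw [liftAct_apply] at f1 f2
  simp [Fin.sum_univ_two, Matrix.mul_apply, hlow, h10] at f1 f2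
  have h11 : c σ 1 1 = 0 := f2.resolve_right (hN.diag_ne_zero hσ).2
  have := hc.trace_eq_zero σ
  rw [Matrix.trace_fin_two, h11, add_zero] at this
  exact this

/-- The normal form after a change of basis, given an adapted stable line. -/
theorem exists_redNormal (hdet : DetCyclotomic M p) (hP : P.LiesOverPrime p) (hp2 : p ≠ 2)
    {d : Vec k} (hd : d ≠ 0) (hlow : ∀ σ ∈ D, det2 d (M σ *ᵥ d) = 0)
    (hin : ∀ σ ∈ Ine, ∀ x, det2 d (M σ *ᵥ x - x) = 0) :
    ∃ (g : 𝕄ˣ) (ϖ ζ : Qb) (τ₀ : GQ), RedNormal (conjRep g M) P p ϖ ζ τ₀ := by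
  have h2 := two_ne_zero' (k := k) hp2
  obtain ⟨w, hw⟩ := exists_det2_ne_zero hd
  obtain ⟨ζ, hζ⟩ := exists_primitive p (Fact.out : p.Prime).pos
  obtain ⟨ϖ, hϖ⟩ := IsAlgClosed.exists_pow_nat_eq (-(p : Qb)) (pred_pos (p := p))
  have heven : (-1 : Qb) ^ (p - 1) = 1 := by
    rcases (Fact.out : p.Prime).eq_two_or_odd' with h | ⟨m, hm⟩
    · exact absurd h hp2
    · rw [show p - 1 = 2 * m by omega, pow_mul]; norm_num
  obtain ⟨τ₀, hτ, hθ⟩ := exists_inertia_theta_eq hP hϖ pred_pos not_dvd_pred heven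
  have hdetτ : (M τ₀).det = -1 := by
    obtain ⟨a, ha, -⟩ := exists_zeta_exponent hζ τ₀
    rw [det_eq_natCast hζ hdet ha]
    have h1 := res_theta_pow_eq hP hϖ hζ (mul_one _).symm pred_pos hτ ha
    rw [hθ, pow_one, show res P (-1 : Qb) = -1 by
      rw [show (-1 : Qb) = 0 - 1 by ring, res_sub (by simp) (by simp), res_zero, res_one,
        zero_sub]] at h1
    have := charP_res hP
    have h3 : ((a + 1 : ℕ) : IsLocalRing.ResidueField P) = 0 := by
      push_cast; rw [← h1, neg_add_cancel]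
    rw [CharP.cast_eq_zero_iff (IsLocalRing.ResidueField P) p] at h3
    have h4 : ((a + 1 : ℕ) : k) = 0 := (CharP.cast_eq_zero_iff k p _).mpr h3
    push_cast at h4
    exact eq_neg_of_add_eq_zero_left h4
  -- the basis `(d, w)` makes the image triangular
  set A : 𝕄 := !![w 1, -(w 0); -(d 1), d 0]
  set Ai : 𝕄 := !![d 0, w 0; d 1, w 1]
  simp only [det2] at hw
  have hAdet : A.det = 1 := by
    rw [Matrix.det_fin_two]
    simp [A]
    linear_combination hw
  have hAA : A * Ai = 1 := by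
    ext i j
    fin_cases i <;> fin_cases j <;> simp [A, Ai, Matrix.mul_apply, Fin.sum_univ_two]
    · linear_combination hw
    · ring
    · ring
    · linear_combination hw
  let g₀ : 𝕄ˣ := ⟨A, Ai, hAA, mul_eq_one_comm.mp hAA⟩
  have hN0 : ∀ σ, conjRep g₀ M σ = A * M σ * Ai := fun σ => rfl
  set β : k := conjRep g₀ M τ₀ 0 1 with hβ
  set u : k := -β / 2 with hu
  let g₁ : 𝕄ˣ := ⟨!![1, u; 0, 1], !![1, -u; 0, 1],
    by ext i j; fin_cases i <;> fin_cases j <;> simp [Matrix.mul_apply, Fin.sum_univ_two],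
    by ext i j; fin_cases i <;> fin_cases j <;> simp [Matrix.mul_apply, Fin.sum_univ_two]⟩
  have hcomp : ∀ σ, conjRep (g₁ * g₀) M σ =
      !![1, u; 0, 1] * conjRep g₀ M σ * !![1, -u; 0, 1] := fun σ => by
    show (g₁.val * g₀.val) * M σ * ((g₁ * g₀)⁻¹).val = g₁.val * (g₀.val * M σ * (g₀⁻¹).val) *
      (g₁⁻¹).val
    rw [_root_.mul_inv_rev, Units.val_mul]
    simp only [mul_assoc]
  have hl0 : ∀ σ ∈ D, conjRep g₀ M σ 1 0 = 0 := fun σ hσ => by
    have h := hlow σ hσ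
    simp [det2, Matrix.mulVec, dotProduct, Fin.sum_univ_two] at h
    rw [hN0]
    simp [A, Ai, Matrix.mul_apply, Fin.sum_univ_two, Matrix.vecMul, dotProduct]
    linear_combination h
  have hi0 : ∀ σ ∈ Ine, conjRep g₀ M σ 1 1 = 1 := fun σ hσ => by
    have h1 := hin σ hσ w
    simp [det2] at h1
    rw [hN0]
    simp [A, Ai, Matrix.mul_apply, Fin.sum_univ_two, Matrix.vecMul, dotProduct]
    linear_combination h1 + hw
  have hl : ∀ σ ∈ D, conjRep (g₁ * g₀) M σ 1 0 = 0 := fun σ hσ => by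
    rw [hcomp]
    simp [Matrix.mul_apply, Fin.sum_univ_two, Matrix.vecMul, dotProduct, hl0 σ hσ]
  have hi : ∀ σ ∈ Ine, conjRep (g₁ * g₀) M σ 1 1 = 1 := fun σ hσ => by
    rw [hcomp]
    simp [Matrix.mul_apply, Fin.sum_univ_two, Matrix.vecMul, dotProduct, hl0 σ (inertia_le_decomposition hσ), hi0 σ hσ]
  refine ⟨g₁ * g₀, ϖ, ζ, τ₀, hϖ, hζ, hl, hi, hτ, hθ, ?_⟩
  have hτD := inertia_le_decomposition hτ
  have h00 : conjRep g₀ M τ₀ 0 0 = -1 := by
    have h := det_eq_mul_of_lower (hl0 τ₀ hτD)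
    rw [hi0 τ₀ hτ, mul_one, conjRep_apply, Matrix.det_units_conj, hdetτ] at h
    exact h.symm
  rw [hcomp]
  ext i j
  fin_cases i <;> fin_cases j <;>
    simp [Matrix.mul_apply, Fin.sum_univ_two, Matrix.vecMul, dotProduct, hl0 τ₀ hτD, hi0 τ₀ hτ, h00, ← hβ, hu] <;>
    field_simp <;> ring

/-- The strictly ordinary local tangent bound. -/
theorem tangentBound_strictOrdinary (hp2 : p ≠ 2) (M : MatRep k) (hM : FactorsFinite M)
    (hdet : DetCyclotomic M p) (hP : P.LiesOverPrime p) :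
    LocalTangentBound M (P.decompositionSubgroup ℚ)
      (fun c => ∀ hc : IsTangentCocycle M c, (liftRep hM hc).IsStrictOrdinaryAt p) 4 := by
  by_cases hex : ∃ c, IsTangentCocycle M c ∧ IsSO P M c
  swap
  · have : Module.Finite k (coboundaryRange M D) := Module.Finite.map _ _
    exact ⟨coboundaryRange M D, inferInstance,
      (finrank_coboundaryRange_le M D).trans (by norm_num),
      fun X hX => restrict_coboundary_mem M D hX,
      fun c hc h => absurd ⟨c, hc, isSO_of_isStrictOrdinaryAt hM hdet hP hp2 hc (h hc)⟩ hex⟩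
  obtain ⟨c₀, -, hc0, d, hd, hI, hD⟩ := hex
  have hfirst : ∀ x, InLine d x → det2 d.1 x.1 = 0 := by
    rintro x ⟨s, t, rfl⟩
    simp [det2]
    ring
  obtain ⟨g, ϖ, ζ, τ₀, hN⟩ := exists_redNormal hdet hP hp2 hd
    (fun σ hσ => hfirst _ (hD σ hσ).1) (fun σ hσ x => hfirst _ (hI σ hσ (x, 0)))
  have hM' := factorsFinite_conjRep g hM
  have hdet' := detCyclotomic_conjRep g hdet
  refine localTangentBound_of_conj D g (cond' := IsSO P (conjRep g M)) ?_
    fun c hc h => (isSO_of_isStrictOrdinaryAt hM hdet hP hp2 hc (h hc)).conj g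
  set M' := conjRep g M
  -- all combinations of coboundaries and strictly ordinary cocycles
  set Z : Submodule k (GQ → 𝕄) := Submodule.span k ({c | IsSO P M' c} ∪
    coboundary M' '' {X : 𝕄 | X.trace = 0}) with hZ
  have hB : ∀ X : 𝕄, X.trace = 0 → coboundary M' X ∈ Z := fun X hX =>
    Submodule.subset_span (Or.inr ⟨X, hX, rfl⟩)
  have hcoc : Z ≤ tangentCocycles M' := Submodule.span_le.mpr (by
    rintro c (⟨hc, -⟩ | ⟨X, hX, rfl⟩)
    exacts [hc, isTangentCocycle_coboundary hM' hX])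
  have hgood : ∀ c ∈ Z, ∀ σ ∈ D,
      normPart M' τ₀ c σ 1 0 = 0 ∧ normPart M' τ₀ c σ 0 0 = 0 := by
    intro c hc
    induction hc using Submodule.span_induction with
    | mem c hc =>
      intro σ hσ
      rcases hc with hso | ⟨X, hX, rfl⟩
      · exact IsSO.good hN hp2 (hso.sub_coboundary hM' (trace_offPart τ₀ c))
          (hN.normPart_mem_diagAt hp2 c) hσ
      · have hd := hN.normPart_mem_diagAt hp2 (coboundary M' X)
        have e : normPart M' τ₀ (coboundary M' X) =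
            coboundary M' (X - offPart τ₀ (coboundary M' X)) := by
          rw [map_sub]; rfl
        rw [e] at hd ⊢
        refine hN.coboundary_upper ?_ hσ
        have h1 := hd.2
        rw [hN.coboundary_tau] at h1
        simp at h1
        rcases h1 with h1 | h1
        · exact absurd h1 (two_ne_zero' hp2)
        · exact h1
    | zero => simp
    | add a b _ _ iha ihb =>
      intro σ hσ
      simp [iha σ hσ, ihb σ hσ]
    | smul r a _ iha =>
      intro σ hσ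
      simp [iha σ hσ]
  have hfix : ∀ c ∈ diagAt (k := k) τ₀, normPart M' τ₀ c = c := by
    intro c hc
    have h0 : offPart τ₀ c = 0 := by
      ext i j; fin_cases i <;> fin_cases j <;> simp [offPart, hc.1, hc.2]
    show c - coboundary M' (offPart τ₀ c) = c
    rw [h0, map_zero, sub_zero]
  set R' := (Z ⊓ diagAt τ₀).map (restrictTo (k := k) (D : Subgroup GQ))
  obtain ⟨hfin, hcard⟩ := hN.card_all_le hdet' hP hp2
  have hR : Module.Finite k R' ∧ Module.finrank k R' ≤ 2 := by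
    refine finrank_le_of_injective (fun r : R' => fun σ : D => r.1 σ 0 1) ?_ hfin ?_ hcard
    · rintro ⟨_, c, ⟨hc, hcd⟩, rfl⟩ ⟨_, c', ⟨hc', hcd'⟩, rfl⟩ h
      refine Subtype.ext (funext fun σ => ?_)
      have h01 : c σ 0 1 = c' σ 0 1 := congrFun h σ
      have g1 := hgood c hc σ σ.2
      have g2 := hgood c' hc' σ σ.2
      rw [hfix c hcd] at g1
      rw [hfix c' hcd'] at g2
      have t1 := (hcoc hc).trace_eq_zero σ
      have t2 := (hcoc hc').trace_eq_zero σ
      rw [Matrix.trace_fin_two, g1.2, zero_add] at t1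
      rw [Matrix.trace_fin_two, g2.2, zero_add] at t2
      show c σ = c' σ
      ext i j
      fin_cases i <;> fin_cases j
      exacts [g1.2.trans g2.2.symm, h01, g1.1.trans g2.1.symm, t1.trans t2.symm]
    · rintro ⟨_, c, ⟨hc, hcd⟩, rfl⟩
      refine ⟨fun σ => c σ 0 1, hN.isBCocycle_of_good (hcoc hc) hcd.1
        (fun σ hσ => ?_) (fun σ hσ => ?_), rfl⟩
      all_goals have g1 := hgood c hc σ hσ; rw [hfix c hcd] at g1
      exacts [g1.1, g1.2]
  obtain ⟨hZfin, hZrank⟩ := hN.bound_of_normalised hp2 Z hB hR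
  exact ⟨_, hZfin, hZrank, fun X hX => Submodule.mem_map_of_mem (hB X hX),
    fun c _ hc => Submodule.mem_map_of_mem (Submodule.subset_span (Or.inl hc))⟩

end FLTAgent.LocP
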