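import Fermat.Agent.LocP.FlatLines
import Fermat.Agent.LocP.Ordinary

/-!
# The flat tangent bound at `p`: a stable line

`tangentBound_flat_of_line`.  In normal form a normalised flat cocycle is upper triangular with
diagonal trivial on inertia (`Fl.good`), because small points of an order and of its dual pair
trivially, and its upper right entry is deep of level one (`Fl.deep_one`); so the classes are
counted by the diagonal at Frobenius and one Kummer coefficient.
-/

set_option autoImplicit false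
set_option linter.unusedSectionVars false

noncomputable section

namespace FLTAgent.LocP

open Matrix FLTAgent.TW FLTAgent.Deform FLTAgent.FlatHopf
open scoped Pointwise

local notation "Qb" => AlgebraicClosure ℚ

variable {k : Type} [Field k] [Finite k] {P : ValuationSubring (AlgebraicClosure ℚ)} {p : ℕ}
  [Fact p.Prime]

local notation "v" => P.valuation
local notation "D" => P.decompositionSubgroup ℚ
local notation "Ine" => P.inertiaSubgroupIn ℚ
local notation "𝕄" => Matrix (Fin 2) (Fin 2) k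

/-- With ramification index `p - 1` two points in the open unit balls of an order and of its dual
pair trivially. -/
theorem DualPair.eq_zero_of_lt {G : Type} [AddCommGroup G] [Finite G]
    {act : GQ →* AddMonoid.End G} {ζ : Qb} {B : G →+ G →+ ZMod p}
    {H S : Subalgebra (GaloisRep.ratLocalizedAt p) (G → Qb)} (hHS : DualPair ζ B act H S)
    (hP : P.LiesOverPrime p) {ϖ : Qb} (hϖ : ϖ ^ (p - 1) = -(p : Qb)) (hζ : IsPrimitiveRoot ζ p)
    {d x : G} (hpd : p • d = 0) (hstab : ∀ σ ∈ Ine, theta ϖ σ = 1 → act σ d = d)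
    (hd : nrm hHS.dual (algebraMap_ratLocalized_mem hP) d < 1)
    (hx : nrm hHS.order (algebraMap_ratLocalized_mem hP) x < 1) : B d x = 0 := by
  rcases eq_or_ne d 0 with rfl | hd0
  · simp
  obtain ⟨n, hn, h1, h2⟩ :=
    exists_nrm_eq_pow hHS.dual hP hϖ pred_pos not_dvd_pred hstab hpd hd0 hd
  obtain rfl : n = 1 := le_antisymm (Nat.le_of_mul_le_mul_right (by simpa using h2) pred_pos) h1
  have h3 := hHS.val_ev_sub_one_le hP d x
  rw [hn] at h3
  by_contra hne
  rw [zp, val_pow_sub_one hζ (fun hdvd => hne ((ZMod.val_eq_zero _).mp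
    (Nat.eq_zero_of_dvd_of_lt hdvd (ZMod.val_lt _)))),
    val_zeta_sub_one hP hϖ hζ (mul_one _).symm] at h3
  refine absurd h3 (not_le.mpr ?_)
  exact mul_lt_of_lt_one_right
    (pow_pos (zero_lt_iff.mpr ((Valuation.ne_zero_iff _).mpr (uniformizer_ne_zero hϖ pred_pos))) 1) hx

theorem Tame.deep_of_eq_zero (S : Tame P p) {φ : GQ → ZMod p} (h : ∀ σ ∈ S.GF, φ σ = 0) (m : ℤ) :
    S.Deep φ m :=
  ⟨1, ⟨one_ne_zero, fun σ hσ => by rw [map_one, h σ hσ, zp_zero, mul_one]⟩,
    by rw [one_pow, sub_self, map_zero]; exact zero_le⟩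

variable [CharP k p] {M : MatRep k} {ϖ ζ : Qb} {τ₀ : GQ}
  (hN : RedNormal M P p ϖ ζ τ₀) (hdet : DetCyclotomic M p) (hP : P.LiesOverPrime p)

include hN hdet hP in
theorem RedNormal.entry_eq_one {σ : GQ} (hσ : σ ∈ Ine) (hθ : theta ϖ σ = 1) : M σ 0 0 = 1 := by
  have h := det_eq_one_of_fix hN.prim hdet
    (apply_zeta_of_theta hP hN.pow_eq hN.prim (mul_one _).symm Nat.one_pos hσ hθ)
  rwa [det_eq_mul_of_lower (hN.lower σ (inertia_le_decomposition hσ)), hN.inert σ hσ, mul_one] at h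

include hN in
theorem RedNormal.mulVec_line {σ : GQ} (hσ : σ ∈ D) (b : k) :
    M σ *ᵥ ![b, 0] = ![M σ 0 0 * b, 0] := by
  ext i; fin_cases i <;> simp [Matrix.mulVec, dotProduct, Fin.sum_univ_two, hN.lower σ hσ]

theorem p_nsmul_eq_zero {V : Type} [AddCommGroup V] [Module k V] (x : V) : p • x = 0 := by
  rw [← Nat.cast_smul_eq_nsmul k, CharP.cast_eq_zero, zero_smul]

include hN hdet hP in
/-- The open unit ball of any order on the residual group is contained in the stable line. -/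
theorem RedNormal.snd_eq_zero_of_nrm_lt (hp2 : p ≠ 2)
    {H : Subalgebra (GaloisRep.ratLocalizedAt p) (Vec k → Qb)}
    (hH : IsOrder (galR p) (resAct M) H) {x : Vec k}
    (hx : nrm hH (algebraMap_ratLocalized_mem (P := P) hP) x < 1) : x 1 = 0 := by
  have h2 := two_ne_zero' (k := k) hp2
  obtain ⟨ψ, hψ⟩ := exists_addMonoidHom_ne_zero k p
  obtain ⟨S, hS⟩ := (resPairing hN.prim hψ hdet).exists_dual hN.prim hH
  refine eq_zero_of_forall_psi hψ fun b => ?_
  have hd : nrm hS.dual (algebraMap_ratLocalized_mem (P := P) hP) ![b, 0] < 1 := by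
    rw [show ![b, 0] = resAct M τ₀ ![-b / 2, 0] - ![-b / 2, 0] by
      rw [resAct_apply, hN.mulVec_line (inertia_le_decomposition hN.tau_mem), hN.tau]
      ext i; fin_cases i
      · simp; field_simp; ring
      · simp]
    exact nrm_act_sub_lt_one hS.dual _
      (fun y hy => val_map_sub_lt hN.tau_mem ((P.valuation_le_one_iff _).mpr hy)) _
  have h := hS.eq_zero_of_lt hP hN.pow_eq hN.prim (p_nsmul_eq_zero (k := k) _)
    (fun σ hσ hθ => by
      rw [resAct_apply, hN.mulVec_line (inertia_le_decomposition hσ),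
        hN.entry_eq_one hdet hP hσ hθ, one_mul]) hd hx
  change resB ψ _ x = 0 at h
  rw [resB_apply] at h
  simpa [det2] using h

variable {c : GQ → Matrix (Fin 2) (Fin 2) k}

include hN hdet hP in
/-- A normalised flat cocycle is upper triangular, with diagonal trivial on inertia. -/
theorem Fl.good (hp2 : p ≠ 2) (h : Fl p M c) (hd0 : c ∈ diagAt (k := k) τ₀) :
    (∀ σ ∈ D, c σ 1 0 = 0) ∧ ∀ σ ∈ Ine, c σ 0 0 = 0 := by
  have h2 := two_ne_zero' (k := k) hp2
  obtain ⟨hc, hflat⟩ := h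
  obtain ⟨H, hH⟩ := hasFlatModel_iff_hasOrder.mp hflat
  have hA := algebraMap_ratLocalized_mem (P := P) hP
  have hτD := inertia_le_decomposition hN.tau_mem
  set γ := c τ₀ 0 0
  -- the points of the line over the dual numbers
  have hline : ∀ {H' : Subalgebra (GaloisRep.ratLocalizedAt p) (VPair k → Qb)}
      (hH' : IsOrder (galR p) (liftAct M c hc) H') (s t : k),
      nrm hH' hA (![s, 0], ![t, 0]) < 1 := by
    intro H' hH' s t
    rw [show ((![s, 0], ![t, 0]) : VPair k) =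
        liftAct M c hc τ₀ (![-s / 2, 0], ![(γ * s / 2 - t) / 2, 0]) -
          (![-s / 2, 0], ![(γ * s / 2 - t) / 2, 0]) by
      rw [liftAct_apply, hN.mulVec_line hτD, hN.mulVec_line hτD]
      refine Prod.ext ?_ ?_ <;> ext i <;> fin_cases i <;>
        simp [hN.tau, Fin.sum_univ_two, Matrix.mul_apply, hd0.1, hd0.2,
          γ] <;> field_simp <;> ring]
    exact nrm_act_sub_lt_one hH' _
      (fun y hy => val_map_sub_lt hN.tau_mem ((P.valuation_le_one_iff _).mpr hy)) _
  obtain ⟨ψ, hψ⟩ := exists_addMonoidHom_ne_zero k p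
  obtain ⟨S, hS⟩ := (liftPairing hN.prim hψ hdet hc).exists_dual hN.prim hH
  have hfst : ∀ x : VPair k, nrm hH hA x < 1 → x.1 1 = 0 := by
    intro x hx
    refine eq_zero_of_forall_psi hψ fun b => ?_
    have hd : nrm hS.dual hA ((0 : Vec k), ![b, 0]) < 1 := by
      have h0 : (![0, 0] : Vec k) = 0 := by ext i; fin_cases i <;> rfl
      simpa [h0] using hline hS.dual 0 b
    have h := hS.eq_zero_of_lt hP hN.pow_eq hN.prim (p_nsmul_eq_zero (k := k) _)
      (fun σ hσ hθ => by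
        rw [liftAct_inr, hN.mulVec_line (inertia_le_decomposition hσ),
          hN.entry_eq_one hdet hP hσ hθ, one_mul]) hd hx
    change liftB ψ _ x = 0 at h
    rw [liftB_apply] at h
    simpa [det2] using h
  have hinj : Function.Injective (inrHom k) := fun x y hxy => (Prod.ext_iff.mp hxy).2
  have hres := isOrder_restrict hH (act' := resAct M) (inrHom k) hinj fun σ x => (liftAct_inr hc σ x).symm
  have hsnd : ∀ x : VPair k, nrm hH hA x < 1 → x.2 1 = 0 := by
    intro x hx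
    have hx1 : x.1 = ![x.1 0, 0] := by
      ext i; fin_cases i
      · rfl
      · exact hfst x hx
    have hy : nrm hH hA ((0 : Vec k), x.2) < 1 := by
      rw [show ((0 : Vec k), x.2) = x - ((![x.1 0, 0] : Vec k), (![0, 0] : Vec k)) by
        refine Prod.ext ?_ ?_
        · rw [Prod.fst_sub, ← hx1, sub_self]
        · ext i; fin_cases i <;> simp]
      exact (nrm_sub_le hH hA _ _).trans_lt (max_lt hx (hline hH _ _))
    refine hN.snd_eq_zero_of_nrm_lt hdet hP hp2 hres ?_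
    obtain ⟨a, ha, hax⟩ := exists_eq_nrm hres hA x.2
    obtain ⟨a', ha', rfl⟩ := ha
    refine lt_of_le_of_lt ?_ hy
    rw [← hax]
    exact val_diff_le_nrm hH hA ((0 : Vec k), x.2) ha'
  refine ⟨fun σ hσ => ?_, fun σ hσ => ?_⟩
  · have h1 : nrm hH hA (liftAct M c hc σ (![1, 0], ![0, 0])) < 1 := by
      have e : nrm hH hA (liftAct M c hc σ (![1, 0], ![0, 0])) =
          nrm hH hA (![1, 0], ![0, 0]) := nrm_act hH hA (fun b => val_map hσ b) _
      rw [e]; exact hline hH 1 0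
    have h3 := hsnd _ h1
    rw [liftAct_apply] at h3
    simp [Fin.sum_univ_two, Matrix.mul_apply, hN.lower σ hσ] at h3
    exact h3.resolve_right (hN.diag_ne_zero hσ).1
  · have h1 : nrm hH hA (liftAct M c hc σ (![0, 1], ![0, 0]) - (![0, 1], ![0, 0])) < 1 :=
      nrm_act_sub_lt_one hH hA
        (fun y hy => val_map_sub_lt hσ ((P.valuation_le_one_iff _).mpr hy)) _
    have h10 : c σ 1 0 = 0 := by
      have hσD := inertia_le_decomposition hσ
      have e : nrm hH hA (liftAct M c hc σ (![1, 0], ![0, 0])) < 1 :=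
        (nrm_act hH hA (fun b => val_map hσD b) _).trans_lt (hline hH 1 0)
      have h3 := hsnd _ e
      rw [liftAct_apply] at h3
      simp [Fin.sum_univ_two, Matrix.mul_apply, hN.lower σ hσD] at h3
      exact h3.resolve_right (hN.diag_ne_zero hσD).1
    have h3 := hsnd _ h1
    rw [liftAct_apply] at h3
    simp [Fin.sum_univ_two, Matrix.mul_apply, hN.inert σ hσ, h10] at h3
    have h4 := hc.trace_eq_zero σ
    rw [Matrix.trace_fin_two, h3, add_zero] at h4
    exact h4

include hN hdet hP in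
/-- The upper right entry of a normalised flat cocycle is deep of level one. -/
theorem Fl.deep_one (h : Fl p M c) {ψ : k →+ ZMod p} (hψ : ψ 1 = 1)
    (hτ : c τ₀ 0 1 = 0) (h10 : ∀ σ ∈ D, c σ 1 0 = 0) (h00 : ∀ σ ∈ D, c σ 0 0 = 0) :
    (hN.tame hdet hP).DeepAll ψ (fun σ => c σ 0 1) 1 := by
  obtain ⟨hc, hflat⟩ := h
  obtain ⟨H, hH⟩ := hasFlatModel_iff_hasOrder.mp hflat
  obtain ⟨S, hS⟩ := (liftPairing hN.prim hψ hdet hc).exists_dual hN.prim hH
  set T := hN.tame hdet hP
  intro b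
  by_cases h0 : ∀ σ ∈ T.GF, fam ψ (fun σ => c σ 0 1) b σ = 0
  · exact T.deep_of_eq_zero h0 _
  push Not at h0
  obtain ⟨σ, hσ, hne⟩ := h0
  set f : VPair k → Qb := fun x => zp ζ (liftB ψ ((![0, -b], 0) : VPair k) x) with hfdef
  have hf : f ∈ aSpan H P := hS.ev_mem_aSpan hP ((![0, -b], 0) : VPair k)
  have hfx : ∀ x : VPair k, f x = zp ζ (ψ (b * x.2 0)) := fun x => by
    simp [hfdef, liftB_apply, det2]
  let L : AddSubgroup (VPair k) :=
    { carrier := {x | x.1 1 = 0 ∧ x.2 1 = 0}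
      zero_mem' := ⟨rfl, rfl⟩
      add_mem' := fun {x y} hx hy => ⟨by simp [hx.1, hy.1], by simp [hx.2, hy.2]⟩
      neg_mem' := fun {x} hx => ⟨by simp [hx.1], by simp [hx.2]⟩ }
  let U : AddSubgroup (VPair k) :=
    { carrier := {x | x ∈ L ∧ ψ (b * x.2 0) = 0}
      zero_mem' := ⟨zero_mem L, by simp⟩
      add_mem' := fun {x y} hx hy => ⟨add_mem hx.1 hy.1, by simp [mul_add, hx.2, hy.2]⟩
      neg_mem' := fun {x} hx => ⟨neg_mem hx.1, by simp [hx.2]⟩ }
  have h11 : ∀ τ ∈ D, c τ 1 1 = 0 := fun τ hτ => by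
    have h := hc.trace_eq_zero τ
    rw [Matrix.trace_fin_two, h00 τ hτ, zero_add] at h
    exact h
  have hdiag : ∀ τ ∈ T.GF, M τ 0 0 = 1 ∧ M τ 1 1 = 1 := fun τ hτ => ⟨hτ.1.2.2.1, hτ.1.2.2.2⟩
  have hfixL : ∀ τ ∈ T.GF, ∀ x ∈ L, liftAct M c hc τ x = x := by
    intro τ hτ x hx
    have hτD := T.le_D τ hτ
    rw [liftAct_apply]
    refine Prod.ext ?_ ?_ <;> ext i <;> fin_cases i <;>
      simp [Matrix.mulVec, dotProduct, Fin.sum_univ_two, Matrix.mul_apply, hN.lower τ hτD,
        hdiag τ hτ, h10 τ hτD, h00 τ hτD, hx.1, hx.2]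
  have hmove : ∀ τ ∈ T.GF, liftAct M c hc τ (![0, 1], 0) - (![0, 1], 0) =
      ((![M τ 0 1, 0], ![c τ 0 1, 0]) : VPair k) := by
    intro τ hτ
    have hτD := T.le_D τ hτ
    rw [liftAct_apply]
    refine Prod.ext ?_ ?_ <;> ext i <;> fin_cases i <;>
      simp [Fin.sum_univ_two, Matrix.mul_apply, hdiag τ hτ,
        h10 τ hτD, h00 τ hτD, h11 τ hτD]
  obtain ⟨z, hz1, hzfix, hzmove⟩ := exists_fixed_mover hH hP T.GF (fun τ hτ => T.le_D τ hτ)
    ((![0, 1], 0) : VPair k) L U
    (fun τ hτ u hu => by rw [hfixL τ hτ u hu.1]; exact hu)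
    (fun τ hτ u hu => by rw [hfixL τ hτ u hu]; exact hu)
    (fun τ hτ => by rw [hmove τ hτ]; exact ⟨rfl, rfl⟩) hf
    (fun l _ u hu => by
      rw [hfx, hfx, Prod.snd_add, Pi.add_apply, mul_add, map_add, hu.2, add_zero]) hσ
  have hk := hN.isKChar hdet hP (hN.isBCocycle_of_good hc hτ h10 h00)
  have hz : ∀ τ ∈ T.GF, fam ψ (fun σ => c σ 0 1) b τ = 0 → τ z = z := fun τ hτ' h => by
    refine hzfix τ hτ' ?_
    rw [hmove τ hτ']
    exact ⟨⟨rfl, rfl⟩, h⟩
  refine Tame.deep_of_move hP (hk.isChar ψ b) hz hz1 hσ (B := (p : ℤ) + 1) ?_ ?_ 1 ?_ ?_ le_rfl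
  · show ((p : ℤ) + 1) ≤ 1 + (p : ℤ) * ((1 : ℕ) : ℤ)
    push_cast; omega
  · have hv : v (zp ζ (ψ (b * c σ 0 1)) - 1) = v ϖ ^ 1 := by
      have hne' : ψ (b * c σ 0 1) ≠ 0 := hne
      rw [zp, val_pow_sub_one hN.prim (fun hdvd => hne' ((ZMod.val_eq_zero _).mp
        (Nat.eq_zero_of_dvd_of_lt hdvd (ZMod.val_lt _)))),
        val_zeta_sub_one hP hN.pow_eq hN.prim (mul_one _).symm]
    have e : f (liftAct M c hc σ (![0, 1], 0)) - f (![0, 1], 0) =
        zp ζ (ψ (b * c σ 0 1)) - 1 := by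
      have h2 : liftAct M c hc σ (![0, 1], 0) = ((![M σ 0 1, 1], ![c σ 0 1, 0]) : VPair k) := by
        rw [← sub_add_cancel (liftAct M c hc σ (![0, 1], 0)) (![0, 1], 0), hmove σ hσ]
        refine Prod.ext ?_ ?_ <;> ext i <;> fin_cases i <;> simp
      rw [h2, hfx, hfx]
      simp [zp_zero]
    rw [e, hv, pow_one] at hzmove
    refine lt_of_lt_of_le ?_ (pow_le_pow_left' hzmove p)
    show v ϖ ^ ((p : ℤ) + 1) < v ϖ ^ p
    rw [← zpow_natCast]
    exact (T.pi_zpow_lt hP).mpr (by omega)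
  · show ((1 : ℕ) : ℤ) ≤ (p : ℤ) * ((1 : ℕ) : ℤ)
    have := (Fact.out : p.Prime).two_le
    push_cast; omega
  · show ((1 : ℕ) : ℤ) ≤ 2 + (p : ℤ) * ((1 : ℕ) : ℤ) - ((p : ℤ) + 1)
    push_cast; omega

include hN hdet hP in
/-- The flat tangent bound in normal form. -/
theorem RedNormal.tangentBound_flat (hp2 : p ≠ 2) (hM : FactorsFinite M)
    (hres : HasFlatModel p (resAct M)) : LocalTangentBound M D (Fl p M) 4 := by
  set Z : Submodule k (GQ → 𝕄) := Submodule.span k {c | Fl p M c} with hZ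
  have hB : ∀ X : 𝕄, X.trace = 0 → coboundary M X ∈ Z := fun X hX =>
    Submodule.subset_span ((fl_zero_of_residual hres).coboundary hM hX)
  have hcoc : Z ≤ tangentCocycles M := Submodule.span_le.mpr fun c hc => Fl.cocycle hc
  have hgood : ∀ c ∈ Z, c ∈ diagAt (k := k) τ₀ →
      (∀ σ ∈ D, c σ 1 0 = 0) ∧ ∀ σ ∈ Ine, c σ 0 0 = 0 := fun c hc hd => by
    rcases eq_zero_or_fl_of_mem_span hc with rfl | h
    · exact ⟨fun _ _ => rfl, fun _ _ => rfl⟩
    · exact h.good hN hdet hP hp2 hd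
  obtain ⟨ψ, hψ⟩ := exists_addMonoidHom_ne_zero k p
  obtain ⟨φ, hφ⟩ := GalCommon.exists_isFrobeniusAt (Fact.out : p.Prime) hP
  have hφD := hφ.mem_decompositionSubgroup
  -- the diagonal is determined by its value at a Frobenius
  have hzero : ∀ c ∈ Z, c ∈ diagAt (k := k) τ₀ → c φ 0 0 = 0 → ∀ σ ∈ D, c σ 0 0 = 0 := by
    intro c hc hd h0 σ hσ
    obtain ⟨g10, g00⟩ := hgood c hc hd
    have hadd : ∀ a ∈ D, ∀ b ∈ D, c (a * b) 0 0 = c a 0 0 + c b 0 0 := fun a ha b hb => by
      have i0 : M a 0 0 * M a⁻¹ 0 0 = 1 := by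
        rw [← (upper_mul (hN.lower a ha) (hN.lower a⁻¹ (inv_mem ha))).1, TW.mul_inv_eq_one,
          Matrix.one_apply_eq]
      rw [(hcoc hc).map_mul, Matrix.add_apply, adAct]
      simp [Matrix.mul_apply, Fin.sum_univ_two, g10 b hb, hN.lower a⁻¹ (inv_mem ha)]
      linear_combination c b 0 0 * i0
    obtain ⟨L, hL, hlev⟩ := (hcoc hc).exists_level
    have := hL
    obtain ⟨i, ι, hι, hx⟩ := exists_eq_frob_pow_mul hP hφ hσ L
    have hιD := inertia_le_decomposition hι
    have hiD : φ ^ i * ι ∈ D := mul_mem (pow_mem hφD i) hιD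
    have h1 : c ((φ ^ i * ι)⁻¹ * σ) = 0 := hlev _ fun x hxL => by
      rw [AlgEquiv.mul_apply, hx x hxL, ← AlgEquiv.mul_apply, inv_mul_cancel, AlgEquiv.one_apply]
    have h2 : ∀ j : ℕ, c (φ ^ j) 0 0 = 0 := by
      intro j
      induction j with
      | zero => rw [pow_zero, cocycle_one (hcoc hc)]; rfl
      | succ j ih => rw [pow_succ, hadd _ (pow_mem hφD j) φ hφD, ih, h0, add_zero]
    rw [← mul_inv_cancel_left (φ ^ i * ι) σ, hadd _ hiD _ (mul_mem (inv_mem hiD) hσ), h1,
      hadd _ (pow_mem hφD i) ι hιD, h2, g00 ι hι]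
    simp
  set R' := (Z ⊓ diagAt τ₀).map (restrictTo (k := k) (D : Subgroup GQ))
  let ev : R' →ₗ[k] k :=
    { toFun := fun r => r.1 ⟨φ, hφD⟩ 0 0
      map_add' := fun _ _ => rfl
      map_smul' := fun _ _ => rfl }
  obtain ⟨hfin, hcard⟩ := hN.card_deep_le hdet hP hp2 hψ
  have hker : Module.Finite k (LinearMap.ker ev) ∧ Module.finrank k (LinearMap.ker ev) ≤ 1 := by
    refine finrank_le_of_injective (fun r : LinearMap.ker ev => fun σ : D => r.1.1 σ 0 1) ?_ hfin
      ?_ (by rw [pow_one]; exact hcard)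
    · rintro ⟨⟨_, c, ⟨hc, hcd⟩, rfl⟩, h0⟩ ⟨⟨_, c', ⟨hc', hcd'⟩, rfl⟩, h0'⟩ h
      refine Subtype.ext (Subtype.ext (funext fun σ => ?_))
      have h01 : c σ 0 1 = c' σ 0 1 := congrFun h σ
      have g0 := hzero c hc hcd h0 σ σ.2
      have g0' := hzero c' hc' hcd' h0' σ σ.2
      have g1 := (hgood c hc hcd).1 σ σ.2
      have g1' := (hgood c' hc' hcd').1 σ σ.2
      have t1 := (hcoc hc).trace_eq_zero σ
      have t2 := (hcoc hc').trace_eq_zero σ
      rw [Matrix.trace_fin_two, g0, zero_add] at t1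
      rw [Matrix.trace_fin_two, g0', zero_add] at t2
      show c σ = c' σ
      ext i j
      fin_cases i <;> fin_cases j
      exacts [g0.trans g0'.symm, h01, g1.trans g1'.symm, t1.trans t2.symm]
    · rintro ⟨⟨_, c, ⟨hc, hcd⟩, rfl⟩, h0⟩
      have g1 := (hgood c hc hcd).1
      have g0 := hzero c hc hcd h0
      refine ⟨fun σ => c σ 0 1, hN.isBCocycle_of_good (hcoc hc) hcd.1 g1 g0, ?_, rfl⟩
      rcases eq_zero_or_fl_of_mem_span hc with rfl | h
      · intro b
        exact (hN.tame hdet hP).deep_of_eq_zero (fun σ _ => by simp [fam]) _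
      · exact h.deep_one hN hdet hP hψ hcd.1 g1 g0
  have := hker.1
  have : Module.Finite k ↥(R' : Submodule k _) := by
    have : Module.Finite k (↥R' ⧸ LinearMap.ker ev) :=
      Module.Finite.equiv ev.quotKerEquivRange.symm
    exact Module.Finite.of_submodule_quotient (LinearMap.ker ev)
  have hR : Module.finrank k R' ≤ 2 := by
    have h := LinearMap.finrank_range_add_finrank_ker ev
    have h1 := Submodule.finrank_le (LinearMap.range ev)
    rw [Module.finrank_self] at h1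
    have := hker.2
    omega
  obtain ⟨hZfin, hZrank⟩ := hN.bound_of_normalised hp2 Z hB ⟨inferInstance, hR⟩
  exact ⟨_, hZfin, hZrank, fun X hX => Submodule.mem_map_of_mem (hB X hX),
    fun c _ hc => Submodule.mem_map_of_mem (Submodule.subset_span hc)⟩

include hdet hP in
/-- The flat tangent bound when a line is stable. -/
theorem tangentBound_flat_of_line (hp2 : p ≠ 2) (hM : FactorsFinite M)
    (hres : HasFlatModel p (resAct M)) {d : Vec k} (hd : d ≠ 0)
    (hlow : ∀ σ ∈ D, det2 d (M σ *ᵥ d) = 0) : LocalTangentBound M D (Fl p M) 4 := by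
  obtain ⟨H, hH⟩ := hasFlatModel_iff_hasOrder.mp hres
  obtain ⟨d', hd', hlow', hin⟩ := exists_good_line hH hP hdet hp2 hd hlow
  obtain ⟨g, ϖ, ζ, τ₀, hN⟩ := exists_redNormal hdet hP hp2 hd' hlow' hin
  exact localTangentBound_of_conj D g (hN.tangentBound_flat (detCyclotomic_conjRep g hdet) hP hp2
    (factorsFinite_conjRep g hM) ((fl_zero_of_residual hres).conj g).residual)
    fun c _ h => h.conj g

end FLTAgent.LocP
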