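import Fermat.Agent.LocP.IrreducibleOrders
import Fermat.Agent.LocP.FlatReducible

/-!
# No stable line: depth of the entries of a flat cocycle

On the base field the entries of a flat cocycle are deep of level `p + 1`
(`IrrNormal.deep_entry`); the upper right entry has no coefficient away from level `p ^ 2 + 1`
(`IrrNormal.coef01_eq_zero`), and a class of the diagonal with vanishing coefficient at level
`p + 1` vanishes (`IrrNormal.fam00_eq_zero`).
-/

set_option autoImplicit false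
set_option linter.unusedSectionVars false

noncomputable section

namespace FLTAgent.LocP

open Matrix FLTAgent.TW FLTAgent.Deform FLTAgent.FlatHopf IsLocalRing
open scoped Pointwise

local notation "Qb" => AlgebraicClosure ℚ

variable {k : Type} [Field k] [Finite k] {P : ValuationSubring (AlgebraicClosure ℚ)} {p : ℕ}
  [Fact p.Prime]

local notation "v" => P.valuation
local notation "D" => P.decompositionSubgroup ℚ
local notation "Ine" => P.inertiaSubgroupIn ℚ
local notation "𝕄" => Matrix (Fin 2) (Fin 2) k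

/-- Multiples of a class. -/
theorem Tame.coef_natCast_mul (S : Tame P p) (hP : P.LiesOverPrime p) {φ : GQ → ZMod p} {m : ℕ}
    (hm : 0 < m) (hmtop : (m : ℤ) < p * S.E) (hndvd : ¬ p ∣ m) (h : S.Deep φ m) (n : ℕ) :
    S.Deep (fun σ => (n : ZMod p) * φ σ) m ∧
      S.coef (fun σ => (n : ZMod p) * φ σ) m = n * S.coef φ m := by
  induction n with
  | zero =>
    have h0 : S.Deep (0 : GQ → ZMod p) m := S.deep_of_eq_zero (fun _ _ => rfl) _
    have h1 := Tame.coef_add hP hm hmtop hndvd h0 h0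
    rw [add_zero] at h1
    have e : (fun σ => ((0 : ℕ) : ZMod p) * φ σ) = 0 := by funext σ; simp
    rw [e, Nat.cast_zero, zero_mul]
    exact ⟨h0, left_eq_add.mp h1⟩
  | succ n ih =>
    have e : (fun σ => ((n + 1 : ℕ) : ZMod p) * φ σ) = (fun σ => (n : ZMod p) * φ σ) + φ := by
      funext σ; simp [add_mul]
    rw [e, Tame.coef_add hP hm hmtop hndvd ih.1 h, ih.2]
    exact ⟨ih.1.add hP h, by push_cast; ring⟩

/-- A class deep of the next level has coefficient zero. -/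
theorem Tame.coef_eq_zero_of_succ (S : Tame P p) (hP : P.LiesOverPrime p) {φ : GQ → ZMod p} {m : ℕ}
    (hm : 0 < m) (hmtop : (m : ℤ) < p * S.E) (hndvd : ¬ p ∣ m) (h : S.Deep φ ((m : ℤ) + 1)) :
    S.coef φ m = 0 := by
  obtain ⟨θ, hθ, hu⟩ := h
  have hlt : v (θ ^ p - 1) < v S.ϖ ^ (m : ℤ) :=
    hu.trans_lt ((S.pi_zpow_lt hP).mpr (by omega))
  rw [Tame.coef_eq hP hm hmtop hndvd hθ hlt.le, res_eq_zero_iff (Tame.val_div_pow_le hlt.le),
    map_div₀, _root_.map_pow, div_lt_one₀ (pow_pos S.pi_pos _), ← zpow_natCast (v S.ϖ)]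
  exact hlt

theorem eq_or_add_of_modEq {m c e : ℕ} (h : m ≡ c [MOD e]) (h1 : m < c + 2 * e) (h2 : c < m + e) :
    m = c ∨ m = c + e := by
  rcases Nat.lt_or_ge m c with hlt | hge
  · exfalso
    have h3 := Nat.le_of_dvd (by omega) ((Nat.modEq_iff_dvd' hlt.le).mp h)
    omega
  · obtain ⟨t, ht⟩ := (Nat.modEq_iff_dvd' hge).mp h.symm
    rcases Nat.lt_trichotomy t 1 with h4 | rfl | h4
    · obtain rfl : t = 0 := by omega
      omega
    · omega
    · have : e * 2 ≤ e * t := Nat.mul_le_mul le_rfl h4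
      omega

variable [CharP k p] {M : MatRep k} {ϖ ζ z : Qb} {τ φ : GQ}
  {c : GQ → Matrix (Fin 2) (Fin 2) k} (hdet : DetCyclotomic M p) (hP : P.LiesOverPrime p)
  (hN : IrrNormal M P p ϖ ζ z τ φ)

include hP hN in
/-- The base field without a stable line. -/
def IrrNormal.tame : Tame P p :=
  mkTame hP hN.pow_eq hN.prim sq_pred_eq (Nat.succ_pos p) not_dvd_sq_pred (MonoidHom.ker M)
    (fun g _ σ _ hσ => by
      rw [MonoidHom.mem_ker] at hσ ⊢
      rw [map_mul, map_mul, hσ, mul_one, TW.mul_inv_eq_one])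
    fun σ hσ h => MonoidHom.mem_ker.mpr (hN.ker σ hσ h)

include hN

theorem IrrNormal.gf_trivial {σ : GQ} (hσ : σ ∈ (hN.tame hP).GF) : M σ = 1 :=
  MonoidHom.mem_ker.mp hσ.1.2

theorem IrrNormal.gf_mem_of_inertia {σ : GQ} (hσ : σ ∈ Ine) (hθ : theta ϖ σ = 1) :
    σ ∈ (hN.tame hP).GF :=
  (hN.tame hP).inertia_mem σ hσ hθ

theorem IrrNormal.map_mul_gf (hc : IsTangentCocycle M c) {σ : GQ} (hσ : σ ∈ (hN.tame hP).GF)
    (σ' : GQ) : c (σ * σ') = c σ + c σ' := by
  rw [hc.map_mul, adAct, hN.gf_trivial hP hσ, hN.gf_trivial hP (inv_mem hσ), one_mul, mul_one]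

theorem IrrNormal.isKChar (hc : IsTangentCocycle M c) (i j : Fin 2) :
    (hN.tame hP).IsKChar fun σ => c σ i j where
  map_mul σ hσ σ' _ := by
    show c (σ * σ') i j = _
    rw [hN.map_mul_gf hP hc hσ, Matrix.add_apply]
  exists_level := hc.exists_level.imp fun L hL =>
    ⟨hL.1, fun σ _ hx => show c σ i j = 0 by rw [hL.2 σ hx]; rfl⟩

theorem IrrNormal.cocycle_conj (hc : IsTangentCocycle M c) (g : GQ) {σ : GQ}
    (hσ : σ ∈ (hN.tame hP).GF) : c (g * σ * g⁻¹) = adAct M g (c σ) := by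
  have h1 := hc.map_mul g g⁻¹
  rw [mul_inv_cancel, cocycle_one hc] at h1
  have h2 : adAct M (g * σ) (c g⁻¹) = adAct M g (c g⁻¹) := by
    rw [adAct, adAct, map_mul, _root_.mul_inv_rev, map_mul, hN.gf_trivial hP hσ,
      hN.gf_trivial hP (inv_mem hσ), mul_one, one_mul]
  rw [hc.map_mul, hc.map_mul g σ, h2, add_right_comm, ← h1, zero_add]

omit hN
variable (hS : IrrShape M P p φ)
include hS

theorem IrrShape.adAct_inertia {σ : GQ} (hσ : σ ∈ Ine) (X : 𝕄) :
    adAct M σ X 0 0 = X 0 0 ∧ adAct M σ X 1 1 = X 1 1 ∧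
    adAct M σ X 0 1 = M σ 0 0 * (M σ 1 1)⁻¹ * X 0 1 ∧
    adAct M σ X 1 0 = M σ 1 1 * (M σ 0 0)⁻¹ * X 1 0 := by
  have hi := hS.diag σ⁻¹ (inv_mem hσ)
  have h := TW.mul_inv_eq_one M σ
  have h00 := congrFun (congrFun h 0) 0
  have h11 := congrFun (congrFun h 1) 1
  simp [Matrix.mul_apply, Fin.sum_univ_two, hS.diag σ hσ] at h00 h11
  rw [inv_eq_of_mul_eq_one_right h00, inv_eq_of_mul_eq_one_right h11]
  simp only [adAct, Matrix.mul_apply, Fin.sum_univ_two, hS.diag σ hσ, hi]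
  refine ⟨?_, ?_, ?_, ?_⟩
  · linear_combination X 0 0 * h00
  · linear_combination X 1 1 * h11
  · ring
  · ring

theorem IrrShape.adAct_frob (X : 𝕄) :
    adAct M φ X 0 0 = X 1 1 ∧ adAct M φ X 1 1 = X 0 0 ∧
    adAct M φ X 0 1 = M φ 0 1 / M φ 1 0 * X 1 0 ∧
    adAct M φ X 1 0 = M φ 1 0 / M φ 0 1 * X 0 1 := by
  obtain ⟨hu, hw⟩ := hS.frob_ne
  have h := TW.mul_inv_eq_one M φ
  have h00 := congrFun (congrFun h 0) 0
  have h01 := congrFun (congrFun h 0) 1
  have h10 := congrFun (congrFun h 1) 0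
  have h11 := congrFun (congrFun h 1) 1
  simp [Matrix.mul_apply, Fin.sum_univ_two, hS.frob_diag] at h00 h01 h10 h11
  have i11 : M φ⁻¹ 1 1 = 0 := h01.resolve_left hu
  have i00 : M φ⁻¹ 0 0 = 0 := h10.resolve_left hw
  simp only [adAct, Matrix.mul_apply, Fin.sum_univ_two, hS.frob_diag, i11, i00]
  refine ⟨?_, ?_, ?_, ?_⟩
  · linear_combination X 1 1 * h00
  · linear_combination X 0 0 * h11
  · rw [inv_eq_of_mul_eq_one_right h11 |>.symm]; ring
  · rw [inv_eq_of_mul_eq_one_right h00 |>.symm]; ring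

omit hS
include hN hdet hP

theorem IrrNormal.tau_zeta : ∃ a : ℕ, τ ζ = ζ ^ a ∧ (a : k) = M τ 0 0 * M τ 1 1 := by
  obtain ⟨a, ha, -⟩ := exists_zeta_exponent hN.prim τ
  refine ⟨a, ha, ?_⟩
  rw [← det_eq_natCast hN.prim hdet ha, Matrix.det_fin_two, (hN.diag τ hN.tau_mem).1, zero_mul,
    sub_zero]

/-- Both entries of the first row are deep of level `p + 1`. -/
theorem IrrNormal.deep_entry (hp2 : p ≠ 2) (h : Fl p M c) {ψ : k →+ ZMod p} (hψ : ψ 1 = 1)
    (j : Fin 2) : (hN.tame hP).DeepAll ψ (fun σ => c σ 0 j) ((p + 1 : ℕ) : ℤ) := by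
  have hpp : p.Prime := Fact.out
  obtain ⟨hc, hflat⟩ := h
  obtain ⟨H, hH⟩ := hasFlatModel_iff_hasOrder.mp hflat
  have hA := algebraMap_ratLocalized_mem (P := P) hP
  have hinj : Function.Injective (inrHom k) := fun x y hxy => (Prod.ext_iff.mp hxy).2
  have hres := isOrder_restrict hH (act' := resAct M) (inrHom k) hinj
    fun σ x => (liftAct_inr hc σ x).symm
  obtain ⟨S, hS⟩ := (resPairing (M := M) hN.prim hψ hdet).exists_dual hN.prim hres
  set T := hN.tame hP
  intro b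
  by_cases h0 : ∀ σ ∈ T.GF, fam ψ (fun σ => c σ 0 j) b σ = 0
  · exact T.deep_of_eq_zero h0 _
  push Not at h0
  obtain ⟨σ, hσ, hne⟩ := h0
  have hb : b ≠ 0 := fun hb => hne (by simp [fam, hb])
  have hd : (![0, -b] : Vec k) ≠ 0 := fun h => hb (neg_eq_zero.mp (congrFun h 1))
  obtain ⟨δ, hδ, F, hF, hev⟩ := hS.exists_ev_sub_one_eq hP ![0, -b]
  rw [(hN.nrm_eq_and_root hdet hP hp2 hS.dual hd).1] at hδ
  have hπ0 : v ϖ ≠ 0 := (Valuation.ne_zero_iff _).mpr (uniformizer_ne_zero hN.pow_eq sq_pred_pos)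
  have hδ0 : δ ≠ 0 := fun h => hπ0 (by rw [← hδ, h, map_zero])
  have hFval : ∀ w : Vec k, δ * F w = zp ζ (ψ (b * w 0)) - 1 := fun w => by
    rw [← hev w]
    show zp ζ (resB ψ ![0, -b] w) - 1 = _
    simp [resB_apply, det2]
  obtain ⟨F', hF', hFF⟩ := exists_aSpan_lift (inrHom k) hF
  set g : VPair k := (Pi.single j 1, 0)
  set f : VPair k → Qb := fun y => F' (y + -g) with hfdef
  have hf : f ∈ aSpan H P := shift_mem_aSpan hH hA (-g) hF'
  have hfx : ∀ w : Vec k, f (g + (0, w)) = F w := fun w => by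
    show F' (g + (0, w) + -g) = _
    rw [add_neg_cancel_comm, ← hFF]
    rfl
  let L : AddSubgroup (VPair k) :=
    { carrier := {x | x.1 = 0}
      zero_mem' := rfl
      add_mem' := fun {x y} (hx : x.1 = 0) (hy : y.1 = 0) => show x.1 + y.1 = 0 by simp [hx, hy]
      neg_mem' := fun {x} (hx : x.1 = 0) => show -x.1 = 0 by simp [hx] }
  let U : AddSubgroup (VPair k) :=
    { carrier := {x | x.1 = 0 ∧ ψ (b * x.2 0) = 0}
      zero_mem' := ⟨rfl, by simp⟩
      add_mem' := fun {x y} hx hy => ⟨by simp [hx.1, hy.1], by simp [mul_add, hx.2, hy.2]⟩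
      neg_mem' := fun {x} hx => ⟨by simp [hx.1], by simp [hx.2]⟩ }
  have hfix : ∀ σ' ∈ T.GF, ∀ x : VPair k, x.1 = 0 → liftAct M c hc σ' x = x := by
    intro σ' hσ' x hx
    rw [liftAct_apply, hx, hN.gf_trivial hP hσ', mulVec_zero, mulVec_zero, add_zero, one_mulVec]
    exact Prod.ext hx.symm rfl
  have hmove : ∀ σ' ∈ T.GF, liftAct M c hc σ' g = g + ((0 : Vec k), fun i => c σ' i j) := by
    intro σ' hσ'
    rw [liftAct_apply, hN.gf_trivial hP hσ', mul_one, one_mulVec, one_mulVec]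
    refine Prod.ext ?_ ?_
    · simp [g]
    · funext i
      fin_cases j <;> simp [g]
  obtain ⟨y, hy1, hyfix, hymove⟩ := exists_fixed_mover hH hP T.GF (fun σ' h => T.le_D σ' h) g L U
    (fun σ' hσ' u hu => by rw [hfix σ' hσ' u hu.1]; exact hu)
    (fun σ' hσ' u hu => by rw [hfix σ' hσ' u hu]; exact hu)
    (fun σ' hσ' => by rw [hmove σ' hσ', add_sub_cancel_left]; rfl) hf
    (fun l hl u hu => by
      have el : l = ((0 : Vec k), l.2) := Prod.ext hl rfl
      have elu : l + u = ((0 : Vec k), l.2 + u.2) :=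
        Prod.ext (show l.1 + u.1 = 0 by rw [hu.1, show l.1 = 0 from hl, add_zero]) rfl
      rw [add_assoc, elu, hfx, el, hfx]
      refine mul_left_cancel₀ hδ0 ?_
      rw [hFval, hFval, Pi.add_apply, mul_add, map_add, hu.2, add_zero]) hσ
  have hk := hN.isKChar hP hc 0 j
  refine Tame.deep_of_move hP (hk.isChar ψ b) (fun σ' hσ' h => hyfix σ' hσ' ?_) hy1 hσ
    (B := (p : ℤ) * p + 1) ?_ ?_ (p + 1) ?_ ?_ (by omega)
  · rw [hmove σ' hσ', add_sub_cancel_left]
    exact ⟨rfl, h⟩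
  · show (p : ℤ) * p + 1 ≤ 1 + (p : ℤ) * ((p + 1 : ℕ) : ℤ)
    push_cast; nlinarith [hpp.two_le]
  · have e : f (liftAct M c hc σ g) - f g = (zp ζ (ψ (b * c σ 0 j)) - 1) / δ := by
      have e0 : f g = F 0 := by
        have h := hfx 0
        rwa [show ((0 : Vec k), (0 : Vec k)) = (0 : VPair k) from rfl, add_zero] at h
      rw [hmove σ hσ, hfx, e0, eq_div_iff hδ0, sub_mul, mul_comm (F _) δ, hFval,
        mul_comm (F 0) δ, hFval]
      simp [zp_zero]
    have hv : v ((zp ζ (ψ (b * c σ 0 j)) - 1) / δ) = v ϖ ^ p := by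
      have hne' : ψ (b * c σ 0 j) ≠ 0 := hne
      rw [map_div₀, hδ, zp, val_pow_sub_one hN.prim (fun hdvd => hne' ((ZMod.val_eq_zero _).mp
        (Nat.eq_zero_of_dvd_of_lt hdvd (ZMod.val_lt _)))),
        val_zeta_sub_one hP hN.pow_eq hN.prim sq_pred_eq, pow_succ, mul_div_cancel_right₀ _ hπ0]
    rw [e, hv] at hymove
    refine lt_of_lt_of_le ?_ (pow_le_pow_left' hymove p)
    show v ϖ ^ ((p : ℤ) * p + 1) < (v ϖ ^ p) ^ p
    rw [← pow_mul, ← zpow_natCast (v ϖ) (p * p)]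
    exact (T.pi_zpow_lt hP).mpr (by push_cast; omega)
  · show ((p + 1 : ℕ) : ℤ) ≤ (p : ℤ) * ((p + 1 : ℕ) : ℤ)
    push_cast; nlinarith [hpp.two_le]
  · show ((p + 1 : ℕ) : ℤ) ≤ 2 + (p : ℤ) * ((p + 1 : ℕ) : ℤ) - ((p : ℤ) * p + 1)
    push_cast; linarith

/-- The residue data of the generator: `(A : κ) = r + r ^ p`, `(B : κ) = r * r ^ p`. -/
theorem IrrNormal.exists_residue_data (hp2 : p ≠ 2) (hres : HasFlatModel p (resAct M)) :
    ∃ A B : ℕ, (A : k) = M τ 0 0 + M τ 1 1 ∧ (B : k) = M τ 0 0 * M τ 1 1 ∧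
      (A : ResidueField P) = res P z + res P z ^ p ∧
      (B : ResidueField P) = res P z * res P z ^ p := by
  obtain ⟨H, hH⟩ := hasFlatModel_iff_hasOrder.mp hres
  obtain ⟨A, B, hA, hB, -, -⟩ := hN.exists_charpoly hdet hP
  exact ⟨A, B, hA, hB, (hN.nrm_eq_and_root hdet hP hp2 hH (x := ![1, 0])
    fun h => one_ne_zero (α := k) (congrFun h 0)).2 A B hA hB⟩

theorem IrrNormal.sq_ne (hp2 : p ≠ 2) (hres : HasFlatModel p (resAct M)) :
    M τ 0 0 ^ 2 ≠ M τ 1 1 ^ 2 := by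
  intro h
  have := charP_res hP
  obtain ⟨A, B, hA, -, hAr, -⟩ := hN.exists_residue_data hdet hP hp2 hres
  have h1 : M τ 0 0 + M τ 1 1 = 0 := by
    have h2 : (M τ 0 0 - M τ 1 1) * (M τ 0 0 + M τ 1 1) = 0 := by linear_combination h
    exact (mul_eq_zero.mp h2).resolve_left (sub_ne_zero.mpr hN.tau_ne)
  have h2 : (A : ResidueField P) = ((0 : ℕ) : ResidueField P) :=
    natCast_transfer (k := k) (p := p) (by rw [hA, h1, Nat.cast_zero])
  rw [hAr, Nat.cast_zero] at h2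
  have h3 : res P z ^ (2 * p) = res P z ^ 2 := by
    rw [mul_comm, pow_mul, eq_neg_of_add_eq_zero_right h2]; ring
  have hpp : p.Prime := Fact.out
  have h4 := res_pow_inj hP not_dvd_sq_pred hN.prim_z h3
  have h5 : 3 ≤ p := by have := hpp.two_le; omega
  have h6 : 3 * p ≤ p * p := Nat.mul_le_mul_right p h5
  rw [sq] at h4
  rcases eq_or_add_of_modEq h4 (by omega) (by omega) with h7 | h7 <;> omega

/-- The upper right coefficients vanish away from the level `p ^ 2 + 1`. -/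
theorem IrrNormal.coef01_eq_zero (hp2 : p ≠ 2) (hres : HasFlatModel p (resAct M))
    (hc : IsTangentCocycle M c) {ψ : k →+ ZMod p} {m : ℕ} (hm1 : p + 1 ≤ m)
    (hm2 : m < p * (p + 1)) (hnd : ¬ p ∣ m) (hne : m ≠ p ^ 2 + 1)
    (h : (hN.tame hP).DeepAll ψ (fun σ => c σ 0 1) m) :
    (hN.tame hP).coefHom ψ (fun σ => c σ 0 1) m = 0 := by
  have hpp : p.Prime := Fact.out
  have := charP_res hP
  obtain ⟨A, B, hA, hB, hAr, hBr⟩ := hN.exists_residue_data hdet hP hp2 hres
  obtain ⟨a, ha, hak⟩ := hN.tau_zeta hdet hP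
  have hs := hN.swap τ hN.tau_mem
  set α := M τ 0 0
  set β := M τ 1 1
  obtain ⟨A', hA'⟩ := exists_natCast_of_pow_eq (p := p) (x := α ^ 2 + β ^ 2)
    (by rw [add_pow_char, ← pow_mul, ← pow_mul, mul_comm 2 p, pow_mul, pow_mul, hs.1, hs.2,
      add_comm])
  have hBp : (B : k) ^ p = B := map_natCast (frobenius k p) B
  obtain ⟨B', hB'⟩ := exists_natCast_of_pow_eq (p := p) (x := -(α * β) ^ 2)
    (by rw [← hB, neg_pow, ← pow_mul, mul_comm 2 p, pow_mul, hBp,
        (hpp.odd_of_ne_two hp2).neg_one_pow]; ring)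
  have hα0 : α ≠ 0 := fun h0 => hN.tau_ne (show α = β by rw [← hs.1, h0, zero_pow hpp.ne_zero])
  have hβ0 : β ≠ 0 := fun h0 => hN.tau_ne (show α = β by rw [← hs.2, h0, zero_pow hpp.ne_zero])
  have htop : ((m : ℕ) : ℤ) < p * (hN.tame hP).E := by
    show (m : ℤ) < (p : ℤ) * ((p + 1 : ℕ) : ℤ)
    exact_mod_cast hm2
  have hχ : α * β⁻¹ ≠ 0 := mul_ne_zero hα0 (inv_ne_zero hβ0)
  refine coefHom_eq_zero_of_quadratic hP (ρ := (a : k) * (α * β⁻¹)⁻¹)
    (r := res P (theta ϖ τ) ^ m) (A := A') (B := B')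
    (fun b => Tame.coefHom_rel_inertia hP (by omega) htop hnd h hN.tau_mem hχ
      (fun σ hσ => by
        show c (τ * σ * τ⁻¹) 0 1 = _
        rw [hN.cocycle_conj hP hc τ hσ]
        exact (hN.toIrrShape.adAct_inertia hN.tau_mem _).2.2.1) ha b) ?_ ?_
  · rw [hak, hA', hB']
    field_simp
    ring
  · rw [hN.tau_theta]
    set r := res P z
    have e1 : (A' : ResidueField P) + 2 * B = A ^ 2 := by
      have h1 : ((A' + 2 * B : ℕ) : ResidueField P) = ((A ^ 2 : ℕ) : ResidueField P) :=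
        natCast_transfer (k := k) (p := p) (by push_cast; rw [hA', hA, hB]; ring)
      exact_mod_cast h1
    have e2 : (B' : ResidueField P) + B ^ 2 = 0 := by
      have h1 : ((B' + B ^ 2 : ℕ) : ResidueField P) = ((0 : ℕ) : ResidueField P) :=
        natCast_transfer (k := k) (p := p) (by push_cast; rw [hB', hB]; ring)
      exact_mod_cast h1
    rw [hAr, hBr] at e1
    rw [hBr] at e2
    intro hcon
    have h1 : (r ^ m - r ^ 2) * (r ^ m - (r ^ p) ^ 2) = 0 := by
      linear_combination hcon + r ^ m * e1 + e2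
    have hp3 : 3 ≤ p := by have := hpp.two_le; omega
    have hpp2 : 3 * p ≤ p * p := Nat.mul_le_mul_right p hp3
    rw [mul_add, mul_one] at hm2
    rw [sq] at hne
    rcases mul_eq_zero.mp h1 with h2 | h2
    · have h3 := res_pow_inj hP not_dvd_sq_pred hN.prim_z (sub_eq_zero.mp h2)
      rw [sq] at h3
      rcases eq_or_add_of_modEq h3 (by omega) (by omega) with h4 | h4 <;> omega
    · rw [← pow_mul] at h2
      have h3 := res_pow_inj hP not_dvd_sq_pred hN.prim_z (sub_eq_zero.mp h2)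
      rw [sq] at h3
      rcases eq_or_add_of_modEq h3 (by omega) (by omega) with h4 | h4
      · exact hnd ⟨2, by omega⟩
      · omega

omit hdet

theorem IrrNormal.c10_eq_zero (hc : IsTangentCocycle M c)
    (h01 : ∀ σ ∈ (hN.tame hP).GF, c σ 0 1 = 0) {σ : GQ} (hσ : σ ∈ (hN.tame hP).GF) :
    c σ 1 0 = 0 := by
  have hφD := hN.frob.mem_decompositionSubgroup
  have hmem : φ⁻¹ * σ * φ ∈ (hN.tame hP).GF := by
    simpa using (hN.tame hP).conj_mem φ⁻¹ (inv_mem hφD) σ hσ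
  have h := hN.cocycle_conj hP hc φ hmem
  rw [show φ * (φ⁻¹ * σ * φ) * φ⁻¹ = σ by group] at h
  rw [h, (hN.toIrrShape.adAct_frob _).2.2.2, h01 _ hmem, mul_zero]

theorem IrrNormal.c00_conj (hc : IsTangentCocycle M c) {σ : GQ} (hσ : σ ∈ (hN.tame hP).GF) :
    c (φ * σ * φ⁻¹) 0 0 = (-1) * c σ 0 0 := by
  rw [hN.cocycle_conj hP hc φ hσ, (hN.toIrrShape.adAct_frob _).1]
  have h := hc.trace_eq_zero σ
  rw [Matrix.trace_fin_two] at h
  linear_combination h

include hdet

/-- A class of the diagonal with vanishing first coefficient vanishes. -/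
theorem IrrNormal.fam00_eq_zero (hp2 : p ≠ 2) (hres : HasFlatModel p (resAct M))
    (hc : IsTangentCocycle M c) {ψ : k →+ ZMod p} {b : k}
    (h : (hN.tame hP).Deep (fam ψ (fun σ => c σ 0 0) b) ((p + 1 : ℕ) : ℤ))
    (h0 : (hN.tame hP).coef (fam ψ (fun σ => c σ 0 0) b) (p + 1) = 0) {σ : GQ}
    (hσ : σ ∈ (hN.tame hP).GF) : fam ψ (fun σ => c σ 0 0) b σ = 0 := by
  have hpp : p.Prime := Fact.out
  have := charP_res hP
  set S := hN.tame hP
  set lam := fam ψ (fun σ => c σ 0 0) b with hlam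
  obtain ⟨A, B, -, hB, -, hBr⟩ := hN.exists_residue_data hdet hP hp2 hres
  obtain ⟨a, ha, hak⟩ := hN.tau_zeta hdet hP
  have hclimb : ∀ m : ℕ, p + 1 ≤ m → m ≤ p * (p + 1) → S.Deep lam m := by
    intro m hm
    induction m, hm using Nat.le_induction with
    | base => exact fun _ => h
    | succ m hm ih =>
      intro hle
      have hd := ih (by omega)
      have htop : ((m : ℕ) : ℤ) < p * S.E := by
        show (m : ℤ) < (p : ℤ) * ((p + 1 : ℕ) : ℤ)
        exact_mod_cast hle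
      push_cast
      by_cases hdvd : p ∣ m
      · exact hd.succ_of_dvd hP (by omega) htop (Int.natCast_dvd_natCast.mpr hdvd)
      refine hd.succ_of_coef_eq_zero hP ?_
      rcases eq_or_lt_of_le hm with rfl | hlt
      · exact h0
      -- the symmetry under the generator of inertia
      obtain ⟨hd', hcoef⟩ := Tame.coef_conj (φ' := fun σ => (a : ZMod p) * lam σ) hP (by omega) htop hdvd hd
        (inertia_le_decomposition hN.tau_mem) ha (fun σ' hσ' => by
          have hmem : τ⁻¹ * σ' * τ ∈ S.GF := by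
            simpa using S.conj_mem τ⁻¹ (inv_mem (inertia_le_decomposition hN.tau_mem)) σ' hσ'
          have h1 := hN.cocycle_conj hP hc τ hmem
          rw [show τ * (τ⁻¹ * σ' * τ) * τ⁻¹ = σ' by group] at h1
          show (a : ZMod p) * ψ (b * c σ' 0 0) = (a : ZMod p) * ψ (b * c (τ⁻¹ * σ' * τ) 0 0)
          rw [h1, (hN.toIrrShape.adAct_inertia hN.tau_mem _).1])
      rw [(S.coef_natCast_mul hP (by omega) htop hdvd hd a).2] at hcoef
      have hfix : (⟨τ, inertia_le_decomposition hN.tau_mem⟩ : P.decompositionSubgroup ℚ) •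
          S.coef lam m = S.coef lam m := by
        obtain ⟨x, hx, hx'⟩ := res_surjective (S.coef lam m)
        rw [← hx', ← res_map (inertia_le_decomposition hN.tau_mem) hx,
          res_map_inertia hN.tau_mem hx]
      rw [hfix, show theta S.ϖ τ = z from hN.tau_theta,
        natCast_transfer (K := ResidueField P) (p := p) (hak.trans hB.symm), hBr, ← pow_succ']
        at hcoef
      by_contra hne
      have h1 : res P z ^ (p + 1) = res P z ^ m :=
        mul_right_cancel₀ hne (hcoef.trans (mul_comm _ _))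
      have h2 := (res_pow_inj hP not_dvd_sq_pred hN.prim_z h1).symm
      have h5 : 3 ≤ p := by have := hpp.two_le; omega
      have h6 : 3 * p ≤ p * p := Nat.mul_le_mul_right p h5
      rw [sq] at h2
      rw [mul_add, mul_one] at hle
      rcases eq_or_add_of_modEq h2 (by omega) (by omega) with h7 | h7 <;> omega
  have htopd : S.Deep lam (p * S.E) := by
    have h1 := hclimb (p * (p + 1)) (Nat.le_mul_of_pos_left _ hpp.pos) le_rfl
    show S.Deep lam ((p : ℤ) * ((p + 1 : ℕ) : ℤ))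
    rwa [← Nat.cast_mul]
  have hφD := hN.frob.mem_decompositionSubgroup
  have hgσ := S.conj_mem φ hφD σ hσ
  have hmem : φ * σ * φ⁻¹ * σ⁻¹ ∈ S.GF := mul_mem hgσ (inv_mem hσ)
  have h1 := htopd.inertia_eq_zero hP hmem (commutator_mem_inertia hP hφD (S.le_D σ hσ))
  have h2 := ((hN.isKChar hP hc 0 0).isChar ψ b).map_mul _ hmem σ hσ
  rw [inv_mul_cancel_right] at h2
  change lam (φ * σ * φ⁻¹) = lam (φ * σ * φ⁻¹ * σ⁻¹) + lam σ at h2
  rw [h1, zero_add] at h2
  have h3 : lam (φ * σ * φ⁻¹) = -lam σ := by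
    show ψ (b * c (φ * σ * φ⁻¹) 0 0) = -ψ (b * c σ 0 0)
    rw [hN.c00_conj hP hc hσ, neg_one_mul, mul_neg, map_neg]
  rw [h3] at h2
  exact (mul_eq_zero.mp (show ((2 : ℕ) : ZMod p) * lam σ = 0 by
    push_cast; linear_combination -h2)).resolve_left fun h => hp2
      ((Nat.prime_dvd_prime_iff_eq hpp Nat.prime_two).mp ((CharP.cast_eq_zero_iff (ZMod p) p 2).mp h))

end FLTAgent.LocP
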