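import Fermat.Agent.LocP.FlatLines

/-!
# No stable line: the form of the residual representation

Without a stable line (`NoLine`) wild inertia acts trivially (`wild_trivial`), inertia is diagonal
in a suitable basis with entries exchanged by the `p`-th power, and Frobenius is antidiagonal
(`IrrShape`, `exists_irrShape`).
-/

set_option autoImplicit false
set_option linter.unusedSectionVars false

noncomputable section

namespace FLTAgent.LocP

open Matrix FLTAgent.TW FLTAgent.Deform FLTAgent.FlatHopf IsLocalRing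
open scoped Pointwise

local notation "Qb" => AlgebraicClosure ℚ

variable {k : Type} [Field k] [Finite k] {P : ValuationSubring (AlgebraicClosure ℚ)} {p : ℕ}
  [Fact p.Prime] [CharP k p]

local notation "v" => P.valuation
local notation "D" => P.decompositionSubgroup ℚ
local notation "Ine" => P.inertiaSubgroupIn ℚ
local notation "𝕄" => Matrix (Fin 2) (Fin 2) k

/-- No line is stable under the decomposition group. -/
def NoLine (M : MatRep k) (P : ValuationSubring (AlgebraicClosure ℚ)) : Prop :=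
  ∀ d : Vec k, d ≠ 0 → ∃ σ ∈ P.decompositionSubgroup ℚ, det2 d (M σ *ᵥ d) ≠ 0

theorem exists_eigvec {A : 𝕄} {α β : k} (htr : A.trace = α + β) (hdet : A.det = α * β) :
    ∃ d : Vec k, d ≠ 0 ∧ A *ᵥ d = α • d := by
  have h : (A - α • (1 : 𝕄)).det = 0 := by
    rw [Matrix.trace_fin_two] at htr
    rw [Matrix.det_fin_two] at hdet ⊢
    simp only [Matrix.sub_apply, Matrix.smul_apply, smul_eq_mul, Matrix.one_apply_eq,
      Matrix.one_apply_ne (show (0 : Fin 2) ≠ 1 by decide),
      Matrix.one_apply_ne (show (1 : Fin 2) ≠ 0 by decide), mul_one, mul_zero, sub_zero]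
    linear_combination hdet - α * htr
  obtain ⟨d, hd, h0⟩ := Matrix.exists_mulVec_eq_zero_iff.mpr h
  rw [sub_mulVec, smul_mulVec, one_mulVec, sub_eq_zero] at h0
  exact ⟨d, hd, h0⟩

theorem det2_self (d : Vec k) : det2 d d = 0 := by simp [det2, mul_comm]

theorem two_dim {d y : Vec k} (h : det2 d y ≠ 0) (x : Vec k) :
    x = (det2 x y / det2 d y) • d + (det2 d x / det2 d y) • y := by
  funext i
  rw [Pi.add_apply, Pi.smul_apply, Pi.smul_apply, smul_eq_mul, smul_eq_mul, div_mul_eq_mul_div,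
    div_mul_eq_mul_div, ← add_div, eq_div_iff h]
  fin_cases i <;> simp [det2] <;> ring

variable {M : MatRep k} (hP : P.LiesOverPrime p)

include hP in
/-- Frobenius and inertia have no common eigenvector. -/
theorem not_common_eigvec (hM : FactorsFinite M) (hno : NoLine M P) {φ : GQ}
    (hφ : P.IsFrobeniusAt φ p) {d : Vec k} (hd : d ≠ 0) {a : k} (ha : M φ *ᵥ d = a • d)
    (hI : ∀ σ ∈ Ine, ∃ b : k, M σ *ᵥ d = b • d) : False := by
  obtain ⟨σ, hσ, hne⟩ := hno d hd
  obtain ⟨L, hL, hlev⟩ := hM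
  have := hL
  obtain ⟨i, ι, hι, hx⟩ := exists_eq_frob_pow_mul hP hφ hσ L
  obtain ⟨b, hb⟩ := hI ι hι
  have h1 : M ((φ ^ i * ι)⁻¹ * σ) = 1 := hlev _ fun x hxL => by
    rw [AlgEquiv.mul_apply, hx x hxL, ← AlgEquiv.mul_apply, inv_mul_cancel, AlgEquiv.one_apply]
  have h2 : ∀ j : ℕ, M (φ ^ j) *ᵥ d = a ^ j • d := by
    intro j
    induction j with
    | zero => simp
    | succ j ih => rw [pow_succ, map_mul, ← mulVec_mulVec, ha, mulVec_smul, ih, smul_smul,
        pow_succ, mul_comm]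
  refine hne ?_
  rw [← mul_inv_cancel_left (φ ^ i * ι) σ, map_mul, h1, mul_one, map_mul, ← mulVec_mulVec, hb,
    mulVec_smul, h2, det2_smul_right, det2_smul_right, det2_self, mul_zero, mul_zero]

variable {H : Subalgebra (GaloisRep.ratLocalizedAt p) (Vec k → Qb)}
  (hH : IsOrder (galR p) (resAct M) H)

local notation "N" => nrm hH (algebraMap_ratLocalized_mem (P := P) hP)

include hH hP in
theorem wild_trivial (hno : NoLine M P) {σ : GQ} (hσ : IsWild P p σ) : M σ = 1 := by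
  have : Nonempty {x : Vec k // x ≠ 0} :=
    ⟨⟨![1, 0], fun h => one_ne_zero (α := k) (congrFun h 0)⟩⟩
  obtain ⟨⟨d, hd⟩, hmin⟩ := Finite.exists_min fun x : {x : Vec k // x ≠ 0} => N x.1
  have hfix : ∀ τ, IsWild P p τ → M τ *ᵥ d = d := fun τ hτ => by
    by_contra hne
    have h1 := hmin ⟨M τ *ᵥ d - d, sub_ne_zero.mpr hne⟩
    exact not_lt.mpr h1 (hτ.nrm_lt hH hP hd)
  obtain ⟨g, hg, hne⟩ := hno d hd
  have hfix' : M σ *ᵥ (M g *ᵥ d) = M g *ᵥ d := by
    have h := hfix _ (hσ.conj hP (inv_mem hg))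
    rw [inv_inv] at h
    rw [mulVec_mulVec, ← map_mul, show σ * g = g * (g⁻¹ * σ * g) by group, map_mul,
      ← mulVec_mulVec, h]
  refine Matrix.ext_of_mulVec_single fun j => ?_
  rw [one_mulVec, two_dim hne (Pi.single j 1), mulVec_add, mulVec_smul, mulVec_smul, hfix σ hσ,
    hfix']

/-- The shape of the residual representation in an adapted basis. -/
structure IrrShape (M : MatRep k) (P : ValuationSubring (AlgebraicClosure ℚ)) (p : ℕ) (φ : GQ) :
    Prop where
  frob : P.IsFrobeniusAt φ p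
  diag : ∀ σ ∈ P.inertiaSubgroupIn ℚ, M σ 0 1 = 0 ∧ M σ 1 0 = 0
  swap : ∀ σ ∈ P.inertiaSubgroupIn ℚ, M σ 0 0 ^ p = M σ 1 1 ∧ M σ 1 1 ^ p = M σ 0 0
  frob_diag : M φ 0 0 = 0 ∧ M φ 1 1 = 0
  frob_ne : M φ 0 1 ≠ 0 ∧ M φ 1 0 ≠ 0
  exists_ne : ∃ σ ∈ P.inertiaSubgroupIn ℚ, M σ 0 0 ≠ M σ 1 1

include hH hP in
/-- Existence of the adapted basis. -/
theorem exists_irrShape (hM : FactorsFinite M) (hsplit : CharpolySplits M) (hno : NoLine M P) :
    ∃ (g : 𝕄ˣ) (φ : GQ), IrrShape (conjRep g M) P p φ := by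
  obtain ⟨φ, hφ⟩ := GalCommon.exists_isFrobeniusAt (Fact.out : p.Prime) hP
  have hw : ∀ σ, IsWild P p σ → M σ = 1 := fun σ hσ => wild_trivial hP hH hno hσ
  have hcomm : ∀ σ ∈ Ine, ∀ τ ∈ Ine, M σ * M τ = M τ * M σ := fun σ hσ τ hτ => by
    rw [← map_mul, ← map_mul, show σ * τ = σ * τ * σ⁻¹ * τ⁻¹ * (τ * σ) by group, map_mul,
      hw _ (commutator_isWild hP hσ hτ), one_mul]
  have hfrob : ∀ σ ∈ Ine, M φ * M σ = M σ ^ p * M φ := fun σ hσ => by
    have h : φ * σ = φ * σ * φ⁻¹ * (σ ^ p)⁻¹ * (σ ^ p * φ) := by group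
    conv_lhs => rw [← map_mul, h, map_mul, hw _ (frobenius_conj_isWild hP hφ hσ), one_mul,
      map_mul, map_pow]
  have hnonscalar : ∃ τ ∈ Ine, ∀ a : k, M τ ≠ a • (1 : 𝕄) := by
    by_contra hcon
    push Not at hcon
    obtain ⟨α, β, htr, hdt⟩ := hsplit φ
    obtain ⟨d, hd, hd1⟩ := exists_eigvec htr hdt
    refine not_common_eigvec hP hM hno hφ hd hd1 fun σ hσ => ?_
    obtain ⟨a, ha⟩ := hcon σ hσ
    exact ⟨a, by rw [ha, smul_mulVec, one_mulVec]⟩
  obtain ⟨τ, hτ, hτns⟩ := hnonscalar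
  obtain ⟨α, β, htr, hdt⟩ := hsplit τ
  have hne : α ≠ β := by
    rintro rfl
    have hCH : (M τ - α • 1) * (M τ - α • 1) = 0 := by
      rw [Matrix.trace_fin_two] at htr
      rw [Matrix.det_fin_two] at hdt
      ext i j
      fin_cases i <;> fin_cases j <;> simp [Matrix.mul_apply, Fin.sum_univ_two]
      · linear_combination M τ 0 0 * htr - hdt
      · linear_combination M τ 0 1 * htr
      · linear_combination M τ 1 0 * htr
      · linear_combination M τ 1 1 * htr - hdt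
    have hpow : ∀ n : ℕ, M τ ^ (n + 1) =
        α ^ (n + 1) • (1 : 𝕄) + ((n + 1 : ℕ) * α ^ n : k) • (M τ - α • 1) := by
      intro n
      induction n with
      | zero => simp
      | succ n ih =>
        rw [pow_succ, ih]
        conv_lhs => arg 2; rw [show M τ = α • (1 : 𝕄) + (M τ - α • 1) by abel]
        simp only [add_mul, mul_add, smul_mul_assoc, one_mul, mul_smul_comm, mul_one, hCH,
          smul_zero, add_zero]
        push_cast
        match_scalars <;> ring
    have hp := hpow (p - 1)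
    rw [Nat.sub_add_cancel (Fact.out : p.Prime).pos, CharP.cast_eq_zero, zero_mul, zero_smul,
      add_zero] at hp
    refine hτns (α ^ p) ?_
    have h1 := congrArg (M φ⁻¹ * ·) (hfrob τ hτ)
    simp only [← mul_assoc, TW.inv_mul_eq_one, one_mul, hp, mul_smul_comm,
      smul_mul_assoc] at h1
    exact h1
  obtain ⟨d, hd, hd1⟩ := exists_eigvec htr hdt
  obtain ⟨d', hd', hd2⟩ := exists_eigvec (β := α) (htr.trans (add_comm _ _)) (hdt.trans (mul_comm _ _))
  have hδ : det2 d d' ≠ 0 := fun h => by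
    obtain ⟨a, rfl⟩ := exists_smul_of_det2 hd h
    rw [mulVec_smul, hd1, smul_smul, smul_smul, mul_comm] at hd2
    exact hne (mul_right_cancel₀ (left_ne_zero_of_smul hd') (smul_left_injective k hd hd2))
  set δ := det2 d d' with hδdef
  set A : 𝕄 := !![d' 1 / δ, -(d' 0) / δ; -(d 1) / δ, d 0 / δ]
  set Ai : 𝕄 := !![d 0, d' 0; d 1, d' 1]
  have hAA : A * Ai = 1 := by
    have hδv : δ = d 0 * d' 1 - d 1 * d' 0 := rfl
    ext i j
    fin_cases i <;> fin_cases j <;> simp [A, Ai, Matrix.mul_apply, Fin.sum_univ_two] <;>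
      field_simp <;> (rw [hδv]; ring)
  let g : 𝕄ˣ := ⟨A, Ai, hAA, mul_eq_one_comm.mp hAA⟩
  refine ⟨g, φ, ?_⟩
  have hN0 : ∀ σ, conjRep g M σ = A * M σ * Ai := fun σ => rfl
  have hτ' : conjRep g M τ = !![α, 0; 0, β] := by
    have h1 : M τ * Ai = Ai * !![α, 0; 0, β] := by
      have a0 := congrFun hd1 0
      have a1 := congrFun hd1 1
      have b0 := congrFun hd2 0
      have b1 := congrFun hd2 1
      simp [Matrix.mulVec, dotProduct, Fin.sum_univ_two] at a0 a1 b0 b1
      ext i j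
      fin_cases i <;> fin_cases j <;> simp [Ai, Matrix.mul_apply, Fin.sum_univ_two]
      · linear_combination a0
      · linear_combination b0
      · linear_combination a1
      · linear_combination b1
    rw [hN0, mul_assoc, h1, ← mul_assoc, hAA, one_mul]
  set M' := conjRep g M with hM'
  have hcomm' : ∀ σ ∈ Ine, M' σ * M' τ = M' τ * M' σ := fun σ hσ => by
    rw [hN0, hN0, show A * M σ * Ai * (A * M τ * Ai) = A * (M σ * M τ) * Ai by
        simp only [mul_assoc]; rw [← mul_assoc Ai, mul_eq_one_comm.mp hAA, one_mul],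
      hcomm σ hσ τ hτ, show A * (M τ * M σ) * Ai = A * M τ * Ai * (A * M σ * Ai) by
        simp only [mul_assoc]; rw [← mul_assoc Ai, mul_eq_one_comm.mp hAA, one_mul]]
  have hdiag : ∀ σ ∈ Ine, M' σ 0 1 = 0 ∧ M' σ 1 0 = 0 := fun σ hσ => by
    have h := hcomm' σ hσ
    have h01 := congrFun (congrFun h 0) 1
    have h10 := congrFun (congrFun h 1) 0
    simp [hτ', Matrix.mul_apply, Fin.sum_univ_two] at h01 h10
    constructor
    · exact (mul_eq_zero.mp (show (β - α) * M' σ 0 1 = 0 by linear_combination h01)).resolve_left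
        (sub_ne_zero.mpr (Ne.symm hne))
    · exact (mul_eq_zero.mp (show (α - β) * M' σ 1 0 = 0 by linear_combination h10)).resolve_left
        (sub_ne_zero.mpr hne)
  have hfrob' : ∀ σ ∈ Ine, M' φ * M' σ = M' σ ^ p * M' φ := fun σ hσ => by
    have h : M' σ ^ p = A * M σ ^ p * Ai := by
      rw [← map_pow, hN0, map_pow]
    rw [h, hN0, hN0, show A * M φ * Ai * (A * M σ * Ai) = A * (M φ * M σ) * Ai by
        simp only [mul_assoc]; rw [← mul_assoc Ai, mul_eq_one_comm.mp hAA, one_mul],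
      hfrob σ hσ]
    simp only [mul_assoc]
    rw [← mul_assoc Ai, mul_eq_one_comm.mp hAA, one_mul]
  have hpowdiag : ∀ σ ∈ Ine, ∀ n : ℕ, M' σ ^ n = !![M' σ 0 0 ^ n, 0; 0, M' σ 1 1 ^ n] := by
    intro σ hσ n
    induction n with
    | zero => rw [pow_zero, pow_zero, pow_zero, Matrix.one_fin_two]
    | succ n ih =>
      rw [pow_succ, ih, Matrix.eta_fin_two (M' σ), (hdiag σ hσ).1, (hdiag σ hσ).2,
        Matrix.mul_fin_two]
      simp [pow_succ]
  have hM'f := factorsFinite_conjRep g hM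
  have hno' : NoLine M' P := fun x hx => by
    have hAx : Ai *ᵥ x ≠ 0 := fun h0 => hx (by
      rw [← one_mulVec x, ← hAA, ← mulVec_mulVec, h0, mulVec_zero])
    obtain ⟨σ, hσ, hne⟩ := hno _ hAx
    refine ⟨σ, hσ, fun h0 => hne ?_⟩
    have h1 := det2_mulVec Ai x (M' σ *ᵥ x)
    rw [h0, mul_zero, hN0, mulVec_mulVec, ← mul_assoc, ← mul_assoc, mul_eq_one_comm.mp hAA,
      one_mul, ← mulVec_mulVec] at h1
    exact h1
  have hne01 : M' φ 1 0 ≠ 0 := fun h0 => not_common_eigvec hP hM'f hno' hφ (d := ![1, 0])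
    (fun h => one_ne_zero (α := k) (congrFun h 0)) (a := M' φ 0 0)
    (by ext i; fin_cases i <;> simp [Matrix.mulVec, dotProduct, Fin.sum_univ_two] <;> first | rfl | exact h0)
    fun σ hσ => ⟨M' σ 0 0, by
      ext i; fin_cases i <;> simp [Matrix.mulVec, dotProduct, Fin.sum_univ_two] <;>
        first | rfl | exact (hdiag σ hσ).1 | exact (hdiag σ hσ).2⟩
  have hne10 : M' φ 0 1 ≠ 0 := fun h0 => not_common_eigvec hP hM'f hno' hφ (d := ![0, 1])
    (fun h => one_ne_zero (α := k) (congrFun h 1)) (a := M' φ 1 1)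
    (by ext i; fin_cases i <;> simp [Matrix.mulVec, dotProduct, Fin.sum_univ_two] <;> first | rfl | exact h0)
    fun σ hσ => ⟨M' σ 1 1, by
      ext i; fin_cases i <;> simp [Matrix.mulVec, dotProduct, Fin.sum_univ_two] <;>
        first | rfl | exact (hdiag σ hσ).1⟩
  have hswap : ∀ σ ∈ Ine, M' σ 0 0 ^ p = M' σ 1 1 ∧ M' σ 1 1 ^ p = M' σ 0 0 := fun σ hσ => by
    have h := hfrob' σ hσ
    rw [hpowdiag σ hσ] at h
    have h01 := congrFun (congrFun h 0) 1
    have h10 := congrFun (congrFun h 1) 0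
    simp [Matrix.mul_apply, Fin.sum_univ_two, hdiag σ hσ] at h01 h10
    exact ⟨mul_right_cancel₀ hne10 (h01.symm.trans (mul_comm _ _)),
      mul_right_cancel₀ hne01 (h10.symm.trans (mul_comm _ _))⟩
  have hτ00 : M' τ 0 0 = α := by rw [hτ']; rfl
  have hτ11 : M' τ 1 1 = β := by rw [hτ']; rfl
  have hs := hswap τ hτ
  rw [hτ00, hτ11] at hs
  refine ⟨hφ, hdiag, hswap, ?_, ⟨hne10, hne01⟩, ⟨τ, hτ, by rwa [hτ00, hτ11]⟩⟩
  have h := hfrob' τ hτ
  rw [hpowdiag τ hτ, hτ00, hτ11, hs.1, hs.2, hτ'] at h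
  have h00 := congrFun (congrFun h 0) 0
  have h11 := congrFun (congrFun h 1) 1
  simp [Matrix.mul_apply, Fin.sum_univ_two] at h00 h11
  exact ⟨(mul_eq_zero.mp (show (α - β) * M' φ 0 0 = 0 by linear_combination h00)).resolve_left
      (sub_ne_zero.mpr hne),
    (mul_eq_zero.mp (show (β - α) * M' φ 1 1 = 0 by linear_combination h11)).resolve_left
      (sub_ne_zero.mpr (Ne.symm hne))⟩

end FLTAgent.LocP
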