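import Fermat.Agent.LocP.IrreducibleForm

/-!
# No stable line: the orders of the residual representation

`IrrNormal` is the normal form without a stable line, obtained from one order by
`exists_irrNormal`.  For `p ≠ 2` every nonzero point of every order has the norm of the uniformizer
of the tamely ramified field of degree `p ^ 2 - 1` (`IrrNormal.nrm_eq_and_root`): the only other
exponent, `p`, is excluded by orbit sums and duality (`IrrNormal.nrm_ne_pow_p`).
-/

set_option autoImplicit false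
set_option linter.unusedSectionVars false

noncomputable section

namespace FLTAgent.LocP

open Matrix FLTAgent.TW FLTAgent.Deform FLTAgent.FlatHopf IsLocalRing
open scoped Pointwise

local notation "Qb" => AlgebraicClosure ℚ

variable {k : Type} [Field k] [Finite k] {P : ValuationSubring (AlgebraicClosure ℚ)} {p : ℕ}
  [Fact p.Prime]

local notation "v" => P.valuation
local notation "D" => P.decompositionSubgroup ℚ
local notation "Ine" => P.inertiaSubgroupIn ℚ
local notation "𝕄" => Matrix (Fin 2) (Fin 2) k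

theorem sq_pred_eq : p ^ 2 - 1 = (p - 1) * (p + 1) := by
  obtain ⟨m, rfl⟩ := Nat.exists_eq_add_of_le (Fact.out : p.Prime).pos
  have : (1 + m) ^ 2 = m * (1 + m + 1) + 1 := by ring
  simp only [Nat.succ_eq_add_one, zero_add, Nat.add_sub_cancel_left] at this ⊢
  omega

theorem sq_pred_pos : 0 < p ^ 2 - 1 := by
  have h := (Fact.out : p.Prime).two_le
  have : 2 * 2 ≤ p ^ 2 := by rw [sq]; exact Nat.mul_le_mul h h
  omega

theorem not_dvd_sq_pred : ¬ p ∣ p ^ 2 - 1 := fun h => by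
  have h1 : p ∣ p ^ 2 := dvd_pow_self p (by norm_num)
  have h2 := Nat.dvd_sub h1 h
  have h3 := sq_pred_pos (p := p)
  rw [show p ^ 2 - (p ^ 2 - 1) = 1 by omega] at h2
  exact (Fact.out : p.Prime).ne_one (Nat.dvd_one.mp h2)

theorem theta_pow_of_mem (hP : P.LiesOverPrime p) {ϖ : Qb} {e : ℕ} (hϖ : ϖ ^ e = -(p : Qb))
    (he : 0 < e) (hpe : ¬ p ∣ e) {σ : GQ} (hσ : σ ∈ Ine) (n : ℕ) :
    theta ϖ (σ ^ n) = theta ϖ σ ^ n := by
  induction n with
  | zero => rw [pow_zero, pow_zero, theta_one (uniformizer_ne_zero hϖ he)]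
  | succ n ih => rw [pow_succ, theta_mul hP hϖ he hpe (pow_mem hσ n), ih, pow_succ]

theorem natCast_transfer [CharP k p] {K : Type} [Field K] [CharP K p] {m n : ℕ}
    (h : (m : k) = n) : (m : K) = n :=
  (CharP.natCast_eq_natCast K p).mpr ((CharP.natCast_eq_natCast k p).mp h)

theorem exists_natCast_of_pow_eq' {K : Type} [Field K] [CharP K p] {x : K} (h : x ^ p = x) :
    ∃ m : ℕ, (m : K) = x := by
  obtain ⟨m, hm⟩ := (mem_bot_iff_intCast p K).mp
    ((Subfield.mem_bot_iff_pow_eq_self (F := K) (p := p)).mpr h)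
  refine ⟨((m : ZMod p)).val, ?_⟩
  rw [← hm, ← map_intCast (ZMod.castHom (dvd_refl p) K), ZMod.natCast_val, ZMod.castHom_apply]

section aSpan

variable {G : Type} [AddCommGroup G] [Finite G]
  {H : Subalgebra (GaloisRep.ratLocalizedAt p) (G → Qb)}

theorem one_mem_aSpan : (1 : G → Qb) ∈ aSpan H P := Submodule.subset_span (one_mem H)

theorem mul_mem_aSpan {f g : G → Qb} (hf : f ∈ aSpan H P) (hg : g ∈ aSpan H P) :
    f * g ∈ aSpan H P := by
  induction hf using Submodule.span_induction with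
  | mem a ha =>
    induction hg using Submodule.span_induction with
    | mem b hb => exact Submodule.subset_span (mul_mem ha hb)
    | zero => rw [mul_zero]; exact zero_mem _
    | add b b' _ _ ih ih' => rw [mul_add]; exact add_mem ih ih'
    | smul c b _ ih =>
      rw [show a * (c • b) = c • (a * b) from funext fun x => mul_left_comm _ (c : Qb) _]
      exact Submodule.smul_mem _ c ih
  | zero => rw [zero_mul]; exact zero_mem _
  | add a a' _ _ ih ih' => rw [add_mul]; exact add_mem ih ih'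
  | smul c a _ ih =>
    rw [show (c • a) * g = c • (a * g) from funext fun x => mul_assoc (c : Qb) _ _]
    exact Submodule.smul_mem _ c ih

theorem pow_mem_aSpan {f : G → Qb} (hf : f ∈ aSpan H P) (n : ℕ) : f ^ n ∈ aSpan H P := by
  induction n with
  | zero => rw [pow_zero]; exact one_mem_aSpan
  | succ n ih => rw [pow_succ]; exact mul_mem_aSpan ih hf

theorem geom_sum_one_add (X : Qb) (n : ℕ) :
    ∑ a ∈ Finset.range n, (1 + X) ^ a = ∑ j ∈ Finset.range n, (n.choose (j + 1) : Qb) * X ^ j := by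
  induction n with
  | zero => simp
  | succ n ih =>
    have h : ∑ j ∈ Finset.range (n + 1), (n.choose (j + 1) : Qb) * X ^ j =
        ∑ j ∈ Finset.range n, (n.choose (j + 1) : Qb) * X ^ j := by
      rw [Finset.sum_range_succ, Nat.choose_eq_zero_of_lt (Nat.lt_succ_self n)]
      simp
    rw [Finset.sum_range_succ (fun a => (1 + X) ^ a), ih, ← h, add_comm 1 X, add_pow,
      ← Finset.sum_add_distrib]
    refine Finset.sum_congr rfl fun j _ => ?_
    rw [Nat.choose_succ_succ, Nat.cast_add, one_pow, mul_one, add_mul]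
    ring

/-- The normalised sum of the powers of a character. -/
theorem geomSum_mem_aSpan (hP : P.LiesOverPrime p) {ϖ : Qb} (hϖ : ϖ ^ (p ^ 2 - 1) = -(p : Qb))
    {δ : Qb} (hδ : v δ = v ϖ ^ p) {F : G → Qb} (hF : F ∈ aSpan H P) :
    (fun d => (∑ a ∈ Finset.range p, (1 + δ * F d) ^ a) / ϖ ^ (p * (p - 1))) ∈ aSpan H P := by
  have hpp : p.Prime := Fact.out
  have hπ0 : 0 < v ϖ :=
    zero_lt_iff.mpr ((Valuation.ne_zero_iff _).mpr (uniformizer_ne_zero hϖ sq_pred_pos))
  have hπ1 : v ϖ ≤ 1 := by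
    refine (pow_le_one_iff_of_nonneg zero_le (sq_pred_pos (p := p)).ne').mp ?_
    rw [val_uniformizer_pow hϖ]
    exact (val_p_lt_one hP).le
  have hc : ∀ j ∈ Finset.range p,
      v ((p.choose (j + 1) : Qb) * δ ^ j / ϖ ^ (p * (p - 1))) ≤ 1 := by
    intro j hj
    rw [Finset.mem_range] at hj
    rw [map_div₀, map_mul, map_pow, map_pow, hδ, ← pow_mul, div_le_one₀ (pow_pos hπ0 _)]
    rcases Nat.lt_or_ge (j + 1) p with h | h
    · obtain ⟨m, hm⟩ := hpp.dvd_choose_self (by omega : j + 1 ≠ 0) h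
      rw [hm, Nat.cast_mul, map_mul]
      have hm1 : v (m : Qb) ≤ 1 := (P.valuation_le_one_iff _).mpr (natCast_mem P m)
      calc v (p : Qb) * v (m : Qb) * v ϖ ^ (p * j) ≤ v (p : Qb) * 1 * 1 :=
            mul_le_mul' (mul_le_mul' le_rfl hm1) (pow_le_one' hπ1 _)
        _ = v ϖ ^ (p ^ 2 - 1) := by rw [mul_one, mul_one, val_uniformizer_pow hϖ]
        _ ≤ v ϖ ^ (p * (p - 1)) := pow_le_pow_right_of_le_one' hπ1 (by
            rw [sq_pred_eq, mul_comm]; exact Nat.mul_le_mul (le_refl _) (Nat.le_succ p))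
    · obtain rfl : j = p - 1 := by omega
      rw [show p - 1 + 1 = p by omega, Nat.choose_self, Nat.cast_one, map_one, one_mul]
  have e : (fun d => (∑ a ∈ Finset.range p, (1 + δ * F d) ^ a) / ϖ ^ (p * (p - 1))) =
      ∑ j : Finset.range p, (⟨_, mem_of_val_le (hc j j.2)⟩ : P) • F ^ (j : ℕ) := by
    funext d
    rw [Finset.sum_apply, geom_sum_one_add, Finset.sum_div, ← Finset.sum_coe_sort]
    refine Finset.sum_congr rfl fun j _ => ?_
    show _ = (p.choose ((j : ℕ) + 1) : Qb) * δ ^ (j : ℕ) / ϖ ^ (p * (p - 1)) * F d ^ (j : ℕ)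
    rw [mul_pow]
    ring
  rw [e]
  exact sum_mem fun j _ => Submodule.smul_mem _ _ (pow_mem_aSpan hF _)

end aSpan

variable [CharP k p]

/-- The normal form without a stable line. -/
structure IrrNormal (M : MatRep k) (P : ValuationSubring (AlgebraicClosure ℚ)) (p : ℕ)
    (ϖ ζ z : AlgebraicClosure ℚ) (τ φ : GQ) : Prop extends IrrShape M P p φ where
  pow_eq : ϖ ^ (p ^ 2 - 1) = -(p : AlgebraicClosure ℚ)
  prim : IsPrimitiveRoot ζ p
  prim_z : IsPrimitiveRoot z (p ^ 2 - 1)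
  tau_mem : τ ∈ P.inertiaSubgroupIn ℚ
  tau_theta : theta ϖ τ = z
  ker : ∀ σ ∈ P.inertiaSubgroupIn ℚ, theta ϖ σ = 1 → M σ = 1
  tau_ne : M τ 0 0 ≠ M τ 1 1

variable {M : MatRep k}

theorem IrrShape.eq_of_diag {φ : GQ} (hS : IrrShape M P p φ) {σ : GQ} (hσ : σ ∈ Ine) :
    M σ = !![M σ 0 0, 0; 0, M σ 1 1] := by
  conv_lhs => rw [Matrix.eta_fin_two (M σ), (hS.diag σ hσ).1, (hS.diag σ hσ).2]

theorem IrrShape.entry_mul {φ : GQ} (hS : IrrShape M P p φ) {σ τ : GQ} (hσ : σ ∈ Ine)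
    (hτ : τ ∈ Ine) : M (σ * τ) 0 0 = M σ 0 0 * M τ 0 0 ∧ M (σ * τ) 1 1 = M σ 1 1 * M τ 1 1 := by
  rw [map_mul]
  simp [Matrix.mul_apply, Fin.sum_univ_two, hS.diag σ hσ, hS.diag τ hτ]

theorem eq_tau_pow (hP : P.LiesOverPrime p) {ϖ z : Qb} (hϖ : ϖ ^ (p ^ 2 - 1) = -(p : Qb))
    (hz : IsPrimitiveRoot z (p ^ 2 - 1)) {τ : GQ} (hτ : τ ∈ Ine) (hθ : theta ϖ τ = z)
    (hker : ∀ σ ∈ Ine, theta ϖ σ = 1 → M σ = 1) {σ : GQ} (hσ : σ ∈ Ine) :
    ∃ j : ℕ, theta ϖ σ = z ^ j ∧ M σ = M τ ^ j := by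
  have : NeZero (p ^ 2 - 1) := ⟨(sq_pred_pos (p := p)).ne'⟩
  obtain ⟨j, -, hj⟩ := hz.eq_pow_of_pow_eq_one (theta_pow hϖ sq_pred_pos σ)
  refine ⟨j, hj.symm, ?_⟩
  have hτj := pow_mem hτ j
  have h := theta_mul hP hϖ sq_pred_pos not_dvd_sq_pred hτj ((τ ^ j)⁻¹ * σ)
  rw [mul_inv_cancel_left, theta_pow_of_mem hP hϖ sq_pred_pos not_dvd_sq_pred hτ, hθ, hj] at h
  have h1 := hker _ (mul_mem (inv_mem hτj) hσ)
    (mul_left_cancel₀ (by rw [← hj]; exact pow_ne_zero _ (hz.ne_zero (sq_pred_pos (p := p)).ne'))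
      (h.symm.trans (mul_one _).symm))
  rw [← mul_inv_cancel_left (τ ^ j) σ, map_mul, h1, mul_one, map_pow]

/-- The normal form from the shape and one order. -/
theorem exists_irrNormal (hP : P.LiesOverPrime p) {φ : GQ} (hS : IrrShape M P p φ)
    {H : Subalgebra (GaloisRep.ratLocalizedAt p) (Vec k → Qb)}
    (hH : IsOrder (galR p) (resAct M) H) : ∃ ϖ ζ z τ, IrrNormal M P p ϖ ζ z τ φ := by
  obtain ⟨ζ, hζ⟩ := exists_primitive p (Fact.out : p.Prime).pos
  obtain ⟨ϖ, hϖ⟩ := IsAlgClosed.exists_pow_nat_eq (-(p : Qb)) (sq_pred_pos (p := p))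
  obtain ⟨z, hz⟩ := exists_primitive (p ^ 2 - 1) (sq_pred_pos (p := p))
  obtain ⟨τ, hτ, hθ⟩ := exists_inertia_theta_eq hP hϖ sq_pred_pos not_dvd_sq_pred hz.pow_eq_one
  have hd : (![1, 0] : Vec k) ≠ 0 := fun h => one_ne_zero (α := k) (congrFun h 0)
  have hpow : ∀ σ ∈ Ine, M σ 0 0 ^ (p ^ 2 - 1) = 1 := fun σ hσ => by
    have h0 : M σ 0 0 ≠ 0 := fun h0 => det_ne_zero M σ (by
      rw [Matrix.det_fin_two, h0, (hS.diag σ hσ).1]; ring)
    refine mul_right_cancel₀ h0 ?_
    rw [← pow_succ, Nat.sub_add_cancel (by have := sq_pred_pos (p := p); omega), one_mul, sq,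
      pow_mul, (hS.swap σ hσ).1, (hS.swap σ hσ).2]
  have hker : ∀ σ ∈ Ine, theta ϖ σ = 1 → M σ = 1 := by
    intro σ hσ hθ1
    have hsub : ∀ σ ∈ Ine, ∀ t : k, resAct M σ (t • ![1, 0]) - t • ![1, 0] =
        (M σ 0 0 - 1) • t • ![1, 0] := fun σ hσ t => by
      rw [resAct_apply, hS.eq_of_diag hσ]
      ext i
      fin_cases i <;> simp <;> ring
    have h := sub_eq_zero.mp (eq_zero_of_line_lt hH hP hd fun t ht => by
      rw [← hsub σ hσ]
      refine nrm_act_sub_lt_of_character hP (fun σ hσ τ hτ => (hS.entry_mul hσ hτ).1) hpow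
        sq_pred_pos hH hϖ hσ hθ1 (smul_ne_zero ht hd) fun τ' hτ' h => ?_
      rw [← sub_eq_zero, hsub τ' hτ', h, sub_self, zero_smul])
    rw [hS.eq_of_diag hσ, ← (hS.swap σ hσ).1, h, one_pow, Matrix.one_fin_two]
  refine ⟨ϖ, ζ, z, τ, hS, hϖ, hζ, hz, hτ, hθ, hker, fun heq => ?_⟩
  obtain ⟨σ, hσ, hne⟩ := hS.exists_ne
  obtain ⟨j, -, hj⟩ := eq_tau_pow hP hϖ hz hτ hθ hker hσ
  have h : ∀ n : ℕ, M (τ ^ n) 0 0 = M (τ ^ n) 1 1 := by
    intro n
    induction n with
    | zero => simp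
    | succ n ih =>
      rw [pow_succ, (hS.entry_mul (pow_mem hτ n) hτ).1, (hS.entry_mul (pow_mem hτ n) hτ).2, ih, heq]
  exact hne (by rw [hj, ← map_pow]; exact h j)

variable {ϖ ζ z : Qb} {τ φ : GQ} (hN : IrrNormal M P p ϖ ζ z τ φ) (hdet : DetCyclotomic M p)
  (hP : P.LiesOverPrime p)

include hN in
theorem IrrNormal.tau_entries :
    M τ 0 0 ≠ 1 ∧ M τ 1 1 ≠ 1 ∧ M τ 0 0 ^ p ≠ M τ 0 0 := by
  have hs := hN.swap τ hN.tau_mem
  refine ⟨fun h => hN.tau_ne ?_, fun h => hN.tau_ne ?_, fun h => hN.tau_ne (h.symm.trans hs.1)⟩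
  · rw [← hs.1, h, one_pow]
  · rw [← hs.2, h, one_pow]

include hN hP in
theorem IrrNormal.nrm_lt_one {H : Subalgebra (GaloisRep.ratLocalizedAt p) (Vec k → Qb)}
    (hH : IsOrder (galR p) (resAct M) H) (x : Vec k) :
    nrm hH (algebraMap_ratLocalized_mem (P := P) hP) x < 1 := by
  obtain ⟨h0, h1, -⟩ := hN.tau_entries
  have h0' := sub_ne_zero.mpr h0
  have h1' := sub_ne_zero.mpr h1
  rw [show x = resAct M τ ![x 0 / (M τ 0 0 - 1), x 1 / (M τ 1 1 - 1)] -
      ![x 0 / (M τ 0 0 - 1), x 1 / (M τ 1 1 - 1)] by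
    rw [resAct_apply, hN.toIrrShape.eq_of_diag hN.tau_mem]
    ext i
    fin_cases i <;> simp <;> field_simp]
  exact nrm_act_sub_lt_one hH _
    (fun y hy => val_map_sub_lt hN.tau_mem ((P.valuation_le_one_iff _).mpr hy)) _

include hN hdet hP in
/-- The characteristic polynomial of the generator of inertia. -/
theorem IrrNormal.exists_charpoly :
    ∃ A B : ℕ, (A : k) = M τ 0 0 + M τ 1 1 ∧ (B : k) = M τ 0 0 * M τ 1 1 ∧
      (B : ResidueField P) = res P z ^ (p + 1) ∧
      ∀ x : Vec k, M τ *ᵥ (M τ *ᵥ x) + B • x = A • (M τ *ᵥ x) := by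
  have hs := hN.swap τ hN.tau_mem
  obtain ⟨A, hA⟩ := exists_natCast_of_pow_eq (p := p) (x := M τ 0 0 + M τ 1 1)
    (by rw [add_pow_char, hs.1, hs.2, add_comm])
  obtain ⟨B, hB, -⟩ := exists_zeta_exponent hN.prim τ
  have hBk : (B : k) = M τ 0 0 * M τ 1 1 := by
    rw [← det_eq_natCast hN.prim hdet hB, Matrix.det_fin_two, (hN.diag τ hN.tau_mem).1, zero_mul,
      sub_zero]
  have h1 := res_theta_pow_eq hP hN.pow_eq hN.prim sq_pred_eq sq_pred_pos hN.tau_mem hB
  have hz1 : v z ≤ 1 := ((pow_eq_one_iff_of_nonneg zero_le (sq_pred_pos (p := p)).ne').mp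
    (by rw [← map_pow, hN.prim_z.pow_eq_one, map_one])).le
  rw [hN.tau_theta, res_pow hz1] at h1
  refine ⟨A, B, hA, hBk, h1.symm, fun x => ?_⟩
  rw [← Nat.cast_smul_eq_nsmul k, ← Nat.cast_smul_eq_nsmul k, hA, hBk,
    hN.toIrrShape.eq_of_diag hN.tau_mem]
  ext i
  fin_cases i <;> simp [dotProduct, Fin.sum_univ_two] <;> ring

include hN in
theorem IrrNormal.tau_pow_period : M τ ^ (p ^ 2 - 1) = 1 → ∀ n, M τ ^ (n + (p ^ 2 - 1)) = M τ ^ n :=
  fun h n => by rw [pow_add, h, mul_one]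

include hN hP in
theorem IrrNormal.tau_pow_eq_one : M τ ^ (p ^ 2 - 1) = 1 := by
  rw [← map_pow]
  refine hN.ker _ (pow_mem hN.tau_mem _) ?_
  rw [theta_pow_of_mem hP hN.pow_eq sq_pred_pos not_dvd_sq_pred hN.tau_mem, hN.tau_theta,
    hN.prim_z.pow_eq_one]

include hN hP in
/-- Orbit sums of an integral function are divisible by `p`. -/
theorem IrrNormal.val_sum_orbit_le {S : Subalgebra (GaloisRep.ratLocalizedAt p) (Vec k → Qb)}
    (hS : IsOrder (galR p) (resAct M) S) (d : Vec k) {f : Vec k → Qb} (hf : f ∈ aSpan S P) :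
    v (∑ j ∈ Finset.range (p ^ 2 - 1), (f (resAct M (τ ^ j) d) - f 0)) ≤ v (p : Qb) := by
  induction hf using Submodule.span_induction with
  | zero => simp
  | add a b _ _ iha ihb =>
    simp only [Pi.add_apply, add_sub_add_comm, Finset.sum_add_distrib]
    exact (Valuation.map_add _ _ _).trans (max_le iha ihb)
  | smul c a _ iha =>
    have e : ∀ y, (c • a) y = (c : Qb) * a y := fun _ => rfl
    simp only [e, ← mul_sub, ← Finset.mul_sum, map_mul]
    exact (mul_le_of_le_one_left' ((P.valuation_le_one_iff _).mpr c.2)).trans iha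
  | mem a ha =>
    set g : ℕ → Qb := fun n => a (M τ ^ n *ᵥ d) - a 0 with hg
    have e : ∀ j, a (resAct M (τ ^ j) d) - a 0 = g j := fun j => by rw [resAct_apply, map_pow]
    simp only [e]
    set y := ∑ j ∈ Finset.range (p ^ 2 - 1), g j with hy
    have hshift : ∀ i, ∑ j ∈ Finset.range (p ^ 2 - 1), g (j + i) = y := by
      intro i
      induction i with
      | zero => rfl
      | succ i ih =>
        rw [← ih]
        have h1 := Finset.sum_range_succ (fun j => g (j + i)) (p ^ 2 - 1)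
        rw [Finset.sum_range_succ' (fun j => g (j + i))] at h1
        have h2 : g (p ^ 2 - 1 + i) = g (0 + i) := by
          rw [zero_add, add_comm, hg]
          simp only [hN.tau_pow_period (hN.tau_pow_eq_one hP) i]
        rw [h2, add_left_inj] at h1
        simpa [add_assoc, add_comm 1 i] using h1
    have hfix : ∀ σ ∈ Ine, σ y = y := by
      intro σ hσ
      obtain ⟨i, -, hi⟩ := eq_tau_pow hP hN.pow_eq hN.prim_z hN.tau_mem hN.tau_theta hN.ker hσ
      rw [hy, map_sum]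
      refine Eq.trans (Finset.sum_congr rfl fun j _ => ?_) (hshift i)
      show σ (a (M τ ^ j *ᵥ d) - a 0) = _
      rw [map_sub, ← apply_act hS σ ha, apply_zero_fixed hS σ ha, resAct_apply, hi, mulVec_mulVec,
        ← pow_add, add_comm]
    have hlt : v y < 1 := Valuation.map_sum_lt' _ zero_lt_one fun j _ =>
      (val_diff_le_nrm hS (algebraMap_ratLocalized_mem hP) _ ha).trans_lt (hN.nrm_lt_one hP hS _)
    rcases eq_or_ne y 0 with h0 | h0
    · rw [h0, map_zero]; exact zero_le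
    obtain ⟨m, hm⟩ := exists_val_eq_zpow hP h0 hfix
    rw [hm] at hlt ⊢
    rw [← zpow_zero (v (p : Qb)), zpow_lt_zpow_iff_right_of_lt_one₀
      (zero_lt_iff.mpr val_p_ne_zero) (val_p_lt_one hP)] at hlt
    conv_rhs => rw [← zpow_one (v (p : Qb))]
    exact (zpow_le_zpow_iff_right_of_lt_one₀ (zero_lt_iff.mpr val_p_ne_zero) (val_p_lt_one hP)).mpr
      (by omega)

include hN hdet hP in
/-- The exponent `p` does not occur. -/
theorem IrrNormal.nrm_ne_pow_p (hp2 : p ≠ 2)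
    {H : Subalgebra (GaloisRep.ratLocalizedAt p) (Vec k → Qb)}
    (hH : IsOrder (galR p) (resAct M) H) {x : Vec k} (hx : x ≠ 0) :
    nrm hH (algebraMap_ratLocalized_mem (P := P) hP) x ≠ v ϖ ^ p := by
  intro hn
  have hpp : p.Prime := Fact.out
  have h3 : 3 ≤ p := by have := hpp.two_le; omega
  obtain ⟨ψ, hψ⟩ := exists_addMonoidHom_ne_zero k p
  set R := resPairing (M := M) hN.prim hψ hdet
  obtain ⟨S, hS⟩ := R.exists_dual hN.prim hH
  have hA := algebraMap_ratLocalized_mem (P := P) hP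
  set x' := resAct M τ x with hx'
  have hn' : nrm hH hA x' = v ϖ ^ p :=
    (nrm_act hH hA (fun b => val_map (inertia_le_decomposition hN.tau_mem) b) x).trans hn
  obtain ⟨δ, hδ, F, hF, hev⟩ := hS.exists_ev_sub_one_eq' hP x
  obtain ⟨δ', hδ', F', hF', hev'⟩ := hS.exists_ev_sub_one_eq' hP x'
  set f : Vec k → Qb :=
    (fun d => (∑ a ∈ Finset.range p, (1 + δ * F d) ^ a) / ϖ ^ (p * (p - 1))) *
      fun d => (∑ a ∈ Finset.range p, (1 + δ' * F' d) ^ a) / ϖ ^ (p * (p - 1)) with hfdef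
  have hf : f ∈ aSpan S P :=
    mul_mem_aSpan (geomSum_mem_aSpan hP hN.pow_eq (hδ.trans hn) hF)
      (geomSum_mem_aSpan hP hN.pow_eq (hδ'.trans hn') hF')
  have hvanish : ∀ (b : ZMod p), b ≠ 0 → ∑ a ∈ Finset.range p, zp ζ b ^ a = 0 := fun b hb => by
    have h1 : zp ζ b ^ p = 1 := by
      rw [zp, ← pow_mul, mul_comm, pow_mul, hN.prim.pow_eq_one, one_pow]
    have h2 := geom_sum_mul (zp ζ b) p
    rw [h1, sub_self, mul_eq_zero] at h2
    exact h2.resolve_right (sub_ne_zero.mpr fun h => hb ((zp_eq_one_iff hN.prim b).mp h))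
  obtain ⟨d, hd⟩ : ∃ d, R.B d x ≠ 0 := by
    by_contra hcon
    push Not at hcon
    obtain ⟨w, hw⟩ := exists_det2_ne_zero hx
    have h := hcon w
    change resB ψ w x = 0 at h
    rw [resB_apply, show det2 w x = -1 by rw [← hw]; simp [det2]; ring, map_neg, hψ, neg_eq_zero] at h
    exact one_ne_zero h
  obtain ⟨A, B, -, -, -, hquad⟩ := hN.exists_charpoly hdet hP
  have hzero : ∀ j : ℕ, f (resAct M (τ ^ j) d) = 0 := by
    intro j
    set d' := resAct M (τ ^ j) d with hd'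
    by_cases h0 : R.B d' x = 0
    swap
    · show (_ / _) * (_ / _) = (0 : Qb)
      rw [show 1 + δ * F d' = zp ζ (R.B d' x) by rw [← hev]; show 1 + (zp ζ _ - 1) = _; ring,
        hvanish _ h0]
      simp
    by_cases h1 : R.B d' x' = 0
    swap
    · show (_ / _) * (_ / _) = (0 : Qb)
      rw [show 1 + δ' * F' d' = zp ζ (R.B d' x') by rw [← hev']; show 1 + (zp ζ _ - 1) = _; ring,
        hvanish _ h1]
      simp
    exfalso
    have hall : ∀ i : ℕ, R.B d' (M τ ^ i *ᵥ x) = 0 ∧ R.B d' (M τ ^ (i + 1) *ᵥ x) = 0 := by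
      intro i
      induction i with
      | zero => exact ⟨by simpa using h0, by simpa [hx', resAct_apply] using h1⟩
      | succ i ih =>
        refine ⟨ih.2, ?_⟩
        have h2 := hquad (M τ ^ i *ᵥ x)
        have e : ∀ m : ℕ, M τ *ᵥ (M τ ^ m *ᵥ x) = M τ ^ (m + 1) *ᵥ x := fun m => by
          rw [mulVec_mulVec, ← pow_succ']
        rw [e, e] at h2
        have h3 := congrArg (R.B d') h2
        rw [map_add, map_nsmul, map_nsmul, ih.1, smul_zero, add_zero, ih.2, smul_zero] at h3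
        exact h3
    refine hd ((zp_eq_one_iff hN.prim _).mp ((τ ^ j).injective ?_))
    have h2 : R.B d' (resAct M (τ ^ j) x) = 0 := by rw [resAct_apply, map_pow]; exact (hall j).1
    rw [← R.equivariant, map_one, ← hd', h2, zp_zero]
  have h := hN.val_sum_orbit_le hP hS.dual d hf
  simp only [hzero, zero_sub, Finset.sum_const, Finset.card_range, nsmul_eq_mul, mul_neg,
    Valuation.map_neg, map_mul, val_natCast_eq_one hP not_dvd_sq_pred, one_mul] at h
  have hf0 : f 0 = (p : Qb) / ϖ ^ (p * (p - 1)) * ((p : Qb) / ϖ ^ (p * (p - 1))) := by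
    have hF0 : ∀ {δ : Qb} {F : Vec k → Qb} {y : Vec k},
        (∀ d, zp ζ (R.B d y) - 1 = δ * F d) → δ * F 0 = 0 := fun h => by
      rw [← h 0, map_zero, AddMonoidHom.zero_apply, zp_zero, sub_self]
    show (∑ a ∈ Finset.range p, (1 + δ * F 0) ^ a) / _ *
      ((∑ a ∈ Finset.range p, (1 + δ' * F' 0) ^ a) / _) = _
    rw [hF0 hev, hF0 hev']
    simp
  rw [hf0, map_mul, map_div₀, map_pow, div_mul_div_comm, ← val_uniformizer_pow hN.pow_eq,
    ← pow_add, ← pow_add, div_le_iff₀ (pow_pos (zero_lt_iff.mpr ((Valuation.ne_zero_iff _).mpr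
      (uniformizer_ne_zero hN.pow_eq sq_pred_pos))) _), ← pow_add] at h
  refine absurd h (not_le.mpr (pow_lt_pow_right_of_lt_one₀ (zero_lt_iff.mpr
    ((Valuation.ne_zero_iff _).mpr (uniformizer_ne_zero hN.pow_eq sq_pred_pos))) ?_ ?_))
  · rw [← pow_lt_one_iff_of_nonneg zero_le (sq_pred_pos (p := p)).ne',
      val_uniformizer_pow hN.pow_eq]
    exact val_p_lt_one hP
  · rw [sq_pred_eq]
    obtain ⟨m, rfl⟩ : ∃ m, p = m + 3 := ⟨p - 3, by omega⟩
    rw [show m + 3 - 1 = m + 2 by omega]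
    ring_nf
    omega

theorem res_pow_inj {n : ℕ} (hP : P.LiesOverPrime p) (hn : ¬ p ∣ n) {z : Qb}
    (hz : IsPrimitiveRoot z n) {i j : ℕ} (h : res P z ^ i = res P z ^ j) : i ≡ j [MOD n] := by
  have hn0 : n ≠ 0 := fun h0 => hn (h0 ▸ dvd_zero p)
  have hz1 : v z ≤ 1 := ((pow_eq_one_iff_of_nonneg zero_le hn0).mp
    (by rw [← map_pow, hz.pow_eq_one, map_one])).le
  rw [← res_pow hz1, ← res_pow hz1] at h
  have h1 := res_root_injective hP hn
    (by rw [← pow_mul, mul_comm, pow_mul, hz.pow_eq_one, one_pow])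
    (by rw [← pow_mul, mul_comm, pow_mul, hz.pow_eq_one, one_pow]) h
  rw [pow_eq_pow_mod i hz.pow_eq_one, pow_eq_pow_mod j hz.pow_eq_one] at h1
  exact hz.pow_inj (Nat.mod_lt _ (Nat.pos_of_ne_zero hn0)) (Nat.mod_lt _ (Nat.pos_of_ne_zero hn0)) h1

include hN hdet hP in
/-- All exponents are one, and the residue of `z` is a root of the characteristic polynomial. -/
theorem IrrNormal.nrm_eq_and_root (hp2 : p ≠ 2)
    {H : Subalgebra (GaloisRep.ratLocalizedAt p) (Vec k → Qb)}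
    (hH : IsOrder (galR p) (resAct M) H) {x : Vec k} (hx : x ≠ 0) :
    nrm hH (algebraMap_ratLocalized_mem (P := P) hP) x = v ϖ ∧
      ∀ A B : ℕ, (A : k) = M τ 0 0 + M τ 1 1 → (B : k) = M τ 0 0 * M τ 1 1 →
        (A : ResidueField P) = res P z + res P z ^ p ∧
          (B : ResidueField P) = res P z * res P z ^ p := by
  have hpp : p.Prime := Fact.out
  have h3 : 3 ≤ p := by have := hpp.two_le; omega
  have hA := algebraMap_ratLocalized_mem (P := P) hP
  have := charP_res hP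
  obtain ⟨n, hn, hn1, hn2⟩ := exists_nrm_eq_pow hH hP hN.pow_eq sq_pred_pos not_dvd_sq_pred
    (fun σ hσ hθ => by rw [resAct_apply, hN.ker σ hσ hθ, one_mulVec])
    (by rw [← Nat.cast_smul_eq_nsmul k, CharP.cast_eq_zero, zero_smul]) hx
    (hN.nrm_lt_one hP hH x)
  rw [sq_pred_eq, mul_comm (p - 1)] at hn2
  have hn3 : n ≤ p + 1 := Nat.le_of_mul_le_mul_right hn2 (by omega)
  obtain ⟨A, B, hAk, hBk, hBz, hquad⟩ := hN.exists_charpoly hdet hP
  obtain ⟨h, hh, hhx⟩ := exists_eq_nrm hH hA x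
  have hlead := lead_ne_zero hH hP hN.pow_eq sq_pred_pos hh hn.le (hhx.trans hn)
  have hτD := inertia_le_decomposition hN.tau_mem
  have hNτ : ∀ y, nrm hH hA y = v ϖ ^ n → nrm hH hA (resAct M τ y) = v ϖ ^ n := fun y hy =>
    (nrm_act hH hA (fun b => val_map hτD b) y).trans hy
  have hNn : ∀ (m : ℕ) {y : Vec k}, nrm hH hA y = v ϖ ^ n → nrm hH hA (m • y) ≤ v ϖ ^ n :=
    fun m y hy => (nrm_nsmul_le hH hP y m).trans hy.le
  set r := res P z with hr
  set s := r ^ n with hs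
  have hθτ : res P (theta ϖ τ) = r := by rw [hN.tau_theta]
  have hsq : s ^ 2 + B = A * s := by
    have h1 := congrArg (lead P ϖ h n) (hquad x)
    rw [← resAct_apply M τ (M τ *ᵥ x), ← resAct_apply M τ x,
      lead_add hH hP hN.pow_eq sq_pred_pos hh (by omega) (hNτ _ (hNτ x hn)).le (hNn B hn),
      lead_nsmul hH hP hN.pow_eq sq_pred_pos hh (by omega) hn.le,
      lead_nsmul hH hP hN.pow_eq sq_pred_pos hh (by omega) (hNτ x hn).le,
      lead_act_inertia hH hP hN.pow_eq sq_pred_pos hh hN.tau_mem (hNτ x hn).le,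
      lead_act_inertia hH hP hN.pow_eq sq_pred_pos hh hN.tau_mem hn.le, hθτ] at h1
    refine mul_right_cancel₀ hlead ?_
    rw [hs]
    linear_combination h1
  have hfrob : ∀ m : ℕ, (m : ResidueField P) ^ p = m := fun m =>
    map_natCast (frobenius (ResidueField P) p) m
  have hsq' : (s ^ p) ^ 2 + B = A * s ^ p := by
    have h1 := congrArg (· ^ p) hsq
    simp only [add_pow_char, mul_pow, hfrob] at h1
    rw [← h1]; ring
  have hne : s ^ p ≠ s := fun hsp => by
    obtain ⟨m, hm⟩ := exists_natCast_of_pow_eq' (p := p) hsp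
    rw [← hm] at hsq
    have h1 : (((m ^ 2 + B : ℕ)) : k) = ((A * m : ℕ) : k) :=
      (CharP.natCast_eq_natCast k p).mpr
        ((CharP.natCast_eq_natCast (ResidueField P) p).mp (by push_cast; exact hsq))
    push_cast at h1
    rw [hAk, hBk] at h1
    have h2 : (M τ 0 0 - m) * (M τ 1 1 - m) = 0 := by linear_combination h1
    have hmp : (m : k) ^ p = m := map_natCast (frobenius k p) m
    rcases mul_eq_zero.mp h2 with h' | h'
    · exact hN.tau_entries.2.2 (by rw [sub_eq_zero.mp h', hmp])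
    · refine hN.tau_ne ?_
      rw [← (hN.swap τ hN.tau_mem).2, sub_eq_zero.mp h', hmp]
  have hAs : (A : ResidueField P) = s + s ^ p := by
    refine mul_right_cancel₀ (sub_ne_zero.mpr hne) ?_
    linear_combination hsq - hsq'
  have hBs : (B : ResidueField P) = s * s ^ p := by linear_combination hsq + s * hAs
  have hmod : n * (p + 1) ≡ 1 * (p + 1) [MOD (p - 1) * (p + 1)] := by
    rw [← sq_pred_eq]
    refine res_pow_inj hP not_dvd_sq_pred hN.prim_z ?_
    rw [one_mul, ← hBz, hBs, hs, ← pow_succ', ← pow_mul]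
  have hmod' : n ≡ 1 [MOD p - 1] := Nat.ModEq.mul_right_cancel' (by omega) hmod
  obtain rfl : n = 1 := by
    obtain ⟨t, ht⟩ := (Nat.modEq_iff_dvd' hn1).mp hmod'.symm
    rcases Nat.lt_trichotomy t 1 with ht1 | rfl | ht1
    · rw [show t = 0 by omega, mul_zero] at ht; omega
    · exfalso
      refine hN.nrm_ne_pow_p hdet hP hp2 hH hx ?_
      rw [hn, show n = p by omega]
    · have : (p - 1) * 2 ≤ (p - 1) * t := Nat.mul_le_mul le_rfl ht1
      omega
  refine ⟨by rw [hn, pow_one], fun A' B' hA' hB' => ?_⟩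
  rw [natCast_transfer (K := ResidueField P) (p := p) (hA'.trans hAk.symm),
    natCast_transfer (K := ResidueField P) (p := p) (hB'.trans hBk.symm), hAs, hBs, hs, pow_one]
  exact ⟨rfl, rfl⟩

end FLTAgent.LocP
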