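import Fermat.Agent.LocP.Place

/-!
# Kummer theory over a tamely ramified base inside a decomposition group

In `Tame`, `GF` is a normal subgroup of the decomposition group fixing `ϖ` and `ζ` and containing
the inertia elements fixing `ϖ`.  A homomorphism `φ : GF → ℤ/p` is given by a Kummer generator `θ`
(`Tame.IsChar.exists_kummer`); it is deep of level `m` if some `θ ^ p` is within `|ϖ| ^ m` of `1`
(`Tame.Deep`).  The moves of integral elements of its field are bounded by the level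
(`Tame.IsKummer.val_move_le`) and the top level is unramified (`Tame.Deep.inertia_eq_zero`).
-/

set_option autoImplicit false
set_option linter.unusedSectionVars false

noncomputable section

namespace FLTAgent.LocP

open scoped Pointwise

local notation "Qb" => AlgebraicClosure ℚ
local notation "GQ" => (AlgebraicClosure ℚ ≃ₐ[ℚ] AlgebraicClosure ℚ)

variable {P : ValuationSubring Qb} {p : ℕ} [Fact p.Prime]

local notation "v" => P.valuation
local notation "D" => P.decompositionSubgroup ℚ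
local notation "Ine" => P.inertiaSubgroupIn ℚ

/-- A tamely ramified base field inside a decomposition group. -/
structure Tame (P : ValuationSubring Qb) (p : ℕ) where
  /-- A root of `X ^ e + p`. -/
  ϖ : Qb
  /-- A primitive `p`-th root of unity. -/
  ζ : Qb
  /-- The ramification index. -/
  e : ℕ
  /-- The valuation of `ζ - 1`. -/
  E : ℕ
  pow_eq : ϖ ^ e = -(p : Qb)
  prim : IsPrimitiveRoot ζ p
  e_eq : e = (p - 1) * E
  E_pos : 0 < E
  not_dvd : ¬ p ∣ e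
  /-- The Galois group of the base field. -/
  GF : Subgroup GQ
  le_D : ∀ σ ∈ GF, σ ∈ P.decompositionSubgroup ℚ
  fix_ϖ : ∀ σ ∈ GF, σ ϖ = ϖ
  fix_ζ : ∀ σ ∈ GF, σ ζ = ζ
  inertia_mem : ∀ σ ∈ P.inertiaSubgroupIn ℚ, theta ϖ σ = 1 → σ ∈ GF
  conj_mem : ∀ g ∈ P.decompositionSubgroup ℚ, ∀ σ ∈ GF, g * σ * g⁻¹ ∈ GF

variable (S : Tame P p)

/-- `ζ` raised to a class modulo `p`. -/
def zp (ζ : Qb) (a : ZMod p) : Qb := ζ ^ a.val

theorem zp_zero (ζ : Qb) : zp ζ (0 : ZMod p) = 1 := by simp [zp]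

theorem zp_natCast {ζ : Qb} (hζ : IsPrimitiveRoot ζ p) (n : ℕ) : zp ζ (n : ZMod p) = ζ ^ n := by
  rw [zp, ZMod.val_natCast]
  conv_rhs => rw [← Nat.mod_add_div n p, pow_add, pow_mul, hζ.pow_eq_one, one_pow, mul_one]

theorem zp_add {ζ : Qb} (hζ : IsPrimitiveRoot ζ p) (a b : ZMod p) :
    zp ζ (a + b) = zp ζ a * zp ζ b := by
  rw [← ZMod.natCast_zmod_val a, ← ZMod.natCast_zmod_val b, ← Nat.cast_add, zp_natCast hζ,
    zp_natCast hζ, zp_natCast hζ, pow_add]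

theorem zp_eq_one_iff {ζ : Qb} (hζ : IsPrimitiveRoot ζ p) (a : ZMod p) : zp ζ a = 1 ↔ a = 0 := by
  rw [zp, hζ.pow_eq_one_iff_dvd, ← ZMod.val_eq_zero]
  exact ⟨fun h => Nat.eq_zero_of_dvd_of_lt h (ZMod.val_lt a), fun h => h ▸ dvd_zero p⟩

theorem zp_ne_zero {ζ : Qb} (hζ : IsPrimitiveRoot ζ p) (a : ZMod p) : zp ζ a ≠ 0 :=
  pow_ne_zero _ (hζ.ne_zero (Fact.out : p.Prime).ne_zero)

/-- Fixed by the Galois group of the base field. -/
def Tame.Fixed (y : Qb) : Prop := ∀ σ ∈ S.GF, σ y = y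

theorem Tame.e_pos : 0 < S.e := by
  rw [S.e_eq]
  exact Nat.mul_pos (by have := (Fact.out : p.Prime).two_le; omega) S.E_pos

theorem Tame.ϖ_ne_zero : S.ϖ ≠ 0 := uniformizer_ne_zero S.pow_eq S.e_pos

theorem Tame.pi_ne_zero : v S.ϖ ≠ 0 := (Valuation.ne_zero_iff _).mpr S.ϖ_ne_zero

theorem Tame.pi_pos : 0 < v S.ϖ := zero_lt_iff.mpr S.pi_ne_zero

theorem Tame.pi_lt_one (hP : P.LiesOverPrime p) : v S.ϖ < 1 := by
  rw [← pow_lt_one_iff_of_nonneg zero_le S.e_pos.ne', val_uniformizer_pow S.pow_eq]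
  exact val_p_lt_one hP

theorem Tame.pi_zpow_le (hP : P.LiesOverPrime p) {a b : ℤ} :
    v S.ϖ ^ a ≤ v S.ϖ ^ b ↔ b ≤ a :=
  zpow_le_zpow_iff_right_of_lt_one₀ S.pi_pos (S.pi_lt_one hP)

theorem Tame.pi_zpow_lt (hP : P.LiesOverPrime p) {a b : ℤ} :
    v S.ϖ ^ a < v S.ϖ ^ b ↔ b < a :=
  zpow_lt_zpow_iff_right_of_lt_one₀ S.pi_pos (S.pi_lt_one hP)

theorem Tame.pi_zpow_inj (hP : P.LiesOverPrime p) {a b : ℤ} (h : v S.ϖ ^ a = v S.ϖ ^ b) : a = b :=
  le_antisymm ((S.pi_zpow_le hP).mp h.ge) ((S.pi_zpow_le hP).mp h.le)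

theorem Tame.val_p : v (p : Qb) = v S.ϖ ^ (S.e : ℤ) := by
  rw [zpow_natCast, val_uniformizer_pow S.pow_eq]

theorem Tame.val_zeta (hP : P.LiesOverPrime p) : v (S.ζ - 1) = v S.ϖ ^ (S.E : ℤ) := by
  rw [zpow_natCast, val_zeta_sub_one hP S.pow_eq S.prim S.e_eq]

theorem Tame.fixed_pow_zpow (j : ℤ) : S.Fixed (S.ϖ ^ j) := fun σ hσ => by
  rw [map_zpow₀, S.fix_ϖ σ hσ]

/-- The valuation of a nonzero element of the base field is an integral power of that of `ϖ`. -/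
theorem Tame.exists_val_fixed (hP : P.LiesOverPrime p) {y : Qb} (hy : S.Fixed y) (hy0 : y ≠ 0) :
    ∃ n : ℤ, v y = v S.ϖ ^ n := by
  obtain ⟨n, hn⟩ := exists_val_pow_eq_zpow hP S.pow_eq S.e_pos S.not_dvd hy0
    fun σ hσ h => hy σ (S.inertia_mem σ hσ h)
  refine ⟨n, (pow_left_inj₀ zero_le zero_le S.e_pos.ne').mp ?_⟩
  rw [hn, S.val_p, ← zpow_natCast (v S.ϖ ^ n), ← zpow_mul, ← zpow_mul, mul_comm]

theorem Tame.fixed_le_of_lt (hP : P.LiesOverPrime p) {y : Qb} (hy : S.Fixed y) {n : ℤ}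
    (h : v y < v S.ϖ ^ n) : v y ≤ v S.ϖ ^ (n + 1) := by
  rcases eq_or_ne y 0 with rfl | hy0
  · simp
  obtain ⟨k, hk⟩ := S.exists_val_fixed hP hy hy0
  rw [hk, S.pi_zpow_lt hP] at h
  rw [hk, S.pi_zpow_le hP]
  omega

/-- A homomorphism `GF → ℤ/p` of finite level. -/
structure Tame.IsChar (φ : GQ → ZMod p) : Prop where
  map_mul : ∀ σ ∈ S.GF, ∀ τ ∈ S.GF, φ (σ * τ) = φ σ + φ τ
  exists_level : ∃ L : IntermediateField ℚ Qb, FiniteDimensional ℚ L ∧
    ∀ σ ∈ S.GF, (∀ x ∈ L, σ x = x) → φ σ = 0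

variable {S} {φ : GQ → ZMod p} (hφ : S.IsChar φ)

include hφ in
theorem Tame.IsChar.map_one : φ 1 = 0 := by
  have h := hφ.map_mul 1 (one_mem _) 1 (one_mem _)
  simp only [mul_one] at h
  exact left_eq_add.mp h

include hφ in
theorem Tame.IsChar.map_pow {σ : GQ} (hσ : σ ∈ S.GF) (n : ℕ) : φ (σ ^ n) = n * φ σ := by
  induction n with
  | zero => simp [hφ.map_one]
  | succ n ih => rw [pow_succ, hφ.map_mul _ (pow_mem hσ n) σ hσ, ih]; push_cast; ring

include hφ in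
theorem Tame.IsChar.map_inv {σ : GQ} (hσ : σ ∈ S.GF) : φ σ⁻¹ = -φ σ := by
  have h := hφ.map_mul σ⁻¹ (inv_mem hσ) σ hσ
  rw [inv_mul_cancel, hφ.map_one] at h
  exact eq_neg_of_add_eq_zero_left h.symm

include hφ in
theorem Tame.IsChar.exists_eq_one (hne : ¬ ∀ σ ∈ S.GF, φ σ = 0) :
    ∃ σ₀ ∈ S.GF, φ σ₀ = 1 := by
  push Not at hne
  obtain ⟨σ, hσ, h⟩ := hne
  refine ⟨σ ^ (φ σ)⁻¹.val, pow_mem hσ _, ?_⟩
  rw [hφ.map_pow hσ, ZMod.natCast_zmod_val, inv_mul_cancel₀ h]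

include hφ in
/-- Elements of `GF` with the same value act equally on an element fixed by the kernel. -/
theorem Tame.IsChar.apply_eq {z : Qb} (hz : ∀ σ ∈ S.GF, φ σ = 0 → σ z = z) {a b : GQ}
    (ha : a ∈ S.GF) (hb : b ∈ S.GF) (h : φ a = φ b) : a z = b z := by
  have hab : φ (b⁻¹ * a) = 0 := by
    rw [hφ.map_mul _ (inv_mem hb) _ ha, hφ.map_inv hb, h, neg_add_cancel]
  calc a z = b ((b⁻¹ * a) z) := by rw [← AlgEquiv.mul_apply, mul_inv_cancel_left]
    _ = b z := by rw [hz _ (mul_mem (inv_mem hb) ha) hab]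

/-- `θ` is a Kummer generator for `φ`. -/
def Tame.IsKummer (S : Tame P p) (φ : GQ → ZMod p) (θ : Qb) : Prop :=
  θ ≠ 0 ∧ ∀ σ ∈ S.GF, σ θ = zp S.ζ (φ σ) * θ

include hφ in
theorem Tame.IsChar.exists_moved (hne : ¬ ∀ σ ∈ S.GF, φ σ = 0) {σ₀ : GQ} (hσ₀ : σ₀ ∈ S.GF)
    (h₀ : φ σ₀ = 1) : ∃ x : Qb, (∀ σ ∈ S.GF, φ σ = 0 → σ x = x) ∧ σ₀ x ≠ x := by
  obtain ⟨L, hL, hlev⟩ := hφ.exists_level
  set L' := IntermediateField.normalClosure ℚ L Qb
  have : Normal ℚ L' := normalClosure.normal ℚ _ Qb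
  have : IsGalois ℚ L' := ⟨⟩
  let K : Subgroup GQ :=
    { carrier := {σ | σ ∈ S.GF ∧ φ σ = 0}
      one_mem' := ⟨one_mem _, hφ.map_one⟩
      mul_mem' := fun {a b} ha hb =>
        ⟨mul_mem ha.1 hb.1, by rw [hφ.map_mul a ha.1 b hb.1, ha.2, hb.2, add_zero]⟩
      inv_mem' := fun {a} ha => ⟨inv_mem ha.1, by rw [hφ.map_inv ha.1, ha.2, neg_zero]⟩ }
  set H := K.map (AlgEquiv.restrictNormalHom L')
  by_contra hcon
  push Not at hcon
  have hmem : AlgEquiv.restrictNormalHom L' σ₀ ∈ H := by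
    rw [← IntermediateField.fixingSubgroup_fixedField H, IntermediateField.mem_fixingSubgroup_iff]
    intro x hx
    refine Subtype.ext ?_
    rw [show ((AlgEquiv.restrictNormalHom L' σ₀ x : L') : Qb) = σ₀ (x : Qb) from
      AlgEquiv.restrictNormal_commutes σ₀ L' x]
    refine hcon _ fun σ hσ h0 => ?_
    have h1 := (IntermediateField.mem_fixedField_iff _ _).mp hx
      (AlgEquiv.restrictNormalHom L' σ) ⟨σ, ⟨hσ, h0⟩, rfl⟩
    exact (AlgEquiv.restrictNormal_commutes σ L' x).symm.trans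
      (congrArg (fun y : L' => (y : Qb)) h1)
  obtain ⟨k, ⟨hk, hk0⟩, hkσ⟩ := hmem
  have hfix : ∀ x ∈ L, (k⁻¹ * σ₀) x = x := fun x hx => by
    have hxL' : x ∈ L' := IntermediateField.le_normalClosure L hx
    have h1 : k x = σ₀ x := by
      have := congrArg (fun g : L' ≃ₐ[ℚ] L' => ((g ⟨x, hxL'⟩ : L') : Qb)) hkσ
      exact (AlgEquiv.restrictNormal_commutes k L' ⟨x, hxL'⟩).symm.trans
        (this.trans (AlgEquiv.restrictNormal_commutes σ₀ L' ⟨x, hxL'⟩))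
    rw [AlgEquiv.mul_apply, ← h1, ← AlgEquiv.mul_apply, inv_mul_cancel, AlgEquiv.one_apply]
  have h2 := hlev _ (mul_mem (inv_mem hk) hσ₀) hfix
  rw [hφ.map_mul _ (inv_mem hk) _ hσ₀, hφ.map_inv hk, hk0, h₀, neg_zero, zero_add] at h2
  exact one_ne_zero h2

include hφ in
/-- Hilbert 90 by a Lagrange resolvent. -/
theorem Tame.IsChar.exists_kummer : ∃ θ, S.IsKummer φ θ := by
  classical
  by_cases hzero : ∀ σ ∈ S.GF, φ σ = 0
  · exact ⟨1, one_ne_zero, fun σ hσ => by rw [hzero σ hσ, zp_zero, _root_.map_one, mul_one]⟩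
  obtain ⟨σ₀, hσ₀, h₀⟩ := hφ.exists_eq_one hzero
  obtain ⟨x, hx, hmove⟩ := hφ.exists_moved hzero hσ₀ h₀
  set s : ZMod p → Qb := fun j => (σ₀ ^ j.val) x with hs
  have hφpow : ∀ j : ZMod p, φ (σ₀ ^ j.val) = j := fun j => by
    rw [hφ.map_pow hσ₀, h₀, mul_one, ZMod.natCast_zmod_val]
  have hshift : ∀ σ ∈ S.GF, ∀ j, σ (s j) = s (j + φ σ) := fun σ hσ j => by
    rw [hs, ← AlgEquiv.mul_apply]
    refine hφ.apply_eq hx (mul_mem hσ (pow_mem hσ₀ _)) (pow_mem hσ₀ _) ?_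
    rw [hφ.map_mul _ hσ _ (pow_mem hσ₀ _), hφpow, hφpow, add_comm]
  have hinj : Function.Injective s := by
    intro i j hij
    by_contra hne
    have hd : s 0 = s (j - i) := by
      have h := congrArg (fun z => (σ₀ ^ (-i).val) z) hij
      simp only [hshift _ (pow_mem hσ₀ _), hφpow] at h
      rw [add_neg_cancel, ← sub_eq_add_neg] at h
      exact h
    have hz : (σ₀ ^ (j - i).val) x = x := by simpa [hs] using hd.symm
    refine hmove ?_
    have hm : j - i ≠ 0 := sub_ne_zero.mpr (Ne.symm hne)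
    have h1 : σ₀ x = ((σ₀ ^ (j - i).val) ^ (j - i)⁻¹.val) x := by
      refine hφ.apply_eq hx hσ₀ (pow_mem (pow_mem hσ₀ _) _) ?_
      rw [h₀, hφ.map_pow (pow_mem hσ₀ _), hφpow, ZMod.natCast_zmod_val, inv_mul_cancel₀ hm]
    rw [h1]
    generalize (j - i)⁻¹.val = n
    induction n with
    | zero => simp
    | succ n ih => rw [pow_succ, AlgEquiv.mul_apply, hz, ih]
  -- some resolvent is nonzero
  obtain ⟨l, hl⟩ : ∃ l : ℕ, ∑ j : ZMod p, zp S.ζ (-j) * s j ^ l ≠ 0 := by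
    by_contra hcon
    push Not at hcon
    let eqv : Fin p ≃ ZMod p := (ZMod.finEquiv p).toEquiv
    have h : (fun i => zp S.ζ (-(eqv i))) = 0 :=
      Matrix.eq_zero_of_forall_pow_sum_mul_pow_eq_zero (hinj.comp eqv.injective) fun i => by
        rw [← hcon (i : ℕ)]
        exact Fintype.sum_equiv eqv _ _ fun j => rfl
    exact zp_ne_zero S.prim _ (congrFun h 0)
  refine ⟨_, hl, fun σ hσ => ?_⟩
  rw [map_sum, Finset.mul_sum]
  refine Fintype.sum_equiv (Equiv.addRight (φ σ)) _ _ fun j => ?_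
  rw [_root_.map_mul, _root_.map_pow, hshift σ hσ, Equiv.coe_addRight, ← mul_assoc, ← zp_add S.prim]
  congr 1
  · rw [zp, _root_.map_pow, S.fix_ζ σ hσ]
    congr 2
    ring

/-! ### Basic operations on Kummer generators -/

variable {θ θ' : Qb}

theorem Tame.IsKummer.fixed_pow (h : S.IsKummer φ θ) : S.Fixed (θ ^ p) := fun σ hσ => by
  rw [_root_.map_pow, h.2 σ hσ, mul_pow, zp, ← pow_mul, mul_comm (ZMod.val _), pow_mul,
    S.prim.pow_eq_one, one_pow, one_mul]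

theorem Tame.IsKummer.mul_fixed (h : S.IsKummer φ θ) {f : Qb} (hf : S.Fixed f) (hf0 : f ≠ 0) :
    S.IsKummer φ (θ * f) :=
  ⟨mul_ne_zero h.1 hf0, fun σ hσ => by rw [_root_.map_mul, h.2 σ hσ, hf σ hσ, mul_assoc]⟩

theorem Tame.IsKummer.fixed_div (h : S.IsKummer φ θ) (h' : S.IsKummer φ θ') :
    S.Fixed (θ' / θ) := fun σ hσ => by
  rw [map_div₀, h.2 σ hσ, h'.2 σ hσ, mul_div_mul_left _ _ (zp_ne_zero S.prim _)]

theorem Tame.IsKummer.mul {φ' : GQ → ZMod p} (h : S.IsKummer φ θ) (h' : S.IsKummer φ' θ') :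
    S.IsKummer (φ + φ') (θ * θ') :=
  ⟨mul_ne_zero h.1 h'.1, fun σ hσ => by
    rw [_root_.map_mul, h.2 σ hσ, h'.2 σ hσ, Pi.add_apply, zp_add S.prim]; ring⟩

/-- The Kummer generator of a conjugate character. -/
theorem Tame.IsKummer.conj (h : S.IsKummer φ θ) {g : GQ} (hg : g ∈ D) {a : ℕ}
    (ha : g S.ζ = S.ζ ^ a) :
    S.IsKummer (fun σ => (a : ZMod p) * φ (g⁻¹ * σ * g)) (g θ) := by
  refine ⟨by simpa using h.1, fun σ hσ => ?_⟩
  have hmem : g⁻¹ * σ * g ∈ S.GF := by simpa using S.conj_mem g⁻¹ (inv_mem hg) σ hσ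
  calc σ (g θ) = g ((g⁻¹ * σ * g) θ) := by
        rw [← AlgEquiv.mul_apply, ← AlgEquiv.mul_apply, mul_assoc, mul_inv_cancel_left]
    _ = g (zp S.ζ (φ (g⁻¹ * σ * g)) * θ) := by rw [h.2 _ hmem]
    _ = zp S.ζ ((a : ZMod p) * φ (g⁻¹ * σ * g)) * g θ := by
        rw [_root_.map_mul, zp, _root_.map_pow, ha, ← pow_mul]
        congr 1
        rw [← zp_natCast S.prim, Nat.cast_mul, ZMod.natCast_zmod_val]

/-- `φ` has a Kummer generator whose `p`-th power is within `|ϖ| ^ m` of `1`. -/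
def Tame.Deep (S : Tame P p) (φ : GQ → ZMod p) (m : ℤ) : Prop :=
  ∃ θ, S.IsKummer φ θ ∧ v (θ ^ p - 1) ≤ v S.ϖ ^ m

theorem val_eq_one_of_sub_lt {x : Qb} (h : v (x - 1) < 1) : v x = 1 := by
  have h1 : v (1 : Qb) = 1 := _root_.map_one _
  have := Valuation.map_add_eq_of_lt_right v (x := x - 1) (y := 1) (by rw [h1]; exact h)
  rwa [sub_add_cancel, h1] at this

/-- The first order expansion of a `p`-th power near `1`. -/
theorem val_one_add_pow_sub_le {w : Qb} (hw : v w ≤ 1) :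
    v ((1 + w) ^ p - 1 - w ^ p) ≤ v (p : Qb) * v w := by
  have hpp : p.Prime := Fact.out
  rw [show (1 + w) ^ p - 1 - w ^ p = ∑ i ∈ Finset.Ico 1 p, w ^ i * (p.choose i : Qb) by
    rw [add_comm 1 w, add_pow, Finset.sum_range_succ, Finset.range_eq_Ico,
      Finset.sum_eq_sum_Ico_succ_bot hpp.pos]
    simp
    ring]
  refine Valuation.map_sum_le _ fun i hi => ?_
  rw [Finset.mem_Ico] at hi
  obtain ⟨c, hc⟩ := hpp.dvd_choose_self (by omega : i ≠ 0) hi.2
  rw [hc, Nat.cast_mul, map_mul, map_mul, _root_.map_pow, mul_comm]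
  refine mul_le_mul' (mul_le_of_le_one_right' ((P.valuation_le_one_iff _).mpr (natCast_mem P c))) ?_
  calc v w ^ i ≤ v w ^ 1 := pow_le_pow_right_of_le_one' hw hi.1
    _ = v w := pow_one _

theorem Tame.val_root_le (S : Tame P p) (hP : P.LiesOverPrime p) {w : Qb} {m : ℤ}
    (hm : 0 < m) (h : v ((1 + w) ^ p - 1) ≤ v S.ϖ ^ m) (hmtop : m ≤ p * S.E) :
    v w ^ p ≤ v S.ϖ ^ m := by
  have hpp : p.Prime := Fact.out
  have h1 : v ((1 + w) ^ p - 1) < 1 := h.trans_lt (by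
    rw [← zpow_zero (v S.ϖ), S.pi_zpow_lt hP]; exact hm)
  have hw : v w ≤ 1 := by
    have hv := val_eq_one_of_sub_lt h1
    rw [_root_.map_pow, pow_eq_one_iff_of_nonneg zero_le hpp.ne_zero] at hv
    calc v w = v ((1 + w) - 1) := by rw [add_sub_cancel_left]
      _ ≤ max (v (1 + w)) (v 1) := Valuation.map_sub _ _ _
      _ = 1 := by rw [hv, _root_.map_one, max_self]
  by_contra hcon
  push Not at hcon
  -- the term `w ^ p` dominates
  have hdom : v ((1 + w) ^ p - 1 - w ^ p) < v (w ^ p) := by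
    refine (val_one_add_pow_sub_le hw).trans_lt ?_
    have hw0 : v w ≠ 0 := fun h0 => by
      rw [h0, zero_pow hpp.ne_zero] at hcon
      exact not_lt_zero hcon
    rw [_root_.map_pow]
    calc v (p : Qb) * v w < v w ^ (p - 1) * v w := by
          refine mul_lt_mul_of_pos_right ?_ (zero_lt_iff.mpr hw0)
          rw [← pow_lt_pow_iff_left₀ zero_le zero_le hpp.ne_zero, ← pow_mul, mul_comm, pow_mul]
          refine lt_of_le_of_lt ?_ (pow_lt_pow_left₀ hcon zero_le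
            (show p - 1 ≠ 0 by have := hpp.two_le; omega))
          rw [S.val_p, ← zpow_natCast, ← zpow_mul, ← zpow_natCast (v S.ϖ ^ m), ← zpow_mul,
            S.pi_zpow_le hP, S.e_eq]
          push_cast
          calc m * ((p - 1 : ℕ) : ℤ) ≤ (p * S.E : ℤ) * ((p - 1 : ℕ) : ℤ) :=
                mul_le_mul_of_nonneg_right hmtop (by omega)
            _ = ((p - 1 : ℕ) : ℤ) * S.E * p := by ring
      _ = v w ^ p := by rw [← pow_succ, Nat.sub_add_cancel hpp.pos]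
  have h2 : v ((1 + w) ^ p - 1) = v (w ^ p) := by
    have := Valuation.map_add_eq_of_lt_right v hdom
    rwa [sub_add_cancel] at this
  rw [h2, _root_.map_pow] at h
  exact absurd h (not_le.mpr hcon)

/-- An expansion with coefficients in the base field. -/
theorem Tame.IsKummer.exists_expansion (hφ : S.IsChar φ) (hθ : S.IsKummer φ θ) {σ₀ : GQ}
    (hσ₀ : σ₀ ∈ S.GF) (h₀ : φ σ₀ = 1) {z : Qb}
    (hz : ∀ σ ∈ S.GF, φ σ = 0 → σ z = z) (a : Qb) (ha : S.Fixed a) :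
    ∃ c : Fin p → Qb, (∀ i, S.Fixed (c i)) ∧ z = ∑ i : Fin p, c i * (θ - a) ^ (i : ℕ) := by
  have hpp : p.Prime := Fact.out
  have hp0 : (p : Qb) ≠ 0 := Nat.cast_ne_zero.mpr hpp.ne_zero
  set s : ZMod p → Qb := fun j => (σ₀ ^ j.val) z with hs
  have hφpow : ∀ j : ZMod p, φ (σ₀ ^ j.val) = j := fun j => by
    rw [hφ.map_pow hσ₀, h₀, mul_one, ZMod.natCast_zmod_val]
  have hshift : ∀ σ ∈ S.GF, ∀ j, σ (s j) = s (j + φ σ) := fun σ hσ j => by
    rw [hs, ← AlgEquiv.mul_apply]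
    refine hφ.apply_eq hz (mul_mem hσ (pow_mem hσ₀ _)) (pow_mem hσ₀ _) ?_
    rw [hφ.map_mul _ hσ _ (pow_mem hσ₀ _), hφpow, hφpow, add_comm]
  set b : ℕ → Qb := fun i =>
    (∑ j : ZMod p, zp S.ζ (-((i : ZMod p) * j)) * s j) / ((p : Qb) * θ ^ i) with hb
  have hbfix : ∀ i, S.Fixed (b i) := by
    intro i σ hσ
    rw [hb, map_div₀, map_sum, _root_.map_mul, map_natCast, _root_.map_pow, hθ.2 σ hσ,
      div_eq_div_iff (mul_ne_zero hp0 (pow_ne_zero _ (mul_ne_zero (zp_ne_zero S.prim _) hθ.1)))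
        (mul_ne_zero hp0 (pow_ne_zero _ hθ.1))]
    rw [Finset.sum_mul, Finset.sum_mul]
    refine Fintype.sum_equiv (Equiv.addRight (φ σ)) _ _ fun j => ?_
    rw [_root_.map_mul, hshift σ hσ, zp, _root_.map_pow, S.fix_ζ σ hσ, Equiv.coe_addRight, mul_pow]
    have hz : zp S.ζ (φ σ) ^ i = zp S.ζ ((i : ZMod p) * φ σ) := by
      rw [zp, ← pow_mul, ← zp_natCast S.prim, Nat.cast_mul, ZMod.natCast_zmod_val, mul_comm]
    rw [hz]
    have : zp S.ζ (-((i : ZMod p) * j)) =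
        zp S.ζ (-((i : ZMod p) * (j + φ σ))) * zp S.ζ ((i : ZMod p) * φ σ) := by
      rw [← zp_add S.prim]; ring_nf
    change zp S.ζ (-((i : ZMod p) * j)) * _ * _ = _
    rw [this]
    ring
  have hsum : z = ∑ i ∈ Finset.range p, b i * θ ^ i := by
    have h1 : ∀ i, b i * θ ^ i = (∑ j : ZMod p, zp S.ζ (-((i : ZMod p) * j)) * s j) / p := fun i => by
      simp only [hb]
      rw [div_mul_eq_div_div, div_mul_cancel₀ _ (pow_ne_zero _ hθ.1)]
    simp only [h1, ← Finset.sum_div]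
    rw [Finset.sum_comm, eq_div_iff hp0]
    simp only [← Finset.sum_mul]
    rw [Finset.sum_eq_single (0 : ZMod p)]
    · simp [hs, zp_zero, mul_comm]
    · intro j _ hj
      refine mul_eq_zero_of_left ?_ _
      have hprim : IsPrimitiveRoot (zp S.ζ (-j)) p := by
        rw [zp]
        refine S.prim.pow_of_coprime _ ((hpp.coprime_iff_not_dvd.mpr fun hd => ?_).symm)
        exact hj (neg_eq_zero.mp ((ZMod.val_eq_zero _).mp
          (Nat.eq_zero_of_dvd_of_lt hd (ZMod.val_lt _))))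
      rw [← hprim.geom_sum_eq_zero hpp.one_lt]
      refine Finset.sum_congr rfl fun i _ => ?_
      rw [zp, zp, ← pow_mul, ← zp_natCast S.prim, ← zp_natCast S.prim]
      congr 1
      rw [ZMod.natCast_zmod_val, Nat.cast_mul, ZMod.natCast_zmod_val]
      ring
    · simp
  refine ⟨fun i => ∑ l ∈ Finset.range p, b l * (l.choose i : Qb) * a ^ (l - (i : ℕ)),
    fun i σ hσ => ?_, ?_⟩
  · simp only [map_sum, _root_.map_mul, map_natCast, _root_.map_pow, hbfix _ σ hσ, ha σ hσ]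
  · conv_lhs => rw [hsum]
    rw [show (∑ i : Fin p, (∑ l ∈ Finset.range p, b l * (l.choose i : Qb) * a ^ (l - (i : ℕ))) *
        (θ - a) ^ (i : ℕ)) = ∑ i ∈ Finset.range p, (∑ l ∈ Finset.range p,
        b l * (l.choose i : Qb) * a ^ (l - i)) * (θ - a) ^ i from
      Fin.sum_univ_eq_sum_range (fun i => (∑ l ∈ Finset.range p,
        b l * (l.choose i : Qb) * a ^ (l - i)) * (θ - a) ^ i) p]
    simp only [Finset.sum_mul]
    rw [Finset.sum_comm]
    refine Finset.sum_congr rfl fun l hl => ?_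
    rw [Finset.mem_range] at hl
    conv_lhs => rw [show θ = (θ - a) + a by ring, add_pow, Finset.mul_sum]
    rw [Finset.sum_subset (s₁ := Finset.range (l + 1)) (s₂ := Finset.range p)
      (fun i hi => by rw [Finset.mem_range] at *; omega) (fun i _ hi => by
        rw [Finset.mem_range, not_lt] at hi
        rw [Nat.choose_eq_zero_of_lt (by omega)]; simp)]
    exact Finset.sum_congr rfl fun i _ => by ring

/-- The bound on the moves of integral elements of a Kummer extension with generator `θ`, where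
`w = θ - a` has valuation with exponent `m / p`, `p ∤ m`. -/
theorem Tame.IsKummer.val_move_le (hP : P.LiesOverPrime p) (hφ : S.IsChar φ)
    (hθ : S.IsKummer φ θ) {a : Qb} (ha : S.Fixed a) {m : ℤ} (hm : ¬ (p : ℤ) ∣ m)
    (hw : v (θ - a) ^ p = v S.ϖ ^ m) {z : Qb} (hz : ∀ σ ∈ S.GF, φ σ = 0 → σ z = z)
    (hz1 : v z ≤ 1) {σ : GQ} (hσ : σ ∈ S.GF) :
    v (σ z - z) ^ p ≤ v S.ϖ ^ (1 + p * S.E - m) * v θ ^ p := by
  classical
  have hpp : p.Prime := Fact.out
  by_cases hzero : ∀ τ ∈ S.GF, φ τ = 0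
  · rw [hz σ hσ (hzero σ hσ), sub_self, _root_.map_zero, zero_pow hpp.ne_zero]
    exact zero_le
  obtain ⟨σ₀, hσ₀, h₀⟩ := hφ.exists_eq_one hzero
  obtain ⟨c, hc, hexp⟩ := hθ.exists_expansion hφ hσ₀ h₀ hz a ha
  set w := θ - a with hwdef
  have hw0 : v w ≠ 0 := fun h => by
    rw [h, zero_pow hpp.ne_zero] at hw
    exact zpow_ne_zero m S.pi_ne_zero hw.symm
  -- the terms have distinct valuations
  have hterm : ∀ i : Fin p, c i ≠ 0 → ∃ n : ℤ, v (c i * w ^ (i : ℕ)) ^ p = v S.ϖ ^ n ∧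
      (p : ℤ) ∣ n - (i : ℕ) * m := by
    intro i hi
    obtain ⟨n, hn⟩ := S.exists_val_fixed hP (hc i) hi
    refine ⟨p * n + (i : ℕ) * m, ?_, ⟨n, by ring⟩⟩
    rw [_root_.map_mul, _root_.map_pow, mul_pow, ← pow_mul, mul_comm (i : ℕ), pow_mul, hw, hn,
      ← zpow_natCast, ← zpow_mul, ← zpow_natCast (v S.ϖ ^ m), ← zpow_mul, ← zpow_add₀ S.pi_ne_zero]
    congr 1
    ring
  have hne : ∀ i j : Fin p, i ≠ j → c i ≠ 0 → c j ≠ 0 →
      v (c i * w ^ (i : ℕ)) ≠ v (c j * w ^ (j : ℕ)) := by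
    intro i j hij hi hj heq
    obtain ⟨n, hn, hn'⟩ := hterm i hi
    obtain ⟨n', hn2, hn2'⟩ := hterm j hj
    rw [heq, hn2] at hn
    obtain rfl := S.pi_zpow_inj hP hn
    have h1 : (p : ℤ) ∣ ((i : ℕ) - (j : ℕ) : ℤ) * m := by
      have := dvd_sub hn2' hn'
      ring_nf at this ⊢
      exact this
    rcases (Nat.prime_iff_prime_int.mp hpp).dvd_or_dvd h1 with h2 | h2
    · refine hij (Fin.ext (Int.natCast_inj.mp ?_))
      have hi2 := i.2
      have hj2 := j.2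
      have := Int.eq_zero_of_abs_lt_dvd h2 (by rw [abs_lt]; omega)
      omega
    · exact hm h2
  have hle : ∀ i, v (c i * w ^ (i : ℕ)) ≤ 1 := by
    intro i
    obtain ⟨j, -, hj⟩ := Finset.exists_max_image Finset.univ
      (fun i : Fin p => v (c i * w ^ (i : ℕ))) ⟨i, Finset.mem_univ i⟩
    refine (hj i (Finset.mem_univ i)).trans ?_
    rcases eq_or_ne (c j) 0 with hj0 | hj0
    · simp [hj0]
    have key := Valuation.map_sum_eq_of_lt v (f := fun i : Fin p => c i * w ^ (i : ℕ))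
      (Finset.mem_univ j) ?_
    · rw [← hexp] at key
      exact key.symm.le.trans hz1
    intro l hl
    rw [Finset.mem_sdiff, Finset.mem_singleton] at hl
    refine lt_of_le_of_ne (hj l hl.1) ?_
    rcases eq_or_ne (c l) 0 with hl0 | hl0
    · rw [hl0, zero_mul, _root_.map_zero]
      exact ((Valuation.ne_zero_iff _).mpr
        (mul_ne_zero hj0 (pow_ne_zero _ ((Valuation.ne_zero_iff v).mp hw0)))).symm
    · exact hne l j hl.2 hl0 hj0
  have hle' : ∀ i : Fin p, 1 ≤ (i : ℕ) → v (c i * w ^ (i : ℕ)) ^ p ≤ v S.ϖ ^ (1 : ℤ) := by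
    intro i hi
    rcases eq_or_ne (c i) 0 with h0 | h0
    · simp [h0, zero_pow hpp.ne_zero]
    obtain ⟨n, hn, hdvd⟩ := hterm i h0
    rw [hn, S.pi_zpow_le hP]
    have h1 : 0 ≤ n := (S.pi_zpow_le hP).mp (by
      rw [zpow_zero, ← hn]; exact pow_le_one' (hle i) _)
    rcases h1.lt_or_eq with h2 | h2
    · omega
    · exfalso
      rw [← h2, zero_sub, dvd_neg] at hdvd
      rcases (Nat.prime_iff_prime_int.mp hpp).dvd_or_dvd hdvd with h3 | h3
      · have := Nat.le_of_dvd (by omega) (Int.natCast_dvd_natCast.mp h3)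
        have := i.2
        omega
      · exact hm h3
  -- the moves of `w`
  have hσw : σ w - w = (zp S.ζ (φ σ) - 1) * θ := by
    rw [hwdef, map_sub, hθ.2 σ hσ, ha σ hσ]; ring
  have hzp : v (zp S.ζ (φ σ) - 1) ≤ v (S.ζ - 1) := by
    by_cases h : φ σ = 0
    · simp [h, zp_zero]
    · rw [zp, val_pow_sub_one S.prim fun hd => h ((ZMod.val_eq_zero _).mp
        (Nat.eq_zero_of_dvd_of_lt hd (ZMod.val_lt _)))]
  have hvw : v (σ w) = v w := val_map (S.le_D σ hσ) w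
  obtain ⟨hbound⟩ : Nonempty (v (σ z - z) * v w ≤
      (Finset.univ.filter fun i : Fin p => 1 ≤ (i : ℕ)).sup
        (fun i => v (c i * w ^ (i : ℕ))) * (v (S.ζ - 1) * v θ)) := by
    refine ⟨?_⟩
    rw [← _root_.map_mul]
    conv_lhs => rw [hexp, map_sum, ← Finset.sum_sub_distrib, Finset.sum_mul]
    refine Valuation.map_sum_le _ fun i _ => ?_
    rw [_root_.map_mul σ, hc i σ hσ, ← mul_sub, _root_.map_pow σ, _root_.map_mul]
    rcases Nat.eq_zero_or_pos (i : ℕ) with h0 | h0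
    · simp [h0]
    refine le_trans ?_ (mul_le_mul' (Finset.le_sup (f := fun i : Fin p => v (c i * w ^ (i : ℕ))) (Finset.mem_filter.mpr
      ⟨Finset.mem_univ i, h0⟩)) le_rfl)
    rw [← geom_sum₂_mul, hσw]
    simp only [_root_.map_mul, _root_.map_pow]
    rw [← mul_assoc (v (c i))]
    calc v (c i) * v (∑ l ∈ Finset.range (i : ℕ), σ w ^ l * w ^ ((i : ℕ) - 1 - l)) *
          (v (zp S.ζ (φ σ) - 1) * v θ) * v w
        ≤ v (c i) * v w ^ ((i : ℕ) - 1) * (v (S.ζ - 1) * v θ) * v w := by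
          gcongr
          refine Valuation.map_sum_le _ fun l hl => le_of_eq ?_
          rw [Finset.mem_range] at hl
          rw [_root_.map_mul, _root_.map_pow, _root_.map_pow, hvw, ← pow_add]
          congr 1
          omega
      _ = v (c i) * v w ^ (i : ℕ) * (v (S.ζ - 1) * v θ) := by
          conv_rhs => rw [← Nat.sub_add_cancel h0, pow_succ]
          ac_rfl
  have hsup : (Finset.univ.filter fun i : Fin p => 1 ≤ (i : ℕ)).sup
      (fun i => v (c i * w ^ (i : ℕ))) ^ p ≤ v S.ϖ ^ (1 : ℤ) := by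
    rcases (Finset.univ.filter fun i : Fin p => 1 ≤ (i : ℕ)).eq_empty_or_nonempty with he | he
    · rw [he, Finset.sup_empty, show (⊥ : P.ValueGroup) = 0 from le_antisymm bot_le zero_le,
        zero_pow hpp.ne_zero]
      exact zero_le
    · obtain ⟨i, hi, hsi⟩ := Finset.exists_mem_eq_sup _ he fun i => v (c i * w ^ (i : ℕ))
      rw [hsi]
      exact hle' i (Finset.mem_filter.mp hi).2
  have h := pow_le_pow_left₀ zero_le hbound p
  rw [mul_pow, mul_pow, mul_pow, hw, S.val_zeta hP] at h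
  rw [← le_div_iff₀ (zpow_pos S.pi_pos m)] at h
  refine h.trans ?_
  rw [div_le_iff₀ (zpow_pos S.pi_pos m)]
  calc _ ≤ v S.ϖ ^ (1 : ℤ) * ((v S.ϖ ^ (S.E : ℤ)) ^ p * v θ ^ p) := mul_le_mul' hsup le_rfl
    _ = v S.ϖ ^ (1 + p * S.E - m) * v θ ^ p * v S.ϖ ^ m := by
      rw [← zpow_natCast (v S.ϖ ^ (S.E : ℤ)), ← zpow_mul, ← mul_assoc, ← zpow_add₀ S.pi_ne_zero,
        mul_right_comm, ← zpow_add₀ S.pi_ne_zero]
      congr 2
      ring

/-- At the top level inertia is killed. -/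
theorem Tame.Deep.inertia_eq_zero (hP : P.LiesOverPrime p) (h : S.Deep φ (p * S.E)) {σ : GQ}
    (hσ : σ ∈ S.GF) (hI : σ ∈ Ine) : φ σ = 0 := by
  obtain ⟨θ, hθ, hu⟩ := h
  have hpp : p.Prime := Fact.out
  by_contra hne
  have hw : v ((θ - 1) / (S.ζ - 1)) ≤ 1 := by
    have hpos : (0 : ℤ) < p * S.E := by have := S.E_pos; have := hpp.pos; positivity
    have h1 := S.val_root_le hP (w := θ - 1) hpos (by rw [add_sub_cancel]; exact hu) le_rfl
    rw [map_div₀, div_le_one₀ (by rw [S.val_zeta hP]; exact zpow_pos S.pi_pos _)]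
    refine (pow_le_pow_iff_left₀ zero_le zero_le hpp.ne_zero).mp (h1.trans (le_of_eq ?_))
    rw [S.val_zeta hP, ← zpow_natCast (v S.ϖ ^ (S.E : ℤ)), ← zpow_mul, mul_comm]
  have h2 := val_map_sub_lt hI hw
  rw [map_div₀ σ, map_sub σ, map_sub σ, _root_.map_one σ, S.fix_ζ σ hσ, hθ.2 σ hσ, ← sub_div,
    show zp S.ζ (φ σ) * θ - 1 - (θ - 1) = (zp S.ζ (φ σ) - 1) * θ by ring, map_div₀,
    _root_.map_mul, zp, val_pow_sub_one S.prim fun hd => hne ((ZMod.val_eq_zero _).mp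
      (Nat.eq_zero_of_dvd_of_lt hd (ZMod.val_lt _))),
    mul_div_cancel_left₀ _ (by rw [S.val_zeta hP]; exact zpow_ne_zero _ S.pi_ne_zero)] at h2
  have h3 : v θ ^ p = 1 := by
    rw [← _root_.map_pow]
    refine val_eq_one_of_sub_lt (hu.trans_lt ?_)
    rw [← zpow_zero (v S.ϖ), S.pi_zpow_lt hP]
    have := S.E_pos; have := hpp.pos; positivity
  rw [(pow_eq_one_iff_of_nonneg zero_le hpp.ne_zero).mp h3] at h2
  exact lt_irrefl _ h2

end FLTAgent.LocP
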