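import Fermat.Agent.LocP.Kummer

/-!
# Levels of Kummer characters and their leading coefficients

A far move of an integral element makes a class deep (`Tame.deep_of_move`).  At a level `m` prime
to `p` a deep class has a leading coefficient in the residue field (`Tame.coef`), additive and
semilinear under conjugation (`Tame.coef_add`, `Tame.coef_conj`); where it vanishes, or `p ∣ m`,
the level can be climbed.  `Tame.valClass` is the class of the valuation of a radical.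
-/

set_option autoImplicit false
set_option linter.unusedSectionVars false

noncomputable section

namespace FLTAgent.LocP

open IsLocalRing
open scoped Pointwise

local notation "Qb" => AlgebraicClosure ℚ
local notation "GQ" => (AlgebraicClosure ℚ ≃ₐ[ℚ] AlgebraicClosure ℚ)

variable {P : ValuationSubring Qb} {p : ℕ} [Fact p.Prime]

local notation "v" => P.valuation
local notation "D" => P.decompositionSubgroup ℚ
local notation "Ine" => P.inertiaSubgroupIn ℚ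

variable {S : Tame P p} {φ φ' : GQ → ZMod p} {θ : Qb}

theorem Tame.IsKummer.congr (h : S.IsKummer φ θ) (heq : ∀ σ ∈ S.GF, φ σ = φ' σ) :
    S.IsKummer φ' θ :=
  ⟨h.1, fun σ hσ => by rw [← heq σ hσ]; exact h.2 σ hσ⟩

theorem Tame.Deep.congr {m : ℤ} (h : S.Deep φ m) (heq : ∀ σ ∈ S.GF, φ σ = φ' σ) :
    S.Deep φ' m :=
  h.imp fun _ hθ => ⟨hθ.1.congr heq, hθ.2⟩

theorem Tame.Deep.mono (hP : P.LiesOverPrime p) {m n : ℤ} (h : S.Deep φ m) (hn : n ≤ m) :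
    S.Deep φ n :=
  h.imp fun _ hθ => ⟨hθ.1, hθ.2.trans ((S.pi_zpow_le hP).mpr hn)⟩

theorem Tame.IsKummer.exists_val (hP : P.LiesOverPrime p) (hθ : S.IsKummer φ θ) :
    ∃ n : ℤ, v θ ^ p = v S.ϖ ^ n := by
  obtain ⟨n, hn⟩ := S.exists_val_fixed hP hθ.fixed_pow (pow_ne_zero _ hθ.1)
  exact ⟨n, by rw [← _root_.map_pow, hn]⟩

theorem Tame.fixed_sub {x y : Qb} (hx : S.Fixed x) (hy : S.Fixed y) : S.Fixed (x - y) :=
  fun σ hσ => by rw [map_sub, hx σ hσ, hy σ hσ]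

theorem Tame.fixed_one : S.Fixed 1 := fun σ _ => _root_.map_one σ

/-- A `p`-th root modulo the maximal ideal, inside the base field. -/
theorem Tame.exists_fixed_pow_res (hP : P.LiesOverPrime p) {c : Qb} (hc : S.Fixed c)
    (hc1 : v c = 1) : ∃ s, S.Fixed s ∧ v s = 1 ∧ v (s ^ p - c) < 1 := by
  obtain ⟨n, hn, hcn⟩ := exists_pow_card_eq_self hP (res P c)
  refine ⟨c ^ p ^ (n - 1), fun σ hσ => by rw [_root_.map_pow, hc σ hσ],
    by rw [_root_.map_pow, hc1, one_pow], ?_⟩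
  rw [← pow_mul, ← pow_succ, Nat.sub_add_cancel hn,
    ← res_eq_iff (by rw [_root_.map_pow, hc1, one_pow]) hc1.le, res_pow hc1.le, hcn]

/-- Either the valuation of a generator is a proper fraction, or the class is deep of level one. -/
theorem Tame.IsKummer.deep_one_of_dvd (hP : P.LiesOverPrime p) (hθ : S.IsKummer φ θ) {n : ℤ}
    (hn : v θ ^ p = v S.ϖ ^ n) (hdvd : (p : ℤ) ∣ n) : S.Deep φ 1 := by
  have hpp : p.Prime := Fact.out
  obtain ⟨k, rfl⟩ := hdvd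
  set θ₁ := θ * S.ϖ ^ (-k) with hθ₁
  have h₁ : S.IsKummer φ θ₁ := hθ.mul_fixed (S.fixed_pow_zpow _) (zpow_ne_zero _ S.ϖ_ne_zero)
  have hv : v (θ₁ ^ p) = 1 := by
    rw [hθ₁, mul_pow, _root_.map_mul, _root_.map_pow, _root_.map_pow, map_zpow₀, hn,
      ← zpow_natCast (v S.ϖ ^ (-k)), ← zpow_mul, ← zpow_add₀ S.pi_ne_zero]
    rw [show (p : ℤ) * k + -k * p = 0 by ring, zpow_zero]
  obtain ⟨s, hs, hs1, hsc⟩ := S.exists_fixed_pow_res hP h₁.fixed_pow hv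
  have hs0 : s ≠ 0 := (Valuation.ne_zero_iff v).mp (by rw [hs1]; exact one_ne_zero)
  refine ⟨θ₁ * s⁻¹, h₁.mul_fixed (fun σ hσ => by rw [map_inv₀, hs σ hσ]) (inv_ne_zero hs0), ?_⟩
  rw [show (1 : ℤ) = 0 + 1 by norm_num]
  refine S.fixed_le_of_lt hP (Tame.fixed_sub ?_ Tame.fixed_one) ?_
  · exact (h₁.mul_fixed (fun σ hσ => by rw [map_inv₀, hs σ hσ]) (inv_ne_zero hs0)).fixed_pow
  · rw [zpow_zero, mul_pow, inv_pow,
      show θ₁ ^ p * (s ^ p)⁻¹ - 1 = -((s ^ p - θ₁ ^ p) / s ^ p) by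
        have := pow_ne_zero p hs0
        field_simp; ring,
      Valuation.map_neg, map_div₀, _root_.map_pow v s, hs1, one_pow, div_one]
    exact hsc

/-- Exact levels give exact roots. -/
theorem Tame.val_root_eq (S : Tame P p) (hP : P.LiesOverPrime p) {w : Qb} {m : ℤ} (hm : 0 < m)
    (hmtop : m < p * S.E) (h : v ((1 + w) ^ p - 1) = v S.ϖ ^ m) : v w ^ p = v S.ϖ ^ m := by
  have hpp : p.Prime := Fact.out
  refine le_antisymm (S.val_root_le hP hm h.le hmtop.le) (not_lt.mp fun hlt => ?_)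
  have hw : v w ≤ 1 := by
    refine (pow_le_one_iff_of_nonneg zero_le hpp.ne_zero).mp (hlt.le.trans ?_)
    rw [← zpow_zero (v S.ϖ), S.pi_zpow_le hP]
    exact hm.le
  have h1 : v (p : Qb) * v w < v S.ϖ ^ m := by
    rw [← pow_lt_pow_iff_left₀ zero_le zero_le hpp.ne_zero, mul_pow]
    refine lt_of_le_of_lt (mul_le_mul' le_rfl hlt.le) ?_
    rw [S.val_p, ← zpow_natCast, ← zpow_mul, ← zpow_natCast (v S.ϖ ^ m), ← zpow_mul,
      ← zpow_add₀ S.pi_ne_zero, S.pi_zpow_lt hP, S.e_eq]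
    have h2 : m * ((p - 1 : ℕ) : ℤ) < p * S.E * ((p - 1 : ℕ) : ℤ) :=
      mul_lt_mul_of_pos_right hmtop (by have := hpp.two_le; omega)
    push_cast [Nat.cast_sub hpp.one_lt.le] at h2 ⊢
    nlinarith
  have h2 : v ((1 + w) ^ p - 1) < v S.ϖ ^ m := by
    rw [show (1 + w) ^ p - 1 = ((1 + w) ^ p - 1 - w ^ p) + w ^ p by ring]
    exact (Valuation.map_add _ _ _).trans_lt
      (max_lt ((val_one_add_pow_sub_le hw).trans_lt h1) (by rw [_root_.map_pow]; exact hlt))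
  exact h2.ne h

/-- Levels divisible by `p` can be climbed. -/
theorem Tame.Deep.succ_of_dvd (hP : P.LiesOverPrime p) {m : ℤ} (h : S.Deep φ m) (hm : 0 < m)
    (hmtop : m < p * S.E) (hdvd : (p : ℤ) ∣ m) : S.Deep φ (m + 1) := by
  have hpp : p.Prime := Fact.out
  obtain ⟨θ, hθ, hu⟩ := h
  have hfix := Tame.fixed_sub hθ.fixed_pow (Tame.fixed_one (S := S))
  rcases hu.lt_or_eq with hlt | heq
  · exact ⟨θ, hθ, S.fixed_le_of_lt hP hfix hlt⟩
  obtain ⟨k, rfl⟩ := hdvd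
  have hk : 0 < k := pos_of_mul_pos_right hm (Int.natCast_nonneg p)
  have hkE : k < S.E := by nlinarith
  set c := (θ ^ p - 1) / S.ϖ ^ ((p : ℤ) * k) with hc
  have hπm : S.ϖ ^ ((p : ℤ) * k) ≠ 0 := zpow_ne_zero _ S.ϖ_ne_zero
  have hcfix : S.Fixed c := fun σ hσ => by
    rw [hc, map_div₀, hfix σ hσ, map_zpow₀, S.fix_ϖ σ hσ]
  have hc1 : v c = 1 := by
    rw [hc, map_div₀, map_zpow₀, heq, div_self (zpow_ne_zero _ S.pi_ne_zero)]
  obtain ⟨s, hs, hs1, hsc⟩ := S.exists_fixed_pow_res hP hcfix hc1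
  set f := 1 + (-(s * S.ϖ ^ k)) with hf
  have hw : v (-(s * S.ϖ ^ k)) = v S.ϖ ^ k := by
    rw [Valuation.map_neg, _root_.map_mul, hs1, one_mul, map_zpow₀]
  have hw1 : v (-(s * S.ϖ ^ k)) < 1 := by
    rw [hw, ← zpow_zero (v S.ϖ), S.pi_zpow_lt hP]; exact hk
  have hfix_f : S.Fixed f := fun σ hσ => by
    rw [hf, map_add, _root_.map_one, map_neg, _root_.map_mul, hs σ hσ, S.fixed_pow_zpow k σ hσ]
  have hf0 : f ≠ 0 := by
    intro h0
    have := Valuation.map_add_eq_of_lt_left v (x := (1 : Qb)) (y := -(s * S.ϖ ^ k))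
      (by rw [_root_.map_one]; exact hw1)
    rw [← hf, h0, _root_.map_zero, _root_.map_one] at this
    exact zero_ne_one this
  refine ⟨θ * f, hθ.mul_fixed hfix_f hf0,
    S.fixed_le_of_lt hP (Tame.fixed_sub (hθ.mul_fixed hfix_f hf0).fixed_pow Tame.fixed_one) ?_⟩
  -- `f ^ p = 1 - s ^ p ϖ ^ m + O(p ϖ ^ k)`
  have hfp : v (f ^ p - 1 - (-(s * S.ϖ ^ k)) ^ p) < v S.ϖ ^ ((p : ℤ) * k) := by
    refine (val_one_add_pow_sub_le hw1.le).trans_lt ?_
    rw [hw, S.val_p, ← zpow_add₀ S.pi_ne_zero, S.pi_zpow_lt hP, S.e_eq]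
    push_cast [Nat.cast_sub hpp.one_lt.le]
    have : (2 : ℤ) ≤ p := by exact_mod_cast hpp.two_le
    nlinarith
  have hpow : (-(s * S.ϖ ^ k)) ^ p = -(s ^ p * S.ϖ ^ ((p : ℤ) * k)) ∨ p = 2 := by
    rcases hpp.eq_two_or_odd' with h2 | h2
    · exact Or.inr h2
    · left
      rw [h2.neg_pow, mul_pow, ← zpow_natCast (S.ϖ ^ k), ← zpow_mul, mul_comm k]
  have hmain : v ((θ ^ p - 1) + (-(s * S.ϖ ^ k)) ^ p) < v S.ϖ ^ ((p : ℤ) * k) := by
    rcases hpow with hpow | h2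
    · rw [hpow, ← sub_eq_add_neg,
        show θ ^ p - 1 - s ^ p * S.ϖ ^ ((p : ℤ) * k) = (c - s ^ p) * S.ϖ ^ ((p : ℤ) * k) by
          rw [hc, sub_mul, div_mul_cancel₀ _ hπm],
        _root_.map_mul, map_zpow₀, Valuation.map_sub_swap]
      exact mul_lt_of_lt_one_left (zpow_pos S.pi_pos _) hsc
    · subst h2
      -- in characteristic two signs do not matter
      rw [neg_sq, mul_pow, ← zpow_natCast (S.ϖ ^ k), ← zpow_mul, mul_comm k,
        show θ ^ 2 - 1 + s ^ 2 * S.ϖ ^ (((2 : ℕ) : ℤ) * k) =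
          (c - s ^ 2 + (2 : Qb) * s ^ 2) * S.ϖ ^ (((2 : ℕ) : ℤ) * k) by
          rw [hc]; field_simp; ring,
        _root_.map_mul, map_zpow₀]
      refine mul_lt_of_lt_one_left (zpow_pos S.pi_pos _) ((Valuation.map_add _ _ _).trans_lt
        (max_lt (by rw [Valuation.map_sub_swap]; exact hsc) ?_))
      rw [_root_.map_mul, _root_.map_pow, hs1, one_pow, mul_one]
      exact val_p_lt_one hP
  rw [mul_pow, show θ ^ p * f ^ p - 1 =
    ((θ ^ p - 1) + (-(s * S.ϖ ^ k)) ^ p) + (f ^ p - 1 - (-(s * S.ϖ ^ k)) ^ p) +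
      (θ ^ p - 1) * (f ^ p - 1) by ring]
  refine (Valuation.map_add _ _ _).trans_lt (max_lt ((Valuation.map_add _ _ _).trans_lt
    (max_lt hmain hfp)) ?_)
  rw [_root_.map_mul, heq]
  refine mul_lt_of_lt_one_right (zpow_pos S.pi_pos _) ?_
  rw [show f ^ p - 1 = (f ^ p - 1 - (-(s * S.ϖ ^ k)) ^ p) + (-(s * S.ϖ ^ k)) ^ p by ring]
  refine (Valuation.map_add _ _ _).trans_lt (max_lt (hfp.trans_le ?_) ?_)
  · rw [← zpow_zero (v S.ϖ), S.pi_zpow_le hP]; exact hm.le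
  · rw [_root_.map_pow]; exact pow_lt_one₀ zero_le hw1 hpp.ne_zero

/-- A far move of an integral element of the Kummer extension makes the class deep. -/
theorem Tame.deep_of_move (hP : P.LiesOverPrime p) (hφ : S.IsChar φ) {z : Qb}
    (hz : ∀ σ ∈ S.GF, φ σ = 0 → σ z = z) (hz1 : v z ≤ 1) {σ : GQ} (hσ : σ ∈ S.GF) {B : ℤ}
    (hB : B ≤ 1 + p * S.E) (hmove : v S.ϖ ^ B < v (σ z - z) ^ p) :
    ∀ n : ℕ, (n : ℤ) ≤ p * S.E → (n : ℤ) ≤ 2 + p * S.E - B → 1 ≤ n → S.Deep φ n := by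
  have hpp : p.Prime := Fact.out
  obtain ⟨θ, hθ⟩ := hφ.exists_kummer
  obtain ⟨j, hj⟩ := hθ.exists_val hP
  have hone : S.Deep φ 1 := by
    by_cases hdvd : (p : ℤ) ∣ j
    · exact hθ.deep_one_of_dvd hP hj hdvd
    exfalso
    have h := hθ.val_move_le hP hφ (a := 0) (fun σ _ => _root_.map_zero σ) hdvd
      (by rw [sub_zero]; exact hj) hz hz1 hσ
    rw [hj, ← zpow_add₀ S.pi_ne_zero] at h
    have := (S.pi_zpow_lt hP).mp (hmove.trans_le h)
    omega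
  intro n hn1 hn2 hn3
  induction n, hn3 using Nat.le_induction with
  | base => exact hone
  | succ m hm ih =>
    push_cast at hn1 hn2 ⊢
    have hd := ih (by omega) (by omega)
    by_cases hdvd : (p : ℤ) ∣ (m : ℤ)
    · exact hd.succ_of_dvd hP (by omega) (by omega) hdvd
    obtain ⟨θ', hθ', hu⟩ := hd
    rcases hu.lt_or_eq with hlt | heq
    · exact ⟨θ', hθ', S.fixed_le_of_lt hP (Tame.fixed_sub hθ'.fixed_pow Tame.fixed_one) hlt⟩
    exfalso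
    have hw := S.val_root_eq hP (w := θ' - 1) (m := (m : ℤ)) (by omega) (by omega)
      (by rw [add_sub_cancel]; exact heq)
    have h := hθ'.val_move_le hP hφ Tame.fixed_one hdvd hw hz hz1 hσ
    have hv : v θ' ^ p = 1 := by
      rw [← _root_.map_pow]
      refine val_eq_one_of_sub_lt (heq.trans_lt ?_)
      rw [← zpow_zero (v S.ϖ), S.pi_zpow_lt hP]; omega
    rw [hv, mul_one] at h
    have := (S.pi_zpow_lt hP).mp (hmove.trans_le h)
    omega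

/-! ### The leading coefficient -/

open Classical in
/-- The coefficient at level `m` of a class which is deep of level `m`. -/
def Tame.coef (S : Tame P p) (φ : GQ → ZMod p) (m : ℕ) : ResidueField P :=
  if h : S.Deep φ m then res P ((h.choose ^ p - 1) / S.ϖ ^ m) else 0

theorem Tame.val_div_pow_le {y : Qb} {m : ℕ} (hy : v y ≤ v S.ϖ ^ (m : ℤ)) :
    v (y / S.ϖ ^ m) ≤ 1 := by
  rw [map_div₀, _root_.map_pow, div_le_one₀ (pow_pos S.pi_pos _), ← zpow_natCast]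
  exact hy

theorem Tame.coef_eq (hP : P.LiesOverPrime p) {m : ℕ} (hm : 0 < m) (hmtop : (m : ℤ) < p * S.E)
    (hndvd : ¬ p ∣ m) (hθ : S.IsKummer φ θ) (hu : v (θ ^ p - 1) ≤ v S.ϖ ^ (m : ℤ)) :
    S.coef φ m = res P ((θ ^ p - 1) / S.ϖ ^ m) := by
  have hpp : p.Prime := Fact.out
  have h : S.Deep φ m := ⟨θ, hθ, hu⟩
  rw [Tame.coef, dif_pos h]
  set θ' := h.choose
  obtain ⟨hθ', hu'⟩ := h.choose_spec
  rw [res_eq_iff (Tame.val_div_pow_le hu') (Tame.val_div_pow_le hu), ← sub_div, map_div₀,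
    _root_.map_pow, ← zpow_natCast (v S.ϖ), div_lt_one₀ (zpow_pos S.pi_pos _), sub_sub_sub_cancel_right]
  have hle : v (θ' ^ p - θ ^ p) ≤ v S.ϖ ^ (m : ℤ) := by
    rw [← sub_sub_sub_cancel_right _ _ (1 : Qb)]
    exact (Valuation.map_sub _ _ _).trans (max_le hu' hu)
  refine lt_of_le_of_ne hle fun heq => ?_
  have hv : v (θ ^ p) = 1 := val_eq_one_of_sub_lt (hu.trans_lt (by
    rw [← zpow_zero (v S.ϖ), S.pi_zpow_lt hP]; omega))
  have hθ0 := pow_ne_zero p hθ.1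
  have hf : v ((1 + (θ' / θ - 1)) ^ p - 1) = v S.ϖ ^ (m : ℤ) := by
    rw [add_sub_cancel, div_pow, div_sub_one hθ0, map_div₀, heq, hv, div_one]
  have hroot := S.val_root_eq hP (by omega) hmtop hf
  have hf0 : θ' / θ - 1 ≠ 0 := fun h0 => by
    rw [h0, _root_.map_zero, zero_pow hpp.ne_zero] at hroot
    exact zpow_ne_zero _ S.pi_ne_zero hroot.symm
  obtain ⟨k, hk⟩ := S.exists_val_fixed hP
    (Tame.fixed_sub (hθ.fixed_div hθ') Tame.fixed_one) hf0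
  rw [hk, ← zpow_natCast, ← zpow_mul] at hroot
  exact hndvd (Int.natCast_dvd_natCast.mp ⟨k, by rw [← S.pi_zpow_inj hP hroot, mul_comm]⟩)

theorem Tame.Deep.succ_of_coef_eq_zero (hP : P.LiesOverPrime p) {m : ℕ} (h : S.Deep φ m)
    (h0 : S.coef φ m = 0) : S.Deep φ ((m : ℤ) + 1) := by
  rw [Tame.coef, dif_pos h] at h0
  obtain ⟨hθ, hu⟩ := h.choose_spec
  rw [res_eq_zero_iff (Tame.val_div_pow_le hu), map_div₀, _root_.map_pow,
    div_lt_one₀ (pow_pos S.pi_pos _), ← zpow_natCast (v S.ϖ)] at h0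
  exact ⟨_, hθ, S.fixed_le_of_lt hP (Tame.fixed_sub hθ.fixed_pow Tame.fixed_one) h0⟩

theorem Tame.coef_congr {m : ℕ} (hP : P.LiesOverPrime p) (hm : 0 < m)
    (hmtop : (m : ℤ) < p * S.E) (hndvd : ¬ p ∣ m) (h : S.Deep φ m)
    (heq : ∀ σ ∈ S.GF, φ σ = φ' σ) : S.coef φ' m = S.coef φ m := by
  obtain ⟨θ, hθ, hu⟩ := h
  rw [Tame.coef_eq hP hm hmtop hndvd hθ hu, Tame.coef_eq hP hm hmtop hndvd (hθ.congr heq) hu]

theorem Tame.IsKummer.deep_mul (hP : P.LiesOverPrime p) {θ' : Qb} {m : ℕ} (hθ : S.IsKummer φ θ)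
    (hu : v (θ ^ p - 1) ≤ v S.ϖ ^ (m : ℤ)) (hθ' : S.IsKummer φ' θ')
    (hu' : v (θ' ^ p - 1) ≤ v S.ϖ ^ (m : ℤ)) :
    v ((θ * θ') ^ p - 1) ≤ v S.ϖ ^ (m : ℤ) := by
  rw [mul_pow, show θ ^ p * θ' ^ p - 1 =
    (θ ^ p - 1) + (θ' ^ p - 1) + (θ ^ p - 1) * (θ' ^ p - 1) by ring]
  refine (Valuation.map_add _ _ _).trans (max_le ((Valuation.map_add _ _ _).trans
    (max_le hu hu')) ?_)
  rw [_root_.map_mul]
  refine (mul_le_of_le_one_right' (hu'.trans ?_)).trans hu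
  rw [← zpow_zero (v S.ϖ), S.pi_zpow_le hP]
  omega

theorem Tame.Deep.add (hP : P.LiesOverPrime p) {m : ℕ} (h : S.Deep φ m) (h' : S.Deep φ' m) :
    S.Deep (φ + φ') m := by
  obtain ⟨θ, hθ, hu⟩ := h
  obtain ⟨θ', hθ', hu'⟩ := h'
  exact ⟨θ * θ', hθ.mul hθ', hθ.deep_mul hP hu hθ' hu'⟩

theorem Tame.coef_add (hP : P.LiesOverPrime p) {m : ℕ} (hm : 0 < m)
    (hmtop : (m : ℤ) < p * S.E) (hndvd : ¬ p ∣ m) (h : S.Deep φ m) (h' : S.Deep φ' m) :
    S.coef (φ + φ') m = S.coef φ m + S.coef φ' m := by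
  obtain ⟨θ, hθ, hu⟩ := h
  obtain ⟨θ', hθ', hu'⟩ := h'
  have hmul := hθ.deep_mul hP hu hθ' hu'
  rw [Tame.coef_eq hP hm hmtop hndvd hθ hu, Tame.coef_eq hP hm hmtop hndvd hθ' hu',
    Tame.coef_eq hP hm hmtop hndvd (hθ.mul hθ') hmul,
    ← res_add (Tame.val_div_pow_le hu) (Tame.val_div_pow_le hu'),
    res_eq_iff (Tame.val_div_pow_le hmul) ((Valuation.map_add _ _ _).trans
      (max_le (Tame.val_div_pow_le hu) (Tame.val_div_pow_le hu'))), ← add_div, ← sub_div,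
    show (θ * θ') ^ p - 1 - (θ ^ p - 1 + (θ' ^ p - 1)) = (θ ^ p - 1) * (θ' ^ p - 1) by
      rw [mul_pow]; ring, map_div₀, _root_.map_mul, _root_.map_pow v S.ϖ,
    div_lt_one₀ (pow_pos S.pi_pos _), ← zpow_natCast (v S.ϖ)]
  refine (mul_le_mul' hu hu').trans_lt ?_
  rw [← zpow_add₀ S.pi_ne_zero, S.pi_zpow_lt hP]
  omega

/-- The coefficient of a conjugate character. -/
theorem Tame.coef_conj (hP : P.LiesOverPrime p) {m : ℕ} (hm : 0 < m)
    (hmtop : (m : ℤ) < p * S.E) (hndvd : ¬ p ∣ m) (h : S.Deep φ m) {g : GQ} (hg : g ∈ D) {a : ℕ}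
    (ha : g S.ζ = S.ζ ^ a) (hφ' : ∀ σ ∈ S.GF, φ' σ = (a : ZMod p) * φ (g⁻¹ * σ * g)) :
    S.Deep φ' m ∧ S.coef φ' m =
      ((⟨g, hg⟩ : P.decompositionSubgroup ℚ) • S.coef φ m) * res P (theta S.ϖ g) ^ m := by
  obtain ⟨θ, hθ, hu⟩ := h
  have hθ' : S.IsKummer φ' (g θ) := (hθ.conj hg ha).congr fun σ hσ => (hφ' σ hσ).symm
  have hg1 : g θ ^ p - 1 = g (θ ^ p - 1) := by rw [map_sub, _root_.map_pow, _root_.map_one]
  have hu' : v (g θ ^ p - 1) ≤ v S.ϖ ^ (m : ℤ) := by rw [hg1, val_map hg]; exact hu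
  refine ⟨⟨g θ, hθ', hu'⟩, ?_⟩
  rw [Tame.coef_eq hP hm hmtop hndvd hθ' hu', Tame.coef_eq hP hm hmtop hndvd hθ hu,
    ← res_map hg (Tame.val_div_pow_le hu)]
  have hθg : v (theta S.ϖ g) ≤ 1 := by rw [theta, map_div₀, val_map hg, div_self S.pi_ne_zero]
  rw [← res_pow hθg, ← res_mul (by rw [val_map hg]; exact Tame.val_div_pow_le hu)
    (by rw [_root_.map_pow]; exact pow_le_one' hθg _)]
  congr 1
  have h0 := pow_ne_zero m S.ϖ_ne_zero
  have hg0 : g (S.ϖ ^ m) ≠ 0 := by simpa using h0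
  rw [hg1, theta, div_pow, ← _root_.map_pow, map_div₀]
  field_simp

/-! ### The class of the valuation -/

open Classical in
/-- The class modulo `p` of the valuation of a Kummer radical. -/
def Tame.valClass (S : Tame P p) (φ : GQ → ZMod p) : ZMod p :=
  if h : ∃ (θ : Qb) (n : ℤ), S.IsKummer φ θ ∧ v θ ^ p = v S.ϖ ^ n then
    (h.choose_spec.choose : ZMod p) else 0

theorem Tame.valClass_eq (hP : P.LiesOverPrime p) {n : ℤ} (hθ : S.IsKummer φ θ)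
    (hn : v θ ^ p = v S.ϖ ^ n) : S.valClass φ = (n : ZMod p) := by
  have h : ∃ (θ : Qb) (n : ℤ), S.IsKummer φ θ ∧ v θ ^ p = v S.ϖ ^ n := ⟨θ, n, hθ, hn⟩
  rw [Tame.valClass, dif_pos h]
  set θ' := h.choose
  set n' := h.choose_spec.choose
  obtain ⟨hθ', hn'⟩ := h.choose_spec.choose_spec
  obtain ⟨k, hk⟩ := S.exists_val_fixed hP (hθ.fixed_div hθ') (div_ne_zero hθ'.1 hθ.1)
  rw [map_div₀] at hk
  have h1 := congrArg (· ^ p) hk
  simp only [div_pow] at h1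
  rw [hn, hn', ← zpow_sub₀ S.pi_ne_zero, ← zpow_natCast (v S.ϖ ^ k), ← zpow_mul] at h1
  rw [ZMod.intCast_eq_intCast_iff_dvd_sub]
  have := S.pi_zpow_inj hP h1
  exact ⟨-k, by linarith⟩

theorem Tame.valClass_congr (hP : P.LiesOverPrime p) (hφ : S.IsChar φ)
    (heq : ∀ σ ∈ S.GF, φ σ = φ' σ) : S.valClass φ' = S.valClass φ := by
  obtain ⟨θ, hθ⟩ := hφ.exists_kummer
  obtain ⟨n, hn⟩ := hθ.exists_val hP
  rw [Tame.valClass_eq hP hθ hn, Tame.valClass_eq hP (hθ.congr heq) hn]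

theorem Tame.valClass_add (hP : P.LiesOverPrime p) (hφ : S.IsChar φ) (hφ' : S.IsChar φ') :
    S.valClass (φ + φ') = S.valClass φ + S.valClass φ' := by
  obtain ⟨θ, hθ⟩ := hφ.exists_kummer
  obtain ⟨n, hn⟩ := hθ.exists_val hP
  obtain ⟨θ', hθ'⟩ := hφ'.exists_kummer
  obtain ⟨n', hn'⟩ := hθ'.exists_val hP
  have h : v (θ * θ') ^ p = v S.ϖ ^ (n + n') := by
    rw [_root_.map_mul, mul_pow, hn, hn', zpow_add₀ S.pi_ne_zero]
  rw [Tame.valClass_eq hP hθ hn, Tame.valClass_eq hP hθ' hn', Tame.valClass_eq hP (hθ.mul hθ') h]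
  push_cast
  rfl

theorem Tame.valClass_conj (hP : P.LiesOverPrime p) (hφ : S.IsChar φ) {g : GQ} (hg : g ∈ D)
    {a : ℕ} (ha : g S.ζ = S.ζ ^ a)
    (hφ' : ∀ σ ∈ S.GF, φ' σ = (a : ZMod p) * φ (g⁻¹ * σ * g)) :
    S.valClass φ' = S.valClass φ := by
  obtain ⟨θ, hθ⟩ := hφ.exists_kummer
  obtain ⟨n, hn⟩ := hθ.exists_val hP
  rw [Tame.valClass_eq hP hθ hn, Tame.valClass_eq hP
    ((hθ.conj hg ha).congr fun σ hσ => (hφ' σ hσ).symm) (n := n) (by rw [val_map hg, hn])]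

theorem Tame.deep_one_of_valClass_eq_zero (hP : P.LiesOverPrime p) (hφ : S.IsChar φ)
    (h0 : S.valClass φ = 0) : S.Deep φ 1 := by
  obtain ⟨θ, hθ⟩ := hφ.exists_kummer
  obtain ⟨n, hn⟩ := hθ.exists_val hP
  rw [Tame.valClass_eq hP hθ hn] at h0
  exact hθ.deep_one_of_dvd hP hn ((ZMod.intCast_zmod_eq_zero_iff_dvd n p).mp h0)

end FLTAgent.LocP
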