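import Fermat.Agent.FlatHopf.Ops
import Fermat.Agent.FlatHopf.Dual

/-!
# The valuative norm on the points of an order

For an order `H ⊆ (G → K)` and a valuation subring `A` of `K` containing the scalars, `nrm x` is the
largest `|h x - h 0|`.  It is a translation invariant ultrametric norm on `G`, bounded by `1`
(`nrm_add_le`, `nrm_le_one`), second differences are bounded by products of norms
(`val_second_diff_le`), and small `p`-torsion points have norm at least `|p| ^ (1/(p-1))`
(`valuation_le_nrm_pow`).
-/

set_option autoImplicit false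
set_option linter.unusedSectionVars false

noncomputable section

namespace FLTAgent.LocP

open FLTAgent.FlatHopf

variable {R : Type} [CommRing R] [IsDomain R] [IsPrincipalIdealRing R] {K : Type} [Field K]
  [Algebra R K] [FaithfulSMul R K] {Γ : Type} [Group Γ] {φ : Γ →* (K ≃ₐ[R] K)}
  {G : Type} [AddCommGroup G] [Finite G] {act : Γ →* AddMonoid.End G}
  {H : Subalgebra R (G → K)} {A : ValuationSubring K}

/-- Orders take integral values. -/
theorem order_apply_mem (hH : IsOrder φ act H) (hA : ∀ r : R, algebraMap R K r ∈ A)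
    {a : G → K} (ha : a ∈ H) (g : G) : a g ∈ A := by
  have := hH.finite
  have hint : IsIntegral R (a g) :=
    (IsIntegral.of_finite R (⟨a, ha⟩ : H)).map ((Pi.evalAlgHom R (fun _ : G => K) g).comp H.val)
  let : Algebra R A := ((algebraMap R K).codRestrict A.toSubring hA).toAlgebra
  have : IsScalarTower R A K := IsScalarTower.of_algebraMap_eq fun _ => rfl
  obtain ⟨y, hy⟩ := IsIntegrallyClosed.isIntegral_iff.mp (hint.tower_top (A := A))
  exact hy ▸ y.2

theorem val_order_apply_le (hH : IsOrder φ act H) (hA : ∀ r : R, algebraMap R K r ∈ A)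
    {a : G → K} (ha : a ∈ H) (g : G) : A.valuation (a g) ≤ 1 :=
  (A.valuation_le_one_iff _).mpr (order_apply_mem hH hA ha g)

theorem exists_greatest_diff (hH : IsOrder φ act H) (hA : ∀ r : R, algebraMap R K r ∈ A) (x : G) :
    ∃ r : A.ValueGroup, (∃ a ∈ H, A.valuation (a x - a 0) = r) ∧
      ∀ a ∈ H, A.valuation (a x - a 0) ≤ r := by
  classical
  obtain ⟨s, hs⟩ := hH.fg
  set f : (G → K) → A.ValueGroup := fun a => A.valuation (a x - a 0) with hf
  obtain ⟨m, hm, hmax⟩ := Finset.exists_max_image (insert (0 : G → K) s) f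
    (Finset.insert_nonempty _ _)
  have hmem : ∀ a ∈ insert (0 : G → K) s, a ∈ H := by
    intro a ha
    rcases Finset.mem_insert.mp ha with rfl | ha
    · exact zero_mem H
    · rw [← Subalgebra.mem_toSubmodule, ← hs]
      exact Submodule.subset_span ha
  refine ⟨f m, ⟨m, hmem m hm, rfl⟩, fun a ha => ?_⟩
  rw [← Subalgebra.mem_toSubmodule, ← hs] at ha
  induction ha using Submodule.span_induction with
  | mem a ha => exact hmax a (Finset.mem_insert_of_mem ha)
  | zero => simp
  | add a b _ _ iha ihb =>
    show A.valuation (a x + b x - (a 0 + b 0)) ≤ _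
    rw [add_sub_add_comm]
    exact (Valuation.map_add _ _ _).trans (max_le iha ihb)
  | smul r a _ iha =>
    show A.valuation (r • a x - r • a 0) ≤ _
    rw [← smul_sub, Algebra.smul_def, map_mul]
    exact (mul_le_of_le_one_left' ((A.valuation_le_one_iff _).mpr (hA r))).trans iha

/-- The norm of a point. -/
def nrm (hH : IsOrder φ act H) (hA : ∀ r : R, algebraMap R K r ∈ A) (x : G) : A.ValueGroup :=
  (exists_greatest_diff hH hA x).choose

variable (hH : IsOrder φ act H) (hA : ∀ r : R, algebraMap R K r ∈ A)

include hH hA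

theorem exists_eq_nrm (x : G) : ∃ a ∈ H, A.valuation (a x - a 0) = nrm hH hA x :=
  (exists_greatest_diff hH hA x).choose_spec.1

theorem val_diff_le_nrm (x : G) {a : G → K} (ha : a ∈ H) :
    A.valuation (a x - a 0) ≤ nrm hH hA x :=
  (exists_greatest_diff hH hA x).choose_spec.2 a ha

/-- Translations contract no more than the norm. -/
theorem val_translate_le (g x : G) {a : G → K} (ha : a ∈ H) :
    A.valuation (a (g + x) - a g) ≤ nrm hH hA x := by
  have key : ∀ f ∈ prodSpan (Subalgebra.toSubmodule H) (Subalgebra.toSubmodule H),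
      A.valuation (f (g, x) - f (g, 0)) ≤ nrm hH hA x := by
    intro f hf
    induction hf using Submodule.span_induction with
    | mem f hf =>
      obtain ⟨b, hb, c, hc, rfl⟩ := hf
      show A.valuation (b g * c x - b g * c 0) ≤ _
      rw [← mul_sub, map_mul]
      exact (mul_le_of_le_one_left' (val_order_apply_le hH hA hb g)).trans
        (val_diff_le_nrm hH hA x hc)
    | zero => simp
    | add f f' _ _ ih ih' =>
      show A.valuation (f (g, x) + f' (g, x) - (f (g, 0) + f' (g, 0))) ≤ _
      rw [add_sub_add_comm]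
      exact (Valuation.map_add _ _ _).trans (max_le ih ih')
    | smul r f _ ih =>
      show A.valuation (r • f (g, x) - r • f (g, 0)) ≤ _
      rw [← smul_sub, Algebra.smul_def, map_mul]
      exact (mul_le_of_le_one_left' ((A.valuation_le_one_iff _).mpr (hA r))).trans ih
  simpa using key _ (hH.comul a ha)

/-- Some function moves by exactly the norm, at any base point. -/
theorem exists_translate_eq (g x : G) :
    ∃ a ∈ H, A.valuation (a (g + x) - a g) = nrm hH hA x := by
  rcases eq_or_ne (nrm hH hA x) 0 with h0 | h0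
  · exact ⟨0, zero_mem H, by simp [h0]⟩
  by_contra hne
  push Not at hne
  have hlt : ∀ a ∈ H, A.valuation (a (g + x) - a g) < nrm hH hA x := fun a ha =>
    lt_of_le_of_ne (val_translate_le hH hA g x ha) (hne a ha)
  have key : ∀ f ∈ prodSpan (Subalgebra.toSubmodule H) (Subalgebra.toSubmodule H),
      A.valuation (f (-g, g + x) - f (-g, g)) < nrm hH hA x := by
    intro f hf
    induction hf using Submodule.span_induction with
    | mem f hf =>
      obtain ⟨b, hb, c, hc, rfl⟩ := hf
      show A.valuation (b (-g) * c (g + x) - b (-g) * c g) < _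
      rw [← mul_sub, map_mul]
      exact lt_of_le_of_lt (mul_le_of_le_one_left' (val_order_apply_le hH hA hb (-g))) (hlt c hc)
    | zero => simpa using zero_lt_iff.mpr h0
    | add f f' _ _ ih ih' =>
      show A.valuation (f (-g, g + x) + f' (-g, g + x) - (f (-g, g) + f' (-g, g))) < _
      rw [add_sub_add_comm]
      exact lt_of_le_of_lt (Valuation.map_add _ _ _) (max_lt ih ih')
    | smul r f _ ih =>
      show A.valuation (r • f (-g, g + x) - r • f (-g, g)) < _
      rw [← smul_sub, Algebra.smul_def, map_mul]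
      exact lt_of_le_of_lt (mul_le_of_le_one_left' ((A.valuation_le_one_iff _).mpr (hA r))) ih
  obtain ⟨a, ha, hax⟩ := exists_eq_nrm hH hA x
  have := key _ (hH.comul a ha)
  simp only [neg_add_cancel_left, neg_add_cancel] at this
  exact this.ne hax

theorem nrm_le_one (x : G) : nrm hH hA x ≤ 1 := by
  obtain ⟨a, ha, hax⟩ := exists_eq_nrm hH hA x
  rw [← hax]
  exact (Valuation.map_sub _ _ _).trans
    (max_le (val_order_apply_le hH hA ha x) (val_order_apply_le hH hA ha 0))

theorem nrm_eq_zero_iff {x : G} : nrm hH hA x = 0 ↔ x = 0 := by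
  refine ⟨fun h => hH.separates fun a ha => ?_, fun h => ?_⟩
  · have := le_antisymm ((val_diff_le_nrm hH hA x ha).trans h.le) zero_le
    rwa [map_eq_zero, sub_eq_zero] at this
  · obtain ⟨a, -, hax⟩ := exists_eq_nrm hH hA x
    rw [← hax, h, sub_self, map_zero]

theorem nrm_zero : nrm hH hA (0 : G) = 0 := (nrm_eq_zero_iff hH hA).mpr rfl

theorem nrm_add_le (x y : G) : nrm hH hA (x + y) ≤ max (nrm hH hA x) (nrm hH hA y) := by
  obtain ⟨a, ha, hax⟩ := exists_eq_nrm hH hA (x + y)
  rw [← hax, show a (x + y) - a 0 = (a (x + y) - a x) + (a x - a 0) by ring]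
  exact (Valuation.map_add _ _ _).trans (max_le ((val_translate_le hH hA x y ha).trans
    (le_max_right _ _)) ((val_diff_le_nrm hH hA x ha).trans (le_max_left _ _)))

theorem nrm_neg (x : G) : nrm hH hA (-x) = nrm hH hA x := by
  have key : ∀ x : G, nrm hH hA (-x) ≤ nrm hH hA x := fun x => by
    obtain ⟨a, ha, hax⟩ := exists_eq_nrm hH hA (-x)
    rw [← hax, Valuation.map_sub_swap]
    simpa using val_translate_le hH hA (-x) x ha
  exact le_antisymm (key x) (by simpa using key (-x))

theorem nrm_sub_le (x y : G) : nrm hH hA (x - y) ≤ max (nrm hH hA x) (nrm hH hA y) := by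
  rw [sub_eq_add_neg]
  simpa [nrm_neg] using nrm_add_le hH hA x (-y)

theorem nrm_act {σ : Γ} (hσ : ∀ b : K, A.valuation (φ σ b) = A.valuation b) (x : G) :
    nrm hH hA (act σ x) = nrm hH hA x := by
  have h1 : ∀ a ∈ H, A.valuation (a (act σ x) - a 0) = A.valuation (a x - a 0) := fun a ha => by
    conv_lhs => rw [show (0 : G) = act σ 0 from (map_zero _).symm]
    rw [hH.equivariant a ha, hH.equivariant a ha, ← map_sub, hσ]
  refine le_antisymm ?_ ?_
  · obtain ⟨a, ha, hax⟩ := exists_eq_nrm hH hA (act σ x)
    rw [← hax, h1 a ha]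
    exact val_diff_le_nrm hH hA x ha
  · obtain ⟨a, ha, hax⟩ := exists_eq_nrm hH hA x
    rw [← hax, ← h1 a ha]
    exact val_diff_le_nrm hH hA _ ha

/-- Inertia moves points inside the open unit ball. -/
theorem nrm_act_sub_lt_one {σ : Γ} (hσ : ∀ b ∈ A, A.valuation (φ σ b - b) < 1) (g : G) :
    nrm hH hA (act σ g - g) < 1 := by
  obtain ⟨a, ha, hax⟩ := exists_translate_eq hH hA g (act σ g - g)
  rw [← hax, add_sub_cancel, hH.equivariant a ha]
  exact hσ _ (order_apply_mem hH hA ha g)

/-- A fixed point has the valuation of a fixed element. -/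
theorem exists_fixed_eq_nrm (x : G) :
    ∃ b : K, A.valuation b = nrm hH hA x ∧ ∀ σ, act σ x = x → φ σ b = b := by
  obtain ⟨a, ha, hax⟩ := exists_eq_nrm hH hA x
  refine ⟨a x - a 0, hax, fun σ hσ => ?_⟩
  rw [map_sub, ← hH.equivariant a ha, ← hH.equivariant a ha, hσ, map_zero]

/-! ### Finite differences and the bound for `p`-torsion -/

/-- Integral combinations of the elements of `H`. -/
def aSpan (H : Subalgebra R (G → K)) (A : ValuationSubring K) : Submodule A (G → K) :=
  Submodule.span A (H : Set (G → K))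

theorem shift_mem_aSpan (g : G) {f : G → K} (hf : f ∈ aSpan H A) :
    (fun y => f (y + g)) ∈ aSpan H A := by
  induction hf using Submodule.span_induction with
  | mem a ha =>
    have key : ∀ F ∈ prodSpan (Subalgebra.toSubmodule H) (Subalgebra.toSubmodule H),
        (fun y => F (y, g)) ∈ aSpan H A := by
      intro F hF
      induction hF using Submodule.span_induction with
      | mem F hF =>
        obtain ⟨b, hb, c, hc, rfl⟩ := hF
        have : (fun y => b y * c g) = (⟨c g, order_apply_mem hH hA hc g⟩ : A) • b := by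
          funext y; exact mul_comm _ _
        show (fun y => b y * c g) ∈ _
        rw [this]
        exact Submodule.smul_mem _ _ (Submodule.subset_span hb)
      | zero => exact zero_mem _
      | add F F' _ _ ih ih' => exact add_mem ih ih'
      | smul r F _ ih =>
        have : (fun y => (r • F) (y, g)) = (⟨algebraMap R K r, hA r⟩ : A) • fun y => F (y, g) := by
          funext y; exact Algebra.smul_def r (F (y, g))
        rw [this]
        exact Submodule.smul_mem _ _ ih
    exact key _ (hH.comul a ha)
  | zero => exact zero_mem _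
  | add f f' _ _ ih ih' => exact add_mem ih ih'
  | smul c f _ ih => exact Submodule.smul_mem _ c ih

theorem val_aSpan_diff_le (y x : G) {f : G → K} (hf : f ∈ aSpan H A) :
    A.valuation (f (y + x) - f y) ≤ nrm hH hA x := by
  induction hf using Submodule.span_induction with
  | mem a ha => exact val_translate_le hH hA y x ha
  | zero => simp
  | add f f' _ _ ih ih' =>
    show A.valuation (f (y + x) + f' (y + x) - (f y + f' y)) ≤ _
    rw [add_sub_add_comm]
    exact (Valuation.map_add _ _ _).trans (max_le ih ih')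
  | smul c f _ ih =>
    show A.valuation ((c : K) * f (y + x) - (c : K) * f y) ≤ _
    rw [← mul_sub, map_mul]
    exact (mul_le_of_le_one_left' ((A.valuation_le_one_iff _).mpr c.2)).trans ih

theorem val_aSpan_apply_le {f : G → K} (hf : f ∈ aSpan H A) (y : G) :
    A.valuation (f y) ≤ 1 := by
  induction hf using Submodule.span_induction with
  | mem a ha => exact val_order_apply_le hH hA ha y
  | zero => simp
  | add f f' _ _ ih ih' => exact (Valuation.map_add _ _ _).trans (max_le ih ih')
  | smul c f _ ih =>
    show A.valuation ((c : K) * f y) ≤ _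
    rw [map_mul]
    exact (mul_le_of_le_one_left' ((A.valuation_le_one_iff _).mpr c.2)).trans ih

/-- A translation difference is the difference of a witness of the norm times an integral
function. -/
theorem exists_shift_sub_eq_mul (x : G) {a₀ : G → K} (hax : A.valuation (a₀ x - a₀ 0) = nrm hH hA x)
    {F : G → K} (hF : F ∈ aSpan H A) :
    ∃ F' ∈ aSpan H A, (fun y => F (y + x) - F y) = fun y => (a₀ x - a₀ 0) * F' y := by
  classical
  set δ : K := a₀ x - a₀ 0 with hδ
  rcases eq_or_ne δ 0 with h0 | h0
  · have hx : x = 0 := (nrm_eq_zero_iff hH hA).mp (by rw [← hax, h0, map_zero])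
    exact ⟨0, zero_mem _, by funext y; simp [hx]⟩
  induction hF using Submodule.span_induction with
  | mem a ha =>
    have key : ∀ Φ ∈ prodSpan (Subalgebra.toSubmodule H) (Subalgebra.toSubmodule H),
        ∃ F' ∈ aSpan H A, (fun y => Φ (y, x) - Φ (y, 0)) = fun y => δ * F' y := by
      intro Φ hΦ
      induction hΦ using Submodule.span_induction with
      | mem Φ hΦ =>
        obtain ⟨b, hb, c, hc, rfl⟩ := hΦ
        have hq : (c x - c 0) / δ ∈ A := by
          rw [← A.valuation_le_one_iff, map_div₀,
            div_le_one₀ (zero_lt_iff.mpr ((Valuation.ne_zero_iff _).mpr h0)), hax]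
          exact val_diff_le_nrm hH hA x hc
        refine ⟨(⟨_, hq⟩ : A) • b, Submodule.smul_mem _ _ (Submodule.subset_span hb), ?_⟩
        funext y
        show b y * c x - b y * c 0 = δ * ((c x - c 0) / δ * b y)
        field_simp
      | zero => exact ⟨0, zero_mem _, by simp⟩
      | add Φ Φ' _ _ ih ih' =>
        obtain ⟨F1, h1, e1⟩ := ih
        obtain ⟨F2, h2, e2⟩ := ih'
        refine ⟨F1 + F2, add_mem h1 h2, ?_⟩
        funext y
        have := congrFun e1 y
        have := congrFun e2 y
        simp only [Pi.add_apply, mul_add] at *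
        linear_combination congrFun e1 y + congrFun e2 y
      | smul r Φ _ ih =>
        obtain ⟨F1, h1, e1⟩ := ih
        refine ⟨(⟨algebraMap R K r, hA r⟩ : A) • F1, Submodule.smul_mem _ _ h1, ?_⟩
        funext y
        show r • Φ (y, x) - r • Φ (y, 0) = δ * (algebraMap R K r * F1 y)
        rw [← smul_sub, congrFun e1 y, Algebra.smul_def]
        ring
    obtain ⟨F', hF', he'⟩ := key _ (hH.comul a ha)
    exact ⟨F', hF', by simpa using he'⟩
  | zero => exact ⟨0, zero_mem _, by simp⟩
  | add f1 f2 _ _ ih1 ih2 =>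
    obtain ⟨F1, h1, e1⟩ := ih1
    obtain ⟨F2, h2, e2⟩ := ih2
    refine ⟨F1 + F2, add_mem h1 h2, ?_⟩
    funext y
    simp only [Pi.add_apply, mul_add]
    linear_combination congrFun e1 y + congrFun e2 y
  | smul c f1 _ ih1 =>
    obtain ⟨F1, h1, e1⟩ := ih1
    refine ⟨c • F1, Submodule.smul_mem _ _ h1, ?_⟩
    funext y
    show (c : K) * f1 (y + x) - (c : K) * f1 y = δ * ((c : K) * F1 y)
    linear_combination (c : K) * congrFun e1 y

/-- Every step of the forward difference gains a factor of the norm. -/
theorem fwdDiff_iter_eq_smul (x : G) (n : ℕ) {f : G → K} (hf : f ∈ aSpan H A) :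
    ∃ F : G → K, F ∈ aSpan H A ∧ ∃ d : K, A.valuation d ≤ nrm hH hA x ^ n ∧
      (fwdDiff x)^[n] f = fun y => d * F y := by
  obtain ⟨a₀, ha₀, hax⟩ := exists_eq_nrm hH hA x
  induction n with
  | zero => exact ⟨f, hf, 1, by simp, by simp⟩
  | succ n ih =>
    obtain ⟨F, hF, d, hd, he⟩ := ih
    obtain ⟨F', hF', he'⟩ := exists_shift_sub_eq_mul hH hA x hax hF
    refine ⟨F', hF', d * (a₀ x - a₀ 0), ?_, ?_⟩
    · rw [map_mul, pow_succ]; exact mul_le_mul' hd hax.le
    · rw [Function.iterate_succ_apply', he]
      funext y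
      show d * F (y + x) - d * F y = d * (a₀ x - a₀ 0) * F' y
      rw [← mul_sub, congrFun he' y, mul_assoc]

/-- The second difference is bounded by the product of the norms. -/
theorem val_second_diff_le (x y : G) {f : G → K} (hf : f ∈ aSpan H A) :
    A.valuation (f (x + y) - f x - f y + f 0) ≤ nrm hH hA x * nrm hH hA y := by
  obtain ⟨a₀, ha₀, hax⟩ := exists_eq_nrm hH hA x
  obtain ⟨F, hF, he⟩ := exists_shift_sub_eq_mul hH hA x hax hf
  have h1 := congrFun he y
  have h2 := congrFun he 0
  simp only [zero_add] at h2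
  rw [show f (x + y) - f x - f y + f 0 = (a₀ x - a₀ 0) * (F y - F 0) by
    rw [mul_sub, ← h1, ← h2, add_comm x y]; ring, map_mul, hax]
  refine mul_le_mul' le_rfl ?_
  simpa using val_aSpan_diff_le hH hA 0 y hF

/-- A nonzero `p`-torsion point of norm `< 1` has norm `≥ |p|^(1/(p-1))`. -/
theorem valuation_le_nrm_pow {p : ℕ} (hp : p.Prime) {x : G} (hx : p • x = 0) (hx0 : x ≠ 0)
    (hlt : nrm hH hA x < 1) : A.valuation (p : K) ≤ nrm hH hA x ^ (p - 1) := by
  set v := nrm hH hA x with hv
  have hv0 : v ≠ 0 := fun h => hx0 ((nrm_eq_zero_iff hH hA).mp h)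
  by_contra hcon
  push Not at hcon
  obtain ⟨a, ha, hax⟩ := exists_eq_nrm hH hA x
  have hexp := shift_eq_sum_fwdDiff_iter x a p 0
  rw [hx, add_zero, Finset.range_eq_Ico, Finset.sum_eq_sum_Ico_succ_bot (by omega : 0 < p + 1),
    Finset.sum_eq_sum_Ico_succ_bot (by have := hp.two_le; omega : 0 + 1 < p + 1)] at hexp
  simp only [Nat.choose_zero_right, one_smul, Function.iterate_zero, id_eq, zero_add,
    Function.iterate_one, Nat.choose_one_right, nsmul_eq_mul, fwdDiff] at hexp
  have hrest : A.valuation (∑ k ∈ Finset.Ico (1 + 1) (p + 1),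
      ((p.choose k : K) * (fwdDiff x)^[k] a 0)) < A.valuation (p : K) * v := by
    have hp0 : A.valuation (p : K) * v ≠ 0 := mul_ne_zero (fun h => by
      rw [h] at hcon; exact not_lt_zero hcon) hv0
    refine Valuation.map_sum_lt _ hp0 fun k hk => ?_
    rw [Finset.mem_Ico] at hk
    obtain ⟨F, hF, d, hd, he⟩ := fwdDiff_iter_eq_smul hH hA x k (Submodule.subset_span ha)
    rw [he, map_mul, map_mul]
    have hkv : A.valuation d * A.valuation (F 0) ≤ v ^ k :=
      (mul_le_of_le_one_right' (val_aSpan_apply_le hH hA hF 0)).trans hd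
    rcases Nat.lt_or_ge k p with hkp | hkp
    · obtain ⟨m, hm⟩ := hp.dvd_choose_self (by omega : k ≠ 0) hkp
      rw [hm, Nat.cast_mul, map_mul]
      have hm1 : A.valuation (m : K) ≤ 1 := (A.valuation_le_one_iff _).mpr (natCast_mem A m)
      calc A.valuation (p : K) * A.valuation (m : K) * (A.valuation d * A.valuation (F 0))
          ≤ A.valuation (p : K) * v ^ k := mul_le_mul' (mul_le_of_le_one_right' hm1) hkv
        _ < A.valuation (p : K) * v := by
          refine mul_lt_mul_of_pos_left ?_ (zero_lt_iff.mpr (left_ne_zero_of_mul hp0))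
          calc v ^ k ≤ v ^ 2 := pow_le_pow_right_of_le_one' hlt.le (by omega)
            _ < v := by rw [sq]; exact mul_lt_of_lt_one_left (zero_lt_iff.mpr hv0) hlt
    · obtain rfl : k = p := by omega
      rw [Nat.choose_self, Nat.cast_one, map_one, one_mul]
      refine hkv.trans_lt ?_
      calc v ^ k = v ^ (k - 1) * v := by rw [← pow_succ, Nat.sub_add_cancel hp.pos]
        _ < A.valuation (k : K) * v := mul_lt_mul_of_pos_right hcon (zero_lt_iff.mpr hv0)
  have h1 : A.valuation ((p : K) * (a x - a 0)) = A.valuation (p : K) * v := by rw [map_mul, hax]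
  have h2 : (p : K) * (a x - a 0) = -(∑ k ∈ Finset.Ico (1 + 1) (p + 1),
      ((p.choose k : K) * (fwdDiff x)^[k] a 0)) := by linear_combination -hexp
  rw [h2, Valuation.map_neg] at h1
  exact hrest.ne h1

end FLTAgent.LocP
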