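import Fermat.Agent.LocP.Orders
import Fermat.Agent.TW.Defs

/-!
# First order deformations as finite groups with Galois action

The group `k² × k²` with the action `(v, w) ↦ (M v, M w + c M v)` (`liftAct`); `Fl` says that it has
a finite flat model, which holds for flat deformations (`fl_of_isFlatAt`).  The flat cocycles
together with zero form a subspace stable under coboundaries and change of basis
(`eq_zero_or_fl_of_mem_span`, `Fl.sub_coboundary`, `Fl.conj`).  `resPairing` and `liftPairing`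
are the self-pairings from the determinant.
-/

set_option autoImplicit false
set_option linter.unusedSectionVars false

noncomputable section

namespace FLTAgent.LocP

open Matrix FLTAgent.TW FLTAgent.Deform FLTAgent.FlatHopf
open scoped DualNumber Pointwise

variable {k : Type} [Field k]

/-- Vectors. -/
abbrev Vec (k : Type) := Fin 2 → k

/-- Pairs of vectors: the points of a first order deformation. -/
abbrev VPair (k : Type) := (Fin 2 → k) × (Fin 2 → k)

local notation "𝕄" => Matrix (Fin 2) (Fin 2) k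
local notation "Qb" => AlgebraicClosure ℚ

/-- The residual action. -/
def resAct (M : MatRep k) : GQ →* AddMonoid.End (Vec k) where
  toFun σ := AddMonoidHom.mk' (fun x => M σ *ᵥ x) fun _ _ => mulVec_add _ _ _
  map_one' := AddMonoidHom.ext fun x => by
    show M 1 *ᵥ x = x
    rw [map_one, one_mulVec]
  map_mul' σ τ := AddMonoidHom.ext fun x => by
    show M (σ * τ) *ᵥ x = M σ *ᵥ (M τ *ᵥ x)
    rw [map_mul, mulVec_mulVec]

theorem resAct_apply (M : MatRep k) (σ : GQ) (x : Vec k) : resAct M σ x = M σ *ᵥ x := rfl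

theorem map_mul_cocycle {M : MatRep k} {c : GQ → 𝕄} (hc : IsTangentCocycle M c) (σ τ : GQ) :
    c (σ * τ) * M (σ * τ) = M σ * (c τ * M τ) + c σ * M σ * M τ := by
  rw [hc.map_mul, adAct, map_mul, add_mul, add_comm, mul_assoc (M σ * c τ), ← mul_assoc (M σ⁻¹),
    TW.inv_mul_eq_one, one_mul, mul_assoc, ← mul_assoc (c σ)]

theorem cocycle_one {M : MatRep k} {c : GQ → 𝕄} (hc : IsTangentCocycle M c) : c 1 = 0 := by
  have h := hc.map_mul 1 1
  simp [adAct] at h
  exact h

/-- The action on a first order deformation. -/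
def liftAct (M : MatRep k) (c : GQ → 𝕄) (hc : IsTangentCocycle M c) :
    GQ →* AddMonoid.End (VPair k) where
  toFun σ := AddMonoidHom.mk' (fun x => (M σ *ᵥ x.1, M σ *ᵥ x.2 + (c σ * M σ) *ᵥ x.1))
    fun x y => by
      simp only [Prod.fst_add, Prod.snd_add, mulVec_add, Prod.mk_add_mk]
      refine Prod.ext rfl ?_
      abel
  map_one' := AddMonoidHom.ext fun x => by
    show (M 1 *ᵥ x.1, M 1 *ᵥ x.2 + (c 1 * M 1) *ᵥ x.1) = x
    rw [map_one, cocycle_one hc, zero_mul, zero_mulVec, add_zero, one_mulVec, one_mulVec]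
  map_mul' σ τ := AddMonoidHom.ext fun x => by
    show (M (σ * τ) *ᵥ x.1, M (σ * τ) *ᵥ x.2 + (c (σ * τ) * M (σ * τ)) *ᵥ x.1) =
      (M σ *ᵥ (M τ *ᵥ x.1),
        M σ *ᵥ (M τ *ᵥ x.2 + (c τ * M τ) *ᵥ x.1) + (c σ * M σ) *ᵥ (M τ *ᵥ x.1))
    rw [map_mul_cocycle hc, map_mul, mulVec_add, mulVec_mulVec, mulVec_mulVec, mulVec_mulVec,
      mulVec_mulVec, add_mulVec, add_assoc]

theorem liftAct_apply {M : MatRep k} {c : GQ → 𝕄} (hc : IsTangentCocycle M c) (σ : GQ)
    (x : VPair k) :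
    liftAct M c hc σ x = (M σ *ᵥ x.1, M σ *ᵥ x.2 + (c σ * M σ) *ᵥ x.1) := rfl

theorem liftAct_inr {M : MatRep k} {c : GQ → 𝕄} (hc : IsTangentCocycle M c) (σ : GQ)
    (w : Vec k) : liftAct M c hc σ (0, w) = (0, M σ *ᵥ w) := by
  rw [liftAct_apply]; simp

/-- The inclusion of the residual group. -/
def inrHom (k : Type) [AddCommGroup k] : Vec k →+ VPair k := AddMonoidHom.inr _ _

variable [Finite k]

/-- The deformation of `M` by `c` has a finite flat model. -/
def Fl (p : ℕ) (M : MatRep k) (c : GQ → 𝕄) : Prop :=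
  ∃ hc : IsTangentCocycle M c, HasFlatModel p (liftAct M c hc)

/-- The transfer between vectors over the dual numbers and pairs of vectors. -/
def splitEquiv (k : Type) [Field k] : (Fin 2 → DualNumber k) ≃+ VPair k where
  toFun x := (fun i => (x i).fst, fun i => (x i).snd)
  invFun y := fun i => TrivSqZeroExt.inl (y.1 i) + TrivSqZeroExt.inr (y.2 i)
  left_inv x := funext fun i => TrivSqZeroExt.ext (by simp) (by simp)
  right_inv y := by ext i <;> simp
  map_add' x y := by ext i <;> simp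

theorem splitEquiv_liftRep {M : MatRep k} (hM : FactorsFinite M) {c : GQ → 𝕄}
    (hc : IsTangentCocycle M c) (σ : GQ) (x : Fin 2 → DualNumber k) :
    splitEquiv k ((liftRep hM hc).ρ σ x) = liftAct M c hc σ (splitEquiv k x) := by
  change splitEquiv k (Matrix.toLinAlgEquiv' (liftMat M c hc σ) x) = _
  rw [Matrix.toLinAlgEquiv'_apply, liftMat_apply, liftAct_apply]
  ext i
  · fin_cases i <;>
      simp [splitEquiv, Matrix.mulVec, dotProduct, Fin.sum_univ_two, epsMat]
  · fin_cases i <;>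
      simp [splitEquiv, epsMat] <;> ring

theorem fl_of_isFlatAt {p : ℕ} {M : MatRep k} (hM : FactorsFinite M) {c : GQ → 𝕄}
    (hc : IsTangentCocycle M c) (h : (liftRep hM hc).IsFlatAt p) : Fl p M c := by
  have : Finite (DualNumber k) := inferInstanceAs (Finite (k × k))
  have : Finite (DualNumber k ⧸ (⊥ : Ideal (DualNumber k))) :=
    Finite.of_surjective _ Ideal.Quotient.mk_surjective
  obtain ⟨H, i1, i2, hfin, hflat, hcc, e, hadd, heq⟩ := h.2 ⊥ inferInstance
  let ι : ((liftRep hM hc).V ⧸ ((⊥ : Ideal (DualNumber k)) •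
      (⊤ : Submodule (DualNumber k) (liftRep hM hc).V))) ≃+ VPair k :=
    (Submodule.quotEquivOfEqBot _ (Submodule.bot_smul _)).toAddEquiv.trans (splitEquiv k)
  refine ⟨hc, H, i1, i2, hfin, hflat, hcc, e.trans ι.toEquiv, fun f g => ?_, fun σ f g hfg => ?_⟩
  · show ι (e (f * g)) = ι (e f) + ι (e g)
    rw [hadd, map_add]
  · show ι (e g) = liftAct M c hc σ (ι (e f))
    rw [heq σ f g hfg]
    obtain ⟨x, hx⟩ := Submodule.Quotient.mk_surjective _ (e f)
    rw [← hx]
    show ι (Submodule.Quotient.mk ((liftRep hM hc).ρ σ x)) = _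
    exact splitEquiv_liftRep hM hc σ x

variable {p : ℕ} {M : MatRep k} {c c' : GQ → Matrix (Fin 2) (Fin 2) k}

theorem Fl.cocycle (h : Fl p M c) : IsTangentCocycle M c := h.1

theorem Fl.residual (h : Fl p M c) : HasFlatModel p (resAct M) := by
  obtain ⟨hc, h⟩ := h
  refine h.of_injective (inrHom k) (fun x y hxy => (Prod.ext_iff.mp hxy).2) fun σ x => ?_
  show ((0 : Vec k), M σ *ᵥ x) = liftAct M c hc σ (0, x)
  rw [liftAct_inr]

theorem fl_zero_of_residual (h : HasFlatModel p (resAct M)) : Fl p M 0 := by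
  refine ⟨(tangentCocycles M).zero_mem, ?_⟩
  refine (h.prod h).of_addEquiv (AddEquiv.refl _) fun σ x => ?_
  rw [AddEquiv.refl_apply, AddEquiv.refl_apply, liftAct_apply]
  rw [prodAct_apply, resAct_apply, resAct_apply]
  refine Prod.ext rfl ?_
  show M σ *ᵥ x.2 = M σ *ᵥ x.2 + ((0 : 𝕄) * M σ) *ᵥ x.1
  rw [zero_mul, zero_mulVec, add_zero]

theorem isTangentCocycle_coboundary (hM : FactorsFinite M) {X : 𝕄} (hX : X.trace = 0) :
    IsTangentCocycle M (coboundary M X) := by
  refine ⟨fun σ τ => ?_, fun σ => ?_, ?_⟩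
  · show adAct M (σ * τ) X - X = adAct M σ X - X + adAct M σ (adAct M τ X - X)
    simp only [adAct, _root_.mul_inv_rev, map_mul, mul_sub, sub_mul, mul_assoc]
    abel
  · show (adAct M σ X - X).trace = 0
    rw [Matrix.trace_sub, trace_adAct, sub_self]
  · obtain ⟨L, hL, hlev⟩ := hM
    refine ⟨L, hL, fun σ hσ => ?_⟩
    have hσ' : ∀ x ∈ L, σ⁻¹ x = x := fun x hx => σ.injective (by
      rw [← AlgEquiv.mul_apply, mul_inv_cancel, AlgEquiv.one_apply, hσ x hx])
    show adAct M σ X - X = 0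
    rw [adAct, hlev σ hσ, hlev _ hσ', one_mul, mul_one, sub_self]

/-- Conjugation by `1 + ε X`. -/
theorem Fl.sub_coboundary (h : Fl p M c) (hM : FactorsFinite M) {X : 𝕄} (hX : X.trace = 0) :
    Fl p M (c - coboundary M X) := by
  obtain ⟨hc, h⟩ := h
  refine ⟨(tangentCocycles M).sub_mem hc (isTangentCocycle_coboundary hM hX), h.of_addEquiv
    { toFun := fun x => (x.1, x.2 + X *ᵥ x.1)
      invFun := fun x => (x.1, x.2 - X *ᵥ x.1)
      left_inv := fun x => Prod.ext rfl (add_sub_cancel_right _ _)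
      right_inv := fun x => Prod.ext rfl (sub_add_cancel _ _)
      map_add' := fun x y => by
        simp only [Prod.fst_add, Prod.snd_add, mulVec_add, Prod.mk_add_mk]
        refine Prod.ext rfl ?_
        abel } fun σ x => ?_⟩
  show (M σ *ᵥ x.1, M σ *ᵥ x.2 + (c σ * M σ) *ᵥ x.1 + X *ᵥ (M σ *ᵥ x.1)) =
    (M σ *ᵥ x.1, M σ *ᵥ (x.2 + X *ᵥ x.1) + ((c σ - (adAct M σ X - X)) * M σ) *ᵥ x.1)
  rw [adAct, sub_mul, sub_mul, mul_assoc (M σ * X), TW.inv_mul_eq_one, mul_one, mulVec_add,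
    mulVec_mulVec, mulVec_mulVec, sub_mulVec, sub_mulVec, Prod.mk.injEq]
  exact ⟨rfl, by abel⟩

/-- The action on a triple: the fibre product of two deformations. -/
def tripleAct (M : MatRep k) (c c' : GQ → 𝕄) (hc : IsTangentCocycle M c)
    (hc' : IsTangentCocycle M c') : GQ →* AddMonoid.End (Vec k × (Vec k × Vec k)) where
  toFun σ := AddMonoidHom.mk' (fun x => (M σ *ᵥ x.1, ((liftAct M c hc σ (x.1, x.2.1)).2,
      (liftAct M c' hc' σ (x.1, x.2.2)).2))) fun x y => by
    refine Prod.ext (show M σ *ᵥ (x.1 + y.1) = _ from mulVec_add _ _ _) (Prod.ext ?_ ?_) <;>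
    · simp only [liftAct_apply, Prod.fst_add, Prod.snd_add, mulVec_add]
      abel
  map_one' := AddMonoidHom.ext fun x => by
    show (M 1 *ᵥ x.1, ((liftAct M c hc 1 (x.1, x.2.1)).2,
      (liftAct M c' hc' 1 (x.1, x.2.2)).2)) = x
    rw [map_one, map_one, map_one, one_mulVec]
    rfl
  map_mul' σ τ := AddMonoidHom.ext fun x => by
    show (M (σ * τ) *ᵥ x.1, ((liftAct M c hc (σ * τ) (x.1, x.2.1)).2,
      (liftAct M c' hc' (σ * τ) (x.1, x.2.2)).2)) = _
    rw [map_mul, map_mul, map_mul, ← mulVec_mulVec]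
    rfl

theorem Fl.add (h : Fl p M c) (h' : Fl p M c') : Fl p M (c + c') := by
  obtain ⟨hc, h⟩ := h
  obtain ⟨hc', h'⟩ := h'
  let i : Vec k × (Vec k × Vec k) →+ VPair k × VPair k :=
    AddMonoidHom.mk' (fun x => ((x.1, x.2.1), (x.1, x.2.2))) fun x y => rfl
  have h3 : HasFlatModel p (tripleAct M c c' hc hc') :=
    (h.prod h').of_injective i (fun x y hxy => by
      simp only [i, AddMonoidHom.mk'_apply, Prod.ext_iff] at hxy
      exact Prod.ext hxy.1.1 (Prod.ext hxy.1.2 hxy.2.2)) fun σ x => by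
      rw [prodAct_apply]
      rfl
  let π : Vec k × (Vec k × Vec k) →+ VPair k :=
    AddMonoidHom.mk' (fun x => (x.1, x.2.1 + x.2.2)) fun x y => by
      simp only [Prod.fst_add, Prod.snd_add, Prod.mk_add_mk]
      refine Prod.ext rfl ?_
      abel
  refine ⟨(tangentCocycles M).add_mem hc hc',
    h3.of_surjective π (fun y => ⟨(y.1, (y.2, 0)), by simp [π]⟩) fun σ x => ?_⟩
  show (M σ *ᵥ x.1, _) = _
  simp only [liftAct_apply, π, AddMonoidHom.mk'_apply]
  refine Prod.ext rfl ?_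
  show (liftAct M c hc σ (x.1, x.2.1)).2 + (liftAct M c' hc' σ (x.1, x.2.2)).2 = _
  simp only [liftAct_apply, Pi.add_apply, add_mul, add_mulVec, mulVec_add]
  abel

theorem Fl.smul (h : Fl p M c) {a : k} (ha : a ≠ 0) : Fl p M (a • c) := by
  obtain ⟨hc, h⟩ := h
  refine ⟨(tangentCocycles M).smul_mem a hc, h.of_addEquiv
    { toFun := fun x => (x.1, a • x.2)
      invFun := fun x => (x.1, a⁻¹ • x.2)
      left_inv := fun x => by simp [smul_smul, ha]
      right_inv := fun x => by simp [smul_smul, ha]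
      map_add' := fun x y => by simp } fun σ x => ?_⟩
  show (M σ *ᵥ x.1, a • (M σ *ᵥ x.2 + (c σ * M σ) *ᵥ x.1)) =
    (M σ *ᵥ x.1, M σ *ᵥ (a • x.2) + ((a • c σ) * M σ) *ᵥ x.1)
  rw [smul_add, mulVec_smul, smul_mul, smul_mulVec]

theorem Fl.zero (h : Fl p M c) : Fl p M 0 := fl_zero_of_residual h.residual

theorem Fl.coboundary (h : Fl p M c) (hM : FactorsFinite M) {X : 𝕄} (hX : X.trace = 0) :
    Fl p M (coboundary M X) := by
  have h1 := h.zero.sub_coboundary hM (X := -X) (by rw [Matrix.trace_neg, hX, neg_zero])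
  rwa [zero_sub, map_neg, neg_neg] at h1

/-- The span of the flat cocycles consists of flat cocycles (and zero). -/
theorem eq_zero_or_fl_of_mem_span (hc : c ∈ Submodule.span k {c | Fl p M c}) :
    c = 0 ∨ Fl p M c := by
  induction hc using Submodule.span_induction with
  | mem c hc => exact Or.inr hc
  | zero => exact Or.inl rfl
  | add c c' _ _ ih ih' =>
    rcases ih with rfl | ih
    · rw [zero_add]; exact ih'
    rcases ih' with rfl | ih'
    · rw [add_zero]; exact Or.inr ih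
    exact Or.inr (ih.add ih')
  | smul a c _ ih =>
    rcases ih with rfl | ih
    · exact Or.inl (smul_zero a)
    rcases eq_or_ne a 0 with rfl | ha
    · exact Or.inl (zero_smul _ c)
    exact Or.inr (ih.smul ha)

/-! ### Change of basis -/

/-- The conjugate representation. -/
def conjRep (g : 𝕄ˣ) (M : MatRep k) : MatRep k where
  toFun σ := g.val * M σ * (g⁻¹).val
  map_one' := by simp
  map_mul' σ τ := by
    rw [map_mul]
    simp only [mul_assoc]
    rw [← mul_assoc (g⁻¹).val g.val, g.inv_mul, one_mul]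

theorem conjRep_apply (g : 𝕄ˣ) (M : MatRep k) (σ : GQ) :
    conjRep g M σ = g.val * M σ * (g⁻¹).val := rfl

theorem factorsFinite_conjRep (g : 𝕄ˣ) (hM : FactorsFinite M) : FactorsFinite (conjRep g M) :=
  hM.imp fun _ h => ⟨h.1, fun σ hσ => by rw [conjRep_apply, h.2 σ hσ, mul_one, g.mul_inv]⟩

theorem detCyclotomic_conjRep (g : 𝕄ˣ) (hdet : DetCyclotomic M p) :
    DetCyclotomic (conjRep g M) p := fun σ a ha => by
  rw [conjRep_apply, Matrix.det_units_conj, hdet σ a ha]

theorem charpolySplits_conjRep (g : 𝕄ˣ) (h : CharpolySplits M) :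
    CharpolySplits (conjRep g M) := fun σ => by
  obtain ⟨α, β, h1, h2⟩ := h σ
  refine ⟨α, β, ?_, ?_⟩
  · rw [conjRep_apply, Matrix.trace_units_conj, h1]
  · rw [conjRep_apply, Matrix.det_units_conj, h2]

/-- Conjugation of values. -/
def conjFun (g : 𝕄ˣ) (X : Type) : (X → 𝕄) →ₗ[k] (X → 𝕄) where
  toFun c := fun σ => g.val * c σ * (g⁻¹).val
  map_add' c d := funext fun σ => by simp [mul_add, add_mul]
  map_smul' a c := funext fun σ => by simp

theorem conjFun_inv (g : 𝕄ˣ) (X : Type) (c : X → 𝕄) :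
    conjFun g⁻¹ X (conjFun g X c) = c := funext fun σ => by
  show (g⁻¹).val * (g.val * c σ * (g⁻¹).val) * (g⁻¹⁻¹).val = c σ
  rw [inv_inv]
  simp only [mul_assoc]
  rw [g.inv_mul, mul_one, ← mul_assoc, g.inv_mul, one_mul]

theorem isTangentCocycle_conj (g : 𝕄ˣ) (hc : IsTangentCocycle M c) :
    IsTangentCocycle (conjRep g M) (conjFun g GQ c) := by
  refine ⟨fun σ τ => ?_, fun σ => ?_, ?_⟩
  · show g.val * c (σ * τ) * (g⁻¹).val = g.val * c σ * (g⁻¹).val +
      g.val * M σ * (g⁻¹).val * (g.val * c τ * (g⁻¹).val) * (g.val * M σ⁻¹ * (g⁻¹).val)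
    rw [hc.map_mul, adAct, mul_add, add_mul]
    congr 1
    simp only [mul_assoc]
    rw [← mul_assoc (g⁻¹).val g.val, g.inv_mul, one_mul, ← mul_assoc (g⁻¹).val g.val, g.inv_mul,
      one_mul]
  · show (g.val * c σ * (g⁻¹).val).trace = 0
    rw [Matrix.trace_units_conj, hc.trace_eq_zero]
  · obtain ⟨L, hL, h⟩ := hc.exists_level
    exact ⟨L, hL, fun σ hσ => by
      show g.val * c σ * (g⁻¹).val = 0
      rw [h σ hσ, mul_zero, zero_mul]⟩

theorem Fl.conj (g : 𝕄ˣ) (h : Fl p M c) : Fl p (conjRep g M) (conjFun g GQ c) := by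
  obtain ⟨hc, h⟩ := h
  refine ⟨isTangentCocycle_conj g hc, h.of_addEquiv
    { toFun := fun x => (g.val *ᵥ x.1, g.val *ᵥ x.2)
      invFun := fun x => ((g⁻¹).val *ᵥ x.1, (g⁻¹).val *ᵥ x.2)
      left_inv := fun x => Prod.ext (by dsimp only; rw [mulVec_mulVec, g.inv_mul, one_mulVec])
        (by dsimp only; rw [mulVec_mulVec, g.inv_mul, one_mulVec])
      right_inv := fun x => Prod.ext (by dsimp only; rw [mulVec_mulVec, g.mul_inv, one_mulVec])
        (by dsimp only; rw [mulVec_mulVec, g.mul_inv, one_mulVec])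
      map_add' := fun x y => Prod.ext (show g.val *ᵥ (x.1 + y.1) = _ from mulVec_add _ _ _)
        (show g.val *ᵥ (x.2 + y.2) = _ from mulVec_add _ _ _) } fun σ x => ?_⟩
  show (g.val *ᵥ (M σ *ᵥ x.1), g.val *ᵥ (M σ *ᵥ x.2 + (c σ * M σ) *ᵥ x.1)) =
    ((g.val * M σ * (g⁻¹).val) *ᵥ (g.val *ᵥ x.1), (g.val * M σ * (g⁻¹).val) *ᵥ (g.val *ᵥ x.2) +
      ((g.val * c σ * (g⁻¹).val) * (g.val * M σ * (g⁻¹).val)) *ᵥ (g.val *ᵥ x.1))
  simp only [mulVec_add, mulVec_mulVec, mul_assoc, g.inv_mul, mul_one]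
  rw [← mul_assoc (g⁻¹).val g.val, g.inv_mul, one_mul]

/-! ### Pairings -/

variable [Fact p.Prime] [CharP k p]

/-- The alternating form. -/
def det2 (d x : Vec k) : k := d 0 * x 1 - d 1 * x 0

theorem det2_mulVec (A : 𝕄) (d x : Vec k) : det2 (A *ᵥ d) (A *ᵥ x) = A.det * det2 d x := by
  simp [det2, Matrix.mulVec, dotProduct, Fin.sum_univ_two, Matrix.det_fin_two]
  ring

theorem det2_trace_zero {A : 𝕄} (hA : A.trace = 0) (d x : Vec k) :
    det2 (A *ᵥ d) x + det2 d (A *ᵥ x) = 0 := by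
  have h : A 1 1 = -A 0 0 := by
    rw [Matrix.trace_fin_two] at hA
    linear_combination hA
  simp [det2, Matrix.mulVec, dotProduct, Fin.sum_univ_two, h]
  ring

theorem exists_det2_ne_zero {d : Vec k} (hd : d ≠ 0) : ∃ x : Vec k, det2 d x = 1 := by
  by_cases h0 : d 0 = 0
  · have h1 : d 1 ≠ 0 := fun h => hd (by ext i; fin_cases i <;> assumption)
    exact ⟨![-(d 1)⁻¹, 0], by simp [det2, h1]⟩
  · exact ⟨![0, (d 0)⁻¹], by simp [det2, h0]⟩

/-- The residual form. -/
def resB (ψ : k →+ ZMod p) : Vec k →+ Vec k →+ ZMod p :=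
  AddMonoidHom.mk' (fun d => AddMonoidHom.mk' (fun x => ψ (det2 d x)) fun x y => by
      rw [← map_add]; congr 1; simp [det2]; ring)
    fun d d' => AddMonoidHom.ext fun x => by
      show ψ (det2 (d + d') x) = ψ (det2 d x) + ψ (det2 d' x)
      rw [← map_add]; congr 1; simp [det2]; ring

theorem resB_apply (ψ : k →+ ZMod p) (d x : Vec k) : resB ψ d x = ψ (det2 d x) := rfl

/-- The form on a first order deformation. -/
def liftB (ψ : k →+ ZMod p) : VPair k →+ VPair k →+ ZMod p :=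
  AddMonoidHom.mk' (fun d => AddMonoidHom.mk' (fun x => ψ (det2 d.1 x.2 + det2 d.2 x.1))
      fun x y => by rw [← map_add]; congr 1; simp [det2]; ring)
    fun d d' => AddMonoidHom.ext fun x => by
      show ψ (det2 (d + d').1 x.2 + det2 (d + d').2 x.1) =
        ψ (det2 d.1 x.2 + det2 d.2 x.1) + ψ (det2 d'.1 x.2 + det2 d'.2 x.1)
      rw [← map_add]; congr 1; simp [det2]; ring

theorem liftB_apply (ψ : k →+ ZMod p) (d x : VPair k) :
    liftB ψ d x = ψ (det2 d.1 x.2 + det2 d.2 x.1) := rfl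

theorem exists_zeta_exponent {ζ : Qb} (hζ : IsPrimitiveRoot ζ p) (σ : GQ) :
    ∃ a : ℕ, σ ζ = ζ ^ a ∧ ∀ μ : Qb, μ ^ p = 1 → σ μ = μ ^ a := by
  have : NeZero p := ⟨(Fact.out : p.Prime).ne_zero⟩
  obtain ⟨a, -, ha⟩ :=
    hζ.eq_pow_of_pow_eq_one (by rw [← map_pow, hζ.pow_eq_one, map_one] : σ ζ ^ p = 1)
  refine ⟨a, ha.symm, fun μ hμ => ?_⟩
  obtain ⟨i, -, rfl⟩ := hζ.eq_pow_of_pow_eq_one hμ
  rw [map_pow, ← ha, ← pow_mul, ← pow_mul, mul_comm]

theorem zp_natCast_mul {ζ : Qb} (hζ : IsPrimitiveRoot ζ p) {σ : GQ} {a : ℕ} (ha : σ ζ = ζ ^ a)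
    (b : ZMod p) : zp ζ ((a : ZMod p) * b) = σ (zp ζ b) := by
  conv_rhs => rw [zp, map_pow, ha, ← pow_mul, ← zp_natCast hζ, Nat.cast_mul, ZMod.natCast_zmod_val]

theorem map_natCast_mul (ψ : k →+ ZMod p) (a : ℕ) (x : k) :
    ψ ((a : k) * x) = (a : ZMod p) * ψ x := by
  rw [← nsmul_eq_mul, map_nsmul, nsmul_eq_mul]

/-- The residual self-pairing. -/
def resPairing {ζ : Qb} (hζ : IsPrimitiveRoot ζ p) {ψ : k →+ ZMod p} (hψ : ψ 1 = 1)
    (hdet : DetCyclotomic M p) : Pairing (p := p) ζ (resAct M) where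
  B := resB ψ
  equivariant σ d x := by
    obtain ⟨a, ha, ha'⟩ := exists_zeta_exponent hζ σ
    rw [resB_apply, resB_apply, resAct_apply, resAct_apply, det2_mulVec, hdet σ a ha',
      map_natCast_mul, zp_natCast_mul hζ ha]
  nondeg d h := by
    by_contra hd
    obtain ⟨x, hx⟩ := exists_det2_ne_zero hd
    have := h x
    rw [resB_apply, hx, hψ] at this
    exact one_ne_zero this

/-- The self-pairing of a deformation. -/
def liftPairing {ζ : Qb} (hζ : IsPrimitiveRoot ζ p) {ψ : k →+ ZMod p} (hψ : ψ 1 = 1)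
    (hdet : DetCyclotomic M p) (hc : IsTangentCocycle M c) :
    Pairing (p := p) ζ (liftAct M c hc) where
  B := liftB ψ
  equivariant σ d x := by
    obtain ⟨a, ha, ha'⟩ := exists_zeta_exponent hζ σ
    rw [liftB_apply, liftB_apply, liftAct_apply, liftAct_apply,
      ← zp_natCast_mul hζ ha, ← map_natCast_mul, ← hdet σ a ha', ← mulVec_mulVec, ← mulVec_mulVec]
    congr 2
    show det2 (M σ *ᵥ d.1) (M σ *ᵥ x.2 + c σ *ᵥ (M σ *ᵥ x.1)) +
      det2 (M σ *ᵥ d.2 + c σ *ᵥ (M σ *ᵥ d.1)) (M σ *ᵥ x.1) = _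
    have h1 := det2_trace_zero (hc.trace_eq_zero σ) (M σ *ᵥ d.1) (M σ *ᵥ x.1)
    rw [mul_add, ← det2_mulVec, ← det2_mulVec]
    simp only [det2, Pi.add_apply] at h1 ⊢
    linear_combination h1
  nondeg d h := by
    have h2 : d.1 = 0 := by
      by_contra hd
      obtain ⟨w, hw⟩ := exists_det2_ne_zero hd
      have := h (0, w)
      rw [liftB_apply, hw, show det2 d.2 (0 : Vec k) = 0 by simp [det2], add_zero, hψ] at this
      exact one_ne_zero this
    refine Prod.ext h2 ?_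
    by_contra hd
    obtain ⟨v, hv⟩ := exists_det2_ne_zero (show d.2 ≠ 0 from hd)
    have := h (v, 0)
    rw [liftB_apply, hv, show det2 d.1 (0 : Vec k) = 0 by simp [det2], zero_add, hψ] at this
    exact one_ne_zero this

end FLTAgent.LocP
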