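import Fermat.Agent.LocP.Reducible
import Fermat.Agent.LocP.Tangent

/-!
# Reduction of the tangent bound to normalised cocycles

In normal form every cocycle differs by an off-diagonal coboundary from one which is diagonal at
`τ₀` (`RedNormal.normPart_mem_diagAt`); so a bound for all cocycles follows from one for the
normalised ones (`RedNormal.bound_of_normalised`).  `localTangentBound_of_conj` transports bounds
along a change of basis, and `RedNormal.card_all_le` counts all normalised upper right classes.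
-/

set_option autoImplicit false
set_option linter.unusedSectionVars false

noncomputable section

namespace FLTAgent.LocP

open Matrix FLTAgent.TW FLTAgent.Deform
open scoped Pointwise

local notation "Qb" => AlgebraicClosure ℚ

variable {k : Type} [Field k] [Finite k] {P : ValuationSubring (AlgebraicClosure ℚ)} {p : ℕ}
  [Fact p.Prime] [CharP k p]

local notation "D" => P.decompositionSubgroup ℚ
local notation "Ine" => P.inertiaSubgroupIn ℚ
local notation "𝕄" => Matrix (Fin 2) (Fin 2) k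

/-- Transport of a tangent bound along a change of basis. -/
theorem localTangentBound_of_conj {M : MatRep k} (H : Subgroup GQ)
    (g : (Matrix (Fin 2) (Fin 2) k)ˣ) {cond cond' : (GQ → Matrix (Fin 2) (Fin 2) k) → Prop} {d : ℕ}
    (h : LocalTangentBound (conjRep g M) H cond' d)
    (himp : ∀ c, IsTangentCocycle M c → cond c → cond' (conjFun g GQ c)) :
    LocalTangentBound M H cond d := by
  obtain ⟨S, hfin, hd, hB, hc⟩ := h
  have := hfin
  refine ⟨S.map (conjFun g⁻¹ H), inferInstance, (Submodule.finrank_map_le _ _).trans hd,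
    fun X hX => ?_, fun c hcoc hcond => ?_⟩
  · refine ⟨_, hB (g.val * X * (g⁻¹).val) (by rw [Matrix.trace_units_conj, hX]), ?_⟩
    funext σ
    show (g⁻¹).val * (g.val * M σ * (g⁻¹).val * (g.val * X * (g⁻¹).val) *
      (g.val * M (σ : GQ)⁻¹ * (g⁻¹).val) - g.val * X * (g⁻¹).val) * (g⁻¹⁻¹).val =
      M σ * X * M (σ : GQ)⁻¹ - X
    rw [inv_inv]
    simp only [mul_sub, sub_mul, mul_assoc, g.inv_mul, mul_one]
    simp only [← mul_assoc, g.inv_mul, one_mul]
  · exact ⟨_, hc _ (isTangentCocycle_conj g hcoc) (himp c hcoc hcond),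
      conjFun_inv g H (restrictTo H c)⟩

/-- The off-diagonal matrix whose coboundary normalises `c` at `τ₀`. -/
def offPart (τ₀ : GQ) : (GQ → 𝕄) →ₗ[k] 𝕄 where
  toFun c := !![0, -(c τ₀ 0 1) / 2; -(c τ₀ 1 0) / 2, 0]
  map_add' c d := by
    ext i j
    fin_cases i <;> fin_cases j <;> simp <;> ring
  map_smul' a c := by
    ext i j
    fin_cases i <;> fin_cases j <;> simp <;> ring

theorem trace_offPart (τ₀ : GQ) (c : GQ → 𝕄) : (offPart τ₀ c).trace = 0 := by
  rw [Matrix.trace_fin_two]
  simp [offPart]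

/-- The normalised cocycle. -/
def normPart (M : MatRep k) (τ₀ : GQ) : (GQ → 𝕄) →ₗ[k] (GQ → 𝕄) :=
  LinearMap.id - (coboundary M).comp (offPart τ₀)

/-- Diagonal at `τ₀`. -/
def diagAt (τ₀ : GQ) : Submodule k (GQ → 𝕄) where
  carrier := {c | c τ₀ 0 1 = 0 ∧ c τ₀ 1 0 = 0}
  zero_mem' := ⟨rfl, rfl⟩
  add_mem' := fun {a b} ha hb => ⟨by simp [ha.1, hb.1], by simp [ha.2, hb.2]⟩
  smul_mem' := fun a c hc => ⟨by simp [hc.1], by simp [hc.2]⟩

theorem two_ne_zero' (hp2 : p ≠ 2) : (2 : k) ≠ 0 := by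
  rw [show (2 : k) = ((2 : ℕ) : k) by norm_num, Ne, CharP.cast_eq_zero_iff k p]
  exact fun h => hp2 ((Nat.prime_dvd_prime_iff_eq Fact.out Nat.prime_two).mp h)

variable {M : MatRep k} {ϖ ζ : Qb} {τ₀ : GQ} (hN : RedNormal M P p ϖ ζ τ₀)
include hN

theorem RedNormal.tau_inv : M τ₀⁻¹ = !![-1, 0; 0, 1] := by
  have h : M τ₀ * M τ₀ = 1 := by rw [hN.tau]; ext i j; fin_cases i <;> fin_cases j <;> simp
  calc M τ₀⁻¹ = M τ₀⁻¹ * (M τ₀ * M τ₀) := by rw [h, mul_one]
    _ = M τ₀ := by rw [← mul_assoc, TW.inv_mul_eq_one, one_mul]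
    _ = _ := hN.tau

theorem RedNormal.coboundary_tau (X : 𝕄) :
    coboundary M X τ₀ = !![0, -(2 * X 0 1); -(2 * X 1 0), 0] := by
  show M τ₀ * X * M τ₀⁻¹ - X = _
  rw [hN.tau, hN.tau_inv]
  rw [Matrix.eta_fin_two X]
  ext i j
  fin_cases i <;> fin_cases j <;> simp <;> ring

theorem RedNormal.normPart_mem_diagAt (hp2 : p ≠ 2) (c : GQ → 𝕄) :
    normPart M τ₀ c ∈ diagAt (k := k) τ₀ := by
  have h2 := two_ne_zero' (k := k) hp2
  have h : normPart M τ₀ c τ₀ = c τ₀ - coboundary M (offPart τ₀ c) τ₀ := rfl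
  constructor <;>
  · rw [h, hN.coboundary_tau]
    simp [offPart]
    field_simp
    ring

/-- The diagonal part of a diagonal coboundary on the decomposition group vanishes. -/
theorem RedNormal.coboundary_upper {X : 𝕄} (hX : X 1 0 = 0) {σ : GQ} (hσ : σ ∈ D) :
    coboundary M X σ 1 0 = 0 ∧ coboundary M X σ 0 0 = 0 := by
  have hi := hN.lower σ⁻¹ (inv_mem hσ)
  have hl := hN.lower σ hσ
  have h1 : (M σ * X) 1 0 = 0 := by simp [Matrix.mul_apply, Fin.sum_univ_two, hX, hl]
  obtain ⟨h0, -, -⟩ := upper_mul h1 hi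
  obtain ⟨k0, -, -⟩ := upper_mul hl hX
  obtain ⟨i0, -, -⟩ := upper_mul hl hi
  rw [TW.mul_inv_eq_one, Matrix.one_apply_eq] at i0
  refine ⟨?_, ?_⟩
  · show (M σ * X * M σ⁻¹ - X) 1 0 = 0
    simp [Matrix.mul_apply, Fin.sum_univ_two, hX, hl, hi]
  · show (M σ * X * M σ⁻¹ - X) 0 0 = 0
    rw [Matrix.sub_apply, h0, k0]
    linear_combination -X 0 0 * i0

/-- The bound from the normalised cocycles. -/
theorem RedNormal.bound_of_normalised (hp2 : p ≠ 2) {n : ℕ} (Z : Submodule k (GQ → 𝕄))
    (hB : ∀ X : 𝕄, X.trace = 0 → coboundary M X ∈ Z)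
    (hR : Module.Finite k ((Z ⊓ diagAt τ₀).map (restrictTo (k := k) (D : Subgroup GQ))) ∧
      Module.finrank k ((Z ⊓ diagAt τ₀).map (restrictTo (k := k) (D : Subgroup GQ))) ≤ n) :
    Module.Finite k (Z.map (restrictTo (k := k) (D : Subgroup GQ))) ∧
      Module.finrank k (Z.map (restrictTo (k := k) (D : Subgroup GQ))) ≤ 2 + n := by
  have := hR.1
  set R := restrictTo (k := k) (D : Subgroup GQ)
  set e12 : 𝕄 := !![0, 1; 0, 0]
  set e21 : 𝕄 := !![0, 0; 1, 0]
  set E := Submodule.span k (Set.range ![R (coboundary M e12), R (coboundary M e21)])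
  have : Module.Finite k E := Module.Finite.span_of_finite k (Set.finite_range _)
  have hE : Module.finrank k E ≤ 2 :=
    (finrank_range_le_card (R := k) ![R (coboundary M e12), R (coboundary M e21)]).trans
      (by simp)
  have hle : Z.map R ≤ E ⊔ (Z ⊓ diagAt τ₀).map R := by
    rintro _ ⟨c, hc, rfl⟩
    have hcb := hB _ (trace_offPart τ₀ c)
    have hn : normPart M τ₀ c ∈ Z ⊓ diagAt τ₀ :=
      ⟨Z.sub_mem hc hcb, hN.normPart_mem_diagAt hp2 c⟩
    have hoff : offPart τ₀ c = (-(c τ₀ 0 1) / 2) • e12 + (-(c τ₀ 1 0) / 2) • e21 := by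
      ext i j
      fin_cases i <;> fin_cases j <;> simp [offPart, e12, e21]
    have hEmem : R (coboundary M (offPart τ₀ c)) ∈ E := by
      rw [hoff, map_add, map_smul, map_smul, map_add, map_smul, map_smul]
      exact add_mem (E.smul_mem _ (Submodule.subset_span ⟨0, rfl⟩))
        (E.smul_mem _ (Submodule.subset_span ⟨1, rfl⟩))
    have : R c = R (coboundary M (offPart τ₀ c)) + R (normPart M τ₀ c) := by
      rw [← map_add, show normPart M τ₀ c = c - coboundary M (offPart τ₀ c) from rfl,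
        add_sub_cancel]
    rw [this]
    exact Submodule.add_mem_sup hEmem (Submodule.mem_map_of_mem hn)
  have : Module.Finite k ↥(E ⊔ (Z ⊓ diagAt τ₀).map R) := inferInstance
  refine ⟨Module.Finite.of_injective _ (Submodule.inclusion_injective hle),
    (Submodule.finrank_mono hle).trans ?_⟩
  have h := Submodule.finrank_sup_add_finrank_inf_eq E ((Z ⊓ diagAt τ₀).map R)
  have h2 := hR.2
  omega

/-- Restrictions of cocycles upper triangular with constant diagonal give normalised classes. -/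
theorem RedNormal.isBCocycle_of_good {c : GQ → 𝕄} (hc : IsTangentCocycle M c)
    (hτ : c τ₀ 0 1 = 0) (h10 : ∀ σ ∈ D, c σ 1 0 = 0) (h00 : ∀ σ ∈ D, c σ 0 0 = 0) :
    IsBCocycle M P τ₀ fun σ => c σ 0 1 where
  map_mul σ hσ τ hτD := by
    have h11 : c τ 1 1 = 0 := by
      have := hc.trace_eq_zero τ
      rw [Matrix.trace_fin_two, h00 τ hτD, zero_add] at this
      exact this
    have hl := hN.lower σ hσ
    have hi := hN.lower σ⁻¹ (inv_mem hσ)
    obtain ⟨-, i1, -⟩ := upper_mul hl hi
    rw [TW.mul_inv_eq_one, Matrix.one_apply_eq] at i1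
    show c (σ * τ) 0 1 = c σ 0 1 + chiRatio M σ * c τ 0 1
    rw [hc.map_mul, Matrix.add_apply, adAct, chiRatio, inv_eq_of_mul_eq_one_right i1.symm]
    simp [Matrix.mul_apply, Fin.sum_univ_two, h10 τ hτD, h00 τ hτD, h11]
    ring
  exists_level := hc.exists_level.imp fun _ h =>
    ⟨h.1, fun σ _ hx => show c σ 0 1 = 0 by rw [h.2 σ hx]; rfl⟩
  tau := hτ

theorem RedNormal.card_all_le (hdet : DetCyclotomic M p) (hP : P.LiesOverPrime p) (hp2 : p ≠ 2) :
    ({f : D → k | ∃ b, IsBCocycle M P τ₀ b ∧ f = fun σ : D => b σ}).Finite ∧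
    Nat.card ({f : D → k | ∃ b, IsBCocycle M P τ₀ b ∧ f = fun σ : D => b σ} : Set (D → k))
      ≤ Nat.card k ^ 2 := by
  obtain ⟨ψ, hψ⟩ := exists_addMonoidHom_ne_zero k p
  set S := hN.tame hdet hP
  set X := {f : D → k | ∃ b, IsBCocycle M P τ₀ b ∧ f = fun σ : D => b σ}
  obtain ⟨hfin0, hcard0⟩ := hN.card_deep_le hdet hP hp2 hψ
  set X0 := {f : D → k | ∃ b, IsBCocycle M P τ₀ b ∧ S.DeepAll ψ b 1 ∧ f = fun σ : D => b σ}
  have : Finite X0 := hfin0.to_subtype
  -- the dual of `k`
  let : Algebra (ZMod p) k := ZMod.algebra _ p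
  have : Module.Finite (ZMod p) k := Module.Finite.of_finite
  have : Finite (k →+ ZMod p) := Finite.of_injective _ DFunLike.coe_injective
  have hdual : Nat.card (k →+ ZMod p) ≤ Nat.card k := by
    have : Finite (k →ₗ[ZMod p] ZMod p) := Finite.of_injective _ DFunLike.coe_injective
    refine (Nat.card_le_card_of_injective (fun f => AddMonoidHom.toZModLinearMap p f)
      fun f g h => AddMonoidHom.ext fun x => DFunLike.congr_fun h x).trans (le_of_eq ?_)
    rw [Module.natCard_eq_pow_finrank (K := ZMod p) (V := k →ₗ[ZMod p] ZMod p),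
      Module.natCard_eq_pow_finrank (K := ZMod p) (V := k), Module.finrank_linearMap_self]
  choose rep hrep using fun x : X => x.2
  let V : X → (k →+ ZMod p) := fun x => AddMonoidHom.mk' (fun c => S.valClass (fam ψ (rep x) c))
    fun c c' => by
      rw [fam_add_left]
      exact Tame.valClass_add hP ((hN.isKChar hdet hP (hrep x).1).isChar ψ c)
        ((hN.isKChar hdet hP (hrep x).1).isChar ψ c')
  have hdiff : ∀ x y : X, V x = V y → (fun σ : D => (rep x - rep y) σ) ∈ X0 := by
    intro x y hxy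
    refine ⟨rep x - rep y, (hrep x).1.sub (hrep y).1, fun c => ?_, rfl⟩
    have hk := hN.isKChar hdet hP ((hrep x).1.sub (hrep y).1)
    have hky := hN.isKChar hdet hP (hrep y).1
    refine Tame.deep_one_of_valClass_eq_zero hP (hk.isChar ψ c) ?_
    have h : S.valClass (fam ψ (rep x) c) = S.valClass (fam ψ (rep y) c) :=
      DFunLike.congr_fun hxy c
    rw [show fam ψ (rep x) c = fam ψ (rep x - rep y) c + fam ψ (rep y) c by
      rw [← fam_add_right, sub_add_cancel],
      Tame.valClass_add hP (hk.isChar ψ c) (hky.isChar ψ c)] at h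
    exact add_eq_right.mp h
  classical
  let base : X → X := fun x => (⟨x, rfl⟩ : ∃ y, V y = V x).choose
  have hbase : ∀ x y, V x = V y → base x = base y := by
    intro x y h
    simp only [base, h]
  let T : X → (k →+ ZMod p) × X0 := fun x =>
    (V x, ⟨_, hdiff x (base x) (⟨x, rfl⟩ : ∃ y, V y = V x).choose_spec.symm⟩)
  have hT : Function.Injective T := by
    intro x y h
    simp only [T, Prod.ext_iff, Subtype.ext_iff] at h
    obtain ⟨h1, h2⟩ := h
    refine Subtype.ext ?_
    rw [(hrep x).2, (hrep y).2]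
    funext σ
    have h3 := congrFun h2 σ
    rw [hbase x y h1] at h3
    exact sub_left_inj.mp h3
  have : Finite X := Finite.of_injective T hT
  refine ⟨Set.toFinite X, (Nat.card_le_card_of_injective T hT).trans ?_⟩
  rw [Nat.card_prod, sq]
  exact Nat.mul_le_mul hdual hcard0

end FLTAgent.LocP
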