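import Fermat.Agent.LocP.Kummer

/-!
# Wild inertia and the standard base fields

`IsWild`: inertia elements fixing all roots of `X ^ m + p` for `p ∤ m`.  They deepen every element
(`IsWild.val_sub_lt`) and contain the commutators of inertia (`commutator_isWild`); Frobenius acts
on the tame quotient by the `p`-th power (`frobenius_conj_isWild`).  `mkTame` builds the base
fields used for Kummer theory.
-/

set_option autoImplicit false
set_option linter.unusedSectionVars false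

noncomputable section

namespace FLTAgent.LocP

open scoped Pointwise

local notation "Qb" => AlgebraicClosure ℚ
local notation "GQ" => (AlgebraicClosure ℚ ≃ₐ[ℚ] AlgebraicClosure ℚ)

variable {P : ValuationSubring Qb} {p : ℕ} [Fact p.Prime]

local notation "v" => P.valuation
local notation "D" => P.decompositionSubgroup ℚ
local notation "Ine" => P.inertiaSubgroupIn ℚ

/-- Inertia elements fixing every root of `X ^ m + p` with `p ∤ m`. -/
def IsWild (P : ValuationSubring Qb) (p : ℕ) (σ : GQ) : Prop :=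
  σ ∈ P.inertiaSubgroupIn ℚ ∧
    ∀ m : ℕ, 0 < m → ¬ p ∣ m → ∀ ϖ : Qb, ϖ ^ m = -(p : Qb) → σ ϖ = ϖ

variable (hP : P.LiesOverPrime p)
include hP

/-- The valuation of an algebraic number is a rational power of `|p|`. -/
theorem exists_val_pow_orbit {y : Qb} (hy : y ≠ 0) :
    ∃ n : ℕ, ∃ j : ℤ, 0 < n ∧ v y ^ n = v (p : Qb) ^ j := by
  classical
  set O : Finset Qb :=
    ((minpoly ℚ y).aroots Qb).toFinset.filter fun z => ∃ σ ∈ Ine, σ y = z with hO
  have hint : IsIntegral ℚ y := Algebra.IsIntegral.isIntegral y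
  have hmem : ∀ z, z ∈ O ↔ ∃ σ ∈ Ine, σ y = z := by
    intro z
    rw [hO, Finset.mem_filter, and_iff_right_iff_imp]
    rintro ⟨σ, -, rfl⟩
    rw [Multiset.mem_toFinset, Polynomial.mem_aroots]
    exact ⟨minpoly.ne_zero hint, by rw [Polynomial.aeval_algHom_apply, minpoly.aeval, map_zero]⟩
  have hfix : ∀ σ ∈ Ine, σ (∏ z ∈ O, z) = ∏ z ∈ O, z := by
    intro σ hσ
    rw [map_prod]
    refine Finset.prod_bij' (fun z _ => σ z) (fun z _ => σ⁻¹ z) ?_ ?_ ?_ ?_ ?_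
    · intro z hz
      obtain ⟨τ, hτ, rfl⟩ := (hmem z).mp hz
      exact (hmem _).mpr ⟨σ * τ, mul_mem hσ hτ, rfl⟩
    · intro z hz
      obtain ⟨τ, hτ, rfl⟩ := (hmem z).mp hz
      exact (hmem _).mpr ⟨σ⁻¹ * τ, mul_mem (inv_mem hσ) hτ, rfl⟩
    · intro z _
      rw [← AlgEquiv.mul_apply, inv_mul_cancel, AlgEquiv.one_apply]
    · intro z _
      rw [← AlgEquiv.mul_apply, mul_inv_cancel, AlgEquiv.one_apply]
    · intro z _; rfl
  have hne : (∏ z ∈ O, z) ≠ 0 := by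
    refine Finset.prod_ne_zero_iff.mpr fun z hz => ?_
    obtain ⟨τ, -, rfl⟩ := (hmem z).mp hz
    simpa using hy
  obtain ⟨j, hj⟩ := exists_val_eq_zpow hP hne hfix
  refine ⟨O.card, j, Finset.card_pos.mpr ⟨y, (hmem y).mpr ⟨1, one_mem _, rfl⟩⟩, ?_⟩
  rw [← hj, map_prod, ← Finset.prod_const]
  refine Finset.prod_congr rfl fun z hz => ?_
  obtain ⟨τ, hτ, rfl⟩ := (hmem z).mp hz
  exact (val_map (inertia_le_decomposition hτ) y).symm

/-- Wild elements deepen every element. -/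
theorem IsWild.val_sub_lt {σ : GQ} (hσ : IsWild P p σ) {y : Qb} (hy : y ≠ 0) :
    v (σ y - y) < v y := by
  obtain ⟨n, j, hn, hj⟩ := exists_val_pow_orbit hP hy
  obtain ⟨s, m, hm, hnm⟩ := Nat.exists_eq_pow_mul_and_not_dvd hn.ne' p (Fact.out : p.Prime).ne_one
  have hm0 : 0 < m := Nat.pos_of_ne_zero fun h => hm (h ▸ dvd_zero p)
  obtain ⟨ϖ, hϖ⟩ := IsAlgClosed.exists_pow_nat_eq (-(p : Qb)) hm0
  exact val_inertia_sub_lt hP hϖ hm0 hσ.1 (hσ.2 m hm0 hm ϖ hϖ) hy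
    (hnm ▸ hj)

omit hP in
theorem isWild_iff_theta {σ : GQ} : IsWild P p σ ↔ σ ∈ Ine ∧
    ∀ m : ℕ, 0 < m → ¬ p ∣ m → ∀ ϖ : Qb, ϖ ^ m = -(p : Qb) → theta ϖ σ = 1 := by
  refine and_congr_right fun _ => forall_congr' fun m => forall_congr' fun hm => forall_congr'
    fun _ => forall_congr' fun ϖ => forall_congr' fun hϖ => ?_
  rw [theta, div_eq_one_iff_eq (uniformizer_ne_zero hϖ hm)]

/-- Commutators of inertia are wild. -/
theorem commutator_isWild {σ τ : GQ} (hσ : σ ∈ Ine) (hτ : τ ∈ Ine) :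
    IsWild P p (σ * τ * σ⁻¹ * τ⁻¹) := by
  have hmem : σ * τ * σ⁻¹ * τ⁻¹ ∈ Ine :=
    mul_mem (mul_mem (mul_mem hσ hτ) (inv_mem hσ)) (inv_mem hτ)
  refine isWild_iff_theta.mpr ⟨hmem, fun m hm hpm ϖ hϖ => ?_⟩
  have h0 := uniformizer_ne_zero hϖ hm
  have hst := conj_mem_inertia (inertia_le_decomposition hσ) hτ
  rw [theta_mul hP hϖ hm hpm hst, theta_conj hP hϖ hm hpm hτ,
    GalCommon.inertia_apply_of_pow_eq_one Fact.out hP hpm hσ (theta_pow hϖ hm τ),
    ← theta_mul hP hϖ hm hpm hτ, mul_inv_cancel, theta_one h0]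

/-- Frobenius acts on the tame quotient by the `p`-th power. -/
theorem frobenius_conj_isWild {φ : GQ} (hφ : P.IsFrobeniusAt φ p) {σ : GQ} (hσ : σ ∈ Ine) :
    IsWild P p (φ * σ * φ⁻¹ * (σ ^ p)⁻¹) := by
  have hc := conj_mem_inertia hφ.mem_decompositionSubgroup hσ
  refine isWild_iff_theta.mpr ⟨mul_mem hc (inv_mem (pow_mem hσ p)), fun m hm hpm ϖ hϖ => ?_⟩
  have h0 := uniformizer_ne_zero hϖ hm
  have hpow : ∀ n : ℕ, theta ϖ (σ ^ n) = theta ϖ σ ^ n := by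
    intro n
    induction n with
    | zero => simp [theta_one h0]
    | succ n ih => rw [pow_succ, theta_mul hP hϖ hm hpm (pow_mem hσ n), ih, pow_succ]
  rw [theta_mul hP hϖ hm hpm hc, theta_conj hP hϖ hm hpm hσ,
    frob_apply_root hP hφ hpm (theta_pow hϖ hm σ), ← hpow,
    ← theta_mul hP hϖ hm hpm (pow_mem hσ p), mul_inv_cancel, theta_one h0]

/-- The decomposition group preserves wildness. -/
theorem IsWild.conj {σ g : GQ} (hσ : IsWild P p σ) (hg : g ∈ D) : IsWild P p (g * σ * g⁻¹) := by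
  refine isWild_iff_theta.mpr ⟨conj_mem_inertia hg hσ.1, fun m hm hpm ϖ hϖ => ?_⟩
  rw [theta_conj hP hϖ hm hpm hσ.1, (isWild_iff_theta.mp hσ).2 m hm hpm ϖ hϖ, map_one]

omit hP in
/-- A primitive root of unity with an inertia element realising it. -/
theorem exists_primitive (n : ℕ) (hn : 0 < n) : ∃ z : Qb, IsPrimitiveRoot z n := by
  have : NeZero n := ⟨hn.ne'⟩
  exact HasEnoughRootsOfUnity.exists_primitiveRoot Qb n

theorem res_root_injective {n : ℕ} (hn : ¬ p ∣ n) {z z' : Qb} (hz : z ^ n = 1) (hz' : z' ^ n = 1)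
    (h : res P z = res P z') : z = z' := by
  have hn0 : n ≠ 0 := fun h0 => hn (h0 ▸ dvd_zero p)
  have h1 : ∀ x : Qb, x ^ n = 1 → v x ≤ 1 := fun x hx =>
    ((pow_eq_one_iff_of_nonneg zero_le hn0).mp (by rw [← map_pow, hx, map_one])).le
  exact GalCommon.eq_of_pow_eq_one_of_sub_mem Fact.out hP hn hz hz'
    (P.mem_nonunits_iff.mpr ((res_eq_iff (h1 z hz) (h1 z' hz')).mp h))

/-- Elements of the decomposition group fix roots of unity whose order divides `p - 1`. -/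
theorem apply_root_eq_self {g : GQ} (hg : g ∈ D) {n : ℕ} (hn : n ∣ p - 1) {z : Qb}
    (hz : z ^ n = 1) : g z = z := by
  have hpp : p.Prime := Fact.out
  have hn' : ¬ p ∣ n := fun h => by
    have := Nat.le_of_dvd (by have := hpp.two_le; omega) (h.trans hn)
    have := hpp.two_le
    omega
  have hn0 : n ≠ 0 := fun h0 => hn' (h0 ▸ dvd_zero p)
  have hz1 : v z ≤ 1 :=
    ((pow_eq_one_iff_of_nonneg zero_le hn0).mp (by rw [← map_pow, hz, map_one])).le
  refine res_root_injective hP hn' (by rw [← map_pow, hz, map_one]) hz ?_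
  obtain ⟨i, hi⟩ := exists_pow_residue_single hP hg (res P z)
  rw [res_map hg hz1, hi]
  have hp1 : res P z ^ p = res P z := by
    obtain ⟨c, hc⟩ := hn
    rw [← Nat.sub_add_cancel hpp.pos, pow_succ, hc, pow_mul, ← res_pow hz1, hz, res_one, one_pow,
      one_mul]
  clear hi
  induction i with
  | zero => simp
  | succ i ih => rw [pow_succ, pow_mul, ih, hp1]

/-- An inertia element fixing `ϖ` fixes `ζ`. -/
theorem apply_zeta_of_theta {ϖ ζ : Qb} {e E : ℕ} (hϖ : ϖ ^ e = -(p : Qb))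
    (hζ : IsPrimitiveRoot ζ p) (he : e = (p - 1) * E) (hE : 0 < E) {σ : GQ} (hσ : σ ∈ Ine)
    (h : theta ϖ σ = 1) : σ ζ = ζ := by
  have hpp : p.Prime := Fact.out
  have he0 : 0 < e := he ▸ Nat.mul_pos (by have := hpp.two_le; omega) hE
  obtain ⟨a, -, ha⟩ := hζ.eq_pow_of_pow_eq_one
    (by rw [← map_pow, hζ.pow_eq_one, map_one] : σ ζ ^ p = 1)
  have h1 := res_theta_pow_eq hP hϖ hζ he he0 hσ ha.symm
  rw [h, one_pow, res_one] at h1
  have := charP_res hP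
  rw [← ha, ← Nat.mod_add_div a p, pow_add, pow_mul, hζ.pow_eq_one, one_pow, mul_one,
    (CharP.natCast_eq_natCast (IsLocalRing.ResidueField P) p).mp
      (show ((a : ℕ) : IsLocalRing.ResidueField P) = ((1 : ℕ) : IsLocalRing.ResidueField P) by
        rw [← h1, Nat.cast_one]), Nat.mod_eq_of_lt hpp.one_lt, pow_one]

/-- The base field cut out by `ϖ`, `ζ`, the roots of unity of order `e` and a normal
condition. -/
def mkTame {ϖ ζ : Qb} {e E : ℕ} (hϖ : ϖ ^ e = -(p : Qb)) (hζ : IsPrimitiveRoot ζ p)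
    (he : e = (p - 1) * E) (hE : 0 < E) (hpe : ¬ p ∣ e) (K : Subgroup GQ)
    (hKconj : ∀ g ∈ D, ∀ σ ∈ D, σ ∈ K → g * σ * g⁻¹ ∈ K)
    (hKI : ∀ σ ∈ Ine, theta ϖ σ = 1 → σ ∈ K) : Tame P p where
  ϖ := ϖ
  ζ := ζ
  e := e
  E := E
  pow_eq := hϖ
  prim := hζ
  e_eq := he
  E_pos := hE
  not_dvd := hpe
  GF :=
    { carrier := {σ | (σ ∈ D ∧ σ ∈ K) ∧ σ ϖ = ϖ ∧ σ ζ = ζ ∧ ∀ z : Qb, z ^ e = 1 → σ z = z}
      one_mem' := ⟨⟨one_mem _, one_mem _⟩, rfl, rfl, fun _ _ => rfl⟩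
      mul_mem' := fun {a b} ha hb =>
        ⟨⟨mul_mem ha.1.1 hb.1.1, mul_mem ha.1.2 hb.1.2⟩,
          by rw [AlgEquiv.mul_apply, hb.2.1, ha.2.1], by rw [AlgEquiv.mul_apply, hb.2.2.1, ha.2.2.1],
          fun z hz => by rw [AlgEquiv.mul_apply, hb.2.2.2 z hz, ha.2.2.2 z hz]⟩
      inv_mem' := fun {a} ha =>
        ⟨⟨inv_mem ha.1.1, inv_mem ha.1.2⟩,
          a.injective (by rw [← AlgEquiv.mul_apply, mul_inv_cancel, AlgEquiv.one_apply, ha.2.1]),
          a.injective (by rw [← AlgEquiv.mul_apply, mul_inv_cancel, AlgEquiv.one_apply, ha.2.2.1]),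
          fun z hz => a.injective (by
            rw [← AlgEquiv.mul_apply, mul_inv_cancel, AlgEquiv.one_apply, ha.2.2.2 z hz])⟩ }
  le_D σ hσ := hσ.1.1
  fix_ϖ σ hσ := hσ.2.1
  fix_ζ σ hσ := hσ.2.2.1
  inertia_mem σ hσ h := ⟨⟨inertia_le_decomposition hσ, hKI σ hσ h⟩,
    apply_uniformizer_eq hϖ (he ▸ Nat.mul_pos (by have := (Fact.out : p.Prime).two_le; omega) hE) h,
    apply_zeta_of_theta hP hϖ hζ he hE hσ h,
    fun z hz => GalCommon.inertia_apply_of_pow_eq_one Fact.out hP hpe hσ hz⟩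
  conj_mem g hg σ hσ := by
    obtain ⟨⟨hD, hK⟩, hϖ', hζ', hz'⟩ := hσ
    have he0 : 0 < e := he ▸ Nat.mul_pos (by have := (Fact.out : p.Prime).two_le; omega) hE
    refine ⟨⟨mul_mem (mul_mem hg hD) (inv_mem hg), hKconj g hg σ hD hK⟩, ?_, ?_, fun z hz => ?_⟩
    · have h1 : σ (g⁻¹ ϖ) = g⁻¹ ϖ := by
        rw [← theta_mul_uniformizer (uniformizer_ne_zero hϖ he0) g⁻¹, map_mul, hϖ',
          hz' _ (theta_pow hϖ he0 g⁻¹)]
      rw [AlgEquiv.mul_apply, AlgEquiv.mul_apply, h1, ← AlgEquiv.mul_apply, mul_inv_cancel,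
        AlgEquiv.one_apply]
    · obtain ⟨a, -, ha⟩ := hζ.eq_pow_of_pow_eq_one
        (by rw [← map_pow, hζ.pow_eq_one, map_one] : g⁻¹ ζ ^ p = 1)
      have h1 : σ (g⁻¹ ζ) = g⁻¹ ζ := by rw [← ha, map_pow, hζ']
      rw [AlgEquiv.mul_apply, AlgEquiv.mul_apply, h1, ← AlgEquiv.mul_apply, mul_inv_cancel,
        AlgEquiv.one_apply]
    · have h1 : σ (g⁻¹ z) = g⁻¹ z := hz' _ (by rw [← map_pow, hz, map_one])
      rw [AlgEquiv.mul_apply, AlgEquiv.mul_apply, h1, ← AlgEquiv.mul_apply, mul_inv_cancel,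
        AlgEquiv.one_apply]

end FLTAgent.LocP
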