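import Fermat.Agent.LocP.Norm
import Fermat.Agent.LocP.Wild
import Fermat.Agent.FlatHopf.Rat

/-!
# Orders over `ℤ_(p)` seen at a place over `p`

Duality bounds for a self-paired group (`Pairing.exists_dual`, `DualPair.val_ev_sub_one_le`), the
norm exponents and leading coefficients of points with tame stabiliser (`exists_nrm_eq_pow`,
`lead_act`), and the descent of a translation invariant function to a fixed integral element which
moves at least as far (`exists_fixed_mover`).
-/

set_option autoImplicit false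
set_option linter.unusedSectionVars false

noncomputable section

namespace FLTAgent.LocP

open FLTAgent.FlatHopf IsLocalRing
open scoped Pointwise

local notation "Qb" => AlgebraicClosure ℚ
local notation "GQ" => (AlgebraicClosure ℚ ≃ₐ[ℚ] AlgebraicClosure ℚ)

variable {P : ValuationSubring Qb} {p : ℕ} [Fact p.Prime]

local notation "v" => P.valuation
local notation "D" => P.decompositionSubgroup ℚ
local notation "Ine" => P.inertiaSubgroupIn ℚ

theorem galR_apply (σ : GQ) (x : Qb) : galR p σ x = σ x := rfl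

/-- `ℤ_(p)` lands in a place over `p`. -/
theorem algebraMap_ratLocalized_mem (hP : P.LiesOverPrime p) (r : (GaloisRep.ratLocalizedAt p)) :
    algebraMap (GaloisRep.ratLocalizedAt p) Qb r ∈ P := by
  show algebraMap ℚ Qb (r : ℚ) ∈ P
  rw [← P.valuation_le_one_iff]
  have hden : ¬ p ∣ (r : ℚ).den := fun h =>
    (Fact.out : p.Prime).ne_one (Nat.eq_one_of_dvd_coprimes r.2 h dvd_rfl)
  rw [← Rat.num_div_den (r : ℚ), map_div₀, map_div₀, map_intCast, map_natCast,
    val_natCast_eq_one hP hden, div_one]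
  exact (P.valuation_le_one_iff _).mpr (intCast_mem P _)

variable {G : Type} [AddCommGroup G] [Finite G] {act : GQ →* AddMonoid.End G}
  {H : Subalgebra (GaloisRep.ratLocalizedAt p) (G → Qb)}

/-- The restriction of an order to a stable subgroup. -/
theorem isOrder_restrict {G' : Type} [AddCommGroup G'] [Finite G']
    {act' : GQ →* AddMonoid.End G'} (hH : IsOrder (galR p) act H) (i : G' →+ G)
    (hi : Function.Injective i) (heq : ∀ σ x, i (act' σ x) = act σ (i x)) :
    IsOrder (galR p) act'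
      (H.map (AlgHom.pi fun x => Pi.evalAlgHom (GaloisRep.ratLocalizedAt p) (fun _ : G => Qb) (i x))) := by
  refine ⟨?_, ?_, ?_, ?_⟩
  · rw [Subalgebra.map_toSubmodule]; exact hH.fg.map _
  · rintro _ ⟨a, ha, rfl⟩ σ x
    show a (i (act' σ x)) = galR p σ (a (i x))
    rw [heq, hH.equivariant a ha]
  · exact span_eq_top_of_separates _ fun x y hxy => hi (hH.separates fun a ha =>
      hxy _ ⟨a, ha, rfl⟩)
  · rintro _ ⟨a, ha, rfl⟩
    have key : ∀ F ∈ prodSpan (Subalgebra.toSubmodule H) (Subalgebra.toSubmodule H),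
        (fun z : G' × G' => F (i z.1, i z.2)) ∈ prodSpan
          (Subalgebra.toSubmodule (H.map (AlgHom.pi fun x =>
            Pi.evalAlgHom (GaloisRep.ratLocalizedAt p) (fun _ : G => Qb) (i x))))
          (Subalgebra.toSubmodule (H.map (AlgHom.pi fun x =>
            Pi.evalAlgHom (GaloisRep.ratLocalizedAt p) (fun _ : G => Qb) (i x)))) := by
      intro F hF
      induction hF using Submodule.span_induction with
      | mem F hF =>
        obtain ⟨b, hb, c, hc, rfl⟩ := hF
        exact Submodule.subset_span ⟨_, ⟨b, hb, rfl⟩, _, ⟨c, hc, rfl⟩, rfl⟩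
      | zero => exact zero_mem _
      | add F F' _ _ ih ih' => exact add_mem ih ih'
      | smul r F _ ih => exact Submodule.smul_mem _ r ih
    convert key _ (hH.comul a ha) using 1
    funext z
    show a (i (z.1 + z.2)) = a (i z.1 + i z.2)
    rw [map_add]

theorem exists_aSpan_lift {G' : Type} [AddCommGroup G'] [Finite G'] (i : G' →+ G)
    {F : G' → Qb}
    (hF : F ∈ aSpan (H.map (AlgHom.pi fun x => Pi.evalAlgHom (GaloisRep.ratLocalizedAt p) (fun _ : G => Qb) (i x))) P) :
    ∃ F' ∈ aSpan H P, ∀ x, F' (i x) = F x := by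
  induction hF using Submodule.span_induction with
  | mem f hf =>
    obtain ⟨a, ha, rfl⟩ := hf
    exact ⟨a, Submodule.subset_span ha, fun _ => rfl⟩
  | zero => exact ⟨0, zero_mem _, fun _ => rfl⟩
  | add f f' _ _ ih ih' =>
    obtain ⟨F1, h1, e1⟩ := ih
    obtain ⟨F2, h2, e2⟩ := ih'
    exact ⟨F1 + F2, add_mem h1 h2, fun x => by simp [e1, e2]⟩
  | smul c f _ ih =>
    obtain ⟨F1, h1, e1⟩ := ih
    exact ⟨c • F1, Submodule.smul_mem _ c h1, fun x => by simp [e1]⟩

/-! ### Self-duality -/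

/-- A pairing with values in `ℤ/p`, equivariant after exponentiating to the roots of unity. -/
structure Pairing (ζ : Qb) (act : GQ →* AddMonoid.End G) where
  /-- The bilinear form. -/
  B : G →+ G →+ ZMod p
  equivariant : ∀ σ d x, zp ζ (B (act σ d) (act σ x)) = σ (zp ζ (B d x))
  nondeg : ∀ d, (∀ x, B d x = 0) → d = 0

/-- A dual order, with the expansions of the pairing. -/
structure DualPair (ζ : Qb) (B : G →+ G →+ ZMod p) (act : GQ →* AddMonoid.End G)
    (H S : Subalgebra (GaloisRep.ratLocalizedAt p) (G → Qb)) : Prop where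
  order : IsOrder (galR p) act H
  dual : IsOrder (galR p) act S
  expansion : ∃ (ι : Type) (_ : Fintype ι) (f : ι → G → Qb) (a : ι → G → Qb),
    (∀ i, f i ∈ S) ∧ (∀ i, a i ∈ H) ∧ ∀ d x, zp ζ (B d x) = ∑ i, f i d * a i x

theorem Pairing.exists_dual {ζ : Qb} (hζ : IsPrimitiveRoot ζ p) (B : Pairing (p := p) ζ act)
    (hH : IsOrder (galR p) act H) : ∃ S, DualPair ζ B.B act H S := by
  have := Fintype.ofFinite G
  obtain ⟨S, hS, -, hexp⟩ := hH.exists_dualOrder fixedIsFrac_galR (act' := act)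
    (fun d x => zp ζ (B.B d x)) (fun d x y => by rw [map_add, zp_add hζ])
    (fun d => by rw [map_zero, zp_zero])
    (fun d d' x => by rw [map_add, AddMonoidHom.add_apply, zp_add hζ])
    (fun d d' h => by
      rw [← sub_eq_zero]
      refine B.nondeg _ fun x => ?_
      have h1 : zp ζ (B.B d x) = zp ζ (B.B d' x) := congrFun h x
      rw [← zp_eq_one_iff hζ, sub_eq_add_neg, map_add, map_neg, AddMonoidHom.add_apply,
        AddMonoidHom.neg_apply, zp_add hζ, h1, ← zp_add hζ, add_neg_cancel, zp_zero])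
    (fun σ d x => B.equivariant σ d x)
  exact ⟨S, hH, hS, hexp⟩

section duality

variable {ζ : Qb} {B : G →+ G →+ ZMod p} {S : Subalgebra (GaloisRep.ratLocalizedAt p) (G → Qb)}
  (hHS : DualPair ζ B act H S) (hP : P.LiesOverPrime p)

include hHS hP

theorem DualPair.ev_mem_aSpan (d : G) : (fun x => zp ζ (B d x)) ∈ aSpan H P := by
  obtain ⟨ι, _, f, a, hf, ha, h⟩ := hHS.expansion
  have he : (fun x => zp ζ (B d x)) =
      ∑ i, (⟨f i d, order_apply_mem hHS.dual (algebraMap_ratLocalized_mem hP) (hf i) d⟩ : P) • a i := by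
    funext x
    rw [h d x, Finset.sum_apply]
    rfl
  rw [he]
  exact sum_mem fun i _ => Submodule.smul_mem _ _ (Submodule.subset_span (ha i))

/-- The characters are divisible by the dual norm. -/
theorem DualPair.exists_ev_sub_one_eq (d : G) :
    ∃ δ : Qb, v δ = nrm hHS.dual (algebraMap_ratLocalized_mem hP) d ∧
      ∃ F ∈ aSpan H P, ∀ x, zp ζ (B d x) - 1 = δ * F x := by
  set hA := algebraMap_ratLocalized_mem (P := P) hP
  obtain ⟨b, hb, hbd⟩ := exists_eq_nrm hHS.dual hA d
  obtain ⟨ι, _, f, a, hf, ha, h⟩ := hHS.expansion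
  refine ⟨b d - b 0, hbd, ?_⟩
  rcases eq_or_ne d 0 with rfl | hd
  · exact ⟨0, zero_mem _, fun x => by simp [zp_zero]⟩
  have hδ : b d - b 0 ≠ 0 := fun h0 => hd ((nrm_eq_zero_iff hHS.dual hA).mp
    (by rw [← hbd, h0, map_zero]))
  have hq : ∀ g ∈ S, (g d - g 0) / (b d - b 0) ∈ P := fun g hg => by
    rw [← P.valuation_le_one_iff, map_div₀,
      div_le_one₀ (zero_lt_iff.mpr ((Valuation.ne_zero_iff _).mpr hδ)), hbd]
    exact val_diff_le_nrm hHS.dual hA d hg
  refine ⟨∑ i, (⟨_, hq _ (hf i)⟩ : P) • a i, sum_mem fun i _ =>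
    Submodule.smul_mem _ _ (Submodule.subset_span (ha i)), fun x => ?_⟩
  have h1 : ∑ i, f i 0 * a i x = 1 := by rw [← h, map_zero]; exact zp_zero ζ
  rw [Finset.sum_apply, Finset.mul_sum, h d x, ← h1, ← Finset.sum_sub_distrib]
  refine Finset.sum_congr rfl fun i _ => ?_
  show f i d * a i x - f i 0 * a i x = (b d - b 0) * ((f i d - f i 0) / (b d - b 0) * a i x)
  field_simp

/-- The symmetric divisibility. -/
theorem DualPair.exists_ev_sub_one_eq' (x : G) :
    ∃ δ : Qb, v δ = nrm hHS.order (algebraMap_ratLocalized_mem hP) x ∧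
      ∃ F ∈ aSpan S P, ∀ d, zp ζ (B d x) - 1 = δ * F d := by
  refine DualPair.exists_ev_sub_one_eq (B := B.flip) (H := S) (S := H) ⟨hHS.dual, hHS.order, ?_⟩ hP x
  obtain ⟨ι, _, f, a, hf, ha, h⟩ := hHS.expansion
  exact ⟨ι, inferInstance, a, f, ha, hf, fun d x => (h x d).trans
    (Finset.sum_congr rfl fun i _ => mul_comm _ _)⟩

theorem DualPair.val_ev_sub_one_le (d x : G) :
    v (zp ζ (B d x) - 1) ≤ nrm hHS.dual (algebraMap_ratLocalized_mem hP) d *
      nrm hHS.order (algebraMap_ratLocalized_mem hP) x := by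
  obtain ⟨δ, hδ, F, hF, h⟩ := hHS.exists_ev_sub_one_eq hP d
  rcases eq_or_ne δ 0 with rfl | hδ0
  · rw [h x, zero_mul, map_zero]; exact zero_le
  have h0 : F 0 = 0 := by
    have := h 0
    rw [map_zero, zp_zero, sub_self] at this
    exact (mul_eq_zero.mp this.symm).resolve_left hδ0
  rw [h x, map_mul, hδ]
  refine mul_le_mul' le_rfl ?_
  simpa [h0] using val_aSpan_diff_le hHS.order (algebraMap_ratLocalized_mem hP) 0 x hF

end duality

/-! ### The norm and inertia -/

variable (hH : IsOrder (galR p) act H) (hP : P.LiesOverPrime p)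

local notation "N" => nrm hH (algebraMap_ratLocalized_mem (P := P) hP)

include hH in
theorem apply_act (σ : GQ) {a : G → Qb} (ha : a ∈ H) (x : G) : a (act σ x) = σ (a x) :=
  hH.equivariant a ha σ x

include hH in
theorem apply_zero_fixed (σ : GQ) {a : G → Qb} (ha : a ∈ H) : σ (a 0) = a 0 := by
  rw [← apply_act hH σ ha 0, map_zero]

/-- A deep move of the functions deepens the norm. -/
theorem nrm_act_sub_lt {σ : GQ} {x : G} (hx : x ≠ 0)
    (hσ : ∀ a ∈ H, a x - a 0 ≠ 0 → v (σ (a x - a 0) - (a x - a 0)) < v (a x - a 0)) :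
    N (act σ x - x) < N x := by
  obtain ⟨a, ha, hax⟩ := exists_translate_eq hH (algebraMap_ratLocalized_mem hP) x (act σ x - x)
  rw [← hax, add_sub_cancel, apply_act hH σ ha,
    show σ (a x) - a x = σ (a x - a 0) - (a x - a 0) by
      rw [map_sub, apply_zero_fixed hH σ ha]; ring]
  rcases eq_or_ne (a x - a 0) 0 with h0 | h0
  · rw [h0, map_zero, sub_zero, map_zero]
    exact zero_lt_iff.mpr fun h => hx ((nrm_eq_zero_iff hH _).mp h)
  · exact (hσ a ha h0).trans_le (val_diff_le_nrm hH _ x ha)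

theorem IsWild.nrm_lt {σ : GQ} (hσ : IsWild P p σ) {x : G} (hx : x ≠ 0) :
    N (act σ x - x) < N x :=
  nrm_act_sub_lt hH hP hx fun _ _ h => hσ.val_sub_lt hP h

/-- The exponent of the norm of a point with tame stabiliser. -/
theorem exists_nrm_eq_pow {ϖ : Qb} {e : ℕ} (hϖ : ϖ ^ e = -(p : Qb)) (he : 0 < e) (hpe : ¬ p ∣ e)
    {x : G} (hstab : ∀ σ ∈ Ine, theta ϖ σ = 1 → act σ x = x) (hpx : p • x = 0) (hx : x ≠ 0)
    (hlt : N x < 1) : ∃ n : ℕ, N x = v ϖ ^ n ∧ 1 ≤ n ∧ n * (p - 1) ≤ e := by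
  obtain ⟨b, hb, hbfix⟩ := exists_fixed_eq_nrm hH (algebraMap_ratLocalized_mem hP) x
  have hb0 : b ≠ 0 := fun h => hx ((nrm_eq_zero_iff hH _).mp (by rw [← hb, h, map_zero]))
  obtain ⟨j, hj⟩ := exists_val_pow_eq_zpow hP hϖ he hpe hb0
    fun σ hσ h => hbfix σ (hstab σ hσ h)
  have hπ0 : 0 < v ϖ :=
    zero_lt_iff.mpr ((Valuation.ne_zero_iff _).mpr (uniformizer_ne_zero hϖ he))
  have hπ1 : v ϖ < 1 := by
    rw [← pow_lt_one_iff_of_nonneg zero_le he.ne', val_uniformizer_pow hϖ]
    exact val_p_lt_one hP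
  have hbj : v b = v ϖ ^ j := by
    refine (pow_left_inj₀ zero_le zero_le he.ne').mp ?_
    rw [hj, ← val_uniformizer_pow hϖ, ← zpow_natCast (v ϖ), ← zpow_natCast (v ϖ ^ j), ← zpow_mul,
      ← zpow_mul, mul_comm]
  rw [← hb, hbj, ← zpow_zero (v ϖ), zpow_lt_zpow_iff_right_of_lt_one₀ hπ0 hπ1] at hlt
  obtain ⟨n, rfl⟩ : ∃ n : ℕ, j = n := ⟨j.toNat, by omega⟩
  rw [zpow_natCast] at hbj
  refine ⟨n, by rw [← hb, hbj], by omega, ?_⟩
  have h1 := valuation_le_nrm_pow hH (algebraMap_ratLocalized_mem hP) (Fact.out : p.Prime) hpx hx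
    (by rw [← hb, hbj]; exact pow_lt_one₀ zero_le hπ1 (by omega))
  rw [← hb, hbj, ← pow_mul, ← val_uniformizer_pow hϖ] at h1
  by_contra hcon
  push Not at hcon
  exact absurd h1 (not_le.mpr (pow_lt_pow_right_of_lt_one₀ hπ0 hπ1 hcon))

/-- The leading coefficient of `h` at `x` at level `n`. -/
def lead (P : ValuationSubring Qb) (ϖ : Qb) (h : G → Qb) (n : ℕ) (x : G) : ResidueField P :=
  res P ((h x - h 0) / ϖ ^ n)

section lead

variable {ϖ : Qb} {e : ℕ} (hϖ : ϖ ^ e = -(p : Qb)) (he : 0 < e) {h : G → Qb} (hh : h ∈ H) {n : ℕ}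

include hH hP hϖ he hh

theorem val_lead_le {x : G} (hx : N x ≤ v ϖ ^ n) : v ((h x - h 0) / ϖ ^ n) ≤ 1 := by
  rw [map_div₀, map_pow,
    div_le_one₀ (pow_pos (zero_lt_iff.mpr ((Valuation.ne_zero_iff _).mpr
      (uniformizer_ne_zero hϖ he))) n)]
  exact (val_diff_le_nrm hH _ x hh).trans hx

theorem lead_add (hn : 0 < n) {x y : G} (hx : N x ≤ v ϖ ^ n) (hy : N y ≤ v ϖ ^ n) :
    lead P ϖ h n (x + y) = lead P ϖ h n x + lead P ϖ h n y := by
  have hπ0 : 0 < v ϖ :=
    zero_lt_iff.mpr ((Valuation.ne_zero_iff _).mpr (uniformizer_ne_zero hϖ he))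
  have hπ1 : v ϖ < 1 := by
    rw [← pow_lt_one_iff_of_nonneg zero_le he.ne', val_uniformizer_pow hϖ]
    exact val_p_lt_one hP
  have hxy : N (x + y) ≤ v ϖ ^ n := (nrm_add_le hH _ x y).trans (max_le hx hy)
  have h1 := val_lead_le hH hP hϖ he hh hx
  have h2 := val_lead_le hH hP hϖ he hh hy
  rw [lead, lead, lead, ← res_add h1 h2,
    res_eq_iff (val_lead_le hH hP hϖ he hh hxy) ((Valuation.map_add _ _ _).trans (max_le h1 h2)),
    ← add_div, ← sub_div, map_div₀, map_pow, div_lt_one₀ (pow_pos hπ0 n),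
    show h (x + y) - h 0 - (h x - h 0 + (h y - h 0)) = h (x + y) - h x - h y + h 0 by ring]
  refine (val_second_diff_le hH (algebraMap_ratLocalized_mem hP) x y
    (Submodule.subset_span hh)).trans_lt ((mul_le_mul' hx hy).trans_lt ?_)
  exact mul_lt_of_lt_one_left (pow_pos hπ0 n) (pow_lt_one₀ zero_le hπ1 hn.ne')

theorem lead_act {g : GQ} (hg : g ∈ D) {x : G} (hx : N x ≤ v ϖ ^ n) :
    lead P ϖ h n (act g x) =
      ((⟨g, hg⟩ : P.decompositionSubgroup ℚ) • lead P ϖ h n x) * res P (theta ϖ g) ^ n := by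
  have h1 := val_lead_le hH hP hϖ he hh hx
  have h0 := uniformizer_ne_zero hϖ he
  have hθ : v (theta ϖ g) ≤ 1 := by
    rw [theta, map_div₀, val_map hg, div_self ((Valuation.ne_zero_iff _).mpr h0)]
  rw [lead, lead, ← res_map hg h1, ← res_pow hθ,
    ← res_mul (by rw [val_map hg]; exact h1) (by rw [map_pow]; exact pow_le_one' hθ n)]
  congr 1
  have hn0 := pow_ne_zero n h0
  have hg0 : g ϖ ^ n ≠ 0 := pow_ne_zero n (by simpa using h0)
  rw [apply_act hH g hh, theta, div_pow, map_div₀, map_pow, map_sub, apply_zero_fixed hH g hh]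
  field_simp

theorem lead_act_inertia {g : GQ} (hg : g ∈ Ine) {x : G} (hx : N x ≤ v ϖ ^ n) :
    lead P ϖ h n (act g x) = res P (theta ϖ g) ^ n * lead P ϖ h n x := by
  rw [lead_act hH hP hϖ he hh (inertia_le_decomposition hg) hx, mul_comm]
  congr 1
  rw [lead, ← res_map (inertia_le_decomposition hg) (val_lead_le hH hP hϖ he hh hx),
    res_map_inertia hg (val_lead_le hH hP hϖ he hh hx)]

theorem lead_ne_zero {x : G} (hx : N x ≤ v ϖ ^ n) (heq : v (h x - h 0) = v ϖ ^ n) :
    lead P ϖ h n x ≠ 0 := by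
  rw [lead, Ne, res_eq_zero_iff (val_lead_le hH hP hϖ he hh hx), map_div₀, map_pow, heq, div_self
    (pow_ne_zero _ ((Valuation.ne_zero_iff _).mpr (uniformizer_ne_zero hϖ he)))]
  exact lt_irrefl 1

end lead

/-! ### Descent of invariant functions -/

include hH hP in
/-- An integral function which is invariant under `U` on a stable coset can be traded for a fixed
integral element moving at least as much. -/
theorem exists_fixed_mover (Γ₀ : Subgroup GQ) (hΓ : ∀ σ ∈ Γ₀, σ ∈ D) (g : G)
    (L U : AddSubgroup G) (hU : ∀ σ ∈ Γ₀, ∀ u ∈ U, act σ u ∈ U)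
    (hL : ∀ σ ∈ Γ₀, ∀ l ∈ L, act σ l ∈ L) (hg : ∀ σ ∈ Γ₀, act σ g - g ∈ L)
    {f : G → Qb} (hf : f ∈ aSpan H P) (hinv : ∀ l ∈ L, ∀ u ∈ U, f (g + l + u) = f (g + l))
    {σ : GQ} (hσ : σ ∈ Γ₀) :
    ∃ z : Qb, v z ≤ 1 ∧ (∀ τ ∈ Γ₀, act τ g - g ∈ U → τ z = z) ∧
      v (f (act σ g) - f g) ≤ v (σ z - z) := by
  classical
  obtain ⟨s, hs⟩ := hH.fg
  have hsH : ∀ i : s, (i : G → Qb) ∈ H := fun i => by
    rw [← Subalgebra.mem_toSubmodule, ← hs]; exact Submodule.subset_span i.2
  have hfs : f ∈ Submodule.span P (Set.range fun i : s => (i : G → Qb)) := by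
    clear hinv
    induction hf using Submodule.span_induction with
    | mem a ha =>
      rw [SetLike.mem_coe, ← Subalgebra.mem_toSubmodule, ← hs] at ha
      induction ha using Submodule.span_induction with
      | mem a ha => exact Submodule.subset_span ⟨⟨a, ha⟩, rfl⟩
      | zero => exact zero_mem _
      | add a b _ _ iha ihb => exact add_mem iha ihb
      | smul r a _ iha =>
        have e : r • a = (⟨algebraMap (GaloisRep.ratLocalizedAt p) Qb r, algebraMap_ratLocalized_mem hP r⟩ : P) • a := by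
          funext y; exact Algebra.smul_def r (a y)
        rw [e]
        exact Submodule.smul_mem _ _ iha
    | zero => exact zero_mem _
    | add a b _ _ iha ihb => exact add_mem iha ihb
    | smul c a _ iha => exact Submodule.smul_mem _ c iha
  obtain ⟨α₀, hα₀⟩ := (Submodule.mem_span_range_iff_exists_fun P).mp hfs
  set comb : (s → Qb) → G → Qb := fun α y => ∑ i : s, α i * (i : G → Qb) y with hcomb
  set W : Submodule Qb (s → Qb) :=
    { carrier := {α | ∀ l ∈ L, ∀ u ∈ U, comb α (g + l + u) = comb α (g + l)}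
      zero_mem' := fun l _ u _ => by simp [hcomb]
      add_mem' := fun {a b} ha hb l hl u hu => by
        simp only [hcomb, Pi.add_apply, add_mul, Finset.sum_add_distrib]
        exact congrArg₂ (· + ·) (ha l hl u hu) (hb l hl u hu)
      smul_mem' := fun c a ha l hl u hu => by
        simp only [hcomb, Pi.smul_apply, smul_eq_mul, mul_assoc, ← Finset.mul_sum]
        exact congrArg (c * ·) (ha l hl u hu) } with hW
  have hcomb_act : ∀ (τ : GQ) (α : s → Qb) (y : G),
      comb (fun i => τ (α i)) (act τ y) = τ (comb α y) := fun τ α y => by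
    simp only [hcomb, map_sum, map_mul, apply_act hH τ (hsH _)]
  have hWstable : ∀ τ ∈ Γ₀, ∀ α ∈ W, (fun i => τ (α i)) ∈ W := by
    intro τ hτ α hα l hl u hu
    have hi : ∀ y : G, act τ (act τ⁻¹ y) = y := fun y => by
      show (act τ * act τ⁻¹) y = y
      rw [← map_mul, mul_inv_cancel, map_one]; rfl
    have hl' : act τ⁻¹ g - g + act τ⁻¹ l ∈ L :=
      add_mem (hg _ (inv_mem hτ)) (hL _ (inv_mem hτ) l hl)
    have e1 : g + l = act τ (g + (act τ⁻¹ g - g + act τ⁻¹ l)) := by
      rw [← add_assoc, add_sub_cancel, map_add, hi, hi]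
    have e2 : g + l + u = act τ (g + (act τ⁻¹ g - g + act τ⁻¹ l) + act τ⁻¹ u) := by
      rw [map_add, ← e1, hi]
    rw [e2, hcomb_act, e1, hcomb_act, hα _ hl' _ (hU _ (inv_mem hτ) u hu)]
  -- the reachable functions
  set Fix : Set (s → Qb) :=
    {w | w ∈ W ∧ (∀ i, v (w i) ≤ 1) ∧ ∀ τ ∈ Γ₀, ∀ i, τ (w i) = w i} with hFix
  have hdecomp : ∀ n : ℕ, ∀ α ∈ W, (∀ i, v (α i) ≤ 1) →
      (Finset.univ.filter fun i => α i ≠ 0).card ≤ n → α ∈ Submodule.span P Fix := by
    intro n
    induction n with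
    | zero =>
      intro α _ _ hcard
      rw [show α = 0 from funext fun i => not_not.mp fun hne => by
        have h1 : i ∈ Finset.univ.filter fun i => α i ≠ 0 := by simpa using hne
        have := Finset.card_pos.mpr ⟨i, h1⟩
        omega]
      exact zero_mem _
    | succ n ih =>
      intro α hα hα1 hcard
      set supp : (s → Qb) → Finset s := fun w => Finset.univ.filter fun i => w i ≠ 0 with hsupp
      have hmem : ∀ w i, i ∈ supp w ↔ w i ≠ 0 := fun w i => by simp [hsupp]
      rcases (supp α).eq_empty_or_nonempty with hempty | hne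
      · exact ih α hα hα1 (show (supp α).card ≤ n by rw [hempty]; simp)
      let C : Finset (Finset s) := (supp α).powerset.filter fun T =>
        T.Nonempty ∧ ∃ w ∈ W, supp w = T
      have hC : C.Nonempty := ⟨supp α, Finset.mem_filter.mpr
        ⟨Finset.mem_powerset.mpr subset_rfl, hne, α, hα, rfl⟩⟩
      obtain ⟨T, hT, hmin⟩ := Finset.exists_min_image C Finset.card hC
      obtain ⟨hTsub, hTne, w₀, hw₀, hw₀T⟩ := Finset.mem_filter.mp hT
      rw [Finset.mem_powerset] at hTsub
      obtain ⟨i₀, hi₀, hmax⟩ := Finset.exists_max_image T (fun i => v (w₀ i)) hTne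
      have hw00 : w₀ i₀ ≠ 0 := (hmem w₀ i₀).mp (hw₀T ▸ hi₀)
      set w := (w₀ i₀)⁻¹ • w₀ with hw
      have hwW : w ∈ W := W.smul_mem _ hw₀
      have hwT : supp w = T := by rw [← hw₀T]; ext i; simp [hmem, hw, hw00]
      have hwi : w i₀ = 1 := by simp [hw, hw00]
      have hw1 : ∀ i, v (w i) ≤ 1 := by
        intro i
        rw [hw, Pi.smul_apply, smul_eq_mul, map_mul, map_inv₀, inv_mul_le_iff₀
          (zero_lt_iff.mpr ((Valuation.ne_zero_iff _).mpr hw00)), mul_one]
        by_cases hi : i ∈ T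
        · exact hmax i hi
        · rw [show w₀ i = 0 from not_not.mp fun h => hi (hw₀T ▸ (hmem w₀ i).mpr h), map_zero]
          exact zero_le
      have hwfix : w ∈ Fix := by
        refine ⟨hwW, hw1, fun τ hτ i => ?_⟩
        set d : s → Qb := (fun i => τ (w i)) - w with hd
        have hdW : d ∈ W := W.sub_mem (hWstable τ hτ w hwW) hwW
        have hdsub : supp d ⊆ T.erase i₀ := by
          intro j hj
          rw [hmem] at hj
          refine Finset.mem_erase.mpr ⟨fun h => hj ?_, hwT ▸ (hmem w j).mpr fun h => hj ?_⟩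
          · rw [h, hd, Pi.sub_apply, hwi, map_one, sub_self]
          · rw [hd, Pi.sub_apply, h, map_zero, sub_zero]
        by_contra hmove
        have hdne : (supp d).Nonempty := ⟨i, (hmem d i).mpr (sub_ne_zero.mpr hmove)⟩
        have h1 := hmin (supp d) (Finset.mem_filter.mpr ⟨Finset.mem_powerset.mpr
          (hdsub.trans ((Finset.erase_subset _ _).trans hTsub)), hdne, d, hdW, rfl⟩)
        have h2 := (Finset.card_le_card hdsub).trans_lt (Finset.card_erase_lt_of_mem hi₀)
        omega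
      have hα' : α - α i₀ • w ∈ Submodule.span P Fix := by
        refine ih _ (W.sub_mem hα (W.smul_mem _ hwW)) (fun i => ?_) ?_
        · rw [Pi.sub_apply, Pi.smul_apply, smul_eq_mul]
          exact (Valuation.map_sub _ _ _).trans (max_le (hα1 i) (by
            rw [map_mul]; exact mul_le_one' (hα1 i₀) (hw1 i)))
        · have hsub : supp (α - α i₀ • w) ⊆ (supp α).erase i₀ := by
            intro j hj
            rw [hmem, Pi.sub_apply, Pi.smul_apply, smul_eq_mul] at hj
            refine Finset.mem_erase.mpr ⟨fun h => hj (by rw [h, hwi, mul_one, sub_self]),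
              (hmem α j).mpr fun h => hj ?_⟩
            rw [h, show w j = 0 from not_not.mp fun h' => (hmem α j).mp
              (hTsub (hwT ▸ (hmem w j).mpr h')) h, mul_zero, sub_zero]
          have h1 := (Finset.card_le_card hsub).trans_lt
            (Finset.card_erase_lt_of_mem (hTsub hi₀))
          change (supp (α - α i₀ • w)).card ≤ n
          change (supp α).card ≤ n + 1 at hcard
          omega
      have hαw : α i₀ • w = (⟨α i₀, (P.valuation_le_one_iff _).mp (hα1 i₀)⟩ : P) • w := rfl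
      rw [← sub_add_cancel α (α i₀ • w), hαw]
      exact add_mem (hαw ▸ hα') (Submodule.smul_mem _ _ (Submodule.subset_span hwfix))
  have hfcomb : f = comb fun i => (α₀ i : Qb) := by
    funext y
    rw [← hα₀, Finset.sum_apply]
    rfl
  have hmemW : (fun i => (α₀ i : Qb)) ∈ W := by
    intro l hl u hu
    rw [← hfcomb]
    exact hinv l hl u hu
  have hspan := hdecomp _ _ hmemW (fun i => (P.valuation_le_one_iff _).mpr (α₀ i).2) le_rfl
  rw [hfcomb]
  clear hfcomb hmemW hα₀
  by_cases hzero : v (comb (fun i => (α₀ i : Qb)) (act σ g) -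
      comb (fun i => (α₀ i : Qb)) g) = 0
  · exact ⟨0, by simp, fun τ _ _ => map_zero τ, by rw [hzero]; exact zero_le⟩
  suffices ∃ w ∈ Fix, v (comb (fun i => (α₀ i : Qb)) (act σ g) -
      comb (fun i => (α₀ i : Qb)) g) ≤ v (comb w (act σ g) - comb w g) by
    obtain ⟨w, ⟨hwW, hw1, hwfix⟩, hle⟩ := this
    refine ⟨comb w g, ?_, fun τ hτ hτU => ?_, ?_⟩
    · refine Valuation.map_sum_le _ fun i _ => ?_
      rw [map_mul]
      exact mul_le_one' (hw1 i)
        (val_order_apply_le hH (algebraMap_ratLocalized_mem hP) (hsH i) g)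
    · have hwτ : (fun i => τ (w i)) = w := funext (hwfix τ hτ)
      rw [← hcomb_act, hwτ, show act τ g = g + 0 + (act τ g - g) by abel,
        hwW 0 (zero_mem L) _ hτU, add_zero]
    · have hwσ : (fun i => σ (w i)) = w := funext (hwfix σ hσ)
      rw [← hcomb_act, hwσ]
      exact hle
  by_contra hcon
  push Not at hcon
  have key : ∀ β ∈ Submodule.span P Fix, v (comb β (act σ g) - comb β g) <
      v (comb (fun i => (α₀ i : Qb)) (act σ g) - comb (fun i => (α₀ i : Qb)) g) := by
    intro β hβ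
    induction hβ using Submodule.span_induction with
    | mem w hw => exact hcon w hw
    | zero => simpa [hcomb] using zero_lt_iff.mpr hzero
    | add a b _ _ iha ihb =>
      simp only [hcomb, Pi.add_apply, add_mul, Finset.sum_add_distrib, add_sub_add_comm] at iha ihb ⊢
      exact (Valuation.map_add _ _ _).trans_lt (max_lt iha ihb)
    | smul c a _ iha =>
      have e : ∀ y, comb (c • a) y = (c : Qb) * comb a y := fun y => by
        rw [hcomb, Finset.mul_sum]
        exact Finset.sum_congr rfl fun i _ => mul_assoc _ _ _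
      rw [e, e, ← mul_sub, map_mul]
      exact (mul_le_of_le_one_left' ((P.valuation_le_one_iff _).mpr c.2)).trans_lt iha
  exact lt_irrefl _ (key _ hspan)

end FLTAgent.LocP
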