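import Fermat.Agent.EllP.Unramified
import Fermat.Agent.GalCommon.Frobenius

/-!
# Tame ramification at a place of `ℚ̄` over `p`

The decomposition group preserves the valuation (`val_map`), the valuation of an element fixed by
inertia is an integral power of `|p|` (`exists_val_eq_zpow`), the characters `σ ↦ σ Π / Π` for
`Π ^ e = -p` (`theta`, `exists_inertia_theta_eq`), and the decomposition of an element of the
decomposition group as a power of Frobenius times inertia at finite level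
(`exists_eq_frob_pow_mul`).
-/

set_option autoImplicit false
set_option linter.style.haveILetI false

noncomputable section

namespace FLTAgent.LocP

open IsLocalRing
open scoped Pointwise NumberField

local notation "Qb" => AlgebraicClosure ℚ
local notation "GQ" => (AlgebraicClosure ℚ ≃ₐ[ℚ] AlgebraicClosure ℚ)

variable {P : ValuationSubring Qb} {p : ℕ}

local notation "v" => P.valuation
local notation "D" => P.decompositionSubgroup ℚ
local notation "Ine" => P.inertiaSubgroupIn ℚ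

/-! ### The decomposition group preserves the valuation -/

theorem exists_pos_pow_apply_eq (σ : GQ) (x : Qb) : ∃ n, 0 < n ∧ (σ ^ n) x = x := by
  classical
  have hx : IsIntegral ℚ x := Algebra.IsIntegral.isIntegral x
  let S := {y : Qb // y ∈ (minpoly ℚ x).aroots Qb}
  have hmem : ∀ n : ℕ, (σ ^ n) x ∈ (minpoly ℚ x).aroots Qb := fun n => by
    rw [Polynomial.mem_aroots]
    exact ⟨minpoly.ne_zero hx, by rw [Polynomial.aeval_algHom_apply, minpoly.aeval, map_zero]⟩
  haveI : Finite S := (Multiset.finite_toSet _).to_subtype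
  obtain ⟨i, j, hne, hij⟩ :=
    Finite.exists_ne_map_eq_of_infinite fun n : ℕ => (⟨(σ ^ n) x, hmem n⟩ : S)
  have hij' : (σ ^ i) x = (σ ^ j) x := congrArg Subtype.val hij
  rcases lt_or_gt_of_ne hne with h | h
  · refine ⟨j - i, by omega, (σ ^ i).injective ?_⟩
    rw [← AlgEquiv.mul_apply, ← pow_add, Nat.add_sub_cancel' h.le, hij']
  · refine ⟨i - j, by omega, (σ ^ j).injective ?_⟩
    rw [← AlgEquiv.mul_apply, ← pow_add, Nat.add_sub_cancel' h.le, hij']

theorem val_map_le_iff {σ : GQ} (hσ : σ ∈ D) (a b : Qb) : v (σ a) ≤ v (σ b) ↔ v a ≤ v b := by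
  rcases eq_or_ne b 0 with rfl | hb
  · simp
  · have hb' : σ b ≠ 0 := by simpa using hb
    have h : ∀ a b : Qb, b ≠ 0 → (v a ≤ v b ↔ a / b ∈ P) := fun a b hb => by
      rw [← ValuationSubring.valuation_le_one_iff, map_div₀,
        div_le_one₀ (zero_lt_iff.mpr ((Valuation.ne_zero_iff _).mpr hb))]
    rw [h _ _ hb', h _ _ hb, ← map_div₀, GalCommon.map_mem_iff_of_mem_decomposition hσ]

/-- The decomposition group preserves the valuation. -/
theorem val_map {σ : GQ} (hσ : σ ∈ D) (x : Qb) : v (σ x) = v x := by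
  obtain ⟨n, hn, hfix⟩ := exists_pos_pow_apply_eq σ x
  by_contra hne
  rcases lt_or_gt_of_ne hne with h | h
  · have key : ∀ i, v ((σ ^ (i + 1)) x) < v x := by
      intro i
      induction i with
      | zero => simpa using h
      | succ i ih =>
        rw [pow_succ', AlgEquiv.mul_apply]
        refine lt_trans ?_ h
        rw [← not_le] at ih ⊢
        rwa [val_map_le_iff hσ]
    have := key (n - 1)
    rw [Nat.sub_add_cancel hn, hfix] at this
    exact lt_irrefl _ this
  · have key : ∀ i, v x < v ((σ ^ (i + 1)) x) := by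
      intro i
      induction i with
      | zero => simpa using h
      | succ i ih =>
        rw [pow_succ', AlgEquiv.mul_apply]
        refine lt_trans h ?_
        rw [← not_le] at ih ⊢
        rwa [val_map_le_iff hσ]
    have := key (n - 1)
    rw [Nat.sub_add_cancel hn, hfix] at this
    exact lt_irrefl _ this

theorem val_map_sub_lt {σ : GQ} (hσ : σ ∈ Ine) {x : Qb} (hx : v x ≤ 1) : v (σ x - x) < 1 :=
  P.mem_nonunits_iff.mp
    ((GalCommon.mem_inertiaSubgroupIn_iff.mp hσ).2 x ((P.valuation_le_one_iff _).mp hx))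

theorem inertia_le_decomposition {σ : GQ} (hσ : σ ∈ Ine) : σ ∈ D :=
  GalCommon.inertiaSubgroupIn_le_decomposition hσ

theorem conj_mem_inertia {g σ : GQ} (hg : g ∈ D) (hσ : σ ∈ Ine) : g * σ * g⁻¹ ∈ Ine := by
  have h := GalCommon.mem_inertia_conj hσ g
  rwa [MulAction.mem_stabilizer_iff.mp hg] at h

/-! ### The residue field -/

open Classical in
/-- The residue of an element (zero for a non-integral element). -/
def res (P : ValuationSubring Qb) (x : Qb) : ResidueField P :=
  if h : x ∈ P then residue P ⟨x, h⟩ else 0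

theorem res_apply {x : Qb} (h : x ∈ P) : res P x = residue P ⟨x, h⟩ := dif_pos h

theorem mem_of_val_le {x : Qb} (h : v x ≤ 1) : x ∈ P := (P.valuation_le_one_iff _).mp h

theorem res_add {x y : Qb} (hx : v x ≤ 1) (hy : v y ≤ 1) : res P (x + y) = res P x + res P y := by
  rw [res_apply (mem_of_val_le hx), res_apply (mem_of_val_le hy),
    res_apply (add_mem (mem_of_val_le hx) (mem_of_val_le hy)), ← map_add]
  rfl

theorem res_sub {x y : Qb} (hx : v x ≤ 1) (hy : v y ≤ 1) : res P (x - y) = res P x - res P y := by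
  rw [res_apply (mem_of_val_le hx), res_apply (mem_of_val_le hy),
    res_apply (sub_mem (mem_of_val_le hx) (mem_of_val_le hy)), ← map_sub]
  rfl

theorem res_mul {x y : Qb} (hx : v x ≤ 1) (hy : v y ≤ 1) : res P (x * y) = res P x * res P y := by
  rw [res_apply (mem_of_val_le hx), res_apply (mem_of_val_le hy),
    res_apply (mul_mem (mem_of_val_le hx) (mem_of_val_le hy)), ← map_mul]
  rfl

@[simp] theorem res_zero : res P 0 = 0 := by rw [res_apply P.zero_mem]; exact map_zero _

@[simp] theorem res_one : res P 1 = 1 := by rw [res_apply P.one_mem]; exact map_one _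

theorem res_pow {x : Qb} (hx : v x ≤ 1) (n : ℕ) : res P (x ^ n) = res P x ^ n := by
  rw [res_apply (mem_of_val_le hx), res_apply (pow_mem (mem_of_val_le hx) n), ← map_pow]
  rfl

theorem res_natCast (n : ℕ) : res P (n : Qb) = n := by
  rw [res_apply (natCast_mem P n), ← map_natCast (residue P)]
  rfl

theorem res_eq_zero_iff {x : Qb} (hx : v x ≤ 1) : res P x = 0 ↔ v x < 1 := by
  rw [res_apply (mem_of_val_le hx), ← GalCommon.coe_mem_nonunits_iff_residue,
    ValuationSubring.mem_nonunits_iff]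

theorem res_eq_iff {x y : Qb} (hx : v x ≤ 1) (hy : v y ≤ 1) :
    res P x = res P y ↔ v (x - y) < 1 := by
  rw [← sub_eq_zero, ← res_sub hx hy,
    res_eq_zero_iff ((Valuation.map_sub _ _ _).trans (max_le hx hy))]

theorem res_surjective (r : ResidueField P) : ∃ x : Qb, v x ≤ 1 ∧ res P x = r := by
  obtain ⟨⟨x, hx⟩, rfl⟩ := residue_surjective r
  exact ⟨x, (P.valuation_le_one_iff _).mpr hx, res_apply hx⟩

theorem res_map {σ : GQ} (hσ : σ ∈ D) {x : Qb} (hx : v x ≤ 1) :
    res P (σ x) = (⟨σ, hσ⟩ : P.decompositionSubgroup ℚ) • res P x := by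
  rw [res_apply (mem_of_val_le hx), GalCommon.smul_residue_eq,
    res_apply ((GalCommon.map_mem_iff_of_mem_decomposition hσ).mpr (mem_of_val_le hx))]
  rfl

theorem res_map_inertia {σ : GQ} (hσ : σ ∈ Ine) {x : Qb} (hx : v x ≤ 1) :
    res P (σ x) = res P x :=
  (res_eq_iff (by rw [val_map (inertia_le_decomposition hσ)]; exact hx) hx).mpr
    (val_map_sub_lt hσ hx)

section prime

variable [Fact p.Prime] (hP : P.LiesOverPrime p)
include hP

theorem charP_res : CharP (ResidueField P) p := GalCommon.charP_residueField Fact.out hP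

theorem val_p_lt_one : v (p : Qb) < 1 := P.mem_nonunits_iff.mp hP

omit hP in
theorem val_p_ne_zero : v (p : Qb) ≠ 0 := by
  simpa using (Fact.out : p.Prime).ne_zero

theorem val_p_zpow_inj {a b : ℤ} (h : v (p : Qb) ^ a = v (p : Qb) ^ b) : a = b :=
  zpow_right_injective₀ (zero_lt_iff.mpr val_p_ne_zero) (val_p_lt_one hP).ne h

theorem val_natCast_eq_one {n : ℕ} (hn : ¬ p ∣ n) : v (n : Qb) = 1 :=
  le_antisymm ((P.valuation_le_one_iff _).mpr (natCast_mem P n))
    (not_lt.mp fun h => hn ((GalCommon.natCast_mem_nonunits_iff Fact.out hP n).mp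
      (P.mem_nonunits_iff.mpr h)))

theorem exists_val_eq_zpow {y : Qb} (hy0 : y ≠ 0) (hy : ∀ σ ∈ Ine, σ y = y) :
    ∃ k : ℤ, v y = v (p : Qb) ^ k :=
  EllP.exists_valuation_eq_zpow Fact.out hP hy0 hy

/-- An element of the decomposition group acts on finitely many residues as a power of
Frobenius. -/
theorem exists_pow_residue {σ : GQ} (hσ : σ ∈ D) (s : Finset (ResidueField P)) :
    ∃ i : ℕ, ∀ y ∈ s, (⟨σ, hσ⟩ : P.decompositionSubgroup ℚ) • y = y ^ p ^ i := by
  haveI := charP_res hP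
  letI : Algebra (ZMod p) (ResidueField P) := ZMod.algebra _ p
  haveI := GalCommon.isAlgebraic_residueField P Fact.out hP
  let E : IntermediateField (ZMod p) (ResidueField P) := IntermediateField.adjoin (ZMod p) (↑s)
  haveI : FiniteDimensional (ZMod p) E :=
    IntermediateField.finiteDimensional_adjoin fun x _ => Algebra.IsIntegral.isIntegral x
  haveI : Finite E := Module.finite_of_finite (ZMod p)
  let f : ResidueField P →ₐ[ZMod p] ResidueField P :=
    { MulSemiringAction.toRingHom (P.decompositionSubgroup ℚ) (ResidueField P) ⟨σ, hσ⟩ with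
      commutes' := fun r => congrFun (congrArg DFunLike.coe (RingHom.ext_zmod
        ((MulSemiringAction.toRingHom (P.decompositionSubgroup ℚ) (ResidueField P) ⟨σ, hσ⟩).comp
          (algebraMap (ZMod p) (ResidueField P))) (algebraMap (ZMod p) _))) r }
  let g : Gal(E/ZMod p) := f.restrictNormal' E
  obtain ⟨⟨i, hi⟩, hgi⟩ :=
    (FiniteField.bijective_frobeniusAlgEquivOfAlgebraic_pow (ZMod p) E).2 g
  refine ⟨i, fun y hy => ?_⟩
  have hyE : y ∈ E := IntermediateField.subset_adjoin (ZMod p) _ hy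
  have h1 : ((g ⟨y, hyE⟩ : E) : ResidueField P) = f y :=
    AlgHom.restrictNormal_commutes f E ⟨y, hyE⟩
  rw [← hgi] at h1
  simp only [AlgEquiv.coe_pow, FiniteField.coe_frobeniusAlgEquivOfAlgebraic_iterate,
    ZMod.card] at h1
  exact h1.symm

theorem exists_pow_residue_single {σ : GQ} (hσ : σ ∈ D) (y : ResidueField P) :
    ∃ i : ℕ, (⟨σ, hσ⟩ : P.decompositionSubgroup ℚ) • y = y ^ p ^ i :=
  (exists_pow_residue hP hσ {y}).imp fun _ h => h y (Finset.mem_singleton_self y)

/-- Every residue is a root of unity or zero. -/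
theorem exists_pow_card_eq_self (y : ResidueField P) : ∃ n, 0 < n ∧ y ^ p ^ n = y := by
  haveI := charP_res hP
  letI : Algebra (ZMod p) (ResidueField P) := ZMod.algebra _ p
  haveI := GalCommon.isAlgebraic_residueField P Fact.out hP
  let E : IntermediateField (ZMod p) (ResidueField P) := IntermediateField.adjoin (ZMod p) {y}
  haveI : FiniteDimensional (ZMod p) E :=
    IntermediateField.finiteDimensional_adjoin fun x _ => Algebra.IsIntegral.isIntegral x
  haveI : Finite E := Module.finite_of_finite (ZMod p)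
  haveI := Fintype.ofFinite E
  obtain ⟨n, hp, hn⟩ := FiniteField.card E p
  refine ⟨n, n.pos, ?_⟩
  have h := FiniteField.pow_card (⟨y, IntermediateField.mem_adjoin_simple_self _ y⟩ : E)
  rw [hn] at h
  exact congrArg Subtype.val h

/-- Commutators of the decomposition group lie in inertia. -/
theorem commutator_mem_inertia {σ τ : GQ} (hσ : σ ∈ D) (hτ : τ ∈ D) :
    σ * τ * σ⁻¹ * τ⁻¹ ∈ Ine := by
  set s : P.decompositionSubgroup ℚ := ⟨σ, hσ⟩
  set t : P.decompositionSubgroup ℚ := ⟨τ, hτ⟩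
  refine ⟨s * t * s⁻¹ * t⁻¹, MonoidHom.mem_ker.mpr (RingEquiv.ext fun y => ?_), rfl⟩
  change (s * t * s⁻¹ * t⁻¹) • y = y
  have hcomm : ∀ z : ResidueField P, s • t • z = t • s • z := fun z => by
    obtain ⟨i, hi⟩ := exists_pow_residue_single hP hσ z
    obtain ⟨j, hj⟩ := exists_pow_residue_single hP hτ z
    change s • z = _ at hi
    change t • z = _ at hj
    rw [hi, hj, smul_pow', smul_pow', hi, hj, ← pow_mul, ← pow_mul, mul_comm]
  rw [mul_smul, mul_smul, mul_smul, hcomm, smul_inv_smul, smul_inv_smul]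

/-- At finite level, an element of the decomposition group is a power of Frobenius times inertia. -/
theorem exists_eq_frob_pow_mul {φ : GQ} (hφ : P.IsFrobeniusAt φ p) {σ : GQ} (hσ : σ ∈ D)
    (L : IntermediateField ℚ Qb) [FiniteDimensional ℚ L] :
    ∃ i : ℕ, ∃ ι ∈ Ine, ∀ x ∈ L, σ x = (φ ^ i * ι) x := by
  set L' := IntermediateField.normalClosure ℚ L Qb
  haveI : Normal ℚ L' := normalClosure.normal ℚ _ Qb
  haveI : IsGalois ℚ L' := ⟨⟩
  haveI : NumberField L' := ⟨⟩
  classical
  obtain ⟨s, hs⟩ : (⊤ : Submodule ℤ (𝓞 L')).FG := Module.Finite.fg_top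
  let r : 𝓞 L' →+* ResidueField P := (residue P).comp
    { toFun := fun a => (⟨((a : L') : Qb), EllP.mem_of_isIntegral_int P
        ((a.2 : IsIntegral ℤ (a : L')).map (L'.val.restrictScalars ℤ))⟩ : P)
      map_one' := rfl
      map_mul' := fun _ _ => rfl
      map_zero' := rfl
      map_add' := fun _ _ => rfl }
  obtain ⟨i, hi⟩ := exists_pow_residue hP hσ (s.image r)
  have hφD := hφ.mem_decompositionSubgroup
  set d : P.decompositionSubgroup ℚ := ⟨σ, hσ⟩
  set f : P.decompositionSubgroup ℚ := ⟨φ, hφD⟩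
  have hf : ∀ y : ResidueField P, (f ^ i) • y = y ^ p ^ i := by
    intro y
    clear hi
    induction i generalizing y with
    | zero => simp
    | succ n ih =>
      rw [pow_succ', mul_smul, ih, smul_pow', pow_succ', pow_mul]
      exact congrArg (· ^ p ^ n) (hφ.smul_residue_eq y)
  have hall : ∀ a : 𝓞 L', ((f ^ i)⁻¹ * d) • r a = r a := by
    have : ∀ a ∈ s, ((f ^ i)⁻¹ * d) • r a = r a := fun a ha => by
      rw [mul_smul, hi _ (Finset.mem_image_of_mem r ha), ← hf, inv_smul_smul]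
    intro a
    have ha : a ∈ Submodule.span ℤ (↑s : Set (𝓞 L')) := hs ▸ Submodule.mem_top
    induction ha using Submodule.span_induction with
    | mem a ha => exact this a ha
    | zero => rw [map_zero, smul_zero]
    | add a b _ _ iha ihb => rw [map_add, smul_add, iha, ihb]
    | smul n a _ iha => rw [map_zsmul, smul_comm, iha]
  set σ' : GQ := (φ ^ i)⁻¹ * σ with hσ'
  have hσ'D : σ' ∈ D := mul_mem (inv_mem (pow_mem hφD i)) hσ
  have hτ : σ'.restrictNormal L' ∈
      ((EllP.centre P).under (𝓞 L')).inertia (L' ≃ₐ[ℚ] L') := by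
    intro a
    have hint : ∀ b : 𝓞 L', v (((b : L') : Qb)) ≤ 1 := fun b =>
      (P.valuation_le_one_iff _).mpr (EllP.mem_of_isIntegral_int P
        ((b.2 : IsIntegral ℤ (b : L')).map (L'.val.restrictScalars ℤ)))
    show _ ∈ EllP.centre P
    rw [EllP.mem_centre, ValuationSubring.mem_nonunits_iff]
    change v (((σ'.restrictNormal L' (a : L') : L') : Qb) - ((a : L') : Qb)) < 1
    rw [show ((σ'.restrictNormal L' (a : L') : L') : Qb) = σ' ((a : L') : Qb) from
      AlgEquiv.restrictNormal_commutes σ' L' _,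
      ← res_eq_iff (by rw [val_map hσ'D]; exact hint a) (hint a), res_map hσ'D (hint a)]
    have h := hall a
    have hra : r a = res P ((a : L') : Qb) := (res_apply _).symm
    rw [hra] at h
    exact h
  obtain ⟨ι, hι, hιx⟩ := EllP.exists_inertia_lift L' (EllP.centre P) _ hτ
  refine ⟨i, ι, (EllP.mem_inertiaSubgroupIn_iff Fact.out hP).2 hι, fun x hx => ?_⟩
  have hxL' : x ∈ L' := IntermediateField.le_normalClosure L hx
  have h1 : ι x = σ' x := (hιx ⟨x, hxL'⟩).trans (AlgEquiv.restrictNormal_commutes σ' L' ⟨x, hxL'⟩)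
  rw [AlgEquiv.mul_apply, h1, ← AlgEquiv.mul_apply, hσ', mul_inv_cancel_left]

/-! ### Tame characters -/

variable {ϖ : Qb} {e : ℕ} (hϖ : ϖ ^ e = -(p : Qb))

omit hP in
/-- The tame character attached to `ϖ`. -/
def theta (ϖ : Qb) (σ : GQ) : Qb := σ ϖ / ϖ

omit hP in
include hϖ in
theorem uniformizer_ne_zero (he : 0 < e) : ϖ ≠ 0 := by
  rintro rfl
  rw [zero_pow he.ne'] at hϖ
  exact (Nat.cast_ne_zero.mpr (Fact.out : p.Prime).ne_zero) (neg_eq_zero.mp hϖ.symm)

omit hP in
include hϖ in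
theorem val_uniformizer_pow : v ϖ ^ e = v (p : Qb) := by rw [← map_pow, hϖ, Valuation.map_neg]

omit hP in
include hϖ in
theorem theta_pow (he : 0 < e) (σ : GQ) : theta ϖ σ ^ e = 1 := by
  rw [theta, div_pow, ← map_pow, hϖ, map_neg, map_natCast,
    div_self (neg_ne_zero.mpr (Nat.cast_ne_zero.mpr (Fact.out : p.Prime).ne_zero))]

omit hP in
theorem theta_mul_uniformizer {ϖ : Qb} (h0 : ϖ ≠ 0) (σ : GQ) : theta ϖ σ * ϖ = σ ϖ :=
  div_mul_cancel₀ _ h0

include hϖ in
theorem theta_mul (he : 0 < e) (hpe : ¬ p ∣ e) {σ : GQ} (hσ : σ ∈ Ine) (τ : GQ) :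
    theta ϖ (σ * τ) = theta ϖ σ * theta ϖ τ := by
  have h0 := uniformizer_ne_zero hϖ he
  rw [theta, AlgEquiv.mul_apply, ← theta_mul_uniformizer h0 τ, map_mul,
    GalCommon.inertia_apply_of_pow_eq_one Fact.out hP hpe hσ (theta_pow hϖ he τ),
    mul_div_assoc, mul_comm]
  rfl

omit hP in
theorem theta_one {ϖ : Qb} (h0 : ϖ ≠ 0) : theta ϖ 1 = 1 := div_self h0

include hϖ in
/-- Inertia surjects onto the roots of unity of order prime to `p`. -/
theorem exists_inertia_theta_eq (he : 0 < e) (hpe : ¬ p ∣ e) {ζ : Qb} (hζ : ζ ^ e = 1) :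
    ∃ σ ∈ Ine, theta ϖ σ = ζ := by
  have h0 := uniformizer_ne_zero hϖ he
  haveI : NeZero e := ⟨he.ne'⟩
  let Θ : Ine →* rootsOfUnity e Qb :=
    { toFun := fun σ => rootsOfUnity.mkOfPowEq (theta ϖ σ) (theta_pow hϖ he σ)
      map_one' := Subtype.ext (Units.ext (by simpa using theta_one h0))
      map_mul' := fun σ τ => Subtype.ext (Units.ext (by
        simpa using theta_mul hP hϖ he hpe σ.2 τ)) }
  have hfix : ∀ σ ∈ Ine, σ (ϖ ^ Nat.card Θ.range) = ϖ ^ Nat.card Θ.range := fun σ hσ => by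
    have h1 : (⟨Θ ⟨σ, hσ⟩, MonoidHom.mem_range.mpr ⟨_, rfl⟩⟩ : Θ.range) ^ Nat.card Θ.range = 1 :=
      pow_card_eq_one'
    have h2 : theta ϖ σ ^ Nat.card Θ.range = 1 := by
      simpa [Θ] using congrArg (fun z : Θ.range => (((z : rootsOfUnity e Qb) : Qbˣ) : Qb)) h1
    rw [map_pow, ← theta_mul_uniformizer h0 σ, mul_pow, h2, one_mul]
  obtain ⟨j, hj⟩ := exists_val_eq_zpow hP (pow_ne_zero _ h0) hfix
  have hdvd : (Nat.card Θ.range : ℤ) = j * e := by
    refine val_p_zpow_inj hP ?_
    rw [zpow_natCast, zpow_mul, zpow_natCast, ← hj, map_pow, ← pow_mul, mul_comm,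
      pow_mul, val_uniformizer_pow hϖ]
  have hcard : Nat.card (rootsOfUnity e Qb) ≤ Nat.card Θ.range := by
    rw [HasEnoughRootsOfUnity.natCard_rootsOfUnity Qb e]
    exact Nat.le_of_dvd Nat.card_pos (Int.natCast_dvd_natCast.mp ⟨j, by rw [hdvd, mul_comm]⟩)
  have htop : Θ.range = ⊤ := Subgroup.eq_top_of_le_card _ hcard
  obtain ⟨σ, hσ⟩ : rootsOfUnity.mkOfPowEq ζ hζ ∈ Θ.range := htop ▸ Subgroup.mem_top _
  exact ⟨σ, σ.2, by simpa [Θ] using congrArg (fun z : rootsOfUnity e Qb => ((z : Qbˣ) : Qb)) hσ⟩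

omit hP in
include hϖ in
theorem apply_uniformizer_eq (he : 0 < e) {σ : GQ} (h : theta ϖ σ = 1) : σ ϖ = ϖ := by
  rw [← theta_mul_uniformizer (uniformizer_ne_zero hϖ he) σ, h, one_mul]

include hϖ in
/-- The valuation of an element on which inertia acts through the tame character. -/
theorem exists_val_pow_eq_zpow (he : 0 < e) (hpe : ¬ p ∣ e) {y : Qb} (hy0 : y ≠ 0)
    (hy : ∀ σ ∈ Ine, theta ϖ σ = 1 → σ y = y) : ∃ n : ℤ, v y ^ e = v (p : Qb) ^ n := by
  haveI : NeZero e := ⟨he.ne'⟩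
  have h0 := uniformizer_ne_zero hϖ he
  choose s hsI hs using fun ζ : rootsOfUnity e Qb =>
    exists_inertia_theta_eq hP hϖ he hpe (ζ := ((ζ : Qbˣ) : Qb)) (by
      rw [← Units.val_pow_eq_pow_val, (mem_rootsOfUnity _ _).mp ζ.2, Units.val_one])
  haveI := Fintype.ofFinite (rootsOfUnity e Qb)
  have heq : ∀ σ ∈ Ine, ∀ τ ∈ Ine, theta ϖ σ = theta ϖ τ → σ y = τ y := by
    intro σ hσ τ hτ h
    have h1 : theta ϖ (τ⁻¹ * σ) = 1 := by
      rw [theta_mul hP hϖ he hpe (inv_mem hτ), h, ← theta_mul hP hϖ he hpe (inv_mem hτ),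
        inv_mul_cancel, theta_one h0]
    calc σ y = τ ((τ⁻¹ * σ) y) := by rw [← AlgEquiv.mul_apply, mul_inv_cancel_left]
      _ = τ y := by rw [hy _ (mul_mem (inv_mem hτ) hσ) h1]
  have hfix : ∀ σ ∈ Ine, σ (∏ ζ, s ζ y) = ∏ ζ, s ζ y := fun σ hσ => by
    let z : rootsOfUnity e Qb := rootsOfUnity.mkOfPowEq (theta ϖ σ) (theta_pow hϖ he σ)
    rw [map_prod]
    refine Fintype.prod_equiv (Equiv.mulLeft z) _ _ fun ζ => ?_
    rw [← AlgEquiv.mul_apply]
    refine heq _ (mul_mem hσ (hsI ζ)) _ (hsI _) ?_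
    rw [theta_mul hP hϖ he hpe hσ, hs, hs]
    simp [z]
  obtain ⟨n, hn⟩ := exists_val_eq_zpow hP
    (Finset.prod_ne_zero_iff.mpr fun ζ _ => by simpa using hy0) hfix
  refine ⟨n, ?_⟩
  rw [← hn, map_prod, Finset.prod_congr rfl fun ζ _ => val_map (inertia_le_decomposition (hsI ζ)) y,
    Finset.prod_const, Finset.card_univ, ← Nat.card_eq_fintype_card,
    HasEnoughRootsOfUnity.natCard_rootsOfUnity Qb e]

include hϖ in
theorem theta_conj (he : 0 < e) (hpe : ¬ p ∣ e) {τ : GQ} (hτ : τ ∈ Ine) (g : GQ) :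
    theta ϖ (g * τ * g⁻¹) = g (theta ϖ τ) := by
  have h0 := uniformizer_ne_zero hϖ he
  have h1 : g (τ (g⁻¹ ϖ)) = g (theta ϖ τ) * g (g⁻¹ ϖ) := by
    rw [← map_mul]
    congr 1
    rw [← theta_mul_uniformizer h0 g⁻¹, map_mul,
      GalCommon.inertia_apply_of_pow_eq_one Fact.out hP hpe hτ (theta_pow hϖ he g⁻¹),
      ← theta_mul_uniformizer h0 τ]
    ring
  rw [theta, AlgEquiv.mul_apply, AlgEquiv.mul_apply, h1, ← AlgEquiv.mul_apply g g⁻¹,
    mul_inv_cancel, AlgEquiv.one_apply, mul_div_assoc, div_self h0, mul_one]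

theorem frob_apply_root {φ : GQ} (hφ : P.IsFrobeniusAt φ p) (hpe : ¬ p ∣ e) {ζ : Qb}
    (hζ : ζ ^ e = 1) : φ ζ = ζ ^ p :=
  GalCommon.frobenius_apply_of_pow_eq_one Fact.out hP hpe hφ hζ

include hϖ in
/-- Small wild moves. -/
theorem val_inertia_sub_lt (he : 0 < e) {σ : GQ} (hσ : σ ∈ Ine) (hfix : σ ϖ = ϖ) {y : Qb}
    (hy0 : y ≠ 0) {s : ℕ} {j : ℤ} (hy : v y ^ (p ^ s * e) = v (p : Qb) ^ j) :
    v (σ y - y) < v y := by
  have h0 := uniformizer_ne_zero hϖ he
  have hvy : v y ≠ 0 := (Valuation.ne_zero_iff _).mpr hy0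
  set u := y ^ p ^ s / ϖ ^ j with hu
  have hvu : v u = 1 := by
    refine (pow_eq_one_iff_of_nonneg zero_le he.ne').mp ?_
    rw [hu, map_div₀, map_pow, map_zpow₀, div_pow, ← pow_mul, ← zpow_natCast (v ϖ ^ j),
      ← zpow_mul, mul_comm j, zpow_mul, zpow_natCast, val_uniformizer_pow hϖ, hy, div_self]
    exact zpow_ne_zero _ val_p_ne_zero
  have h1 := val_map_sub_lt hσ hvu.le
  have hr : v (σ y / y) = 1 := by
    rw [map_div₀, val_map (inertia_le_decomposition hσ), div_self hvy]
  have hu0 : u ≠ 0 := (Valuation.ne_zero_iff v).mp (by rw [hvu]; exact one_ne_zero)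
  have h2 : v ((σ y / y) ^ p ^ s - 1) < 1 := by
    have : (σ y / y) ^ p ^ s - 1 = (σ u - u) / u := by
      have hσu : σ u = σ y ^ p ^ s / ϖ ^ j := by rw [hu, map_div₀, map_pow, map_zpow₀, hfix]
      have hj : ϖ ^ j ≠ 0 := zpow_ne_zero _ h0
      rw [hσu, hu, div_pow]
      field_simp
    rwa [this, map_div₀, hvu, div_one]
  have h3 : v (σ y / y - 1) < 1 := by
    rw [← res_eq_iff hr.le (by simp), res_one]
    rw [← res_eq_iff (by rw [map_pow, hr, one_pow]) (by simp), res_pow hr.le, res_one] at h2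
    haveI := charP_res hP
    exact iterateFrobenius_inj (ResidueField P) p s (by simpa [iterateFrobenius_def] using h2)
  calc v (σ y - y) = v ((σ y / y - 1) * y) := by rw [sub_mul, div_mul_cancel₀ _ hy0, one_mul]
    _ = v (σ y / y - 1) * v y := map_mul _ _ _
    _ < 1 * v y := mul_lt_mul_of_pos_right h3 (zero_lt_iff.mpr hvy)
    _ = v y := one_mul _

/-! ### `p`-th roots of unity -/

variable {ζ : Qb} (hζ : IsPrimitiveRoot ζ p)

omit hP in
include hζ in
theorem val_pow_sub_one {i : ℕ} (hi : ¬ p ∣ i) : v (ζ ^ i - 1) = v (ζ - 1) := by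
  have hle : ∀ (z : Qb), z ^ p = 1 → ∀ i : ℕ, v (z ^ i - 1) ≤ v (z - 1) := by
    intro z hz i
    have hz1 : v z ≤ 1 := ((pow_eq_one_iff_of_nonneg zero_le (Fact.out : p.Prime).ne_zero).mp
      (by rw [← map_pow, hz, map_one])).le
    rw [← geom_sum_mul, map_mul]
    refine mul_le_of_le_one_left' (Valuation.map_sum_le _ fun j _ => ?_)
    rw [map_pow]
    exact pow_le_one' hz1 _
  refine le_antisymm (hle ζ hζ.pow_eq_one i) ?_
  obtain ⟨a, ha⟩ := Nat.exists_mul_mod_eq_one_of_coprime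
    (((Fact.out : p.Prime).coprime_iff_not_dvd.mpr hi).symm) (Fact.out : p.Prime).one_lt
  have h : ζ = (ζ ^ i) ^ a := by
    rw [← pow_mul, ← Nat.mod_add_div (i * a) p, ha.2, pow_add, pow_mul, hζ.pow_eq_one, one_pow,
      pow_one, mul_one]
  conv_lhs => rw [h]
  exact hle _ (by rw [← pow_mul, mul_comm, pow_mul, hζ.pow_eq_one, one_pow]) a

include hζ in
theorem val_zeta_sub_one_pow : v (ζ - 1) ^ (p - 1) = v (p : Qb) := by
  obtain ⟨n, hn⟩ : ∃ n, p = n + 1 := ⟨p - 1, (Nat.sub_add_cancel (Fact.out : p.Prime).pos).symm⟩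
  have h := (show IsPrimitiveRoot ζ (n + 1) from hn ▸ hζ).prod_one_sub_pow_eq_order
  rw [show p - 1 = n by omega]
  have h2 := congrArg v h
  rw [map_prod, Finset.prod_congr rfl (g := fun _ => v (ζ - 1)) fun i hi => by
    rw [Valuation.map_sub_swap, val_pow_sub_one hζ]
    rw [Finset.mem_range] at hi
    exact fun hd => by have := Nat.le_of_dvd (by omega) hd; omega] at h2
  rw [Finset.prod_const, Finset.card_range] at h2
  rw [h2, hn]; push_cast; rfl

include hϖ hζ in
theorem val_zeta_sub_one {E : ℕ} (he : e = (p - 1) * E) : v (ζ - 1) = v ϖ ^ E := by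
  refine (pow_left_inj₀ zero_le zero_le
    (n := p - 1) (by have := (Fact.out : p.Prime).two_le; omega)).mp ?_
  rw [← pow_mul, mul_comm E, ← he, val_uniformizer_pow hϖ, val_zeta_sub_one_pow hP hζ]

include hϖ hζ in
/-- The cyclotomic character on inertia is the `E`-th power of the tame character. -/
theorem res_theta_pow_eq {E : ℕ} (he : e = (p - 1) * E) (he0 : 0 < e) {σ : GQ} (hσ : σ ∈ Ine)
    {a : ℕ} (ha : σ ζ = ζ ^ a) : res P (theta ϖ σ ^ E) = (a : ResidueField P) := by
  have h0 := uniformizer_ne_zero hϖ he0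
  have hv1 : v (theta ϖ σ) ≤ 1 :=
    ((pow_eq_one_iff_of_nonneg zero_le he0.ne').mp (by rw [← map_pow, theta_pow hϖ he0, map_one])).le
  set u := (ζ - 1) / ϖ ^ E with hu
  have hvu : v u = 1 := by
    rw [hu, map_div₀, map_pow, val_zeta_sub_one hP hϖ hζ he, div_self]
    exact pow_ne_zero _ ((Valuation.ne_zero_iff _).mpr h0)
  have hsum : v (∑ i ∈ Finset.range a, ζ ^ i) ≤ 1 := Valuation.map_sum_le _ fun i _ => by
    rw [map_pow]
    exact pow_le_one' ((pow_eq_one_iff_of_nonneg zero_le (Fact.out : p.Prime).ne_zero).mp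
      (by rw [← map_pow, hζ.pow_eq_one, map_one])).le _
  have key : (∑ i ∈ Finset.range a, ζ ^ i) * u = σ u * theta ϖ σ ^ E := by
    rw [hu, map_div₀, map_sub, map_one, map_pow, ha, ← geom_sum_mul, theta, div_pow]
    have := pow_ne_zero E h0
    have : σ ϖ ^ E ≠ 0 := pow_ne_zero E (by simpa using h0)
    field_simp
  have h1 := congrArg (res P) key
  rw [res_mul hsum hvu.le, res_mul (by rw [val_map (inertia_le_decomposition hσ), hvu])
    (by rw [map_pow]; exact pow_le_one' hv1 _), res_map_inertia hσ hvu.le,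
    mul_comm (res P u)] at h1
  have hu0 : res P u ≠ 0 := by rw [Ne, res_eq_zero_iff hvu.le, hvu]; exact lt_irrefl _
  rw [← mul_right_cancel₀ hu0 h1]
  have hz : ∀ i : ℕ, res P (ζ ^ i) = 1 := fun i => by
    rw [← res_one (P := P), res_eq_iff (by
      rw [map_pow]; exact pow_le_one' ((pow_eq_one_iff_of_nonneg zero_le (Fact.out : p.Prime).ne_zero).mp
      (by rw [← map_pow, hζ.pow_eq_one, map_one])).le _) (by simp)]
    rcases Nat.lt_or_ge 0 (i % p) with h | h
    · rw [val_pow_sub_one hζ fun hd => by rw [Nat.dvd_iff_mod_eq_zero.mp hd] at h; omega,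
        ← pow_lt_one_iff (n := p - 1) (by have := (Fact.out : p.Prime).two_le; omega),
        val_zeta_sub_one_pow hP hζ]
      exact val_p_lt_one hP
    · rw [← Nat.mod_add_div i p, show i % p = 0 by omega, zero_add, pow_mul, hζ.pow_eq_one,
        one_pow, sub_self, map_zero]
      exact zero_lt_one
  clear key h1 hsum ha
  induction a with
  | zero => simp
  | succ a ih =>
    have hz1 : ∀ i : ℕ, v (ζ ^ i) ≤ 1 := fun i => by
      rw [map_pow]
      exact pow_le_one' ((pow_eq_one_iff_of_nonneg zero_le (Fact.out : p.Prime).ne_zero).mp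
        (by rw [← map_pow, hζ.pow_eq_one, map_one])).le _
    rw [Finset.sum_range_succ, res_add (Valuation.map_sum_le _ fun i _ => hz1 i) (hz1 a), ih, hz]
    push_cast
    rfl

end prime

end FLTAgent.LocP
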