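import Fermat.Agent.LocP.Family
import Fermat.Agent.LocP.Wild
import Fermat.Agent.TW.Defs

/-!
# The reducible case in normal form

In `RedNormal`, `M` is upper triangular on the decomposition group with inertia characters `(ω, 1)`
and `τ₀` is an inertia element with `θ τ₀ = -1` and `M τ₀ = diag (-1, 1)`.  Classes of cocycles in
the character `χ = χ₁ / χ₂` are counted through the Kummer levels over the base field fixing `χ₁`
and `χ₂`: those of level one are at most `#k` (`RedNormal.card_deep_le`).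
-/

set_option autoImplicit false
set_option linter.unusedSectionVars false

noncomputable section

namespace FLTAgent.LocP

open Matrix FLTAgent.TW FLTAgent.Deform IsLocalRing
open scoped Pointwise

local notation "Qb" => AlgebraicClosure ℚ

variable {k : Type} [Field k] [Finite k] {P : ValuationSubring (AlgebraicClosure ℚ)} {p : ℕ}
  [Fact p.Prime] [CharP k p]

local notation "D" => P.decompositionSubgroup ℚ
local notation "Ine" => P.inertiaSubgroupIn ℚ
local notation "𝕄" => Matrix (Fin 2) (Fin 2) k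

/-- The restrictions of the coboundaries of trace zero matrices. -/
def coboundaryRange (M : MatRep k) (H : Subgroup GQ) :
    Submodule k (H → Matrix (Fin 2) (Fin 2) k) :=
  (LinearMap.ker (Matrix.traceLinearMap (Fin 2) k k)).map
    ((restrictTo H).comp (coboundary M))

theorem restrict_coboundary_mem (M : MatRep k) (H : Subgroup GQ) {X : 𝕄} (hX : X.trace = 0) :
    restrictTo H (coboundary M X) ∈ coboundaryRange M H :=
  Submodule.mem_map_of_mem (f := (restrictTo H).comp (coboundary M)) (LinearMap.mem_ker.mpr hX)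

theorem finrank_coboundaryRange_le (M : MatRep k) (H : Subgroup GQ) :
    Module.finrank k (coboundaryRange M H) ≤ 3 := by
  refine (Submodule.finrank_map_le _ _).trans ?_
  let f : LinearMap.ker (Matrix.traceLinearMap (Fin 2) k k) →ₗ[k] (Fin 3 → k) :=
    { toFun := fun X => ![X.1 0 0, X.1 0 1, X.1 1 0]
      map_add' := fun X Y => by ext i; fin_cases i <;> rfl
      map_smul' := fun a X => by ext i; fin_cases i <;> rfl }
  have hf : Function.Injective f := by
    intro X Y h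
    have h0 := congrFun h 0
    have h1 := congrFun h 1
    have h2 := congrFun h 2
    simp only [f, LinearMap.coe_mk, AddHom.coe_mk, Matrix.cons_val_zero, Matrix.cons_val_one,
      Matrix.cons_val] at h0 h1 h2
    have hX : X.1 0 0 + X.1 1 1 = 0 := (Matrix.trace_fin_two X.1).symm.trans (LinearMap.mem_ker.mp X.2)
    have hY : Y.1 0 0 + Y.1 1 1 = 0 := (Matrix.trace_fin_two Y.1).symm.trans (LinearMap.mem_ker.mp Y.2)
    refine Subtype.ext ?_
    ext i j
    fin_cases i <;> fin_cases j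
    · exact h0
    · exact h1
    · exact h2
    · show X.1 1 1 = Y.1 1 1
      linear_combination hX - hY - h0
  exact (LinearMap.finrank_le_finrank_of_injective hf).trans (by rw [Module.finrank_fin_fun])

variable {M : MatRep k}

theorem det_eq_mul_of_lower {σ : GQ} (h : M σ 1 0 = 0) : (M σ).det = M σ 0 0 * M σ 1 1 := by
  rw [Matrix.det_fin_two, h, mul_zero, sub_zero]

theorem det_ne_zero (M : MatRep k) (σ : GQ) : (M σ).det ≠ 0 := fun h => by
  have h1 := congrArg Matrix.det (TW.mul_inv_eq_one M σ)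
  rw [det_mul, h, zero_mul, det_one] at h1
  exact zero_ne_one h1

theorem det_eq_one_of_fix {ζ : Qb} (hζ : IsPrimitiveRoot ζ p) (hdet : DetCyclotomic M p) {σ : GQ}
    (h : σ ζ = ζ) : (M σ).det = 1 := by
  have : NeZero p := ⟨(Fact.out : p.Prime).ne_zero⟩
  rw [hdet σ 1 fun μ hμ => ?_, Nat.cast_one]
  obtain ⟨i, -, rfl⟩ := hζ.eq_pow_of_pow_eq_one hμ
  rw [map_pow, h, pow_one]

/-- The cyclotomic value of an inertia element in terms of the tame character. -/
theorem det_eq_natCast {ζ : Qb} (hζ : IsPrimitiveRoot ζ p) (hdet : DetCyclotomic M p) {σ : GQ}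
    {a : ℕ} (ha : σ ζ = ζ ^ a) : (M σ).det = a := by
  have : NeZero p := ⟨(Fact.out : p.Prime).ne_zero⟩
  refine hdet σ a fun μ hμ => ?_
  obtain ⟨i, -, rfl⟩ := hζ.eq_pow_of_pow_eq_one hμ
  rw [map_pow, ha, ← pow_mul, ← pow_mul, mul_comm]

/-- The normal form. -/
structure RedNormal (M : MatRep k) (P : ValuationSubring (AlgebraicClosure ℚ)) (p : ℕ)
    (ϖ ζ : AlgebraicClosure ℚ) (τ₀ : GQ) : Prop where
  pow_eq : ϖ ^ (p - 1) = -(p : AlgebraicClosure ℚ)
  prim : IsPrimitiveRoot ζ p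
  lower : ∀ σ ∈ P.decompositionSubgroup ℚ, M σ 1 0 = 0
  inert : ∀ σ ∈ P.inertiaSubgroupIn ℚ, M σ 1 1 = 1
  tau_mem : τ₀ ∈ P.inertiaSubgroupIn ℚ
  tau_theta : theta ϖ τ₀ = -1
  tau : M τ₀ = !![-1, 0; 0, 1]

theorem not_dvd_pred : ¬ p ∣ p - 1 := fun h => by
  have h2 := (Fact.out : p.Prime).two_le
  have := Nat.le_of_dvd (by omega) h
  omega

theorem pred_pos : 0 < p - 1 := by have := (Fact.out : p.Prime).two_le; omega

variable {ϖ ζ : Qb} {τ₀ : GQ}

theorem upper_mul {A B : 𝕄} (hA : A 1 0 = 0) (hB : B 1 0 = 0) :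
    (A * B) 0 0 = A 0 0 * B 0 0 ∧ (A * B) 1 1 = A 1 1 * B 1 1 ∧
      (A * B) 0 1 = A 0 0 * B 0 1 + A 0 1 * B 1 1 := by
  simp [Matrix.mul_apply, Fin.sum_univ_two, hA, hB]

/-- The subgroup where both diagonal characters are trivial. -/
def RedNormal.diagKer (hN : RedNormal M P p ϖ ζ τ₀) : Subgroup GQ where
  carrier := {σ | σ ∈ D ∧ M σ 0 0 = 1 ∧ M σ 1 1 = 1}
  one_mem' := ⟨one_mem _, by simp, by simp⟩
  mul_mem' := fun {a b} ha hb => by
    obtain ⟨h0, h1, -⟩ := upper_mul (hN.lower a ha.1) (hN.lower b hb.1)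
    exact ⟨mul_mem ha.1 hb.1, by rw [map_mul, h0, ha.2.1, hb.2.1, mul_one],
      by rw [map_mul, h1, ha.2.2, hb.2.2, mul_one]⟩
  inv_mem' := fun {a} ha => by
    obtain ⟨h0, h1, -⟩ := upper_mul (hN.lower a ha.1) (hN.lower a⁻¹ (inv_mem ha.1))
    rw [TW.mul_inv_eq_one, ha.2.1, Matrix.one_apply_eq, one_mul] at h0
    rw [TW.mul_inv_eq_one, ha.2.2, Matrix.one_apply_eq, one_mul] at h1
    exact ⟨inv_mem ha.1, h0.symm, h1.symm⟩

theorem RedNormal.conj_mem_diagKer (hN : RedNormal M P p ϖ ζ τ₀) {g σ : GQ} (hg : g ∈ D)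
    (hσD : σ ∈ D) (hσ : σ ∈ hN.diagKer) : g * σ * g⁻¹ ∈ hN.diagKer := by
  have hgσ := mul_mem hg hσD
  obtain ⟨h0, h1, -⟩ := upper_mul (hN.lower _ hgσ) (hN.lower g⁻¹ (inv_mem hg))
  obtain ⟨k0, k1, -⟩ := upper_mul (hN.lower _ hg) (hN.lower σ hσD)
  obtain ⟨i0, i1, -⟩ := upper_mul (hN.lower _ hg) (hN.lower g⁻¹ (inv_mem hg))
  rw [TW.mul_inv_eq_one, Matrix.one_apply_eq] at i0 i1
  refine ⟨mul_mem hgσ (inv_mem hg), ?_, ?_⟩
  · rw [map_mul, h0, map_mul, k0, hσ.2.1, mul_one, ← i0]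
  · rw [map_mul, h1, map_mul, k1, hσ.2.2, mul_one, ← i1]

variable (hdet : DetCyclotomic M p) (hP : P.LiesOverPrime p)

/-- The base field of the reducible case. -/
def RedNormal.tame (hN : RedNormal M P p ϖ ζ τ₀) : Tame P p :=
  mkTame hP hN.pow_eq hN.prim (mul_one _).symm Nat.one_pos not_dvd_pred hN.diagKer
    (fun _ hg _ hσD hσ => hN.conj_mem_diagKer hg hσD hσ) fun σ hσ h => by
      refine ⟨inertia_le_decomposition hσ, ?_, hN.inert σ hσ⟩
      have h1 := det_eq_one_of_fix hN.prim hdet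
        (apply_zeta_of_theta hP hN.pow_eq hN.prim (mul_one _).symm Nat.one_pos hσ h)
      rwa [det_eq_mul_of_lower (hN.lower σ (inertia_le_decomposition hσ)), hN.inert σ hσ,
        mul_one] at h1

/-- The character `χ₁ / χ₂`. -/
def chiRatio (M : MatRep k) (σ : GQ) : k := M σ 0 0 * (M σ 1 1)⁻¹

variable (hN : RedNormal M P p ϖ ζ τ₀)
include hN

theorem RedNormal.diag_ne_zero {σ : GQ} (hσ : σ ∈ D) : M σ 0 0 ≠ 0 ∧ M σ 1 1 ≠ 0 := by
  have h := det_ne_zero M σ
  rw [det_eq_mul_of_lower (hN.lower σ hσ)] at h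
  exact ⟨left_ne_zero_of_mul h, right_ne_zero_of_mul h⟩

theorem RedNormal.chi_mul {σ τ : GQ} (hσ : σ ∈ D) (hτ : τ ∈ D) :
    chiRatio M (σ * τ) = chiRatio M σ * chiRatio M τ := by
  obtain ⟨h0, h1, -⟩ := upper_mul (hN.lower σ hσ) (hN.lower τ hτ)
  rw [chiRatio, chiRatio, chiRatio, map_mul, h0, h1, mul_inv]
  ring

theorem RedNormal.chi_ne_zero {σ : GQ} (hσ : σ ∈ D) : chiRatio M σ ≠ 0 :=
  mul_ne_zero (hN.diag_ne_zero hσ).1 (inv_ne_zero (hN.diag_ne_zero hσ).2)

theorem RedNormal.chi_tau : chiRatio M τ₀ = -1 := by simp [chiRatio, hN.tau]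

theorem RedNormal.chi_gf {σ : GQ} (hσ : σ ∈ (hN.tame hdet hP).GF) : chiRatio M σ = 1 := by
  obtain ⟨⟨-, -, h0, h1⟩, -⟩ := hσ
  rw [chiRatio, h0, h1, inv_one, mul_one]

/-- A normalised cocycle in the character `χ₁ / χ₂`. -/
structure IsBCocycle (M : MatRep k) (P : ValuationSubring (AlgebraicClosure ℚ)) (τ₀ : GQ)
    (b : GQ → k) : Prop where
  map_mul : ∀ σ ∈ P.decompositionSubgroup ℚ, ∀ τ ∈ P.decompositionSubgroup ℚ,
    b (σ * τ) = b σ + chiRatio M σ * b τ
  exists_level : ∃ L : IntermediateField ℚ (AlgebraicClosure ℚ), FiniteDimensional ℚ L ∧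
    ∀ σ ∈ P.decompositionSubgroup ℚ, (∀ x ∈ L, σ x = x) → b σ = 0
  tau : b τ₀ = 0

omit hN in
theorem IsBCocycle.sub {b b' : GQ → k} (h : IsBCocycle M P τ₀ b) (h' : IsBCocycle M P τ₀ b') :
    IsBCocycle M P τ₀ (b - b') where
  map_mul σ hσ τ hτ := by
    simp only [Pi.sub_apply, h.map_mul σ hσ τ hτ, h'.map_mul σ hσ τ hτ]
    ring
  exists_level := by
    obtain ⟨L, hL, h1⟩ := h.exists_level
    obtain ⟨L', hL', h2⟩ := h'.exists_level
    exact ⟨L ⊔ L', inferInstance, fun σ hσ hx => by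
      simp [h1 σ hσ fun x hx' => hx x ((le_sup_left : L ≤ L ⊔ L') hx'),
        h2 σ hσ fun x hx' => hx x ((le_sup_right : L' ≤ L ⊔ L') hx')]⟩
  tau := by simp [h.tau, h'.tau]

variable {b : GQ → k} (hb : IsBCocycle M P τ₀ b)
include hb

theorem RedNormal.isKChar : (hN.tame hdet hP).IsKChar b where
  map_mul σ hσ τ hτ := by
    rw [hb.map_mul σ ((hN.tame hdet hP).le_D σ hσ) τ ((hN.tame hdet hP).le_D τ hτ),
      hN.chi_gf hdet hP hσ, one_mul]
  exists_level := hb.exists_level.imp fun _ h =>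
    ⟨h.1, fun σ hσ hx => h.2 σ ((hN.tame hdet hP).le_D σ hσ) hx⟩

theorem RedNormal.b_conj {g : GQ} (hg : g ∈ D) {σ : GQ} (hσ : σ ∈ (hN.tame hdet hP).GF) :
    b (g * σ * g⁻¹) = chiRatio M g * b σ := by
  have hσD := (hN.tame hdet hP).le_D σ hσ
  have h1 : b 1 = 0 := by
    have h := hb.map_mul 1 (one_mem _) 1 (one_mem _)
    rw [mul_one, show chiRatio M (1 : GQ) = 1 by simp [chiRatio], one_mul] at h
    exact left_eq_add.mp h
  have h2 := hb.map_mul g hg g⁻¹ (inv_mem hg)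
  rw [mul_inv_cancel, h1] at h2
  rw [hb.map_mul _ (mul_mem hg hσD) _ (inv_mem hg), hb.map_mul g hg σ hσD, hN.chi_mul hg hσD,
    hN.chi_gf hdet hP hσ]
  linear_combination -h2

/-- A normalised cocycle vanishing on the base field vanishes. -/
theorem RedNormal.eq_zero_of_gf (hp2 : p ≠ 2)
    (h0 : ∀ σ ∈ (hN.tame hdet hP).GF, b σ = 0) {σ : GQ} (hσ : σ ∈ D) : b σ = 0 := by
  set h := σ * τ₀ * σ⁻¹ * τ₀⁻¹ with hh
  have hτD := inertia_le_decomposition hN.tau_mem
  have hc := conj_mem_inertia hσ hN.tau_mem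
  have hI : h ∈ Ine := mul_mem hc (inv_mem hN.tau_mem)
  have hθ : theta ϖ h = 1 := by
    have hm : σ (-1 : Qb) = -1 := by rw [map_neg, map_one]
    have hinv : theta ϖ τ₀⁻¹ = -1 := by
      have h1 := theta_mul hP hN.pow_eq pred_pos not_dvd_pred hN.tau_mem τ₀⁻¹
      rw [mul_inv_cancel, theta_one (uniformizer_ne_zero hN.pow_eq pred_pos), hN.tau_theta] at h1
      linear_combination h1
    rw [hh, theta_mul hP hN.pow_eq pred_pos not_dvd_pred hc, hinv,
      theta_conj hP hN.pow_eq pred_pos not_dvd_pred hN.tau_mem, hN.tau_theta, hm]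
    ring
  have hmem : h ∈ (hN.tame hdet hP).GF := (hN.tame hdet hP).inertia_mem h hI hθ
  have hhD := inertia_le_decomposition hI
  have h1 : b (σ * τ₀) = b σ := by rw [hb.map_mul σ hσ τ₀ hτD, hb.tau, mul_zero, add_zero]
  have h2 : b (σ * τ₀) = -b σ := by
    rw [show σ * τ₀ = h * (τ₀ * σ) by rw [hh]; group, hb.map_mul h hhD _ (mul_mem hτD hσ),
      h0 h hmem, hN.chi_gf hdet hP hmem, hb.map_mul τ₀ hτD σ hσ, hb.tau, hN.chi_tau]
    ring
  rw [h1] at h2
  have : NeZero (2 : k) := ⟨by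
    rw [show (2 : k) = ((2 : ℕ) : k) by norm_num, Ne, CharP.cast_eq_zero_iff k p]
    exact fun h => hp2 ((Nat.prime_dvd_prime_iff_eq Fact.out Nat.prime_two).mp h)⟩
  have h3 : (2 : k) * b σ = 0 := by linear_combination h2
  exact (mul_eq_zero.mp h3).resolve_left (NeZero.ne _)

omit hb

/-- A generator of the tame inertia image, and its symmetry on the coefficients. -/
theorem RedNormal.coefHom_eq_zero {ψ : k →+ ZMod p} {b : GQ → k}
    (hb : IsBCocycle M P τ₀ b) {m : ℕ} (hm : 0 < m) (hmp : m < p - 1)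
    (h : (hN.tame hdet hP).DeepAll ψ b m) : (hN.tame hdet hP).coefHom ψ b m = 0 := by
  obtain ⟨z, hz⟩ := exists_primitive (p - 1) pred_pos
  obtain ⟨g, hg, hgz⟩ := exists_inertia_theta_eq hP hN.pow_eq pred_pos not_dvd_pred hz.pow_eq_one
  have hgD := inertia_le_decomposition hg
  obtain ⟨a, -, ha⟩ := hN.prim.eq_pow_of_pow_eq_one
    (by rw [← map_pow, hN.prim.pow_eq_one, map_one] : g ζ ^ p = 1)
  have hχ : chiRatio M g = a := by
    rw [chiRatio, hN.inert g hg, inv_one, mul_one, ← det_eq_natCast hN.prim hdet ha.symm,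
      det_eq_mul_of_lower (hN.lower g hgD), hN.inert g hg, mul_one]
  have hrel := fun c => Tame.coefHom_rel_inertia hP hm
    (show (m : ℤ) < p * (hN.tame hdet hP).E by
      show (m : ℤ) < p * ((1 : ℕ) : ℤ)
      push_cast; omega)
    (fun hd => by have := Nat.le_of_dvd hm hd; omega) h hg (hN.chi_ne_zero hgD)
    (fun σ hσ => hN.b_conj hdet hP hb hgD hσ) (a := a) ha.symm c
  refine AddMonoidHom.ext fun c => ?_
  have hc := hrel c
  rw [hχ, mul_inv_cancel₀ (hχ ▸ hN.chi_ne_zero hgD), one_mul] at hc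
  have hne : res P (theta (hN.tame hdet hP).ϖ g) ^ m ≠ 1 := by
    show res P (theta ϖ g) ^ m ≠ 1
    intro hcon
    rw [hgz, ← res_pow ((pow_eq_one_iff_of_nonneg zero_le pred_pos.ne').mp
      (by rw [← map_pow, hz.pow_eq_one, map_one])).le, ← res_one (P := P)] at hcon
    exact hz.pow_ne_one_of_pos_of_lt hm.ne' hmp (res_root_injective hP not_dvd_pred
      (by rw [← pow_mul, mul_comm, pow_mul, hz.pow_eq_one, one_pow]) (one_pow _) hcon)
  by_contra hne'
  exact hne (mul_right_cancel₀ hne' ((hc.symm).trans (one_mul _).symm))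

/-- The restrictions of the normalised classes of level one are at most `#k` in number. -/
theorem RedNormal.card_deep_le (hp2 : p ≠ 2) {ψ : k →+ ZMod p} (hψ : ψ 1 = 1) :
    ({f : D → k | ∃ b, IsBCocycle M P τ₀ b ∧ (hN.tame hdet hP).DeepAll ψ b 1 ∧
      f = fun σ : D => b σ}).Finite ∧
    Nat.card ({f : D → k | ∃ b, IsBCocycle M P τ₀ b ∧ (hN.tame hdet hP).DeepAll ψ b 1 ∧
      f = fun σ : D => b σ} : Set (D → k)) ≤ Nat.card k := by
  set S := hN.tame hdet hP
  have hpp : p.Prime := Fact.out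
  have h3 : 3 ≤ p := by have := hpp.two_le; omega
  obtain ⟨f, hf⟩ := GalCommon.exists_isFrobeniusAt hpp hP
  have hfD := hf.mem_decompositionSubgroup
  obtain ⟨a, -, ha⟩ := hN.prim.eq_pow_of_pow_eq_one
    (by rw [← map_pow, hN.prim.pow_eq_one, map_one] : f ζ ^ p = 1)
  have ha0 : (a : k) ≠ 0 := by rw [← det_eq_natCast hN.prim hdet ha.symm]; exact det_ne_zero M f
  have := charP_res hP
  let : Algebra (ZMod p) k := ZMod.algebra _ p
  let : Algebra (ZMod p) (ResidueField P) := ZMod.algebra _ p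
  have := GalCommon.isAlgClosed_residueField P hpp hP
  have : Algebra.IsAlgebraic (ZMod p) k := Algebra.IsAlgebraic.of_finite _ _
  obtain ⟨hfin, hcard⟩ := card_twisted_le (IsAlgClosed.lift (R := ZMod p) (S := k)
      (M := ResidueField P)).toRingHom (ρ := 1) (γ := (a : k) * (chiRatio M f)⁻¹) (r := 1)
    (c := res P (theta ϖ f) ^ (p - 1)) (m := 1)
    (mul_ne_zero ha0 (inv_ne_zero (hN.chi_ne_zero hfD))) fun i j _ _ => Nat.modEq_one
  set X := {f : D → k | ∃ b, IsBCocycle M P τ₀ b ∧ S.DeepAll ψ b 1 ∧ f = fun σ : D => b σ}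
  have hm : ((p - 1 : ℕ) : ℤ) < p * S.E := by
    show ((p - 1 : ℕ) : ℤ) < p * ((1 : ℕ) : ℤ)
    push_cast; omega
  have hnd : ¬ p ∣ p - 1 := not_dvd_pred
  have hclimb : ∀ {b : GQ → k}, IsBCocycle M P τ₀ b → S.DeepAll ψ b 1 →
      S.DeepAll ψ b (p - 1 : ℕ) := fun {b} hb h =>
    Tame.DeepAll.climb (m₀ := 1) hP (by simpa using h) Nat.one_pos (by omega) hm.le
      fun m h1 h2 _ hd => hN.coefHom_eq_zero hdet hP hb (by omega) h2 hd
  choose rep hrep using fun x : X => x.2
  let T : X → (k →+ ResidueField P) := fun x => S.coefHom ψ (rep x) (p - 1)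
  have hmaps : ∀ x, T x ∈ twisted (1 : k) ((a : k) * (chiRatio M f)⁻¹) 1
      (res P (theta ϖ f) ^ (p - 1)) p 1 := by
    intro x c
    refine ⟨by rw [one_mul, one_mul], ?_⟩
    show S.coefHom ψ (rep x) (p - 1) _ = _
    rw [Tame.coefHom_rel hP pred_pos hm hnd (hclimb (hrep x).1 (hrep x).2.1) hfD
      (hN.chi_ne_zero hfD) (fun σ hσ => hN.b_conj hdet hP (hrep x).1 hfD hσ) ha.symm c, mul_comm,
      pow_one]
    congr 1
    exact hf.smul_residue_eq _
  have hinj : Function.Injective T := by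
    intro x y hxy
    have hb := (hrep x).1.sub (hrep y).1
    have hdeep : S.DeepAll ψ (rep x - rep y) ((1 : ℕ) : ℤ) := by
      rw [sub_eq_add_neg]
      refine Tame.DeepAll.add hP (by simpa using (hrep x).2.1) fun c => ?_
      have h1 : fam ψ (-rep y) c = fam ψ (rep y) (-c) := by funext σ; simp [fam]
      rw [h1]
      simpa using (hrep y).2.1 (-c)
    have hd' := hclimb hb (by simpa using hdeep)
    have hT0 : S.coefHom ψ (rep x - rep y) (p - 1) = 0 := by
      have h := Tame.coefHom_add hP pred_pos hm hnd hd' (hclimb (hrep y).1 (hrep y).2.1)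
      rw [sub_add_cancel] at h
      exact add_right_cancel (b := S.coefHom ψ (rep y) (p - 1))
        (by rw [← h, zero_add]; exact hxy)
    have htop : S.DeepAll ψ (rep x - rep y) (p * S.E) := by
      have h1 : S.DeepAll ψ (rep x - rep y) ((p : ℕ) : ℤ) :=
        Tame.DeepAll.climb hP hd' pred_pos (by omega) (by
          show ((p : ℕ) : ℤ) ≤ p * ((1 : ℕ) : ℤ)
          simp) fun m h1 h2 _ _ => by
            rw [show m = p - 1 by omega]; exact hT0
      show S.DeepAll ψ _ ((p : ℤ) * ((1 : ℕ) : ℤ))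
      simpa using h1
    have hτD := inertia_le_decomposition hN.tau_mem
    have hzero : ∀ σ ∈ S.GF, (rep x - rep y) σ = 0 := fun σ hσ =>
      Tame.DeepAll.eq_zero_of_top hP hψ (hN.isKChar hdet hP hb) htop hτD
        (fun σ hσ => hN.b_conj hdet hP hb hτD hσ) (fun h => by
          rw [hN.chi_tau] at h
          have h2 : ((2 : ℕ) : k) = 0 := by push_cast; linear_combination -h
          rw [CharP.cast_eq_zero_iff k p] at h2
          exact hp2 ((Nat.prime_dvd_prime_iff_eq hpp Nat.prime_two).mp h2)) hσ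
    refine Subtype.ext ?_
    rw [(hrep x).2.2, (hrep y).2.2]
    funext σ
    exact sub_eq_zero.mp (hN.eq_zero_of_gf hdet hP hb hp2 hzero σ.2)
  have : Finite (twisted (1 : k) ((a : k) * (chiRatio M f)⁻¹) 1
      (res P (theta ϖ f) ^ (p - 1)) p 1) := hfin.to_subtype
  let T' : X → twisted (1 : k) ((a : k) * (chiRatio M f)⁻¹) 1
      (res P (theta ϖ f) ^ (p - 1)) p 1 := fun x => ⟨T x, hmaps x⟩
  have hT' : Function.Injective T' := fun x y h => hinj (congrArg Subtype.val h)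
  have : Finite X := Finite.of_injective T' hT'
  exact ⟨Set.toFinite X, (Nat.card_le_card_of_injective T' hT').trans hcard⟩

end FLTAgent.LocP
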